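/-
S41 / (P4) pairing: the canonical peripheral family of a finite-index subgroup of `SL(2, ℤ)`.

For `Γ ≤ SL(2, ℤ)` of finite index, with LEFT cosets `SL(2, ℤ) ⧸ Γ` and the left action, the
cusps are the `T`-orbits on `SL(2, ℤ) ⧸ Γ`, and the generator attached to a cusp `c` is
`cuspGen Γ c = g⁻¹ * T ^ h * g` with `g = c.out.out` and `h` the length of the orbit.  This is
literally the family occurring in Mathlib's explicit formula for the transfer, whence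
balancedness.  Mathlib only.
-/
import Mathlib

set_option autoImplicit false

namespace Fermat.Agent.S41.Pairing.Cusps

open Matrix MatrixGroups ModularGroup

/-- The cusps of `Γ`: the `T`-orbits on the left cosets `SL(2, ℤ) ⧸ Γ`. -/
abbrev CuspIdx (Γ : Subgroup SL(2, ℤ)) : Type :=
  Quotient (MulAction.orbitRel (Subgroup.zpowers ModularGroup.T) (SL(2, ℤ) ⧸ Γ))

noncomputable instance instFintypeCuspIdx (Γ : Subgroup SL(2, ℤ)) [Γ.FiniteIndex] :
    Fintype (CuspIdx Γ) := by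
  classical
  haveI := Γ.fintypeQuotientOfFiniteIndex
  exact Quotient.fintype _

/-- The width of the cusp `c`: the length of the `T`-orbit. -/
noncomputable def cuspWidth (Γ : Subgroup SL(2, ℤ)) (c : CuspIdx Γ) : ℕ :=
  Function.minimalPeriod (ModularGroup.T • ·) c.out

/-- The chosen representative `g ∈ SL(2, ℤ)` of the cusp `c` (so that the cusp is `g⁻¹ ∞`). -/
noncomputable def cuspRep (Γ : Subgroup SL(2, ℤ)) (c : CuspIdx Γ) : SL(2, ℤ) := c.out.out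

/-- The positive generator `g⁻¹ T^h g` of the stabiliser of the cusp `c` (modulo `± 1`). -/
noncomputable def cuspGen (Γ : Subgroup SL(2, ℤ)) (c : CuspIdx Γ) : Γ :=
  ⟨c.out.out⁻¹ * ModularGroup.T ^ Function.minimalPeriod (ModularGroup.T • ·) c.out * c.out.out,
    QuotientGroup.out_conj_pow_minimalPeriod_mem Γ ModularGroup.T c.out⟩

theorem cuspGen_coe (Γ : Subgroup SL(2, ℤ)) (c : CuspIdx Γ) :
    (cuspGen Γ c : SL(2, ℤ)) = (cuspRep Γ c)⁻¹ * ModularGroup.T ^ cuspWidth Γ c * cuspRep Γ c :=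
  rfl

theorem cuspWidth_pos (Γ : Subgroup SL(2, ℤ)) [Γ.FiniteIndex] (c : CuspIdx Γ) :
    0 < cuspWidth Γ c := by
  have : Finite (SL(2, ℤ) ⧸ Γ) := Subgroup.finite_quotient_of_finiteIndex
  exact Function.minimalPeriod_pos_of_mem_periodicPts
    (Function.Injective.mem_periodicPts (MulAction.injective ModularGroup.T) _)

/-! ### Balancedness -/

/-- Every homomorphism from `SL(2, ℤ)` to a commutative group sends `T` to an element of
order dividing `12`. -/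
theorem hom_T_pow_twelve {M : Type*} [CommGroup M] (χ : SL(2, ℤ) →* M) :
    χ ModularGroup.T ^ 12 = 1 := by
  have h4 : (ModularGroup.S : SL(2, ℤ)) ^ 4 = 1 := by decide
  have h3 : (ModularGroup.S * ModularGroup.T : SL(2, ℤ)) ^ 3 = ModularGroup.S ^ 2 := by decide
  have e4 : χ ModularGroup.S ^ 4 = 1 := by rw [← map_pow, h4, map_one]
  have e3 : χ ModularGroup.S ^ 3 * χ ModularGroup.T ^ 3 = χ ModularGroup.S ^ 2 := by
    rw [← mul_pow, ← map_mul, ← map_pow, h3, map_pow]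
  have e5 : χ ModularGroup.T ^ 3 = (χ ModularGroup.S)⁻¹ := by
    have : χ ModularGroup.S ^ 3 * χ ModularGroup.T ^ 3 = χ ModularGroup.S ^ 3 * (χ ModularGroup.S)⁻¹ := by
      rw [e3]; group
    exact mul_left_cancel this
  calc χ ModularGroup.T ^ 12 = (χ ModularGroup.T ^ 3) ^ 4 := by rw [← pow_mul]
    _ = 1 := by rw [e5, inv_pow, e4, inv_one]

/-- The sum of the values of a homomorphism `Γ → A` on the cusp generators is the value at `T`
of its transfer to `SL(2, ℤ)`. -/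
theorem prod_cuspGen_eq_transfer (Γ : Subgroup SL(2, ℤ)) [Γ.FiniteIndex] {M : Type*} [CommGroup M]
    (φ : Γ →* M) : ∏ c, φ (cuspGen Γ c) = MonoidHom.transfer φ ModularGroup.T := by
  rw [MonoidHom.transfer_eq_prod_quotient_orbitRel_zpowers_quot]
  rfl

/-- **Balancedness** of the cusp family: for `A` without `12`-torsion, every homomorphism
`Γ → A` has total value `0` on the cusp generators. -/
theorem cuspGen_balanced (Γ : Subgroup SL(2, ℤ)) [Γ.FiniteIndex] {A : Type*} [AddCommGroup A]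
    (h12 : ∀ a : A, (12 : ℕ) • a = 0 → a = 0) (lam : Additive Γ →+ A) :
    ∑ c, lam (Additive.ofMul (cuspGen Γ c)) = 0 := by
  have h := prod_cuspGen_eq_transfer Γ (AddMonoidHom.toMultiplicativeRight lam)
  have h2 := hom_T_pow_twelve (MonoidHom.transfer (AddMonoidHom.toMultiplicativeRight lam))
  rw [← h] at h2
  apply h12
  have h3 := congrArg Multiplicative.toAdd h2
  simpa using h3

/-! ### Balancedness for homomorphisms killing the elements of finite order -/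

/-- The transfer of a homomorphism killing all elements of finite order kills all elements of
finite order. -/
theorem transfer_eq_one_of_torsion {G : Type*} [Group G] {H : Subgroup G} [H.FiniteIndex]
    {M : Type*} [CommGroup M] (φ : H →* M) (hφ : ∀ γ : H, IsOfFinOrder γ → φ γ = 1) (g : G)
    (hg : IsOfFinOrder g) : MonoidHom.transfer φ g = 1 := by
  classical
  let _ := H.fintypeQuotientOfFiniteIndex
  rw [MonoidHom.transfer_eq_prod_quotient_orbitRel_zpowers_quot]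
  apply Finset.prod_eq_one
  intro q _
  apply hφ
  obtain ⟨n, hn, hgn⟩ := isOfFinOrder_iff_pow_eq_one.mp hg
  rw [isOfFinOrder_iff_pow_eq_one]
  refine ⟨n, hn, Subtype.ext ?_⟩
  rw [Subgroup.coe_pow, Subgroup.coe_one]
  show (q.out.out⁻¹ * g ^ Function.minimalPeriod (g • ·) q.out * q.out.out) ^ n = 1
  have h1 := conj_pow (a := q.out.out⁻¹) (b := g ^ Function.minimalPeriod (g • ·) q.out) (i := n)
  rw [inv_inv] at h1
  rw [h1, ← pow_mul, mul_comm, pow_mul, hgn, one_pow, mul_one, inv_mul_cancel]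

/-- **Balancedness, torsion form**: a homomorphism `Γ → A` killing the elements of finite order
of `Γ` has total value `0` on the cusp generators, for every abelian group `A`. -/
theorem cuspGen_balanced_of_torsion (Γ : Subgroup SL(2, ℤ)) [Γ.FiniteIndex] {A : Type*}
    [AddCommGroup A] (lam : Additive Γ →+ A)
    (hlam : ∀ γ : Γ, IsOfFinOrder γ → lam (Additive.ofMul γ) = 0) :
    ∑ c, lam (Additive.ofMul (cuspGen Γ c)) = 0 := by
  have hφ : ∀ γ : Γ, IsOfFinOrder γ → AddMonoidHom.toMultiplicativeRight lam γ = 1 := by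
    intro γ h
    show Multiplicative.ofAdd (lam (Additive.ofMul γ)) = 1
    rw [hlam γ h]; rfl
  have hS : MonoidHom.transfer (AddMonoidHom.toMultiplicativeRight lam) ModularGroup.S = 1 :=
    transfer_eq_one_of_torsion _ hφ _ (isOfFinOrder_iff_pow_eq_one.mpr ⟨4, by norm_num, by decide⟩)
  have hST : MonoidHom.transfer (AddMonoidHom.toMultiplicativeRight lam)
      (ModularGroup.S * ModularGroup.T) = 1 :=
    transfer_eq_one_of_torsion _ hφ _ (isOfFinOrder_iff_pow_eq_one.mpr ⟨6, by norm_num, by decide⟩)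
  have hT : MonoidHom.transfer (AddMonoidHom.toMultiplicativeRight lam) ModularGroup.T = 1 := by
    rw [map_mul, hS, one_mul] at hST
    exact hST
  have h := prod_cuspGen_eq_transfer Γ (AddMonoidHom.toMultiplicativeRight lam)
  rw [hT] at h
  have h3 := congrArg Multiplicative.toAdd h
  simpa using h3

/-! ### Matrix computations -/

theorem det_eq (w : SL(2, ℤ)) : w 0 0 * w 1 1 - w 0 1 * w 1 0 = 1 := by
  have := w.det_coe
  rwa [Matrix.det_fin_two] at this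

theorem ext_entries {g g' : SL(2, ℤ)} (h00 : g 0 0 = g' 0 0) (h01 : g 0 1 = g' 0 1)
    (h10 : g 1 0 = g' 1 0) (h11 : g 1 1 = g' 1 1) : g = g' := by
  ext i j
  fin_cases i <;> fin_cases j <;> assumption

theorem conj_T_zpow_coe (w : SL(2, ℤ)) (k : ℤ) :
    (w⁻¹ * ModularGroup.T ^ k * w).1 =
      !![1 + k * (w 1 0 * w 1 1), k * w 1 1 ^ 2; -(k * w 1 0 ^ 2), 1 - k * (w 1 0 * w 1 1)] := by
  have hdet := det_eq w
  simp only [Matrix.SpecialLinearGroup.coe_mul, Matrix.SpecialLinearGroup.coe_inv,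
    coe_T_zpow, Matrix.adjugate_fin_two]
  ext i j
  fin_cases i <;> fin_cases j <;> simp [Matrix.mul_apply, Fin.sum_univ_two]
  · linear_combination (1 : ℤ) * hdet
  · ring
  · ring
  · linear_combination (1 : ℤ) * hdet

theorem conj_T_zpow_apply (w : SL(2, ℤ)) (k : ℤ) :
    (w⁻¹ * ModularGroup.T ^ k * w) 0 0 = 1 + k * (w 1 0 * w 1 1) ∧
    (w⁻¹ * ModularGroup.T ^ k * w) 0 1 = k * w 1 1 ^ 2 ∧
    (w⁻¹ * ModularGroup.T ^ k * w) 1 0 = -(k * w 1 0 ^ 2) ∧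
    (w⁻¹ * ModularGroup.T ^ k * w) 1 1 = 1 - k * (w 1 0 * w 1 1) := by
  have h := conj_T_zpow_coe w k
  refine ⟨?_, ?_, ?_, ?_⟩
  · exact congrFun (congrFun h 0) 0
  · exact congrFun (congrFun h 0) 1
  · exact congrFun (congrFun h 1) 0
  · exact congrFun (congrFun h 1) 1

/-- Positive parabolic elements: trace `2`, not the identity, upper right entry `≥ 0`, lower
left entry `≤ 0` (the conjugates `w⁻¹ T^k w`, `k > 0`). -/
def IsPosPar (g : SL(2, ℤ)) : Prop :=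
  g 0 0 + g 1 1 = 2 ∧ g ≠ 1 ∧ 0 ≤ g 0 1 ∧ g 1 0 ≤ 0

theorem isPosPar_conj_T_zpow (w : SL(2, ℤ)) {k : ℤ} (hk : 0 < k) :
    IsPosPar (w⁻¹ * ModularGroup.T ^ k * w) := by
  obtain ⟨h00, h01, h10, h11⟩ := conj_T_zpow_apply w k
  refine ⟨by rw [h00, h11]; ring, ?_, by rw [h01]; positivity, by rw [h10]; nlinarith [sq_nonneg (w 1 0)]⟩
  intro h1
  rw [h1] at h01 h10
  have hdet := det_eq w
  have e1 : w 1 1 = 0 := by
    have : k * w 1 1 ^ 2 = 0 := by simpa using h01.symm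
    rcases mul_eq_zero.mp this with h | h
    · omega
    · exact pow_eq_zero_iff (two_ne_zero) |>.mp h
  have e2 : w 1 0 = 0 := by
    have : k * w 1 0 ^ 2 = 0 := by
      have := h10.symm
      simp at this
      rcases this with h | h
      · omega
      · rw [h]; simp
    rcases mul_eq_zero.mp this with h | h
    · omega
    · exact pow_eq_zero_iff (two_ne_zero) |>.mp h
  rw [e1, e2] at hdet
  simp at hdet

/-- **(Cl1)**, the hard direction: a positive parabolic element is `w⁻¹ T^k w` with `k > 0`. -/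
theorem IsPosPar.exists_conj {g : SL(2, ℤ)} (hg : IsPosPar g) :
    ∃ (w : SL(2, ℤ)) (k : ℕ), 0 < k ∧ g = w⁻¹ * ModularGroup.T ^ k * w := by
  obtain ⟨htr, hne, hy, hz⟩ := hg
  have hdet := det_eq g
  have hx : (g 0 0 - 1) ^ 2 = g 0 1 * (-g 1 0) := by
    linear_combination (-1 : ℤ) * hdet + g 0 0 * htr
  have hyz : g 0 1 ≠ 0 ∨ -g 1 0 ≠ 0 := by
    by_contra hcon
    push Not at hcon
    obtain ⟨h1, h2⟩ := hcon
    rw [h1, zero_mul] at hx
    have h3 : g 0 0 - 1 = 0 := pow_eq_zero_iff (two_ne_zero) |>.mp hx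
    apply hne
    ext i j
    fin_cases i <;> fin_cases j <;> simp <;> omega
  have hk : 0 < Int.gcd (g 0 1) (-g 1 0) := Int.gcd_pos_iff.mpr hyz
  obtain ⟨y₁, z₁, hcop, hy₁, hz₁⟩ := Int.exists_gcd_one hk
  set k : ℕ := Int.gcd (g 0 1) (-g 1 0) with hkdef
  have hk' : (0 : ℤ) < (k : ℤ) := by exact_mod_cast hk
  have hkx : (k : ℤ) ∣ g 0 0 - 1 := by
    rw [← Int.pow_dvd_pow_iff (two_ne_zero), hx, hy₁, hz₁]
    exact ⟨y₁ * z₁, by ring⟩
  obtain ⟨x₁, hx₁⟩ := hkx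
  have hx₁sq : y₁ * z₁ = x₁ ^ 2 := by
    have h4 : (k : ℤ) ^ 2 * (y₁ * z₁) = (k : ℤ) ^ 2 * x₁ ^ 2 := by
      rw [hx₁, hy₁, hz₁] at hx
      linear_combination -hx
    exact mul_left_cancel₀ (pow_ne_zero 2 hk'.ne') h4
  have hy₁0 : 0 ≤ y₁ := by
    rw [hy₁] at hy
    exact nonneg_of_mul_nonneg_left hy hk'
  have hz₁0 : 0 ≤ z₁ := by
    have : 0 ≤ z₁ * (k : ℤ) := by rw [← hz₁]; omega
    exact nonneg_of_mul_nonneg_left this hk'
  obtain ⟨d, hd⟩ : ∃ d : ℤ, y₁ = d ^ 2 := by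
    obtain ⟨d, hd | hd⟩ := Int.sq_of_gcd_eq_one hcop hx₁sq
    · exact ⟨d, hd⟩
    · refine ⟨0, ?_⟩
      nlinarith [sq_nonneg d]
  obtain ⟨c₀, hc₀⟩ : ∃ c : ℤ, z₁ = c ^ 2 := by
    obtain ⟨c, hc | hc⟩ := Int.sq_of_gcd_eq_one (by rwa [Int.gcd_comm]) (by rw [mul_comm]; exact hx₁sq)
    · exact ⟨c, hc⟩
    · refine ⟨0, ?_⟩
      nlinarith [sq_nonneg c]
  obtain ⟨c, hc, hxc⟩ : ∃ c : ℤ, z₁ = c ^ 2 ∧ x₁ = c * d := by
    have h5 : x₁ ^ 2 = (c₀ * d) ^ 2 := by rw [← hx₁sq, hd, hc₀]; ring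
    rcases sq_eq_sq_iff_eq_or_eq_neg.mp h5 with h | h
    · exact ⟨c₀, hc₀, h⟩
    · exact ⟨-c₀, by rw [hc₀]; ring, by rw [h]; ring⟩
  have hcd : IsCoprime c d := by
    have h6 : IsCoprime (d ^ 2) (c ^ 2) := by
      rw [← hd, ← hc]; exact Int.isCoprime_iff_gcd_eq_one.mpr hcop
    exact ((IsCoprime.pow_iff (by norm_num) (by norm_num)).mp h6).symm
  obtain ⟨w, hw0, hw1⟩ := hcd.exists_SL2_row 1
  refine ⟨w, k, hk, ?_⟩
  obtain ⟨h00, h01, h10, h11⟩ := conj_T_zpow_apply w k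
  rw [zpow_natCast] at h00 h01 h10 h11
  apply ext_entries
  · rw [h00, hw0, hw1]; linear_combination hx₁ + (k : ℤ) * hxc
  · rw [h01, hw1, hy₁, hd]; ring
  · rw [h10, hw0]
    have : -g 1 0 = c ^ 2 * (k : ℤ) := by rw [← hc]; exact hz₁
    linear_combination -this
  · rw [h11, hw0, hw1]; linear_combination htr - hx₁ - (k : ℤ) * hxc

theorem inv_apply_entries (g : SL(2, ℤ)) :
    g⁻¹ 0 0 = g 1 1 ∧ g⁻¹ 0 1 = -g 0 1 ∧ g⁻¹ 1 0 = -g 1 0 ∧ g⁻¹ 1 1 = g 0 0 := by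
  have h : (g⁻¹).1 = !![g 1 1, -g 0 1; -g 1 0, g 0 0] := by
    simp only [Matrix.SpecialLinearGroup.coe_inv, Matrix.adjugate_fin_two]
  exact ⟨congrFun (congrFun h 0) 0, congrFun (congrFun h 0) 1, congrFun (congrFun h 1) 0,
    congrFun (congrFun h 1) 1⟩

/-- Normal form of parabolic elements: trace `2` and `≠ 1` means `w⁻¹ T^m w` with `m ≠ 0`. -/
theorem exists_conj_T_zpow_of_trace {ρ : SL(2, ℤ)} (htr : ρ 0 0 + ρ 1 1 = 2) (hne : ρ ≠ 1) :
    ∃ (w : SL(2, ℤ)) (m : ℤ), m ≠ 0 ∧ ρ = w⁻¹ * ModularGroup.T ^ m * w := by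
  have hdet := det_eq ρ
  have hx : (ρ 0 0 - 1) ^ 2 = -(ρ 0 1 * ρ 1 0) := by
    linear_combination (-1 : ℤ) * hdet + ρ 0 0 * htr
  have hprod : ρ 0 1 * ρ 1 0 ≤ 0 := by nlinarith [sq_nonneg (ρ 0 0 - 1)]
  by_cases hpos : 0 ≤ ρ 0 1 ∧ ρ 1 0 ≤ 0
  · obtain ⟨w, k, hk, hw⟩ := IsPosPar.exists_conj (g := ρ) ⟨htr, hne, hpos.1, hpos.2⟩
    exact ⟨w, k, by exact_mod_cast hk.ne', by rw [zpow_natCast]; exact hw⟩
  · obtain ⟨i00, i01, i10, i11⟩ := inv_apply_entries ρ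
    have hinv : IsPosPar ρ⁻¹ := by
      refine ⟨by rw [i00, i11]; omega, fun h => hne (by simpa using h), ?_, ?_⟩
      · rw [i01]
        by_contra hcon
        have h1 : 0 < ρ 0 1 := by omega
        have h2 : ρ 1 0 ≤ 0 := by nlinarith
        exact hpos ⟨h1.le, h2⟩
      · rw [i10]
        by_contra hcon
        have h1 : ρ 1 0 < 0 := by omega
        have h2 : 0 ≤ ρ 0 1 := by nlinarith
        exact hpos ⟨h2, h1.le⟩
    obtain ⟨w, k, hk, hw⟩ := hinv.exists_conj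
    refine ⟨w, -(k : ℤ), by simpa using hk.ne', ?_⟩
    rw [_root_.zpow_neg, zpow_natCast, ← inv_inv ρ, hw]
    group

/-- If `u T^a = T^b u` with `b ≠ 0` then `u` is upper triangular and `a = b`. -/
theorem apply_one_zero_of_comm {u : SL(2, ℤ)} {a b : ℤ} (hb : b ≠ 0)
    (h : u * ModularGroup.T ^ a = ModularGroup.T ^ b * u) : u 1 0 = 0 ∧ a = b := by
  have hdet := det_eq u
  have h1 : (u * ModularGroup.T ^ a).1 = (ModularGroup.T ^ b * u).1 := by rw [h]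
  simp only [Matrix.SpecialLinearGroup.coe_mul, coe_T_zpow] at h1
  have h00 := congrFun (congrFun h1 0) 0
  have h01 := congrFun (congrFun h1 0) 1
  simp [Matrix.mul_apply, Fin.sum_univ_two] at h00 h01
  have hc : u 1 0 = 0 := by
    rcases h00 with h | h
    · exact absurd h hb
    · exact h
  refine ⟨hc, ?_⟩
  rw [hc, mul_zero, sub_zero] at hdet
  rcases Int.eq_one_or_neg_one_of_mul_eq_one' hdet with ⟨e1, e2⟩ | ⟨e1, e2⟩
  · rw [e1, e2] at h01; linarith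
  · rw [e1, e2] at h01; linarith

/-- An upper triangular element of `SL(2, ℤ)` is `± T^j`. -/
theorem eq_T_zpow_of_apply_one_zero {u : SL(2, ℤ)} (h : u 1 0 = 0) :
    ∃ j : ℤ, u = ModularGroup.T ^ j ∨ u = -ModularGroup.T ^ j := by
  have hdet := det_eq u
  rw [h, mul_zero, sub_zero] at hdet
  rcases Int.eq_one_or_neg_one_of_mul_eq_one' hdet with ⟨e1, e2⟩ | ⟨e1, e2⟩
  · refine ⟨u 0 1, Or.inl ?_⟩
    have hT : (ModularGroup.T ^ (u 0 1)).1 = !![1, u 0 1; 0, 1] := coe_T_zpow _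
    apply ext_entries
    · rw [e1]; exact (congrFun (congrFun hT 0) 0).symm
    · exact (congrFun (congrFun hT 0) 1).symm
    · rw [h]; exact (congrFun (congrFun hT 1) 0).symm
    · rw [e2]; exact (congrFun (congrFun hT 1) 1).symm
  · refine ⟨-u 0 1, Or.inr ?_⟩
    have hT : (-ModularGroup.T ^ (-u 0 1)).1 = !![-1, u 0 1; 0, -1] := by
      rw [Matrix.SpecialLinearGroup.coe_neg, coe_T_zpow]
      ext i j
      fin_cases i <;> fin_cases j <;> simp
    apply ext_entries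
    · rw [e1]; exact (congrFun (congrFun hT 0) 0).symm
    · exact (congrFun (congrFun hT 0) 1).symm
    · rw [h]; exact (congrFun (congrFun hT 1) 0).symm
    · rw [e2]; exact (congrFun (congrFun hT 1) 1).symm

/-! ### Primitive positive parabolic elements and their classification -/

/-- `t • gΓ = gΓ` iff `g⁻¹ t g ∈ Γ`. -/
theorem smul_mk_eq_iff (Γ : Subgroup SL(2, ℤ)) (t g : SL(2, ℤ)) :
    t • (g : SL(2, ℤ) ⧸ Γ) = (g : SL(2, ℤ) ⧸ Γ) ↔ g⁻¹ * t * g ∈ Γ := by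
  rw [MulAction.Quotient.smul_mk, eq_comm, QuotientGroup.eq, smul_eq_mul, mul_assoc]

/-- Primitive positive parabolic elements of `Γ`: positive parabolic elements of `Γ` which are
not a proper power of a trace-`2` element of `Γ`. -/
def IsPrimPosPar (Γ : Subgroup SL(2, ℤ)) (g : SL(2, ℤ)) : Prop :=
  g ∈ Γ ∧ IsPosPar g ∧ ∀ ρ ∈ Γ, ρ 0 0 + ρ 1 1 = 2 → ∀ k : ℕ, 2 ≤ k → ρ ^ k ≠ g

theorem isPosPar_cuspGen (Γ : Subgroup SL(2, ℤ)) [Γ.FiniteIndex] (c : CuspIdx Γ) :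
    IsPosPar (cuspGen Γ c : SL(2, ℤ)) := by
  rw [cuspGen_coe, ← zpow_natCast]
  exact isPosPar_conj_T_zpow _ (by exact_mod_cast cuspWidth_pos Γ c)

/-- If `w⁻¹ T^a w = g₀⁻¹ T^b g₀` with `b ≠ 0`, then `a = b` and `g₀ w⁻¹ = ± T^j`. -/
theorem conj_T_zpow_eq_conj {w g₀ : SL(2, ℤ)} {a b : ℤ} (hb : b ≠ 0)
    (h : w⁻¹ * ModularGroup.T ^ a * w = g₀⁻¹ * ModularGroup.T ^ b * g₀) :
    a = b ∧ ∃ j : ℤ, g₀ * w⁻¹ = ModularGroup.T ^ j ∨ g₀ * w⁻¹ = -ModularGroup.T ^ j := by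
  have h1 : g₀ * w⁻¹ * ModularGroup.T ^ a = ModularGroup.T ^ b * (g₀ * w⁻¹) := by
    calc g₀ * w⁻¹ * ModularGroup.T ^ a = g₀ * (w⁻¹ * ModularGroup.T ^ a * w) * w⁻¹ := by group
      _ = g₀ * (g₀⁻¹ * ModularGroup.T ^ b * g₀) * w⁻¹ := by rw [h]
      _ = ModularGroup.T ^ b * (g₀ * w⁻¹) := by group
  obtain ⟨h2, h3⟩ := apply_one_zero_of_comm hb h1
  exact ⟨h3, eq_T_zpow_of_apply_one_zero h2⟩

/-- Conjugating `T^m` by `± T^j w` is the same as conjugating by `w`. -/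
theorem conj_eq_of_mul_inv {w g₀ : SL(2, ℤ)} {j : ℤ}
    (hj : g₀ * w⁻¹ = ModularGroup.T ^ j ∨ g₀ * w⁻¹ = -ModularGroup.T ^ j) (m : ℤ) :
    g₀⁻¹ * ModularGroup.T ^ m * g₀ = w⁻¹ * ModularGroup.T ^ m * w := by
  have hg₀ : g₀ = (g₀ * w⁻¹) * w := by group
  rcases hj with hj | hj
  · rw [hg₀, hj]
    have hc : ModularGroup.T ^ m * ModularGroup.T ^ j = ModularGroup.T ^ j * ModularGroup.T ^ m :=
      (Commute.zpow_zpow_self ModularGroup.T m j).eq
    calc (ModularGroup.T ^ j * w)⁻¹ * ModularGroup.T ^ m * (ModularGroup.T ^ j * w)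
        = w⁻¹ * (ModularGroup.T ^ j)⁻¹ * (ModularGroup.T ^ m * ModularGroup.T ^ j) * w := by group
      _ = w⁻¹ * ModularGroup.T ^ m * w := by rw [hc]; group
  · rw [hg₀, hj]
    have hc : ModularGroup.T ^ m * ModularGroup.T ^ j = ModularGroup.T ^ j * ModularGroup.T ^ m :=
      (Commute.zpow_zpow_self ModularGroup.T m j).eq
    calc (-ModularGroup.T ^ j * w)⁻¹ * ModularGroup.T ^ m * (-ModularGroup.T ^ j * w)
        = (ModularGroup.T ^ j * w)⁻¹ * ModularGroup.T ^ m * (ModularGroup.T ^ j * w) := by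
          simp only [neg_mul, mul_neg, _root_.inv_neg, neg_neg]
      _ = w⁻¹ * (ModularGroup.T ^ j)⁻¹ * (ModularGroup.T ^ m * ModularGroup.T ^ j) * w := by group
      _ = w⁻¹ * ModularGroup.T ^ m * w := by rw [hc]; group

/-- **(Cl2)** The cusp generators are primitive positive parabolic elements of `Γ`. -/
theorem isPrimPosPar_cuspGen (Γ : Subgroup SL(2, ℤ)) [Γ.FiniteIndex] (c : CuspIdx Γ) :
    IsPrimPosPar Γ (cuspGen Γ c) := by
  refine ⟨(cuspGen Γ c).2, isPosPar_cuspGen Γ c, ?_⟩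
  intro ρ hρ htr k hk hpow
  have hh := cuspWidth_pos Γ c
  have hh' : ((cuspWidth Γ c : ℕ) : ℤ) ≠ 0 := by exact_mod_cast hh.ne'
  have hne : ρ ≠ 1 := by
    rintro rfl
    rw [one_pow] at hpow
    exact (isPosPar_cuspGen Γ c).2.1 hpow.symm
  obtain ⟨w, m, hm, rfl⟩ := exists_conj_T_zpow_of_trace htr hne
  have hpow' : w⁻¹ * ModularGroup.T ^ (m * k) * w =
      (cuspRep Γ c)⁻¹ * ModularGroup.T ^ ((cuspWidth Γ c : ℕ) : ℤ) * cuspRep Γ c := by
    rw [zpow_natCast, ← cuspGen_coe, ← hpow, _root_.zpow_mul, zpow_natCast]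
    have := conj_pow (a := w⁻¹) (b := ModularGroup.T ^ m) (i := k)
    rw [inv_inv] at this
    exact this.symm
  obtain ⟨hmk, j, hj⟩ := conj_T_zpow_eq_conj hh' hpow'
  have hρ' := conj_eq_of_mul_inv hj m
  have hfix : ModularGroup.T ^ m • c.out = c.out := by
    have := (smul_mk_eq_iff Γ (ModularGroup.T ^ m) (cuspRep Γ c)).mpr (by rw [hρ']; exact hρ)
    rwa [cuspRep, QuotientGroup.out_eq'] at this
  have hdvd : ((cuspWidth Γ c : ℕ) : ℤ) ∣ m := MulAction.zpow_smul_eq_iff_minimalPeriod_dvd.mp hfix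
  obtain ⟨t, ht⟩ := hdvd
  have h1 : (t * k : ℤ) = 1 := by
    apply mul_left_cancel₀ hh'
    rw [← mul_assoc, ← ht, hmk, mul_one]
  have hk1 : (k : ℤ) ∣ 1 := Dvd.intro_left _ h1
  have := Int.le_of_dvd one_pos hk1
  omega

/-- The `T`-period is constant along `T`-orbits. -/
theorem minimalPeriod_zpow_smul (Γ : Subgroup SL(2, ℤ)) (i : ℤ) (x : SL(2, ℤ) ⧸ Γ) :
    Function.minimalPeriod (ModularGroup.T • ·) (ModularGroup.T ^ i • x) =
      Function.minimalPeriod (ModularGroup.T • ·) x := by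
  have hcomm : ∀ n : ℕ, ModularGroup.T ^ n • ModularGroup.T ^ i • x =
      ModularGroup.T ^ i • ModularGroup.T ^ n • x := by
    intro n
    rw [smul_smul, smul_smul, ← zpow_natCast, (Commute.zpow_zpow_self ModularGroup.T _ i).eq]
  apply Nat.dvd_antisymm
  · rw [← MulAction.pow_smul_eq_iff_minimalPeriod_dvd, hcomm,
      MulAction.pow_smul_eq_iff_minimalPeriod_dvd.mpr dvd_rfl]
  · rw [← MulAction.pow_smul_eq_iff_minimalPeriod_dvd]
    have h := MulAction.pow_smul_eq_iff_minimalPeriod_dvd (a := ModularGroup.T)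
      (b := ModularGroup.T ^ i • x) |>.mpr dvd_rfl
    rw [hcomm] at h
    exact MulAction.injective _ h

/-- For every `w`, the element `w⁻¹ T^h w` (`h` the `T`-period of the coset `wΓ`) is
`Γ`-conjugate to the generator of the cusp `⟦wΓ⟧`. -/
theorem exists_conj_cuspGen_mk (Γ : Subgroup SL(2, ℤ)) (w : SL(2, ℤ)) :
    ∃ δ : Γ, w⁻¹ * ModularGroup.T ^ Function.minimalPeriod (ModularGroup.T • ·)
        (w : SL(2, ℤ) ⧸ Γ) * w =
      ((δ * cuspGen Γ (Quotient.mk'' (w : SL(2, ℤ) ⧸ Γ)) * δ⁻¹ : Γ) : SL(2, ℤ)) := by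
  have hc : (Quotient.mk'' (w : SL(2, ℤ) ⧸ Γ) : CuspIdx Γ).out ∈
      MulAction.orbit (Subgroup.zpowers ModularGroup.T) (w : SL(2, ℤ) ⧸ Γ) :=
    Quotient.exact' (Quotient.out_eq' (Quotient.mk'' (w : SL(2, ℤ) ⧸ Γ) : CuspIdx Γ))
  obtain ⟨⟨_, i, rfl⟩, hi⟩ := hc
  set c : CuspIdx Γ := Quotient.mk'' (w : SL(2, ℤ) ⧸ Γ) with hcdef
  set k : ℕ := Function.minimalPeriod (ModularGroup.T • ·) (w : SL(2, ℤ) ⧸ Γ) with hkdef
  have hi' : ModularGroup.T ^ i • (w : SL(2, ℤ) ⧸ Γ) = c.out := hi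
  have hper : Function.minimalPeriod (ModularGroup.T • ·) c.out = k := by
    rw [← hi', minimalPeriod_zpow_smul]
  have hγ : (ModularGroup.T ^ i * w)⁻¹ * c.out.out ∈ Γ := by
    rw [← QuotientGroup.eq, QuotientGroup.out_eq', ← hi']
    rfl
  refine ⟨⟨_, hγ⟩, ?_⟩
  simp only [Subgroup.coe_mul, Subgroup.coe_inv]
  show _ = (ModularGroup.T ^ i * w)⁻¹ * c.out.out *
    (c.out.out⁻¹ * ModularGroup.T ^ Function.minimalPeriod (ModularGroup.T • ·) c.out * c.out.out) *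
    ((ModularGroup.T ^ i * w)⁻¹ * c.out.out)⁻¹
  rw [hper]
  have hc2 : ModularGroup.T ^ k * ModularGroup.T ^ i = ModularGroup.T ^ i * ModularGroup.T ^ k := by
    rw [← zpow_natCast]
    exact (Commute.zpow_zpow_self ModularGroup.T _ i).eq
  calc w⁻¹ * ModularGroup.T ^ k * w
      = w⁻¹ * (ModularGroup.T ^ i)⁻¹ * (ModularGroup.T ^ i * ModularGroup.T ^ k) * w := by group
    _ = w⁻¹ * (ModularGroup.T ^ i)⁻¹ * (ModularGroup.T ^ k * ModularGroup.T ^ i) * w := by rw [hc2]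
    _ = _ := by group

/-- **(Cl3)** Every primitive positive parabolic element of `Γ` is `Γ`-conjugate to a cusp
generator. -/
theorem IsPrimPosPar.exists_conj_cuspGen {Γ : Subgroup SL(2, ℤ)} [Γ.FiniteIndex] {g : SL(2, ℤ)}
    (hg : IsPrimPosPar Γ g) :
    ∃ (c : CuspIdx Γ) (δ : Γ), g = ((δ * cuspGen Γ c * δ⁻¹ : Γ) : SL(2, ℤ)) := by
  obtain ⟨hmem, hpos, hprim⟩ := hg
  obtain ⟨w, k, hk, rfl⟩ := hpos.exists_conj
  have hfix : ModularGroup.T ^ k • (w : SL(2, ℤ) ⧸ Γ) = (w : SL(2, ℤ) ⧸ Γ) :=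
    (smul_mk_eq_iff Γ (ModularGroup.T ^ k) w).mpr hmem
  obtain ⟨t, ht⟩ := MulAction.pow_smul_eq_iff_minimalPeriod_dvd.mp hfix
  have hρ : w⁻¹ * ModularGroup.T ^ Function.minimalPeriod (ModularGroup.T • ·)
      (w : SL(2, ℤ) ⧸ Γ) * w ∈ Γ :=
    (smul_mk_eq_iff Γ _ w).mp (MulAction.pow_smul_eq_iff_minimalPeriod_dvd.mpr dvd_rfl)
  have ht1 : t = 1 := by
    by_contra hne
    have ht2 : 2 ≤ t := by
      rcases Nat.lt_or_ge t 2 with h2 | h2
      · interval_cases t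
        · rw [mul_zero] at ht; omega
        · exact absurd rfl hne
      · exact h2
    refine hprim _ hρ ?_ t ht2 ?_
    · obtain ⟨h00, -, -, h11⟩ := conj_T_zpow_apply w
        (Function.minimalPeriod (ModularGroup.T • ·) (w : SL(2, ℤ) ⧸ Γ) : ℤ)
      rw [zpow_natCast] at h00 h11
      rw [h00, h11]; ring
    · rw [ht, pow_mul]
      have := conj_pow (a := w⁻¹) (b := ModularGroup.T ^ Function.minimalPeriod
        (ModularGroup.T • ·) (w : SL(2, ℤ) ⧸ Γ)) (i := t)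
      rw [inv_inv] at this
      exact this
  subst ht1
  rw [mul_one] at ht
  obtain ⟨δ, hδ⟩ := exists_conj_cuspGen_mk Γ w
  exact ⟨_, δ, by rw [ht]; exact hδ⟩

/-- **(Cl4)** If `-1 ∈ Γ`, distinct cusps have non-conjugate generators. -/
theorem cuspGen_conj_unique {Γ : Subgroup SL(2, ℤ)} [Γ.FiniteIndex] (hneg : -1 ∈ Γ)
    {c c' : CuspIdx Γ} (δ : Γ) (h : cuspGen Γ c = δ * cuspGen Γ c' * δ⁻¹) : c = c' := by
  have hh' : ((cuspWidth Γ c' : ℕ) : ℤ) ≠ 0 := by exact_mod_cast (cuspWidth_pos Γ c').ne'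
  have h' : (cuspRep Γ c)⁻¹ * ModularGroup.T ^ ((cuspWidth Γ c : ℕ) : ℤ) * cuspRep Γ c =
      (cuspRep Γ c' * (δ : SL(2, ℤ))⁻¹)⁻¹ * ModularGroup.T ^ ((cuspWidth Γ c' : ℕ) : ℤ) *
        (cuspRep Γ c' * (δ : SL(2, ℤ))⁻¹) := by
    have h1 := congrArg (Subtype.val) h
    simp only [Subgroup.coe_mul, Subgroup.coe_inv, cuspGen_coe] at h1
    rw [zpow_natCast, zpow_natCast, h1]
    group
  obtain ⟨-, j, hj⟩ := conj_T_zpow_eq_conj hh' h'
  have e1 : ((cuspRep Γ c : SL(2, ℤ)) : SL(2, ℤ) ⧸ Γ) = c.out := QuotientGroup.out_eq' _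
  have e2 : ((cuspRep Γ c' : SL(2, ℤ)) : SL(2, ℤ) ⧸ Γ) = c'.out := QuotientGroup.out_eq' _
  have key : c'.out = ModularGroup.T ^ j • c.out := by
    rw [← e1, ← e2, MulAction.Quotient.smul_mk, QuotientGroup.eq, smul_eq_mul]
    rcases hj with hj | hj
    · rw [← hj]
      have : (cuspRep Γ c')⁻¹ * (cuspRep Γ c' * (δ : SL(2, ℤ))⁻¹ * (cuspRep Γ c)⁻¹ * cuspRep Γ c)
          = ((δ⁻¹ : Γ) : SL(2, ℤ)) := by
        rw [Subgroup.coe_inv]; group
      rw [this]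
      exact (δ⁻¹).2
    · have hj' : ModularGroup.T ^ j = -(cuspRep Γ c' * (δ : SL(2, ℤ))⁻¹ * (cuspRep Γ c)⁻¹) := by
        rw [hj, neg_neg]
      rw [hj']
      have : (cuspRep Γ c')⁻¹ * (-(cuspRep Γ c' * (δ : SL(2, ℤ))⁻¹ * (cuspRep Γ c)⁻¹) * cuspRep Γ c)
          = -1 * ((δ⁻¹ : Γ) : SL(2, ℤ)) := by
        rw [Subgroup.coe_inv, neg_mul, mul_neg, neg_mul, one_mul]
        congr 1
        group
      rw [this]
      exact Γ.mul_mem hneg (δ⁻¹).2
  have hrel : (MulAction.orbitRel (Subgroup.zpowers ModularGroup.T) (SL(2, ℤ) ⧸ Γ)) c'.out c.out := by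
    rw [MulAction.orbitRel_apply, key]
    exact ⟨⟨ModularGroup.T ^ j, j, rfl⟩, rfl⟩
  calc c = Quotient.mk'' c.out := (Quotient.out_eq' c).symm
    _ = Quotient.mk'' c'.out := (Quotient.sound' hrel).symm
    _ = c' := Quotient.out_eq' c'

/-! ### Matching of cusp families along isomorphisms -/

/-- An isomorphism preserving the trace-`2` condition and positive parabolicity preserves
primitive positive parabolic elements. -/
theorem isPrimPosPar_iff_of_equiv {Γ₁ Γ₂ : Subgroup SL(2, ℤ)} (θ : Γ₁ ≃* Γ₂)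
    (htr : ∀ g : Γ₁, (g : SL(2, ℤ)) 0 0 + (g : SL(2, ℤ)) 1 1 = 2 ↔
      (θ g : SL(2, ℤ)) 0 0 + (θ g : SL(2, ℤ)) 1 1 = 2)
    (hpos : ∀ g : Γ₁, IsPosPar (g : SL(2, ℤ)) ↔ IsPosPar (θ g : SL(2, ℤ))) (g : Γ₁) :
    IsPrimPosPar Γ₁ g ↔ IsPrimPosPar Γ₂ (θ g) := by
  constructor
  · rintro ⟨-, hp, hprim⟩
    refine ⟨(θ g).2, (hpos g).mp hp, ?_⟩
    intro ρ hρ htrρ k hk hpow
    refine hprim (θ.symm ⟨ρ, hρ⟩) (θ.symm ⟨ρ, hρ⟩).2 ((htr _).mpr ?_) k hk ?_
    · rw [θ.apply_symm_apply]; exact htrρ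
    · have : (θ.symm ⟨ρ, hρ⟩) ^ k = g := by
        apply θ.injective
        rw [map_pow, θ.apply_symm_apply]
        exact Subtype.ext hpow
      rw [← this]; rfl
  · rintro ⟨-, hp, hprim⟩
    refine ⟨g.2, (hpos g).mpr hp, ?_⟩
    intro ρ hρ htrρ k hk hpow
    refine hprim (θ ⟨ρ, hρ⟩) (θ ⟨ρ, hρ⟩).2 ((htr ⟨ρ, hρ⟩).mp htrρ) k hk ?_
    have : (⟨ρ, hρ⟩ : Γ₁) ^ k = g := Subtype.ext hpow
    rw [← this, map_pow]; rfl

/-- **(Match)** An isomorphism `θ : Γ₁ ≃* Γ₂` preserving primitive positive parabolic elements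
carries the cusp family of `Γ₁` to that of `Γ₂` up to conjugacy and reindexing (the hypothesis
of the invariance statement for the pairing). -/
theorem exists_cuspIdx_equiv {Γ₁ Γ₂ : Subgroup SL(2, ℤ)} [Γ₁.FiniteIndex] [Γ₂.FiniteIndex]
    (h₁ : -1 ∈ Γ₁) (h₂ : -1 ∈ Γ₂) (θ : Γ₁ ≃* Γ₂)
    (hθ : ∀ g : Γ₁, IsPrimPosPar Γ₁ g ↔ IsPrimPosPar Γ₂ (θ g)) :
    ∃ e : CuspIdx Γ₁ ≃ CuspIdx Γ₂,
      ∀ c, ∃ d : Γ₂, θ (cuspGen Γ₁ c) = d * cuspGen Γ₂ (e c) * d⁻¹ := by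
  have H1 : ∀ c : CuspIdx Γ₁, ∃ c' : CuspIdx Γ₂, ∃ d : Γ₂,
      θ (cuspGen Γ₁ c) = d * cuspGen Γ₂ c' * d⁻¹ := by
    intro c
    obtain ⟨c', d, hd⟩ := ((hθ _).mp (isPrimPosPar_cuspGen Γ₁ c)).exists_conj_cuspGen
    exact ⟨c', d, Subtype.ext hd⟩
  have H2 : ∀ c' : CuspIdx Γ₂, ∃ c : CuspIdx Γ₁, ∃ d : Γ₁,
      θ.symm (cuspGen Γ₂ c') = d * cuspGen Γ₁ c * d⁻¹ := by
    intro c'
    have h3 : IsPrimPosPar Γ₁ (θ.symm (cuspGen Γ₂ c')) :=
      (hθ (θ.symm (cuspGen Γ₂ c'))).mpr (by rw [θ.apply_symm_apply]; exact isPrimPosPar_cuspGen Γ₂ c')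
    obtain ⟨c, d, hd⟩ := h3.exists_conj_cuspGen
    exact ⟨c, d, Subtype.ext hd⟩
  choose e he using H1
  choose e' he' using H2
  refine ⟨⟨e, e', ?_, ?_⟩, he⟩
  · intro c
    obtain ⟨d, hd⟩ := he c
    obtain ⟨d', hd'⟩ := he' (e c)
    have h4 : cuspGen Γ₁ c = (θ.symm d * d') * cuspGen Γ₁ (e' (e c)) * (θ.symm d * d')⁻¹ := by
      have h5 := congrArg θ.symm hd
      rw [θ.symm_apply_apply, map_mul, map_mul, map_inv, hd'] at h5
      rw [h5]; group
    exact (cuspGen_conj_unique h₁ _ h4).symm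
  · intro c'
    obtain ⟨d', hd'⟩ := he' c'
    obtain ⟨d, hd⟩ := he (e' c')
    have h4 : cuspGen Γ₂ c' = (θ d' * d) * cuspGen Γ₂ (e (e' c')) * (θ d' * d)⁻¹ := by
      have h5 := congrArg θ hd'
      rw [θ.apply_symm_apply, map_mul, map_mul, map_inv, hd] at h5
      rw [h5]; group
    exact (cuspGen_conj_unique h₂ _ h4).symm

/-! ### Further forms (minimality, `Hom(SL(2, ℤ), A) = 0`, torsion-free balancedness) -/

/-- Minimality of the width. -/
theorem cuspGen_minimal (Γ : Subgroup SL(2, ℤ)) (c : CuspIdx Γ) (k : ℕ) (hk : 0 < k)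
    (h : (cuspRep Γ c)⁻¹ * ModularGroup.T ^ k * cuspRep Γ c ∈ Γ) : cuspWidth Γ c ≤ k := by
  have h1 := (smul_mk_eq_iff Γ (ModularGroup.T ^ k) (cuspRep Γ c)).mpr h
  rw [cuspRep, QuotientGroup.out_eq'] at h1
  exact Nat.le_of_dvd hk (MulAction.pow_smul_eq_iff_minimalPeriod_dvd.mp h1)

/-- Every homomorphism from `SL(2, ℤ)` to a commutative group without `12`-torsion is
trivial. -/
theorem monoidHom_SL2Z_eq_one {M : Type*} [CommGroup M] (h12 : ∀ m : M, m ^ 12 = 1 → m = 1)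
    (f : SL(2, ℤ) →* M) : f = 1 := by
  have h4 : (ModularGroup.S : SL(2, ℤ)) ^ 4 = 1 := by decide
  have h6 : (ModularGroup.S * ModularGroup.T : SL(2, ℤ)) ^ 6 = 1 := by decide
  have hS : f ModularGroup.S = 1 := by
    apply h12
    have : f ModularGroup.S ^ 4 = 1 := by rw [← map_pow, h4, map_one]
    calc f ModularGroup.S ^ 12 = (f ModularGroup.S ^ 4) ^ 3 := by rw [← pow_mul]
      _ = 1 := by rw [this, one_pow]
  have hST : f (ModularGroup.S * ModularGroup.T) = 1 := by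
    apply h12
    have : f (ModularGroup.S * ModularGroup.T) ^ 6 = 1 := by rw [← map_pow, h6, map_one]
    calc f (ModularGroup.S * ModularGroup.T) ^ 12
        = (f (ModularGroup.S * ModularGroup.T) ^ 6) ^ 2 := by rw [← pow_mul]
      _ = 1 := by rw [this, one_pow]
  have hT : f ModularGroup.T = 1 := by
    rw [map_mul, hS, one_mul] at hST
    exact hST
  have hker : f.ker = ⊤ := by
    rw [eq_top_iff, ← _root_.SpecialLinearGroup.SL2Z_generators, Subgroup.closure_le]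
    rintro x (rfl | rfl)
    · exact hS
    · exact hT
  ext g
  have : g ∈ f.ker := hker ▸ Subgroup.mem_top g
  simpa using this

/-- Additive form: every additive hom `Additive SL(2, ℤ) →+ A` vanishes if `A` has no
`12`-torsion. -/
theorem addMonoidHom_SL2Z_eq_zero {A : Type*} [AddCommGroup A]
    (h12 : ∀ a : A, (12 : ℕ) • a = 0 → a = 0) (f : Additive SL(2, ℤ) →+ A) : f = 0 := by
  have := monoidHom_SL2Z_eq_one (M := Multiplicative A)
    (fun m hm => by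
      have := h12 (Multiplicative.toAdd m) (by simpa using congrArg Multiplicative.toAdd hm)
      simpa using congrArg Multiplicative.ofAdd this)
    (AddMonoidHom.toMultiplicativeRight f)
  ext g
  exact DFunLike.congr_fun this (Additive.toMul g)

/-- Torsion-free version. -/
theorem hom_SL2Z_eq_zero {A : Type*} [AddCommGroup A] [IsAddTorsionFree A]
    (f : Additive SL(2, ℤ) →+ A) : f = 0 :=
  addMonoidHom_SL2Z_eq_zero (fun a ha =>
    (nsmul_eq_zero_iff_right (M := A) (n := 12) (by norm_num)).1 ha) f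

/-- Balancedness, `12`-torsion-free form (same statement as `cuspGen_balanced`). -/
theorem sum_cuspGen_of_torsion (Γ : Subgroup SL(2, ℤ)) [Γ.FiniteIndex] {A : Type*}
    [AddCommGroup A] (h12 : ∀ a : A, (12 : ℕ) • a = 0 → a = 0) (lam : Additive Γ →+ A) :
    ∑ c, lam (Additive.ofMul (cuspGen Γ c)) = 0 :=
  cuspGen_balanced Γ h12 lam

/-- Balancedness for torsion-free coefficients. -/
theorem sum_cuspGen (Γ : Subgroup SL(2, ℤ)) [Γ.FiniteIndex] {A : Type*} [AddCommGroup A]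
    [IsAddTorsionFree A] (lam : Additive Γ →+ A) :
    ∑ c, lam (Additive.ofMul (cuspGen Γ c)) = 0 :=
  cuspGen_balanced Γ (fun a ha =>
    (nsmul_eq_zero_iff_right (M := A) (n := 12) (by norm_num)).1 ha) lam

end Fermat.Agent.S41.Pairing.Cusps
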