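import Mathlib

/-!
# S41 (P4): peripheral data and the Heisenberg pairing (sect. 1–2 of the P4 design)

`G` any group, `A` a commutative ring, homs in the Prelude shape `Additive G →+ A`.
A *peripheral family* is a finite family `π : ι → G`.

* `IsBalanced A π` : `∑ c, lam (π c) = 0` for every hom `lam : G → A`.
* `IsPar π φ` : `φ` kills every `π c`; `parHoms A π` the submodule of such homs.
* `HasPairing π φ ψ a` : some kappa `k` for `(φ, ψ)` has `∑ c, k (π c) = a`.

Everything is relational: no existence of a kappa is needed to state the results,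
and an explicit kappa (Farey model) can be plugged in directly.
-/

namespace Fermat.Agent.S41.Pairing

open Additive

/-- The kappa relation for `(φ, ψ)` (Heisenberg cochain): `k (g h) = k g + k h + φ g * ψ h`.
Reducible on purpose: a hypothesis of the plain `∀ g h, …` shape can be used directly. -/
abbrev Periph.IsKappaRel {G : Type*} [Group G] {A : Type*} [CommRing A]
    (φ ψ : Additive G →+ A) (k : G → A) : Prop :=
  ∀ g h, k (g * h) = k g + k h + φ (ofMul g) * ψ (ofMul h)

section Defs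

variable {G : Type*} [Group G] {ι : Type*}

/-- The peripheral family `π` is balanced over `A`: every hom `G → A` sums to zero on it. -/
def IsBalanced (A : Type*) [CommRing A] [Fintype ι] (π : ι → G) : Prop :=
  ∀ lam : Additive G →+ A, ∑ c, lam (ofMul (π c)) = 0

variable {A : Type*} [CommRing A]

/-- `φ` is parabolic for the peripheral family `π`: it kills every `π c`. -/
def IsPar (π : ι → G) (φ : Additive G →+ A) : Prop :=
  ∀ c, φ (ofMul (π c)) = 0

/-- The submodule of homs that are parabolic for the peripheral family `π`. -/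
def parHoms (A : Type*) [CommRing A] (π : ι → G) : Submodule A (Additive G →+ A) where
  carrier := {φ | IsPar π φ}
  add_mem' := by
    intro φ ψ hφ hψ c
    simp [hφ c, hψ c]
  zero_mem' := by
    intro c
    simp
  smul_mem' := by
    intro a φ hφ c
    simp [hφ c]

theorem mem_parHoms_iff {π : ι → G} {φ : Additive G →+ A} :
    φ ∈ parHoms A π ↔ IsPar π φ := Iff.rfl

/-- `a` is a value of the pairing of `φ` and `ψ` along the peripheral family `π`:
some kappa `k` for `(φ, ψ)` has `∑ c, k (π c) = a`. -/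
def HasPairing [Fintype ι] (π : ι → G) (φ ψ : Additive G →+ A) (a : A) : Prop :=
  ∃ k : G → A, Periph.IsKappaRel φ ψ k ∧ ∑ c, k (π c) = a

/-- Conjugating the members of a peripheral family does not change parabolicity. -/
theorem IsPar.comp {G' : Type*} [Group G'] {ι' : Type*}
    {π : ι → G} {π' : ι' → G'} (θ : G →* G') (e : ι → ι')
    (hθ : ∀ c, ∃ g : G', θ (π c) = g * π' (e c) * g⁻¹)
    {φ : Additive G' →+ A} (hφ : IsPar π' φ) :
    IsPar π (φ.comp (MonoidHom.toAdditive θ)) := by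
  intro c
  obtain ⟨g, hg⟩ := hθ c
  show φ (ofMul (θ (π c))) = 0
  rw [hg, ofMul_mul, ofMul_mul, ofMul_inv, map_add, map_add, map_neg, hφ (e c)]
  abel

end Defs

namespace Periph

variable {G : Type*} [Group G] {A : Type*} [CommRing A]

/-! ### The kappa facts used below (kept local to this file) -/

theorem kappa_one {φ ψ : Additive G →+ A} {k : G → A} (hk : Periph.IsKappaRel φ ψ k) : k 1 = 0 := by
  have h := hk 1 1
  simp only [mul_one, ofMul_one, map_zero, mul_zero, add_zero] at h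
  have : k 1 + k 1 = k 1 + 0 := by rw [add_zero]; exact h.symm
  exact add_left_cancel this

theorem kappa_inv {φ ψ : Additive G →+ A} {k : G → A} (hk : Periph.IsKappaRel φ ψ k) (g : G) :
    k g⁻¹ = -k g + φ (ofMul g) * ψ (ofMul g) := by
  have h := hk g g⁻¹
  rw [mul_inv_cancel, kappa_one hk, ofMul_inv, map_neg] at h
  linear_combination -h

/-- The conjugation formula `k (g c g⁻¹) = k c + φ g ψ c - φ c ψ g`. -/
theorem kappa_conj {φ ψ : Additive G →+ A} {k : G → A} (hk : Periph.IsKappaRel φ ψ k) (g c : G) :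
    k (g * c * g⁻¹) = k c + φ (ofMul g) * ψ (ofMul c) - φ (ofMul c) * ψ (ofMul g) := by
  have h1 := hk (g * c) g⁻¹
  have h2 := hk g c
  have h3 := kappa_inv hk g
  rw [h1, h2, h3, ofMul_mul, map_add, ofMul_inv, map_neg]
  ring

/-- Conjugation invariance on elements killed by both homs. -/
theorem kappa_conj_of_par {φ ψ : Additive G →+ A} {k : G → A} (hk : Periph.IsKappaRel φ ψ k) (g c : G)
    (hφ : φ (ofMul c) = 0) (hψ : ψ (ofMul c) = 0) : k (g * c * g⁻¹) = k c := by
  rw [kappa_conj hk, hφ, hψ]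
  ring

/-- Two kappas for the same pair differ by a hom. -/
theorem kappa_sub_hom {φ ψ : Additive G →+ A} {k k' : G → A} (hk : Periph.IsKappaRel φ ψ k)
    (hk' : Periph.IsKappaRel φ ψ k') :
    ∃ lam : Additive G →+ A, ∀ g, lam (ofMul g) = k g - k' g := by
  refine ⟨AddMonoidHom.mk' (fun x => k (toMul x) - k' (toMul x)) ?_, fun g => rfl⟩
  intro x y
  show k (toMul x * toMul y) - k' (toMul x * toMul y) = _
  rw [hk, hk']
  ring

theorem kappa_add_left {φ₁ φ₂ ψ : Additive G →+ A} {k₁ k₂ : G → A} (h₁ : Periph.IsKappaRel φ₁ ψ k₁)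
    (h₂ : Periph.IsKappaRel φ₂ ψ k₂) : Periph.IsKappaRel (φ₁ + φ₂) ψ (fun g => k₁ g + k₂ g) := by
  intro g h
  show k₁ (g * h) + k₂ (g * h) = _
  rw [h₁, h₂, AddMonoidHom.add_apply]
  ring

theorem kappa_add_right {φ ψ₁ ψ₂ : Additive G →+ A} {k₁ k₂ : G → A} (h₁ : Periph.IsKappaRel φ ψ₁ k₁)
    (h₂ : Periph.IsKappaRel φ ψ₂ k₂) : Periph.IsKappaRel φ (ψ₁ + ψ₂) (fun g => k₁ g + k₂ g) := by
  intro g h
  show k₁ (g * h) + k₂ (g * h) = _
  rw [h₁, h₂, AddMonoidHom.add_apply]
  ring

theorem kappa_smul_left {φ ψ : Additive G →+ A} {k : G → A} (hk : Periph.IsKappaRel φ ψ k) (a : A) :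
    Periph.IsKappaRel (a • φ) ψ (fun g => a * k g) := by
  intro g h
  show a * k (g * h) = _
  rw [hk, AddMonoidHom.smul_apply, smul_eq_mul]
  ring

theorem kappa_smul_right {φ ψ : Additive G →+ A} {k : G → A} (hk : Periph.IsKappaRel φ ψ k) (a : A) :
    Periph.IsKappaRel φ (a • ψ) (fun g => a * k g) := by
  intro g h
  show a * k (g * h) = _
  rw [hk, AddMonoidHom.smul_apply, smul_eq_mul]
  ring

theorem kappa_zero_left (ψ : Additive G →+ A) : Periph.IsKappaRel (0 : Additive G →+ A) ψ (fun _ => 0) := by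
  intro g h
  simp

theorem kappa_zero_right (φ : Additive G →+ A) : Periph.IsKappaRel φ (0 : Additive G →+ A) (fun _ => 0) := by
  intro g h
  simp

/-- The swapped kappa `φ ψ - k` is a kappa for `(ψ, φ)`. -/
theorem kappa_swap {φ ψ : Additive G →+ A} {k : G → A} (hk : Periph.IsKappaRel φ ψ k) :
    Periph.IsKappaRel ψ φ (fun g => φ (ofMul g) * ψ (ofMul g) - k g) := by
  intro g h
  show φ (ofMul (g * h)) * ψ (ofMul (g * h)) - k (g * h) = _
  rw [hk, ofMul_mul, map_add, map_add]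
  ring

/-- Pull-back of a kappa along a group hom. -/
theorem kappa_comp {G' : Type*} [Group G'] {φ ψ : Additive G' →+ A} {k : G' → A}
    (hk : Periph.IsKappaRel φ ψ k) (θ : G →* G') :
    Periph.IsKappaRel (φ.comp (MonoidHom.toAdditive θ)) (ψ.comp (MonoidHom.toAdditive θ))
      (fun g => k (θ g)) := by
  intro g h
  show k (θ (g * h)) = _
  rw [map_mul, hk]
  rfl

/-- With `2` invertible, `φ² / 2` is a kappa for `(φ, φ)`. -/
theorem kappa_self (φ : Additive G →+ A) (t : A) (ht : 2 * t = 1) :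
    Periph.IsKappaRel φ φ (fun g => t * (φ (ofMul g) * φ (ofMul g))) := by
  intro g h
  show t * (φ (ofMul (g * h)) * φ (ofMul (g * h))) = _
  rw [ofMul_mul, map_add]
  linear_combination (φ (ofMul g) * φ (ofMul h)) * ht

end Periph

section Pairing

variable {G : Type*} [Group G] {A : Type*} [CommRing A] {ι : Type*} [Fintype ι]

open Periph

/-- Independence of the kappa: over a balanced family the pairing value is unique. -/
theorem HasPairing.unique {π : ι → G} (hbal : IsBalanced A π) {φ ψ : Additive G →+ A} {a b : A}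
    (ha : HasPairing π φ ψ a) (hb : HasPairing π φ ψ b) : a = b := by
  obtain ⟨k, hk, rfl⟩ := ha
  obtain ⟨k', hk', rfl⟩ := hb
  obtain ⟨lam, hlam⟩ := kappa_sub_hom hk hk'
  have h := hbal lam
  simp only [hlam, Finset.sum_sub_distrib] at h
  exact sub_eq_zero.mp h

theorem HasPairing.add_left {π : ι → G} {φ₁ φ₂ ψ : Additive G →+ A} {a₁ a₂ : A}
    (h₁ : HasPairing π φ₁ ψ a₁) (h₂ : HasPairing π φ₂ ψ a₂) :
    HasPairing π (φ₁ + φ₂) ψ (a₁ + a₂) := by
  obtain ⟨k₁, hk₁, rfl⟩ := h₁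
  obtain ⟨k₂, hk₂, rfl⟩ := h₂
  exact ⟨_, kappa_add_left hk₁ hk₂, Finset.sum_add_distrib⟩

theorem HasPairing.add_right {π : ι → G} {φ ψ₁ ψ₂ : Additive G →+ A} {a₁ a₂ : A}
    (h₁ : HasPairing π φ ψ₁ a₁) (h₂ : HasPairing π φ ψ₂ a₂) :
    HasPairing π φ (ψ₁ + ψ₂) (a₁ + a₂) := by
  obtain ⟨k₁, hk₁, rfl⟩ := h₁
  obtain ⟨k₂, hk₂, rfl⟩ := h₂
  exact ⟨_, kappa_add_right hk₁ hk₂, Finset.sum_add_distrib⟩

theorem HasPairing.smul_left {π : ι → G} {φ ψ : Additive G →+ A} {a : A}
    (h : HasPairing π φ ψ a) (r : A) : HasPairing π (r • φ) ψ (r * a) := by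
  obtain ⟨k, hk, rfl⟩ := h
  exact ⟨_, kappa_smul_left hk r, (Finset.mul_sum _ _ _).symm⟩

theorem HasPairing.smul_right {π : ι → G} {φ ψ : Additive G →+ A} {a : A}
    (h : HasPairing π φ ψ a) (r : A) : HasPairing π φ (r • ψ) (r * a) := by
  obtain ⟨k, hk, rfl⟩ := h
  exact ⟨_, kappa_smul_right hk r, (Finset.mul_sum _ _ _).symm⟩

theorem HasPairing.zero_left (π : ι → G) (ψ : Additive G →+ A) :
    HasPairing π (0 : Additive G →+ A) ψ 0 :=
  ⟨_, kappa_zero_left ψ, Finset.sum_const_zero⟩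

theorem HasPairing.zero_right (π : ι → G) (φ : Additive G →+ A) :
    HasPairing π φ (0 : Additive G →+ A) 0 :=
  ⟨_, kappa_zero_right φ, Finset.sum_const_zero⟩

theorem HasPairing.neg_left {π : ι → G} {φ ψ : Additive G →+ A} {a : A}
    (h : HasPairing π φ ψ a) : HasPairing π (-φ) ψ (-a) := by
  have := h.smul_left (-1)
  simpa using this

theorem HasPairing.neg_right {π : ι → G} {φ ψ : Additive G →+ A} {a : A}
    (h : HasPairing π φ ψ a) : HasPairing π φ (-ψ) (-a) := by
  have := h.smul_right (-1)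
  simpa using this

theorem HasPairing.sub_left {π : ι → G} {φ₁ φ₂ ψ : Additive G →+ A} {a₁ a₂ : A}
    (h₁ : HasPairing π φ₁ ψ a₁) (h₂ : HasPairing π φ₂ ψ a₂) :
    HasPairing π (φ₁ - φ₂) ψ (a₁ - a₂) := by
  simpa [sub_eq_add_neg] using h₁.add_left h₂.neg_left

theorem HasPairing.sub_right {π : ι → G} {φ ψ₁ ψ₂ : Additive G →+ A} {a₁ a₂ : A}
    (h₁ : HasPairing π φ ψ₁ a₁) (h₂ : HasPairing π φ ψ₂ a₂) :
    HasPairing π φ (ψ₁ - ψ₂) (a₁ - a₂) := by
  simpa [sub_eq_add_neg] using h₁.add_right h₂.neg_right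

/-- Antisymmetry: if one of the two homs is parabolic at each `π c`, swapping negates
the pairing value. -/
theorem HasPairing.swap {π : ι → G} {φ ψ : Additive G →+ A} {a : A}
    (h : HasPairing π φ ψ a)
    (hpar : ∀ c, φ (ofMul (π c)) = 0 ∨ ψ (ofMul (π c)) = 0) :
    HasPairing π ψ φ (-a) := by
  obtain ⟨k, hk, rfl⟩ := h
  refine ⟨_, kappa_swap hk, ?_⟩
  rw [Finset.sum_sub_distrib, ← Finset.sum_neg_distrib]
  have : ∑ c, φ (ofMul (π c)) * ψ (ofMul (π c)) = 0 := by
    apply Finset.sum_eq_zero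
    intro c _
    rcases hpar c with h | h <;> simp [h]
  rw [this, zero_sub, Finset.sum_neg_distrib]

theorem HasPairing.swap_of_isPar_left {π : ι → G} {φ ψ : Additive G →+ A} {a : A}
    (h : HasPairing π φ ψ a) (hφ : IsPar π φ) : HasPairing π ψ φ (-a) :=
  h.swap fun c => Or.inl (hφ c)

theorem HasPairing.swap_of_isPar_right {π : ι → G} {φ ψ : Additive G →+ A} {a : A}
    (h : HasPairing π φ ψ a) (hψ : IsPar π ψ) : HasPairing π ψ φ (-a) :=
  h.swap fun c => Or.inr (hψ c)

/-- With `2` invertible the pairing of a parabolic hom with itself has value `0`. -/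
theorem HasPairing.self_of_two_mul {π : ι → G} {φ : Additive G →+ A} (hφ : IsPar π φ)
    (t : A) (ht : 2 * t = 1) : HasPairing π φ φ 0 := by
  refine ⟨_, kappa_self φ t ht, ?_⟩
  apply Finset.sum_eq_zero
  intro c _
  simp [hφ c]

/-- Alternating: over a balanced family without `2`-torsion, any pairing value of a
parabolic hom with itself is `0`. -/
theorem HasPairing.self_eq_zero {π : ι → G} (hbal : IsBalanced A π)
    (h2 : ∀ x : A, x + x = 0 → x = 0) {φ : Additive G →+ A} (hφ : IsPar π φ) {a : A}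
    (h : HasPairing π φ φ a) : a = 0 := by
  have h' := h.swap_of_isPar_left hφ
  have := HasPairing.unique hbal h h'
  apply h2
  rw [eq_neg_iff_add_eq_zero] at this
  exact this

/-- **(Inv)**: a group hom `θ : G → G'` carrying the peripheral family `π` to `π'` up to
conjugacy and reindexing preserves pairing values of parabolic homs. With `θ = id` this is
independence of the representatives `π c` inside their conjugacy classes. -/
theorem HasPairing.comp {G' : Type*} [Group G'] {ι' : Type*} [Fintype ι']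
    {π : ι → G} {π' : ι' → G'} (θ : G →* G') (e : ι ≃ ι')
    (hθ : ∀ c, ∃ g : G', θ (π c) = g * π' (e c) * g⁻¹)
    {φ ψ : Additive G' →+ A} (hφ : IsPar π' φ) (hψ : IsPar π' ψ) {a : A}
    (h : HasPairing π' φ ψ a) :
    HasPairing π (φ.comp (MonoidHom.toAdditive θ)) (ψ.comp (MonoidHom.toAdditive θ)) a := by
  obtain ⟨k, hk, rfl⟩ := h
  refine ⟨_, kappa_comp hk θ, ?_⟩
  rw [← Equiv.sum_comp e (fun c' => k (π' c'))]
  apply Finset.sum_congr rfl
  intro c _
  obtain ⟨g, hg⟩ := hθ c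
  show k (θ (π c)) = k (π' (e c))
  rw [hg, kappa_conj_of_par hk _ _ (hφ _) (hψ _)]

/-- Independence of the representatives of the peripheral classes. -/
theorem HasPairing.conj {π π' : ι → G}
    (hπ : ∀ c, ∃ g : G, π c = g * π' c * g⁻¹)
    {φ ψ : Additive G →+ A} (hφ : IsPar π' φ) (hψ : IsPar π' ψ) {a : A}
    (h : HasPairing π' φ ψ a) : HasPairing π φ ψ a :=
  HasPairing.comp (MonoidHom.id G) (Equiv.refl ι) (by simpa using hπ) hφ hψ h

/-- Base change of the coefficients along a ring hom. -/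
theorem HasPairing.map {B : Type*} [CommRing B] (f : A →+* B) {π : ι → G}
    {φ ψ : Additive G →+ A} {a : A} (h : HasPairing π φ ψ a) :
    HasPairing π (f.toAddMonoidHom.comp φ) (f.toAddMonoidHom.comp ψ) (f a) := by
  obtain ⟨k, hk, rfl⟩ := h
  refine ⟨fun g => f (k g), ?_, (map_sum f _ _).symm⟩
  intro g h
  show f (k (g * h)) = f (k g) + f (k h) + f (φ (ofMul g)) * f (ψ (ofMul h))
  rw [hk, map_add, map_add, map_mul]

/-- Balancedness is transported along an isomorphism carrying `π` to `π'` up to conjugacy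
and reindexing. -/
theorem IsBalanced.comp {G' : Type*} [Group G'] {ι' : Type*} [Fintype ι']
    {π : ι → G} {π' : ι' → G'} (θ : G ≃* G') (e : ι ≃ ι')
    (hθ : ∀ c, ∃ g : G', θ (π c) = g * π' (e c) * g⁻¹)
    (hbal : IsBalanced A π') : IsBalanced A π := by
  intro lam
  have h := hbal (lam.comp (MonoidHom.toAdditive θ.symm.toMonoidHom))
  rw [← Equiv.sum_comp e] at h
  rw [← h]
  apply Finset.sum_congr rfl
  intro c _
  obtain ⟨g, hg⟩ := hθ c
  show lam (ofMul (π c)) = lam (ofMul (θ.symm (π' (e c))))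
  have h1 : π c = θ.symm g * θ.symm (π' (e c)) * (θ.symm g)⁻¹ := by
    apply θ.injective
    simp [hg]
  rw [h1, ofMul_mul, ofMul_mul, ofMul_inv, map_add, map_add, map_neg]
  abel

/-- Balancedness does not depend on the representatives of the peripheral classes. -/
theorem IsBalanced.conj {π π' : ι → G} (hπ : ∀ c, ∃ g : G, π c = g * π' c * g⁻¹)
    (hbal : IsBalanced A π') : IsBalanced A π :=
  IsBalanced.comp (MulEquiv.refl G) (Equiv.refl ι) (by simpa using hπ) hbal

end Pairing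

section Bilinear

variable {G : Type*} [Group G] {A : Type*} [CommRing A] {ι : Type*} [Fintype ι]

/-- The pairing as a bilinear map on a submodule `M` of homs, given balancedness
(uniqueness of the value) and existence of kappas for pairs in `M`. -/
noncomputable def pairingOn (π : ι → G) (hbal : IsBalanced A π)
    (M : Submodule A (Additive G →+ A))
    (hex : ∀ φ ∈ M, ∀ ψ ∈ M, ∃ a, HasPairing π φ ψ a) :
    M →ₗ[A] M →ₗ[A] A :=
  LinearMap.mk₂ A (fun φ ψ => Classical.choose (hex φ.1 φ.2 ψ.1 ψ.2))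
    (fun φ₁ φ₂ ψ => HasPairing.unique hbal
      (Classical.choose_spec (hex (φ₁ + φ₂ : M).1 (φ₁ + φ₂).2 ψ.1 ψ.2))
      ((Classical.choose_spec (hex φ₁.1 φ₁.2 ψ.1 ψ.2)).add_left
        (Classical.choose_spec (hex φ₂.1 φ₂.2 ψ.1 ψ.2))))
    (fun r φ ψ => HasPairing.unique hbal
      (Classical.choose_spec (hex (r • φ : M).1 (r • φ).2 ψ.1 ψ.2))
      ((Classical.choose_spec (hex φ.1 φ.2 ψ.1 ψ.2)).smul_left r))
    (fun φ ψ₁ ψ₂ => HasPairing.unique hbal
      (Classical.choose_spec (hex φ.1 φ.2 (ψ₁ + ψ₂ : M).1 (ψ₁ + ψ₂).2))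
      ((Classical.choose_spec (hex φ.1 φ.2 ψ₁.1 ψ₁.2)).add_right
        (Classical.choose_spec (hex φ.1 φ.2 ψ₂.1 ψ₂.2))))
    (fun r φ ψ => HasPairing.unique hbal
      (Classical.choose_spec (hex φ.1 φ.2 (r • ψ : M).1 (r • ψ).2))
      ((Classical.choose_spec (hex φ.1 φ.2 ψ.1 ψ.2)).smul_right r))

variable {π : ι → G} (hbal : IsBalanced A π) {M : Submodule A (Additive G →+ A)}
  (hex : ∀ φ ∈ M, ∀ ψ ∈ M, ∃ a, HasPairing π φ ψ a)

theorem pairingOn_spec (φ ψ : M) :
    HasPairing π φ.1 ψ.1 (pairingOn π hbal M hex φ ψ) :=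
  Classical.choose_spec (hex φ.1 φ.2 ψ.1 ψ.2)

theorem pairingOn_eq_of_hasPairing (φ ψ : M) {a : A} (h : HasPairing π φ.1 ψ.1 a) :
    pairingOn π hbal M hex φ ψ = a :=
  HasPairing.unique hbal (pairingOn_spec hbal hex φ ψ) h

theorem pairingOn_eq_sum (φ ψ : M) {k : G → A} (hk : Periph.IsKappaRel φ.1 ψ.1 k) :
    pairingOn π hbal M hex φ ψ = ∑ c, k (π c) :=
  pairingOn_eq_of_hasPairing hbal hex φ ψ ⟨k, hk, rfl⟩

/-- Antisymmetry on parabolic homs. -/
theorem pairingOn_swap (hM : M ≤ parHoms A π) (φ ψ : M) :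
    pairingOn π hbal M hex ψ φ = -pairingOn π hbal M hex φ ψ :=
  pairingOn_eq_of_hasPairing hbal hex ψ φ
    ((pairingOn_spec hbal hex φ ψ).swap_of_isPar_left (hM φ.2))

/-- Alternating on parabolic homs when `A` has no `2`-torsion. -/
theorem pairingOn_self (hM : M ≤ parHoms A π) (h2 : ∀ x : A, x + x = 0 → x = 0) (φ : M) :
    pairingOn π hbal M hex φ φ = 0 :=
  HasPairing.self_eq_zero hbal h2 (hM φ.2) (pairingOn_spec hbal hex φ φ)

/-- **(Inv)** for the bilinear pairing: if `θ : G → G'` carries `π` to `π'` up to conjugacy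
and reindexing, then `⟨φ ∘ θ, ψ ∘ θ⟩ = ⟨φ, ψ⟩` for parabolic `φ, ψ`. -/
theorem pairingOn_comp {G' : Type*} [Group G'] {ι' : Type*} [Fintype ι']
    {π' : ι' → G'} (hbal' : IsBalanced A π') {M' : Submodule A (Additive G' →+ A)}
    (hex' : ∀ φ ∈ M', ∀ ψ ∈ M', ∃ a, HasPairing π' φ ψ a) (hM' : M' ≤ parHoms A π')
    (θ : G →* G') (e : ι ≃ ι') (hθ : ∀ c, ∃ g : G', θ (π c) = g * π' (e c) * g⁻¹)
    (φ ψ : M') (hφ : (φ.1).comp (MonoidHom.toAdditive θ) ∈ M)
    (hψ : (ψ.1).comp (MonoidHom.toAdditive θ) ∈ M) :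
    pairingOn π hbal M hex ⟨_, hφ⟩ ⟨_, hψ⟩ = pairingOn π' hbal' M' hex' φ ψ :=
  pairingOn_eq_of_hasPairing hbal hex _ _
    (HasPairing.comp θ e hθ (hM' φ.2) (hM' ψ.2) (pairingOn_spec hbal' hex' φ ψ))

end Bilinear

end Fermat.Agent.S41.Pairing
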