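import Mathlib
import Fermat.Prelude.Def_ModularCurve_PeriodMap
import Fermat.Agent.S41.Cores
import Fermat.Agent.S41.Pairing.Periph
import Fermat.Agent.S41.Pairing.Cusps

/-!
# S41 / (P4): adjointness for a transfer along `j = ι ∘ θ`

`ι : Γ₁ →* Γ₂` is an honest inclusion of finite-index subgroups of `SL(2, ℤ)` (for which the
adjointness `⟨φ ∘ ι, ψ₁⟩_{Γ₁} = ⟨φ, cores ι ψ₁⟩_{Γ₂}` is known), `θ : Γ' ≃* Γ₁` an isomorphism
preserving positive primitive parabolic elements, and `j = ι ∘ θ`.  Then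
`⟨φ ∘ j, ψ⟩_{Γ'} = ⟨φ, cores j ψ⟩_{Γ₂}`.

* `cores_eq_of_comp`: `cores j ψ = cores ι (ψ ∘ θ⁻¹)`;
* `hasPairing_cores_of_equiv`: the adjointness statement at the level of `Periph.HasPairing`.

Application: `j = conjDelta M l : Γ₀(M l) → Γ₀(M)`, `Γ₁ = Γ₀(M) ∩ Γ⁰(l)`.
-/

set_option autoImplicit false

open scoped MatrixGroups
open ModularCurve.Period

namespace Fermat.Agent.S41.Pairing.AdjEquiv

open Fermat.Agent.S41.Cores

section CoresEquiv

variable {G H H' : Type*} [Group G] [Group H] [Group H'] {A : Type*} [AddCommGroup A]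

/-- Corestriction along `j = ι ∘ θ` (`θ` an isomorphism of the sources) is corestriction along
`ι` after transporting the character along `θ`. -/
theorem cores_eq_of_comp (j : H' →* G) (hj : Function.Injective j) [j.range.FiniteIndex]
    (ι : H →* G) (hι : Function.Injective ι) [ι.range.FiniteIndex] (θ : H' ≃* H)
    (h : ∀ x, j x = ι (θ x)) (ψ : Additive H' →+ A) :
    cores j hj ψ = cores ι hι (ψ.comp (MonoidHom.toAdditive θ.symm.toMonoidHom)) := by
  classical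
  refine AddMonoidHom.ext fun a => ?_
  have : Fintype (RQ ι) := Fintype.ofFinite _
  have hr := isRightTransversal_out ι
  obtain ⟨σ, γ', hrel⟩ := exists_rel ι _ hr (Additive.toMul a)
  have hr' : IsRightTransversal j (fun q : RQ ι => q.out) := by
    refine ⟨fun g => ?_, fun x y k hk => ?_⟩
    · obtain ⟨x, k, hk⟩ := hr.1 g
      exact ⟨x, θ.symm k, by rw [h, θ.apply_symm_apply]; exact hk⟩
    · exact hr.2 x y (θ k) (by rw [← h]; exact hk)
  have e1 : cores ι hι (ψ.comp (MonoidHom.toAdditive θ.symm.toMonoidHom)) a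
      = ∑ x, (ψ.comp (MonoidHom.toAdditive θ.symm.toMonoidHom)) (Additive.ofMul (γ' x)) :=
    cores_apply_of_rel ι hι _ hr _ (Additive.toMul a) σ γ' hrel
  have e2 : cores j hj ψ a = ∑ x, ψ (Additive.ofMul (θ.symm (γ' x))) :=
    cores_apply_of_rel j hj _ hr' ψ (Additive.toMul a) σ (fun x => θ.symm (γ' x))
      (fun x => by rw [h, θ.apply_symm_apply]; exact hrel x)
  rw [e1, e2]
  rfl

end CoresEquiv

section Adj

/-- Prelude-parabolic homs kill the cusp generators. -/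
theorem isPar_cuspGen {Γ : Subgroup SL(2, ℤ)} [Γ.FiniteIndex] {A : Type*} [CommRing A]
    {φ : Additive Γ →+ A} (hφ : IsParabolicHom Γ φ) : IsPar (Cusps.cuspGen Γ) φ := by
  intro c
  apply hφ
  have h := (Cusps.isPosPar_cuspGen Γ c).1
  rw [Matrix.trace_fin_two]
  have h' : ((Cusps.cuspGen Γ c : SL(2, ℤ)) : Matrix (Fin 2) (Fin 2) ℤ) 0 0
      + ((Cusps.cuspGen Γ c : SL(2, ℤ)) : Matrix (Fin 2) (Fin 2) ℤ) 1 1 = 2 := h
  rw [h']
  norm_num

variable {Γ' Γ₁ Γ₂ : Subgroup SL(2, ℤ)} [Γ'.FiniteIndex] [Γ₁.FiniteIndex] [Γ₂.FiniteIndex]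
  {A : Type*} [CommRing A]

/-- **Adjointness through an isomorphism.**  If adjointness holds for `ι : Γ₁ →* Γ₂` and
`θ : Γ' ≃* Γ₁` preserves traces and positive primitive parabolic elements, then adjointness
holds for `j = ι ∘ θ`. -/
theorem hasPairing_cores_of_equiv
    (h' : (-1 : SL(2, ℤ)) ∈ Γ') (h₁ : (-1 : SL(2, ℤ)) ∈ Γ₁)
    (j : Γ' →* Γ₂) (hj : Function.Injective j) [j.range.FiniteIndex]
    (ι : Γ₁ →* Γ₂) (hι : Function.Injective ι) [ι.range.FiniteIndex]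
    (θ : Γ' ≃* Γ₁) (hjθ : ∀ x, j x = ι (θ x))
    (hθ : ∀ g : Γ', Cusps.IsPrimPosPar Γ' g ↔ Cusps.IsPrimPosPar Γ₁ (θ g))
    (htr : ∀ g : Γ', ((g : SL(2, ℤ)) : Matrix (Fin 2) (Fin 2) ℤ).trace
      = (((θ g : Γ₁) : SL(2, ℤ)) : Matrix (Fin 2) (Fin 2) ℤ).trace)
    (hincl : ∀ (φ : Additive Γ₂ →+ A) (ψ₁ : Additive Γ₁ →+ A) (a : A),
      IsParabolicHom Γ₂ φ → IsParabolicHom Γ₁ ψ₁ →
      HasPairing (Cusps.cuspGen Γ₁) (φ.comp (MonoidHom.toAdditive ι)) ψ₁ a →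
      HasPairing (Cusps.cuspGen Γ₂) φ (cores ι hι ψ₁) a)
    (φ : Additive Γ₂ →+ A) (ψ : Additive Γ' →+ A) (a : A)
    (hφ : IsParabolicHom Γ₂ φ) (hψ : IsParabolicHom Γ' ψ)
    (hφj : IsParabolicHom Γ' (φ.comp (MonoidHom.toAdditive j)))
    (h : HasPairing (Cusps.cuspGen Γ') (φ.comp (MonoidHom.toAdditive j)) ψ a) :
    HasPairing (Cusps.cuspGen Γ₂) φ (cores j hj ψ) a := by
  obtain ⟨e, he⟩ := Cusps.exists_cuspIdx_equiv h₁ h' θ.symm
    (fun g => by rw [hθ (θ.symm g), θ.apply_symm_apply])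
  have hstep := HasPairing.comp (θ.symm.toMonoidHom) e he (isPar_cuspGen hφj) (isPar_cuspGen hψ) h
  have e1 : ((φ.comp (MonoidHom.toAdditive j)).comp (MonoidHom.toAdditive θ.symm.toMonoidHom))
      = φ.comp (MonoidHom.toAdditive ι) := by
    refine AddMonoidHom.ext fun x => ?_
    show φ (Additive.ofMul (j (θ.symm (Additive.toMul x)))) = φ (Additive.ofMul (ι (Additive.toMul x)))
    rw [hjθ, θ.apply_symm_apply]
  rw [e1] at hstep
  have hψ₁ : IsParabolicHom Γ₁ (ψ.comp (MonoidHom.toAdditive θ.symm.toMonoidHom)) := by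
    intro γ hγ
    refine hψ (θ.symm γ) ?_
    rw [htr (θ.symm γ), θ.apply_symm_apply]
    exact hγ
  rw [cores_eq_of_comp j hj ι hι θ hjθ ψ]
  exact hincl φ _ a hφ hψ₁ hstep

end Adj

end Fermat.Agent.S41.Pairing.AdjEquiv
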