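import Fermat.Agent.S41.Pairing.Transfer
import Fermat.Agent.S41.Pairing.Periph
import Fermat.Agent.S41.Pairing.Cusps
import Fermat.Agent.S21.Parabolic
import Fermat.Prelude.Def_ModularCurve_PeriodMap

set_option autoImplicit false

/-!
# (Adj) for inclusions of finite-index subgroups of `SL(2, ℤ)`

For `Γ₁ ≤ Γ₂ ≤ SL(2, ℤ)` of finite index (given as `j : Γ₁ →* Γ₂` compatible with the coercions),
a parabolic character `φ` of `Γ₂` and a parabolic character `ψ'` of `Γ₁`: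
`HasPairing (cuspGen Γ₁) (φ ∘ j) ψ' a → HasPairing (cuspGen Γ₂) φ (trf ψ') a`
(torsion-free coefficients).  No matching of induced cusp families is needed: both sides are
compared with the sums `∑_{x ∈ SL(2,ℤ)/Γ} k (x.out⁻¹ T^m x.out)`, `T^m` acting trivially.
-/

open Matrix Matrix.SpecialLinearGroup ModularGroup MulAction
open scoped MatrixGroups
open Additive ModularCurve.Period

namespace Fermat.Agent.S41.Pairing

/-! ### The coset cocycle of a subgroup -/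

section SubDelta

variable {G : Type*} [Group G] (Γ : Subgroup G)

theorem sdelta_mem (g : G) (x : G ⧸ Γ) : (g • x).out⁻¹ * g * x.out ∈ Γ := by
  have h : (((g • x).out : G) : G ⧸ Γ) = ((g * x.out : G) : G ⧸ Γ) := by
    rw [QuotientGroup.out_eq']
    conv_lhs => rw [← QuotientGroup.out_eq' x]
    rfl
  rw [QuotientGroup.eq] at h
  simpa [mul_assoc] using h

/-- The coset cocycle `(g • x).out⁻¹ * g * x.out` of a subgroup `Γ ≤ G`, as an element of `Γ`. -/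
noncomputable def sdelta (g : G) (x : G ⧸ Γ) : Γ :=
  ⟨(g • x).out⁻¹ * g * x.out, sdelta_mem Γ g x⟩

theorem coe_sdelta (g : G) (x : G ⧸ Γ) :
    (sdelta Γ g x : G) = (g • x).out⁻¹ * g * x.out := rfl

theorem isTrfCocycle_sdelta : IsTrfCocycle (sdelta Γ) := by
  intro g h x
  apply Subtype.ext
  simp only [coe_sdelta, Subgroup.coe_mul, mul_smul]
  group

variable {Γ}

theorem coe_sdelta_of_fixed {g : G} {x : G ⧸ Γ} (h : g • x = x) :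
    (sdelta Γ g x : G) = x.out⁻¹ * g * x.out := by
  rw [coe_sdelta, h]

theorem sdelta_pow_of_fixed {g : G} {x : G ⧸ Γ} (h : g • x = x) (n : ℕ) :
    sdelta Γ (g ^ n) x = sdelta Γ g x ^ n := by
  induction n with
  | zero => rw [pow_zero, pow_zero, (isTrfCocycle_sdelta Γ).map_one]
  | succ n ih =>
    have hn : g ^ n • x = x := by
      clear ih
      induction n with
      | zero => simp
      | succ n ih => rw [pow_succ, mul_smul, h, ih]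
    rw [(isTrfCocycle_sdelta Γ).map_pow_succ, hn, ih, pow_succ']

/-- On a fixed point, commuting elements give conjugate values of the cocycle. -/
theorem sdelta_smul_of_commute {g t : G} {x : G ⧸ Γ} (hc : Commute g t) (ht : t • x = x) :
    sdelta Γ t (g • x) = sdelta Γ g x * sdelta Γ t x * (sdelta Γ g x)⁻¹ := by
  have h1 := isTrfCocycle_sdelta Γ g t x
  have h2 := isTrfCocycle_sdelta Γ t g x
  rw [ht] at h1
  rw [← hc.eq, h1] at h2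
  rw [h2]
  group

end SubDelta

/-! ### Traces -/

theorem trace_conj_T_pow (g : SL(2, ℤ)) (n : ℕ) :
    ((g⁻¹ * T ^ n * g : SL(2, ℤ)) : Matrix (Fin 2) (Fin 2) ℤ).trace = 2 := by
  have h : (g⁻¹ * T ^ n * g : SL(2, ℤ)) = g⁻¹ * (T ^ n * g) := by group
  rw [h, Matrix.SpecialLinearGroup.coe_mul, Matrix.trace_mul_comm,
    ← Matrix.SpecialLinearGroup.coe_mul]
  have h2 : T ^ n * g * g⁻¹ = (T ^ n : SL(2, ℤ)) := by group
  rw [h2, ← zpow_natCast, ModularGroup.coe_T_zpow, Matrix.trace_fin_two]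
  simp

theorem trace_sq_conj_T_pow (g : SL(2, ℤ)) (n : ℕ) :
    ((g⁻¹ * T ^ n * g : SL(2, ℤ)) : Matrix (Fin 2) (Fin 2) ℤ).trace ^ 2 = 4 := by
  rw [trace_conj_T_pow]; norm_num

theorem trace_conj_inv (a g : SL(2, ℤ)) :
    ((a⁻¹ * g * a : SL(2, ℤ)) : Matrix (Fin 2) (Fin 2) ℤ).trace
      = (g : Matrix (Fin 2) (Fin 2) ℤ).trace := by
  have h : (a⁻¹ * g * a : SL(2, ℤ)) = a⁻¹ * (g * a) := by group
  rw [h, Matrix.SpecialLinearGroup.coe_mul, Matrix.trace_mul_comm,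
    ← Matrix.SpecialLinearGroup.coe_mul]
  have h2 : g * a * a⁻¹ = g := by group
  rw [h2]

/-- Powers of an element with `trace ^ 2 = 4` have `trace ^ 2 = 4`. -/
theorem trace_sq_pow {γ : SL(2, ℤ)} (h : (γ : Matrix (Fin 2) (Fin 2) ℤ).trace ^ 2 = 4) (n : ℕ) :
    ((γ ^ n : SL(2, ℤ)) : Matrix (Fin 2) (Fin 2) ℤ).trace ^ 2 = 4 := by
  obtain ⟨δ, hδ⟩ := Fermat.Agent.S21.exists_conj_upper γ h
  obtain ⟨m, hm⟩ := Fermat.Agent.S21.upper_eq_T_zpow _ hδ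
  have h1 : (δ⁻¹ * γ * δ) ^ n = δ⁻¹ * γ ^ n * δ := by
    have h0 := conj_pow (a := δ⁻¹) (b := γ) (i := n)
    rwa [inv_inv] at h0
  have h2 : ((γ ^ n : SL(2, ℤ)) : Matrix (Fin 2) (Fin 2) ℤ).trace
      = (((δ⁻¹ * γ * δ) ^ n : SL(2, ℤ)) : Matrix (Fin 2) (Fin 2) ℤ).trace := by
    rw [h1, trace_conj_inv]
  rw [h2]
  rcases hm with hm | hm
  · rw [hm, ← zpow_natCast, ← _root_.zpow_mul, ModularGroup.coe_T_zpow, Matrix.trace_fin_two]
    simp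
  · rw [hm, neg_pow]
    rcases neg_one_pow_eq_or SL(2, ℤ) n with h3 | h3
    · rw [h3, one_mul, ← zpow_natCast, ← _root_.zpow_mul, ModularGroup.coe_T_zpow,
        Matrix.trace_fin_two]
      simp
    · rw [h3, neg_mul, one_mul, Matrix.SpecialLinearGroup.coe_neg, Matrix.trace_neg,
        ← zpow_natCast, ← _root_.zpow_mul, ModularGroup.coe_T_zpow, Matrix.trace_fin_two]
      simp

/-! ### The sum over all cosets versus the sum over the cusps -/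

section CuspSum

variable (Γ : Subgroup SL(2, ℤ))

theorem isOrbitReps_cuspOut :
    IsOrbitReps (T : SL(2, ℤ)) (fun c : Cusps.CuspIdx Γ => (c.out : SL(2, ℤ) ⧸ Γ)) := by
  intro x
  refine ⟨Quotient.mk _ x, ?_, ?_⟩
  · have h1 : MulAction.orbitRel (Subgroup.zpowers (T : SL(2, ℤ))) (SL(2, ℤ) ⧸ Γ)
        (Quotient.mk _ x : Cusps.CuspIdx Γ).out x := Quotient.mk_out x
    rw [MulAction.orbitRel_apply] at h1
    obtain ⟨⟨z, hz⟩, hzx⟩ := h1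
    obtain ⟨n, rfl⟩ := Subgroup.mem_zpowers_iff.mp hz
    have hzx' : (T : SL(2, ℤ)) ^ n • x = (Quotient.mk _ x : Cusps.CuspIdx Γ).out := hzx
    refine ⟨-n, ?_⟩
    show (T : SL(2, ℤ)) ^ (-n) • (Quotient.mk _ x : Cusps.CuspIdx Γ).out = x
    rw [← hzx', ← mul_smul, ← _root_.zpow_add, neg_add_cancel, zpow_zero, one_smul]
  · rintro q ⟨n, hn⟩
    have h1 : (Quotient.mk _ x : Cusps.CuspIdx Γ) = Quotient.mk _ q.out := by
      apply Quotient.sound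
      show MulAction.orbitRel _ _ x q.out
      rw [MulAction.orbitRel_apply]
      exact ⟨⟨T ^ n, Subgroup.zpow_mem_zpowers T n⟩, hn⟩
    rw [h1, Quotient.out_eq]

theorem cuspGen_eq_zero_of_isParabolicHom {A : Type*} [AddCommGroup A] {φ : Additive Γ →+ A}
    (hφ : IsParabolicHom Γ φ) (c : Cusps.CuspIdx Γ) : φ (ofMul (Cusps.cuspGen Γ c)) = 0 :=
  hφ _ (by rw [Cusps.cuspGen_coe]; exact trace_sq_conj_T_pow _ _)

/-- (B1) For a kappa of two characters killing the cusp generators, the sum of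
`k (x.out⁻¹ T^m x.out)` over all cosets is `m` times the sum over the cusp family
(`T^m` acting trivially on the cosets). -/
theorem sum_sdelta_T_pow [Γ.FiniteIndex] [Fintype (SL(2, ℤ) ⧸ Γ)] {A : Type*} [CommRing A]
    {φ ψ : Additive Γ →+ A} {k : Γ → A} (hk : IsKappa φ ψ k)
    (hφ : ∀ c, φ (ofMul (Cusps.cuspGen Γ c)) = 0) (hψ : ∀ c, ψ (ofMul (Cusps.cuspGen Γ c)) = 0)
    (m : ℕ) (hm : ∀ x : SL(2, ℤ) ⧸ Γ, (T : SL(2, ℤ)) ^ m • x = x) :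
    ∑ x : SL(2, ℤ) ⧸ Γ, k (sdelta Γ (T ^ m) x) = m * ∑ c, k (Cusps.cuspGen Γ c) := by
  rw [sum_eq_sum_reps (T : SL(2, ℤ)) (isOrbitReps_cuspOut Γ), Finset.mul_sum]
  refine Finset.sum_congr rfl (fun c _ => ?_)
  have hw : (T : SL(2, ℤ)) ^ Cusps.cuspWidth Γ c • (c.out : SL(2, ℤ) ⧸ Γ) = c.out :=
    pow_minimalPeriod_smul _ _
  obtain ⟨n, hn⟩ : Cusps.cuspWidth Γ c ∣ m :=
    MulAction.pow_smul_eq_iff_minimalPeriod_dvd.mp (hm _)
  have hgen : sdelta Γ (T ^ Cusps.cuspWidth Γ c) c.out = Cusps.cuspGen Γ c :=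
    Subtype.ext (by rw [coe_sdelta_of_fixed hw]; rfl)
  have hpow : sdelta Γ (T ^ m) c.out = Cusps.cuspGen Γ c ^ n := by
    rw [hn, pow_mul, sdelta_pow_of_fixed hw, hgen]
  have hφn : φ (ofMul (Cusps.cuspGen Γ c ^ n)) = 0 := by
    rw [ofMul_pow, map_nsmul, hφ c, smul_zero]
  have hψn : ψ (ofMul (Cusps.cuspGen Γ c ^ n)) = 0 := by
    rw [ofMul_pow, map_nsmul, hψ c, smul_zero]
  have hterm : ∀ i : ℕ, k (sdelta Γ (T ^ m) ((T : SL(2, ℤ)) ^ i • (c.out : SL(2, ℤ) ⧸ Γ)))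
      = n * k (Cusps.cuspGen Γ c) := by
    intro i
    rw [sdelta_smul_of_commute (Commute.pow_pow (Commute.refl T) i m) (hm _), hpow,
      hk.map_conj_of_zero _ hφn hψn, hk.map_pow_of_left_zero (hφ c)]
  rw [Finset.sum_congr rfl (fun i _ => hterm i), Finset.sum_const, Finset.card_range,
    nsmul_eq_mul]
  have hwd : Function.minimalPeriod ((T : SL(2, ℤ)) • ·) (c.out : SL(2, ℤ) ⧸ Γ)
      = Cusps.cuspWidth Γ c := rfl
  rw [hwd, hn]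
  push_cast
  ring

end CuspSum

/-! ### Inclusions `Γ₁ ≤ Γ₂` -/

section Incl

variable {Γ₁ Γ₂ : Subgroup SL(2, ℤ)} (j : Γ₁ →* Γ₂)

theorem injective_of_coe (hj : ∀ h : Γ₁, ((j h : Γ₂) : SL(2, ℤ)) = h) : Function.Injective j := by
  intro a b hab
  apply Subtype.ext
  rw [← hj a, ← hj b, hab]

theorem mem_range_iff_coe_mem (hj : ∀ h : Γ₁, ((j h : Γ₂) : SL(2, ℤ)) = h) (γ : Γ₂) :
    γ ∈ j.range ↔ (γ : SL(2, ℤ)) ∈ Γ₁ := by
  constructor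
  · rintro ⟨h, rfl⟩
    rw [hj]; exact h.2
  · intro hγ
    exact ⟨⟨γ, hγ⟩, Subtype.ext (hj _)⟩

theorem le_of_coe (hj : ∀ h : Γ₁, ((j h : Γ₂) : SL(2, ℤ)) = h) : Γ₁ ≤ Γ₂ := by
  intro g hg
  have h := (j ⟨g, hg⟩).2
  rwa [hj] at h

/-- The map `(x, y) ↦ x.out * y.out` from `SL(2,ℤ)/Γ₂ × Γ₂/Γ₁` to `SL(2,ℤ)/Γ₁`. -/
noncomputable def pairMap (xy : (SL(2, ℤ) ⧸ Γ₂) × (Γ₂ ⧸ j.range)) : SL(2, ℤ) ⧸ Γ₁ :=
  QuotientGroup.mk (xy.1.out * ((xy.2.out : Γ₂) : SL(2, ℤ)))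

theorem pairMap_bijective (hj : ∀ h : Γ₁, ((j h : Γ₂) : SL(2, ℤ)) = h) :
    Function.Bijective (pairMap j) := by
  constructor
  · rintro ⟨x, y⟩ ⟨x', y'⟩ h
    have h1 : (x.out * ((y.out : Γ₂) : SL(2, ℤ)))⁻¹ * (x'.out * ((y'.out : Γ₂) : SL(2, ℤ))) ∈ Γ₁ :=
      QuotientGroup.eq.mp h
    have hx : x = x' := by
      rw [← QuotientGroup.out_eq' x, ← QuotientGroup.out_eq' x', QuotientGroup.eq]
      have h2 : x.out⁻¹ * x'.out = ((y.out : Γ₂) : SL(2, ℤ))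
          * ((x.out * ((y.out : Γ₂) : SL(2, ℤ)))⁻¹ * (x'.out * ((y'.out : Γ₂) : SL(2, ℤ))))
          * ((y'.out : Γ₂) : SL(2, ℤ))⁻¹ := by group
      rw [h2]
      exact Γ₂.mul_mem (Γ₂.mul_mem y.out.2 (le_of_coe j hj h1)) (Γ₂.inv_mem y'.out.2)
    subst hx
    have hy : y = y' := by
      rw [← QuotientGroup.out_eq' y, ← QuotientGroup.out_eq' y', QuotientGroup.eq,
        mem_range_iff_coe_mem j hj]
      have h2 : (((y.out)⁻¹ * y'.out : Γ₂) : SL(2, ℤ))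
          = (x.out * ((y.out : Γ₂) : SL(2, ℤ)))⁻¹ * (x.out * ((y'.out : Γ₂) : SL(2, ℤ))) := by
        rw [Subgroup.coe_mul, Subgroup.coe_inv]; group
      rw [h2]; exact h1
    rw [hy]
  · intro z
    obtain ⟨γ₂, hγ₂⟩ := QuotientGroup.mk_out_eq_mul Γ₂ z.out
    obtain ⟨n, hn⟩ := QuotientGroup.mk_out_eq_mul j.range (γ₂⁻¹ : Γ₂)
    have hn1 : ((n : Γ₂) : SL(2, ℤ)) ∈ Γ₁ := (mem_range_iff_coe_mem j hj _).mp n.2
    refine ⟨(QuotientGroup.mk z.out, QuotientGroup.mk (γ₂⁻¹ : Γ₂)), ?_⟩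
    show (QuotientGroup.mk ((QuotientGroup.mk z.out : SL(2, ℤ) ⧸ Γ₂).out
      * (((QuotientGroup.mk (γ₂⁻¹ : Γ₂) : Γ₂ ⧸ j.range).out : Γ₂) : SL(2, ℤ)))
        : SL(2, ℤ) ⧸ Γ₁) = z
    rw [hγ₂, hn]
    have h2 : z.out * (γ₂ : SL(2, ℤ)) * ((γ₂⁻¹ * (n : Γ₂) : Γ₂) : SL(2, ℤ))
        = z.out * ((n : Γ₂) : SL(2, ℤ)) := by
      rw [Subgroup.coe_mul, Subgroup.coe_inv]; group
    rw [h2, QuotientGroup.mk_mul_of_mem _ hn1, QuotientGroup.out_eq']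

theorem conj_T_pow_mem_of_fixed {Γ : Subgroup SL(2, ℤ)} {m : ℕ}
    (hm : ∀ z : SL(2, ℤ) ⧸ Γ, (T : SL(2, ℤ)) ^ m • z = z) (g : SL(2, ℤ)) :
    g⁻¹ * T ^ m * g ∈ Γ := by
  have h := hm (QuotientGroup.mk g)
  rw [MulAction.Quotient.smul_mk, eq_comm, QuotientGroup.eq, smul_eq_mul, ← mul_assoc] at h
  exact h

theorem fixed_of_conj_T_pow_mem {Γ : Subgroup SL(2, ℤ)} {m : ℕ}
    (hm : ∀ g : SL(2, ℤ), g⁻¹ * T ^ m * g ∈ Γ) (z : SL(2, ℤ) ⧸ Γ) :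
    (T : SL(2, ℤ)) ^ m • z = z := by
  rw [← QuotientGroup.out_eq' z, MulAction.Quotient.smul_mk, eq_comm, QuotientGroup.eq,
    smul_eq_mul, ← mul_assoc]
  exact hm _

/-- (B2) The transferred kappa summed over the cosets of `Γ₂` equals the kappa summed over the
cosets of `Γ₁` (on the conjugates of `T^m`, `T^m` acting trivially on `SL(2,ℤ)/Γ₁`). -/
theorem sum_kappaTrf_sdelta (hj : ∀ h : Γ₁, ((j h : Γ₂) : SL(2, ℤ)) = h)
    [Fintype (SL(2, ℤ) ⧸ Γ₁)] [Fintype (SL(2, ℤ) ⧸ Γ₂)] [Fintype (Γ₂ ⧸ j.range)]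
    {A : Type*} [CommRing A] {φ : Additive Γ₂ →+ A} {ψ' : Additive Γ₁ →+ A} {k' : Γ₁ → A}
    (hk' : IsKappa (φ.comp (MonoidHom.toAdditive j)) ψ' k')
    (hφ : IsParabolicHom Γ₂ φ) (hψ' : IsParabolicHom Γ₁ ψ') (m : ℕ)
    (hm : ∀ z : SL(2, ℤ) ⧸ Γ₁, (T : SL(2, ℤ)) ^ m • z = z) :
    ∑ x : SL(2, ℤ) ⧸ Γ₂,
        kappaTrf (cosetCocycle j) (fun y => φ (ofMul y.out)) ψ' k' (sdelta Γ₂ (T ^ m) x)
      = ∑ z : SL(2, ℤ) ⧸ Γ₁, k' (sdelta Γ₁ (T ^ m) z) := by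
  have hmem : ∀ g : SL(2, ℤ), g⁻¹ * T ^ m * g ∈ Γ₁ := conj_T_pow_mem_of_fixed hm
  have hm₂ : ∀ x : SL(2, ℤ) ⧸ Γ₂, (T : SL(2, ℤ)) ^ m • x = x :=
    fixed_of_conj_T_pow_mem (fun g => le_of_coe j hj (hmem g))
  have key : ∀ (x : SL(2, ℤ) ⧸ Γ₂) (y : Γ₂ ⧸ j.range),
      ψ' (ofMul (cosetCocycle j (sdelta Γ₂ (T ^ m) x) y)) = 0 ∧
      k' (cosetCocycle j (sdelta Γ₂ (T ^ m) x) y)
        = k' (sdelta Γ₁ (T ^ m) (pairMap j (x, y))) := by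
    intro x y
    set g : SL(2, ℤ) := x.out * ((y.out : Γ₂) : SL(2, ℤ)) with hg
    have hq : (((y.out)⁻¹ * sdelta Γ₂ (T ^ m) x * y.out : Γ₂) : SL(2, ℤ)) = g⁻¹ * T ^ m * g := by
      rw [Subgroup.coe_mul, Subgroup.coe_mul, Subgroup.coe_inv, coe_sdelta_of_fixed (hm₂ x), hg]
      group
    have hqr : (y.out)⁻¹ * sdelta Γ₂ (T ^ m) x * y.out ∈ j.range := by
      rw [mem_range_iff_coe_mem j hj, hq]; exact hmem g
    have hfix : sdelta Γ₂ (T ^ m) x • y = y := by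
      conv_lhs => rw [← QuotientGroup.out_eq' y]
      conv_rhs => rw [← QuotientGroup.out_eq' y]
      rw [MulAction.Quotient.smul_mk, smul_eq_mul, QuotientGroup.eq]
      have h1 : (sdelta Γ₂ (T ^ m) x * y.out)⁻¹ * y.out
          = ((y.out)⁻¹ * sdelta Γ₂ (T ^ m) x * y.out)⁻¹ := by group
      rw [h1]; exact j.range.inv_mem hqr
    have hp : ((cosetCocycle j (sdelta Γ₂ (T ^ m) x) y : Γ₁) : SL(2, ℤ)) = g⁻¹ * T ^ m * g := by
      have h1 := hj (cosetCocycle j (sdelta Γ₂ (T ^ m) x) y)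
      rw [map_cosetCocycle, hfix] at h1
      rw [← h1, hq]
    have hψp : ψ' (ofMul (cosetCocycle j (sdelta Γ₂ (T ^ m) x) y)) = 0 :=
      hψ' _ (by rw [hp]; exact trace_sq_conj_T_pow g m)
    have hφp : (φ.comp (MonoidHom.toAdditive j))
        (ofMul (cosetCocycle j (sdelta Γ₂ (T ^ m) x) y)) = 0 := by
      show φ (ofMul (j (cosetCocycle j (sdelta Γ₂ (T ^ m) x) y))) = 0
      exact hφ _ (by rw [hj, hp]; exact trace_sq_conj_T_pow g m)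
    refine ⟨hψp, ?_⟩
    obtain ⟨h, hh⟩ := QuotientGroup.mk_out_eq_mul Γ₁ g
    have hz : sdelta Γ₁ (T ^ m) (pairMap j (x, y))
        = h⁻¹ * cosetCocycle j (sdelta Γ₂ (T ^ m) x) y * h := by
      apply Subtype.ext
      rw [coe_sdelta_of_fixed (hm _), Subgroup.coe_mul, Subgroup.coe_mul, Subgroup.coe_inv, hp]
      show (QuotientGroup.mk g : SL(2, ℤ) ⧸ Γ₁).out⁻¹ * T ^ m
        * (QuotientGroup.mk g : SL(2, ℤ) ⧸ Γ₁).out = _
      rw [hh]; group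
    rw [hz, hk'.map_conj_inv_of_zero _ hφp hψp]
  calc ∑ x : SL(2, ℤ) ⧸ Γ₂,
        kappaTrf (cosetCocycle j) (fun y => φ (ofMul y.out)) ψ' k' (sdelta Γ₂ (T ^ m) x)
      = ∑ x : SL(2, ℤ) ⧸ Γ₂, ∑ y : Γ₂ ⧸ j.range,
          k' (sdelta Γ₁ (T ^ m) (pairMap j (x, y))) := by
        refine Finset.sum_congr rfl (fun x _ => ?_)
        rw [kappaTrf_of_zero (fun y => (key x y).1)]
        exact Finset.sum_congr rfl (fun y _ => (key x y).2)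
    _ = ∑ xy : (SL(2, ℤ) ⧸ Γ₂) × (Γ₂ ⧸ j.range), k' (sdelta Γ₁ (T ^ m) (pairMap j xy)) :=
        (Fintype.sum_prod_type (fun xy : (SL(2, ℤ) ⧸ Γ₂) × (Γ₂ ⧸ j.range) =>
          k' (sdelta Γ₁ (T ^ m) (pairMap j xy)))).symm
    _ = ∑ z : SL(2, ℤ) ⧸ Γ₁, k' (sdelta Γ₁ (T ^ m) z) :=
        (pairMap_bijective j hj).sum_comp (fun z => k' (sdelta Γ₁ (T ^ m) z))

/-- The transfer of a parabolic character is parabolic. -/
theorem isParabolicHom_trf (hj : ∀ h : Γ₁, ((j h : Γ₂) : SL(2, ℤ)) = h)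
    [Fintype (Γ₂ ⧸ j.range)] {A : Type*} [CommRing A] {ψ' : Additive Γ₁ →+ A}
    (hψ' : IsParabolicHom Γ₁ ψ') :
    IsParabolicHom Γ₂ (trf (isTrfCocycle_cosetCocycle j (injective_of_coe j hj)) ψ') := by
  intro γ hγ
  classical
  let _ : Fintype (OrbIdx γ (Γ₂ ⧸ j.range)) := Fintype.ofFinite _
  rw [trf_eq_sum_reps _ ψ' γ (isOrbitReps_out γ)]
  refine Finset.sum_eq_zero (fun q _ => hψ' _ ?_)
  have h1 := hj (cosetCocycle j (γ ^ Function.minimalPeriod (γ • ·) q.out) q.out)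
  rw [map_cosetCocycle, pow_minimalPeriod_smul] at h1
  rw [← h1, Subgroup.coe_mul, Subgroup.coe_mul, Subgroup.coe_inv, Subgroup.coe_pow,
    trace_conj_inv]
  exact trace_sq_pow hγ _

/-- Restriction of a parabolic character is parabolic. -/
theorem isParabolicHom_comp (hj : ∀ h : Γ₁, ((j h : Γ₂) : SL(2, ℤ)) = h) {A : Type*}
    [AddCommGroup A] {φ : Additive Γ₂ →+ A} (hφ : IsParabolicHom Γ₂ φ) :
    IsParabolicHom Γ₁ (φ.comp (MonoidHom.toAdditive j)) := by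
  intro γ hγ
  show φ (ofMul (j γ)) = 0
  exact hφ _ (by rw [hj]; exact hγ)

/-- **(Adj) for inclusions.** For `Γ₁ ≤ Γ₂ ≤ SL(2, ℤ)` of finite index, `φ` parabolic on `Γ₂`
and `ψ'` parabolic on `Γ₁`: a value of the cusp pairing of `(φ|Γ₁, ψ')` on `Γ₁` is a value of
the cusp pairing of `(φ, trf ψ')` on `Γ₂`. -/
theorem hasPairing_trf_of_incl [Γ₁.FiniteIndex] [Γ₂.FiniteIndex]
    (hj : ∀ h : Γ₁, ((j h : Γ₂) : SL(2, ℤ)) = h) [Fintype (Γ₂ ⧸ j.range)]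
    {A : Type*} [CommRing A] [IsAddTorsionFree A] {φ : Additive Γ₂ →+ A}
    {ψ' : Additive Γ₁ →+ A} (hφ : IsParabolicHom Γ₂ φ) (hψ' : IsParabolicHom Γ₁ ψ') {a : A}
    (h : HasPairing (Cusps.cuspGen Γ₁) (φ.comp (MonoidHom.toAdditive j)) ψ' a) :
    HasPairing (Cusps.cuspGen Γ₂) φ
      (trf (isTrfCocycle_cosetCocycle j (injective_of_coe j hj)) ψ') a := by
  classical
  obtain ⟨k', hk', hsum⟩ := h
  have hk'' : IsKappa (φ.comp (MonoidHom.toAdditive j)) ψ' k' := hk'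
  have hK := isKappa_kappaTrf_cosetCocycle j (injective_of_coe j hj) hk''
  refine ⟨kappaTrf (cosetCocycle j) (fun y => φ (ofMul y.out)) ψ' k', hK, ?_⟩
  let _ : Fintype (SL(2, ℤ) ⧸ Γ₁) := Fintype.ofFinite _
  let _ : Fintype (SL(2, ℤ) ⧸ Γ₂) := Fintype.ofFinite _
  obtain ⟨m, hmpos, hm⟩ : ∃ m : ℕ, 0 < m ∧
      ∀ z : SL(2, ℤ) ⧸ Γ₁, (T : SL(2, ℤ)) ^ m • z = z := by
    refine ⟨orderOf (MulAction.toPermHom SL(2, ℤ) (SL(2, ℤ) ⧸ Γ₁) T), orderOf_pos _,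
      fun z => ?_⟩
    have h1 := pow_orderOf_eq_one (MulAction.toPermHom SL(2, ℤ) (SL(2, ℤ) ⧸ Γ₁) T)
    rw [← map_pow] at h1
    exact congrArg (fun σ : Equiv.Perm (SL(2, ℤ) ⧸ Γ₁) => σ z) h1
  have hm₂ : ∀ x : SL(2, ℤ) ⧸ Γ₂, (T : SL(2, ℤ)) ^ m • x = x :=
    fixed_of_conj_T_pow_mem (fun g => le_of_coe j hj (conj_T_pow_mem_of_fixed hm g))
  have e1 := sum_sdelta_T_pow Γ₂ hK (cuspGen_eq_zero_of_isParabolicHom Γ₂ hφ)
    (cuspGen_eq_zero_of_isParabolicHom Γ₂ (isParabolicHom_trf j hj hψ')) m hm₂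
  have e2 := sum_kappaTrf_sdelta j hj hk'' hφ hψ' m hm
  have e3 := sum_sdelta_T_pow Γ₁ hk''
    (cuspGen_eq_zero_of_isParabolicHom Γ₁ (isParabolicHom_comp j hj hφ))
    (cuspGen_eq_zero_of_isParabolicHom Γ₁ hψ') m hm
  have e4 : m • ∑ c, kappaTrf (cosetCocycle j) (fun y => φ (ofMul y.out)) ψ' k'
      (Cusps.cuspGen Γ₂ c) = m • a := by
    rw [nsmul_eq_mul, nsmul_eq_mul, ← e1, e2, e3, hsum]
  exact nsmul_right_injective hmpos.ne' e4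

end Incl

end Fermat.Agent.S41.Pairing
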