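import Fermat.Agent.S41.Pairing.Heis

set_option autoImplicit false

/-!
# Transfer of Heisenberg cochains

Relational form of the transfer.  `G` acts on a finite set `X` and `d : G → X → H` is a
"transfer cocycle": `d (g * h) x = d g (h • x) * d h x`.  (Example: `X = G ⧸ H`,
`d g x = (g • x).out⁻¹ * g * x.out`.)

* `trf hd ψ'` is the transfer of an additive character `ψ'` of `H` to `G`.
* `kappaTrf d b ψ' k'` is the transfer of a kappa `k'` for `(φ', ψ')`; it is a kappa for
  `(φ, trf ψ')` as soon as `φ' (d g x) = φ g + b x - b (g • x)` (`φ'` is the restriction of `φ`).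
* The induced family `indFam d π rep` of a family `π : ι → G` (for systems `rep c : Q c → X` of
  representatives of the orbits of `π c` on `X`), and the two orbit formulas
  (Ind) `∑ i, lam' (indFam d π rep i) = ∑ c, trf lam' (π c)` and
  (Adj) `∑ c, kappaTrf d b ψ' k' (π c) = ∑ i, k' (indFam d π rep i)`.
-/

namespace Fermat.Agent.S41.Pairing

open Additive MulAction

section Relational

variable {G H X A : Type*} [Group G] [Group H] [MulAction G X] [CommRing A]

/-- `d : G → X → H` is a transfer cocycle for the action of `G` on `X`. -/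
def IsTrfCocycle (d : G → X → H) : Prop :=
  ∀ (g h : G) (x : X), d (g * h) x = d g (h • x) * d h x

theorem IsTrfCocycle.map_one {d : G → X → H} (hd : IsTrfCocycle d) (x : X) : d 1 x = 1 := by
  have h := hd 1 1 x
  rw [one_smul, mul_one] at h
  exact (mul_eq_left.mp h.symm)

theorem IsTrfCocycle.map_pow_succ {d : G → X → H} (hd : IsTrfCocycle d) (g : G) (n : ℕ) (x : X) :
    d (g ^ (n + 1)) x = d g (g ^ n • x) * d (g ^ n) x := by
  rw [pow_succ', hd]

/-- Additive characters telescope along a transfer cocycle. -/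
theorem IsTrfCocycle.hom_pow {d : G → X → H} (hd : IsTrfCocycle d) (lam' : Additive H →+ A)
    (g : G) (n : ℕ) (x : X) :
    lam' (ofMul (d (g ^ n) x)) = ∑ i ∈ Finset.range n, lam' (ofMul (d g (g ^ i • x))) := by
  induction n with
  | zero => simp [hd.map_one]
  | succ n ih =>
    rw [hd.map_pow_succ, ofMul_mul, map_add, ih, Finset.sum_range_succ, add_comm]

/-- The key telescoping identity for a kappa along a transfer cocycle. -/
theorem IsKappa.cocycle_pow {d : G → X → H} (hd : IsTrfCocycle d) {φ' ψ' : Additive H →+ A}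
    {k' : H → A} (hk' : IsKappa φ' ψ' k') {b : X → A} (g : G)
    (hg : ∀ x, φ' (ofMul (d g x)) = b x - b (g • x)) (n : ℕ) (x : X) :
    k' (d (g ^ n) x) =
      ∑ i ∈ Finset.range n,
          (k' (d g (g ^ i • x)) + b (g • g ^ i • x) * ψ' (ofMul (d g (g ^ i • x))))
        - b (g ^ n • x) * ψ' (ofMul (d (g ^ n) x)) := by
  induction n with
  | zero => simp [hd.map_one, hk'.map_one]
  | succ n ih =>
    have h1 : g ^ (n + 1) • x = g • g ^ n • x := by rw [pow_succ', mul_smul]
    rw [hd.map_pow_succ, hk', ih, Finset.sum_range_succ, ofMul_mul, map_add, hg, h1]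
    ring

variable [Fintype X]

/-- The transfer of an additive character along a transfer cocycle. -/
def trf {d : G → X → H} (hd : IsTrfCocycle d) (ψ' : Additive H →+ A) : Additive G →+ A where
  toFun g := ∑ x, ψ' (ofMul (d (toMul g) x))
  map_zero' := by simp [hd.map_one]
  map_add' g h := by
    show ∑ x, ψ' (ofMul (d (toMul g * toMul h) x)) = _
    simp only [hd _ _ _, ofMul_mul, map_add, Finset.sum_add_distrib]
    congr 1
    exact Fintype.sum_equiv (MulAction.toPerm (toMul h)) _ _ (fun x => rfl)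

@[simp]
theorem trf_apply {d : G → X → H} (hd : IsTrfCocycle d) (ψ' : Additive H →+ A) (g : G) :
    trf hd ψ' (ofMul g) = ∑ x, ψ' (ofMul (d g x)) := rfl

/-- The transfer of a kappa along a transfer cocycle, with gauge `b`. -/
def kappaTrf (d : G → X → H) (b : X → A) (ψ' : Additive H →+ A) (k' : H → A) (g : G) : A :=
  ∑ x, (k' (d g x) + b (g • x) * ψ' (ofMul (d g x)))

/-- The transfer of a kappa for `(φ', ψ')` is a kappa for `(φ, trf ψ')`. -/
theorem isKappa_kappaTrf {d : G → X → H} (hd : IsTrfCocycle d) {φ : Additive G →+ A}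
    {φ' ψ' : Additive H →+ A} {b : X → A}
    (hb : ∀ g x, φ' (ofMul (d g x)) = φ (ofMul g) + b x - b (g • x))
    {k' : H → A} (hk' : IsKappa φ' ψ' k') :
    IsKappa φ (trf hd ψ') (kappaTrf d b ψ' k') := by
  intro g h
  have key : ∀ x, k' (d (g * h) x) + b ((g * h) • x) * ψ' (ofMul (d (g * h) x)) =
      (k' (d g (h • x)) + b (g • h • x) * ψ' (ofMul (d g (h • x))))
        + (k' (d h x) + b (h • x) * ψ' (ofMul (d h x)))
        + φ (ofMul g) * ψ' (ofMul (d h x)) := by
    intro x
    rw [hd, hk', ofMul_mul, map_add, hb g (h • x), mul_smul]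
    ring
  unfold kappaTrf
  rw [Finset.sum_congr rfl (fun x _ => key x), Finset.sum_add_distrib, Finset.sum_add_distrib,
    trf_apply, Finset.mul_sum]
  congr 2
  exact Fintype.sum_equiv (MulAction.toPerm h) _ _ (fun x => rfl)

/-- On an element `g` such that `ψ'` kills all `d g x`, the transferred kappa is a plain sum. -/
theorem kappaTrf_of_zero {d : G → X → H} {b : X → A} {ψ' : Additive H →+ A} {k' : H → A} {g : G}
    (hψ : ∀ x, ψ' (ofMul (d g x)) = 0) :
    kappaTrf d b ψ' k' g = ∑ x, k' (d g x) := by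
  unfold kappaTrf
  refine Finset.sum_congr rfl (fun x _ => ?_)
  rw [hψ x, mul_zero, add_zero]

/-! ### Orbit decomposition -/

theorem minimalPeriod_smul_pos (g : G) (x : X) : 0 < Function.minimalPeriod (g • ·) x :=
  Function.minimalPeriod_pos_of_mem_periodicPts
    (Function.Injective.mem_periodicPts (MulAction.injective g) x)

omit [Fintype X] in
theorem pow_minimalPeriod_smul (g : G) (x : X) : g ^ Function.minimalPeriod (g • ·) x • x = x :=
  MulAction.pow_smul_eq_iff_minimalPeriod_dvd.mpr dvd_rfl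

/-- `rep : Q → X` is a system of representatives of the orbits of the cyclic group generated
by `g` on `X`. -/
def IsOrbitReps (g : G) {Q : Type*} (rep : Q → X) : Prop :=
  ∀ x : X, ∃! q : Q, ∃ n : ℤ, g ^ n • rep q = x

/-- The orbits of the cyclic group generated by `g` on `X` (with the action restricted from
`G`). -/
abbrev OrbIdx (g : G) (X : Type*) [MulAction G X] : Type _ :=
  orbitRel.Quotient (Subgroup.zpowers g) X

omit [Fintype X] in
theorem isOrbitReps_out (g : G) : IsOrbitReps g (fun q : OrbIdx g X => q.out) := by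
  intro x
  refine ⟨Quotient.mk'' x, ?_, ?_⟩
  · have h1 : MulAction.orbitRel (Subgroup.zpowers g) X
        (Quotient.mk'' x : OrbIdx g X).out x := Quotient.mk_out (s := MulAction.orbitRel _ X) x
    rw [MulAction.orbitRel_apply] at h1
    obtain ⟨⟨z, hz⟩, hzx⟩ := h1
    obtain ⟨n, rfl⟩ := Subgroup.mem_zpowers_iff.mp hz
    have hzx' : g ^ n • x = (Quotient.mk'' x : OrbIdx g X).out := hzx
    refine ⟨-n, ?_⟩
    show g ^ (-n) • (Quotient.mk'' x : OrbIdx g X).out = x
    rw [← hzx', ← mul_smul, ← zpow_add, neg_add_cancel, zpow_zero, one_smul]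
  · rintro q ⟨n, hn⟩
    have h1 : (Quotient.mk'' x : OrbIdx g X) = Quotient.mk'' q.out := by
      apply Quotient.sound'
      rw [MulAction.orbitRel_apply]
      exact ⟨⟨g ^ n, Subgroup.zpow_mem_zpowers g n⟩, hn⟩
    rw [h1, Quotient.out_eq']

/-- Decomposition of a sum over `X` along the orbits of the cyclic group generated by `g`. -/
theorem sum_eq_sum_reps (g : G) {Q : Type*} [Fintype Q] {rep : Q → X} (hrep : IsOrbitReps g rep)
    (F : X → A) :
    ∑ x, F x = ∑ q : Q,
      ∑ i ∈ Finset.range (Function.minimalPeriod (g • ·) (rep q)), F (g ^ i • rep q) := by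
  classical
  rw [← Finset.sum_fiberwise (Finset.univ : Finset X) (fun x => (hrep x).exists.choose) F]
  refine Finset.sum_congr rfl (fun q _ => ?_)
  set e := Function.minimalPeriod (g • ·) (rep q) with he
  have hepos : 0 < e := minimalPeriod_smul_pos g (rep q)
  have hinj : Set.InjOn (fun i : ℕ => g ^ i • rep q) (Finset.range e : Set ℕ) := by
    intro i hi j hj hij
    simp only [Finset.coe_range, Set.mem_Iio] at hi hj
    have h1 : (g • · : X → X)^[i] (rep q) = (g • · : X → X)^[j] (rep q) := by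
      rw [smul_iterate, smul_iterate]; exact hij
    exact (Function.iterate_eq_iterate_iff_of_lt_minimalPeriod hi hj).mp h1
  rw [← Finset.sum_image hinj]
  refine Finset.sum_congr ?_ (fun _ _ => rfl)
  ext x
  simp only [Finset.mem_filter, Finset.mem_univ, true_and, Finset.mem_image, Finset.mem_range]
  constructor
  · intro hx
    obtain ⟨n, hzx'⟩ := (hrep x).exists.choose_spec
    rw [hx] at hzx'
    have hmod := MulAction.zpow_smul_mod_minimalPeriod g (rep q) n
    have hnn : 0 ≤ n % (e : ℤ) := Int.emod_nonneg _ (by exact_mod_cast hepos.ne')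
    have hlt : n % (e : ℤ) < e := Int.emod_lt_of_pos _ (by exact_mod_cast hepos)
    refine ⟨(n % (e : ℤ)).toNat, ?_, ?_⟩
    · have := Int.toNat_of_nonneg hnn
      omega
    · rw [← hzx', ← hmod, ← zpow_natCast, Int.toNat_of_nonneg hnn]
  · rintro ⟨i, _, rfl⟩
    exact ((hrep (g ^ i • rep q)).unique (hrep (g ^ i • rep q)).exists.choose_spec
      ⟨(i : ℤ), by rw [zpow_natCast]⟩)

/-- Orbit formula for the transfer of an additive character. -/
theorem trf_eq_sum_reps {d : G → X → H} (hd : IsTrfCocycle d) (lam' : Additive H →+ A) (g : G)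
    {Q : Type*} [Fintype Q] {rep : Q → X} (hrep : IsOrbitReps g rep) :
    trf hd lam' (ofMul g) = ∑ q : Q,
      lam' (ofMul (d (g ^ Function.minimalPeriod (g • ·) (rep q)) (rep q))) := by
  rw [trf_apply, sum_eq_sum_reps g hrep]
  refine Finset.sum_congr rfl (fun q _ => ?_)
  rw [hd.hom_pow]

/-- Orbit formula for the transfer of a kappa, at an element `g` with `φ g = 0`. -/
theorem kappaTrf_eq_sum_reps {d : G → X → H} (hd : IsTrfCocycle d) {φ' ψ' : Additive H →+ A}
    {k' : H → A} (hk' : IsKappa φ' ψ' k') {b : X → A} (g : G)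
    (hg : ∀ x, φ' (ofMul (d g x)) = b x - b (g • x))
    {Q : Type*} [Fintype Q] {rep : Q → X} (hrep : IsOrbitReps g rep)
    (hψ : ∀ q : Q, ψ' (ofMul (d (g ^ Function.minimalPeriod (g • ·) (rep q)) (rep q))) = 0) :
    kappaTrf d b ψ' k' g = ∑ q : Q,
      k' (d (g ^ Function.minimalPeriod (g • ·) (rep q)) (rep q)) := by
  unfold kappaTrf
  rw [sum_eq_sum_reps g hrep]
  refine Finset.sum_congr rfl (fun q _ => ?_)
  rw [hk'.cocycle_pow hd g hg, hψ q, mul_zero, sub_zero]

/-! ### Induced families -/

variable {ι : Type*}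

/-- The family induced on `H` by a family `π : ι → G`, through the transfer cocycle `d` and
systems `rep c : Q c → X` of representatives of the orbits of `π c` on `X`: its members are
`d (π c ^ e) x` for `x = rep c q` and `e` the period of `x` under `π c`. -/
noncomputable def indFam (d : G → X → H) (π : ι → G) {Q : ι → Type*} (rep : ∀ c, Q c → X)
    (i : Σ c, Q c) : H :=
  d (π i.1 ^ Function.minimalPeriod (π i.1 • ·) (rep i.1 i.2)) (rep i.1 i.2)

omit [Fintype X] [Group H] in
theorem indFam_mk (d : G → X → H) (π : ι → G) {Q : ι → Type*} (rep : ∀ c, Q c → X) (c : ι)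
    (q : Q c) : indFam d π rep ⟨c, q⟩
      = d (π c ^ Function.minimalPeriod (π c • ·) (rep c q)) (rep c q) := rfl

/-- (Ind) Additive characters summed over the induced family. -/
theorem sum_indFam_hom {d : G → X → H} (hd : IsTrfCocycle d) (π : ι → G) [Fintype ι]
    {Q : ι → Type*} [∀ c, Fintype (Q c)] {rep : ∀ c, Q c → X}
    (hrep : ∀ c, IsOrbitReps (π c) (rep c)) (lam' : Additive H →+ A) :
    ∑ i : Σ c, Q c, lam' (ofMul (indFam d π rep i)) = ∑ c, trf hd lam' (ofMul (π c)) := by
  rw [Fintype.sum_sigma]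
  refine Finset.sum_congr rfl (fun c _ => ?_)
  rw [trf_eq_sum_reps hd lam' (π c) (hrep c)]
  rfl

/-- (Adj) The transferred kappa summed over a family equals the kappa summed over the induced
family. -/
theorem sum_kappaTrf {d : G → X → H} (hd : IsTrfCocycle d) {φ : Additive G →+ A}
    {φ' ψ' : Additive H →+ A} {b : X → A}
    (hb : ∀ g x, φ' (ofMul (d g x)) = φ (ofMul g) + b x - b (g • x))
    {k' : H → A} (hk' : IsKappa φ' ψ' k') (π : ι → G) [Fintype ι]
    {Q : ι → Type*} [∀ c, Fintype (Q c)] {rep : ∀ c, Q c → X}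
    (hrep : ∀ c, IsOrbitReps (π c) (rep c))
    (hφ : ∀ c, φ (ofMul (π c)) = 0)
    (hψ : ∀ i : Σ c, Q c, ψ' (ofMul (indFam d π rep i)) = 0) :
    ∑ c, kappaTrf d b ψ' k' (π c) = ∑ i : Σ c, Q c, k' (indFam d π rep i) := by
  rw [Fintype.sum_sigma]
  refine Finset.sum_congr rfl (fun c _ => ?_)
  rw [kappaTrf_eq_sum_reps hd hk' (π c) (fun x => by rw [hb, hφ c, zero_add]) (hrep c)
    (fun q => hψ ⟨c, q⟩)]
  rfl

end Relational

/-! ### The coset cocycle of an injective homomorphism of finite index -/

section InjHom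

variable {G H A : Type*} [Group G] [Group H] [CommRing A] (j : H →* G)

theorem cosetCocycle_mem (g : G) (x : G ⧸ j.range) : (g • x).out⁻¹ * g * x.out ∈ j.range := by
  have h : (((g • x).out : G) : G ⧸ j.range) = ((g * x.out : G) : G ⧸ j.range) := by
    rw [QuotientGroup.out_eq']
    conv_lhs => rw [← QuotientGroup.out_eq' x]
    rfl
  rw [QuotientGroup.eq] at h
  simpa [mul_assoc] using h

/-- The coset cocycle of a homomorphism `j : H →* G` (left cosets of `j.range`, section
`Quotient.out`): the preimage under `j` of `(g • x).out⁻¹ * g * x.out`. -/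
noncomputable def cosetCocycle (g : G) (x : G ⧸ j.range) : H :=
  Classical.choose (MonoidHom.mem_range.mp (cosetCocycle_mem j g x))

theorem map_cosetCocycle (g : G) (x : G ⧸ j.range) :
    j (cosetCocycle j g x) = (g • x).out⁻¹ * g * x.out :=
  Classical.choose_spec (MonoidHom.mem_range.mp (cosetCocycle_mem j g x))

theorem isTrfCocycle_cosetCocycle (hj : Function.Injective j) :
    IsTrfCocycle (cosetCocycle j) := by
  intro g h x
  apply hj
  rw [map_mul, map_cosetCocycle, map_cosetCocycle, map_cosetCocycle, mul_smul]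
  group

/-- The gauge of the coset cocycle: `b x = φ x.out`. -/
theorem cosetCocycle_gauge (φ : Additive G →+ A) (g : G) (x : G ⧸ j.range) :
    (φ.comp (MonoidHom.toAdditive j)) (ofMul (cosetCocycle j g x))
      = φ (ofMul g) + φ (ofMul x.out) - φ (ofMul (g • x).out) := by
  have h1 : (φ.comp (MonoidHom.toAdditive j)) (ofMul (cosetCocycle j g x))
      = φ (ofMul (j (cosetCocycle j g x))) := rfl
  rw [h1, map_cosetCocycle, ofMul_mul, ofMul_mul, ofMul_inv, map_add, map_add, map_neg]
  ring

/-- `x ↦ x.out⁻¹` is a right transversal of `j.range`. -/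
theorem existsUnique_out_inv (g : G) : ∃! x : G ⧸ j.range, ∃ h : H, g = j h * x.out⁻¹ := by
  refine ⟨((g⁻¹ : G) : G ⧸ j.range), ?_, ?_⟩
  · obtain ⟨⟨n, hn⟩, hout⟩ := QuotientGroup.mk_out_eq_mul j.range g⁻¹
    obtain ⟨h, rfl⟩ := MonoidHom.mem_range.mp hn
    refine ⟨h, ?_⟩
    show g = j h * (((g⁻¹ : G) : G ⧸ j.range).out)⁻¹
    rw [hout]
    group
  · rintro y ⟨h, hy⟩
    have h1 : y.out = g⁻¹ * j h := by rw [hy]; group
    rw [← QuotientGroup.out_eq' y, h1]
    exact (QuotientGroup.eq.mpr (by simp))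

/-- The relation `r x * g = j (γ' x) * r (σ x)` for the right transversal `r x = x.out⁻¹`,
with `σ x = g⁻¹ • x` and `γ' x = cosetCocycle j g (g⁻¹ • x)`. -/
theorem out_inv_mul (g : G) (x : G ⧸ j.range) :
    x.out⁻¹ * g = j (cosetCocycle j g (g⁻¹ • x)) * (g⁻¹ • x).out⁻¹ := by
  rw [map_cosetCocycle, smul_inv_smul]
  group

variable [Fintype (G ⧸ j.range)]

/-- The sum attached to the right transversal `x ↦ x.out⁻¹` is the transfer `trf`. -/
theorem sum_cosetCocycle_inv_smul (hj : Function.Injective j) (ψ' : Additive H →+ A) (g : G) :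
    ∑ x : G ⧸ j.range, ψ' (ofMul (cosetCocycle j g (g⁻¹ • x)))
      = trf (isTrfCocycle_cosetCocycle j hj) ψ' (ofMul g) := by
  rw [trf_apply]
  exact Fintype.sum_equiv (MulAction.toPerm g⁻¹) _ _ (fun x => rfl)

/-- (Adj) for an injective homomorphism `j : H →* G` of finite index, in explicit form:
the kappa `kappaTrf (cosetCocycle j) (fun x => φ x.out) ψ' k'` for `(φ, trf ψ')`. -/
theorem isKappa_kappaTrf_cosetCocycle (hj : Function.Injective j) {φ : Additive G →+ A}
    {ψ' : Additive H →+ A} {k' : H → A}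
    (hk' : IsKappa (φ.comp (MonoidHom.toAdditive j)) ψ' k') :
    IsKappa φ (trf (isTrfCocycle_cosetCocycle j hj) ψ')
      (kappaTrf (cosetCocycle j) (fun x => φ (ofMul x.out)) ψ' k') :=
  isKappa_kappaTrf (isTrfCocycle_cosetCocycle j hj) (cosetCocycle_gauge j φ) hk'

theorem sum_kappaTrf_cosetCocycle (hj : Function.Injective j) {φ : Additive G →+ A}
    {ψ' : Additive H →+ A} {k' : H → A}
    (hk' : IsKappa (φ.comp (MonoidHom.toAdditive j)) ψ' k') {ι : Type*} [Fintype ι] (π : ι → G)
    {Q : ι → Type*} [∀ c, Fintype (Q c)] {rep : ∀ c, Q c → G ⧸ j.range}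
    (hrep : ∀ c, IsOrbitReps (π c) (rep c))
    (hφ : ∀ c, φ (ofMul (π c)) = 0)
    (hψ : ∀ i : Σ c, Q c, ψ' (ofMul (indFam (cosetCocycle j) π rep i)) = 0) :
    ∑ c, kappaTrf (cosetCocycle j) (fun x => φ (ofMul x.out)) ψ' k' (π c)
      = ∑ i : Σ c, Q c, k' (indFam (cosetCocycle j) π rep i) :=
  sum_kappaTrf (isTrfCocycle_cosetCocycle j hj) (cosetCocycle_gauge j φ) hk' π hrep hφ hψ

omit [Fintype (G ⧸ j.range)] in
/-- The induced family in terms of the ambient group: `j (indFam …) = x.out⁻¹ * π c ^ e * x.out`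
with `x` the chosen representative of the orbit and `e` its period. -/
theorem map_indFam_cosetCocycle {ι : Type*} (π : ι → G) {Q : ι → Type*}
    (rep : ∀ c, Q c → G ⧸ j.range) (i : Σ c, Q c) :
    j (indFam (cosetCocycle j) π rep i)
      = (rep i.1 i.2).out⁻¹ * π i.1 ^ Function.minimalPeriod (π i.1 • ·) (rep i.1 i.2)
          * (rep i.1 i.2).out := by
  unfold indFam
  rw [map_cosetCocycle, pow_minimalPeriod_smul]

end InjHom

end Fermat.Agent.S41.Pairing
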