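import Fermat.Agent.S41.Pairing.Cusps
import Fermat.Agent.S41.Pairing.Transfer
import Fermat.Agent.S41.Pairing.Periph
import Fermat.Agent.S41.Cores

/-!
# The induced family of the cusp family is the cusp family  (S41, package P4, (Ind)-matching)

For `Γ' ≤ Γ ≤ SL(2, ℤ)` the family induced on `Γ'` (in the sense of `Transfer.indFam`, through
the coset cocycle of the inclusion) by the cusp family `cuspGen Γ` of `Γ` is, up to
`Γ'`-conjugacy and a canonical reindexing, the cusp family `cuspGen Γ'` of `Γ'`: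
the pair (cusp `c` of `Γ`, orbit of `cuspGen Γ c` on `Γ ⧸ Γ'` with representative `y`)
corresponds to the `T`-orbit of the coset `(cuspRep Γ c * y.out) Γ'`.

Consequence: adjointness of restriction and corestriction for the Heisenberg pairing,
`HasPairing (cuspGen Γ') (res φ) ψ' a → HasPairing (cuspGen Γ) φ (cores ψ') a`.
-/

set_option autoImplicit false

namespace Fermat.Agent.S41.Pairing.IndCusps

open Matrix MatrixGroups
open Fermat.Agent.S41.Pairing Fermat.Agent.S41.Pairing.Cusps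

section Basic

variable (Γ : Subgroup SL(2, ℤ))

/-- Two cosets have the same cusp index iff they are in the same `T`-orbit. -/
theorem mk_eq_mk_iff (x y : SL(2, ℤ) ⧸ Γ) :
    (Quotient.mk'' x : CuspIdx Γ) = Quotient.mk'' y ↔ ∃ n : ℤ, ModularGroup.T ^ n • y = x := by
  rw [Quotient.eq'', MulAction.orbitRel_apply, MulAction.mem_orbit_iff]
  constructor
  · rintro ⟨⟨z, hz⟩, hzx⟩
    obtain ⟨n, rfl⟩ := Subgroup.mem_zpowers_iff.mp hz
    exact ⟨n, hzx⟩
  · rintro ⟨n, hn⟩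
    exact ⟨⟨ModularGroup.T ^ n, Subgroup.zpow_mem_zpowers _ n⟩, hn⟩

/-- `T^n • yΓ = xΓ` iff `x⁻¹ * T^n * y ∈ Γ`. -/
theorem zpow_smul_mk_eq_iff (n : ℤ) (x y : SL(2, ℤ)) :
    ModularGroup.T ^ n • (y : SL(2, ℤ) ⧸ Γ) = (x : SL(2, ℤ) ⧸ Γ) ↔
      x⁻¹ * ModularGroup.T ^ n * y ∈ Γ := by
  rw [MulAction.Quotient.smul_mk, eq_comm, QuotientGroup.eq, smul_eq_mul, mul_assoc]

theorem mk_cuspRep (c : CuspIdx Γ) : ((cuspRep Γ c : SL(2, ℤ)) : SL(2, ℤ) ⧸ Γ) = c.out :=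
  QuotientGroup.out_eq' _

theorem mk_mk_cuspRep (c : CuspIdx Γ) :
    (Quotient.mk'' ((cuspRep Γ c : SL(2, ℤ)) : SL(2, ℤ) ⧸ Γ) : CuspIdx Γ) = c := by
  rw [mk_cuspRep]
  exact Quotient.out_eq' c

/-- `g_c⁻¹ T^n g_c ∈ Γ` iff the width of `c` divides `n`. -/
theorem conj_zpow_mem_iff (c : CuspIdx Γ) (n : ℤ) :
    (cuspRep Γ c)⁻¹ * ModularGroup.T ^ n * cuspRep Γ c ∈ Γ ↔ (cuspWidth Γ c : ℤ) ∣ n := by
  rw [← zpow_smul_mk_eq_iff, mk_cuspRep]
  exact MulAction.zpow_smul_eq_iff_minimalPeriod_dvd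

theorem coe_cuspGen_zpow (c : CuspIdx Γ) (m : ℤ) :
    ((cuspGen Γ c ^ m : Γ) : SL(2, ℤ)) =
      (cuspRep Γ c)⁻¹ * ModularGroup.T ^ ((cuspWidth Γ c : ℤ) * m) * cuspRep Γ c := by
  rw [Subgroup.coe_zpow, cuspGen_coe, _root_.zpow_mul, zpow_natCast]
  have := conj_zpow (a := (cuspRep Γ c)⁻¹) (b := ModularGroup.T ^ cuspWidth Γ c) (i := m)
  rw [inv_inv] at this
  exact this

/-- The period of a coset under `T` is constant along `T`-orbits. -/
theorem minimalPeriod_zpow_smul (n : ℤ) (x : SL(2, ℤ) ⧸ Γ) :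
    Function.minimalPeriod (ModularGroup.T • ·) (ModularGroup.T ^ n • x) =
      Function.minimalPeriod (ModularGroup.T • ·) x := by
  have hcomm : ∀ (p : ℕ) (z : SL(2, ℤ) ⧸ Γ),
      ModularGroup.T ^ p • ModularGroup.T ^ n • z = ModularGroup.T ^ n • ModularGroup.T ^ p • z := by
    intro p z
    rw [smul_smul, smul_smul, ← zpow_natCast, (Commute.zpow_zpow_self ModularGroup.T _ _).eq]
  apply Nat.dvd_antisymm
  · rw [← MulAction.pow_smul_eq_iff_minimalPeriod_dvd, hcomm,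
      MulAction.pow_smul_eq_iff_minimalPeriod_dvd.mpr dvd_rfl]
  · rw [← MulAction.pow_smul_eq_iff_minimalPeriod_dvd]
    have h := MulAction.pow_smul_eq_iff_minimalPeriod_dvd.mpr
      (dvd_refl (Function.minimalPeriod (ModularGroup.T • ·) (ModularGroup.T ^ n • x)))
    rw [hcomm] at h
    exact smul_left_cancel _ h

end Basic

section TwoLevel

variable {Γ' Γ : Subgroup SL(2, ℤ)} (hle : Γ' ≤ Γ)

theorem mem_range_inclusion_iff (a : Γ) :
    a ∈ (Subgroup.inclusion hle).range ↔ (a : SL(2, ℤ)) ∈ Γ' := by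
  rw [Subgroup.inclusion_range, Subgroup.mem_subgroupOf]

/-- `a • yΓ' = xΓ'` in `Γ ⧸ Γ'` iff `x⁻¹ * a * y ∈ Γ'`. -/
theorem smul_mk_eq_iff' (a x y : Γ) :
    a • (y : Γ ⧸ (Subgroup.inclusion hle).range) = (x : Γ ⧸ (Subgroup.inclusion hle).range) ↔
      ((x⁻¹ * a * y : Γ) : SL(2, ℤ)) ∈ Γ' := by
  rw [MulAction.Quotient.smul_mk, eq_comm, QuotientGroup.eq, smul_eq_mul, mul_assoc,
    mem_range_inclusion_iff]

/-- The element of `SL(2, ℤ)` attached to a cusp `c` of `Γ` and a coset `y` of `Γ'` in `Γ`. -/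
noncomputable def wRep (c : CuspIdx Γ) (y : Γ ⧸ (Subgroup.inclusion hle).range) : SL(2, ℤ) :=
  cuspRep Γ c * ((y.out : Γ) : SL(2, ℤ))

/-- Conjugating `T^(h m)` by `wRep c y` gives the conjugate of `cuspGen Γ c ^ m` by `y.out`;
more generally for two cosets. -/
theorem wRep_conj (c : CuspIdx Γ) (y y₂ : Γ ⧸ (Subgroup.inclusion hle).range) (m : ℤ) :
    (wRep hle c y)⁻¹ * ModularGroup.T ^ ((cuspWidth Γ c : ℤ) * m) * wRep hle c y₂ =
      ((y.out⁻¹ * cuspGen Γ c ^ m * y₂.out : Γ) : SL(2, ℤ)) := by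
  rw [Subgroup.coe_mul, Subgroup.coe_mul, Subgroup.coe_inv, coe_cuspGen_zpow]
  unfold wRep
  group

/-- `w⁻¹ T^n w₂ ∈ Γ'` forces the width of `c` to divide `n`. -/
theorem dvd_of_wRep_conj_mem (c : CuspIdx Γ) (y y₂ : Γ ⧸ (Subgroup.inclusion hle).range) (n : ℤ)
    (h : (wRep hle c y)⁻¹ * ModularGroup.T ^ n * wRep hle c y₂ ∈ Γ) : (cuspWidth Γ c : ℤ) ∣ n := by
  rw [← conj_zpow_mem_iff]
  have h2 : (cuspRep Γ c)⁻¹ * ModularGroup.T ^ n * cuspRep Γ c =
      ((y.out : Γ) : SL(2, ℤ)) * ((wRep hle c y)⁻¹ * ModularGroup.T ^ n * wRep hle c y₂) *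
        ((y₂.out : Γ) : SL(2, ℤ))⁻¹ := by
    unfold wRep
    group
  rw [h2]
  exact Γ.mul_mem (Γ.mul_mem (y.out).2 h) (Γ.inv_mem (y₂.out).2)

/-- `w⁻¹ T^n w ∈ Γ'` iff `width * period ∣ n`. -/
theorem wRep_conj_mem_iff (c : CuspIdx Γ) (y : Γ ⧸ (Subgroup.inclusion hle).range) (n : ℤ) :
    (wRep hle c y)⁻¹ * ModularGroup.T ^ n * wRep hle c y ∈ Γ' ↔
      ((cuspWidth Γ c : ℤ) * (Function.minimalPeriod (cuspGen Γ c • ·) y : ℤ)) ∣ n := by
  have key : ∀ m : ℤ, (wRep hle c y)⁻¹ * ModularGroup.T ^ ((cuspWidth Γ c : ℤ) * m) * wRep hle c y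
      ∈ Γ' ↔ (Function.minimalPeriod (cuspGen Γ c • ·) y : ℤ) ∣ m := by
    intro m
    rw [wRep_conj, ← smul_mk_eq_iff' hle, QuotientGroup.out_eq']
    exact MulAction.zpow_smul_eq_iff_minimalPeriod_dvd
  constructor
  · intro h
    obtain ⟨m, hm⟩ := dvd_of_wRep_conj_mem hle c y y n (hle h)
    rw [hm] at h ⊢
    exact mul_dvd_mul_left _ ((key m).mp h)
  · rintro ⟨m, hm⟩
    have hn : n = (cuspWidth Γ c : ℤ) *
        ((Function.minimalPeriod (cuspGen Γ c • ·) y : ℤ) * m) := by rw [hm, mul_assoc]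
    rw [hn]
    exact (key _).mpr (dvd_mul_right _ _)

/-- The `T`-period of the coset `wRep c y · Γ'` is `width c * period y`. -/
theorem minimalPeriod_wRep (c : CuspIdx Γ) (y : Γ ⧸ (Subgroup.inclusion hle).range) :
    Function.minimalPeriod (ModularGroup.T • ·) ((wRep hle c y : SL(2, ℤ)) : SL(2, ℤ) ⧸ Γ') =
      cuspWidth Γ c * Function.minimalPeriod (cuspGen Γ c • ·) y := by
  have key : ∀ n : ℕ, Function.minimalPeriod (ModularGroup.T • ·)
      ((wRep hle c y : SL(2, ℤ)) : SL(2, ℤ) ⧸ Γ') ∣ n ↔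
      cuspWidth Γ c * Function.minimalPeriod (cuspGen Γ c • ·) y ∣ n := by
    intro n
    rw [← MulAction.pow_smul_eq_iff_minimalPeriod_dvd, ← zpow_natCast, zpow_smul_mk_eq_iff,
      wRep_conj_mem_iff]
    exact_mod_cast Iff.rfl
  exact Nat.dvd_antisymm ((key _).mpr dvd_rfl) ((key _).mp dvd_rfl)

/-- The cusp of `Γ'` attached to a cusp `c` of `Γ` and a coset `y` of `Γ'` in `Γ`. -/
noncomputable def cuspOf (c : CuspIdx Γ) (y : Γ ⧸ (Subgroup.inclusion hle).range) : CuspIdx Γ' :=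
  Quotient.mk'' ((wRep hle c y : SL(2, ℤ)) : SL(2, ℤ) ⧸ Γ')

/-- The conjugate of `cuspGen Γ c ^ e` by `y.out` (`e` the period of `y`) is `Γ'`-conjugate to
the cusp generator of `Γ'` at `cuspOf c y`. -/
theorem exists_conj_cuspGen (c : CuspIdx Γ) (y : Γ ⧸ (Subgroup.inclusion hle).range) :
    ∃ g : Γ', ((y.out⁻¹ * cuspGen Γ c ^ Function.minimalPeriod (cuspGen Γ c • ·) y * y.out : Γ) :
      SL(2, ℤ)) = g * cuspGen Γ' (cuspOf hle c y) * g⁻¹ := by
  obtain ⟨n, hn⟩ := (mk_eq_mk_iff Γ' (cuspOf hle c y).out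
    ((wRep hle c y : SL(2, ℤ)) : SL(2, ℤ) ⧸ Γ')).mp (Quotient.out_eq' _)
  -- `hn : T^n • (w : X') = c'.out`
  have hw : Function.minimalPeriod (ModularGroup.T • ·) (cuspOf hle c y).out =
      cuspWidth Γ c * Function.minimalPeriod (cuspGen Γ c • ·) y := by
    rw [← hn, minimalPeriod_zpow_smul, minimalPeriod_wRep]
  rw [← mk_cuspRep Γ' (cuspOf hle c y), zpow_smul_mk_eq_iff] at hn
  refine ⟨⟨_, Γ'.inv_mem hn⟩, ?_⟩
  have e1 := wRep_conj hle c y y (Function.minimalPeriod (cuspGen Γ c • ·) y : ℤ)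
  rw [zpow_natCast] at e1
  rw [← e1, cuspGen_coe]
  show _ = _ * ((cuspRep Γ' (cuspOf hle c y))⁻¹ * ModularGroup.T ^ cuspWidth Γ' (cuspOf hle c y) *
    cuspRep Γ' (cuspOf hle c y)) * _
  have hw' : cuspWidth Γ' (cuspOf hle c y) =
      cuspWidth Γ c * Function.minimalPeriod (cuspGen Γ c • ·) y := hw
  rw [hw', ← zpow_natCast ModularGroup.T (cuspWidth Γ c * _)]
  push_cast
  generalize ((cuspWidth Γ c : ℤ) * (Function.minimalPeriod (cuspGen Γ c • ·) y : ℤ)) = N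
  group

section Matching

variable {Q : CuspIdx Γ → Type*} (rep : ∀ c, Q c → Γ ⧸ (Subgroup.inclusion hle).range)

/-- The canonical reindexing: (cusp `c` of `Γ`, orbit representative `rep c q`) ↦ cusp of `Γ'`. -/
noncomputable def cuspMap (i : Σ c, Q c) : CuspIdx Γ' := cuspOf hle i.1 (rep i.1 i.2)

theorem cuspMap_injective (hrep : ∀ c, IsOrbitReps (cuspGen Γ c) (rep c)) :
    Function.Injective (cuspMap hle rep) := by
  rintro ⟨c, q⟩ ⟨c2, q2⟩ h
  obtain ⟨n, hn⟩ := (mk_eq_mk_iff Γ' _ _).mp h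
  rw [zpow_smul_mk_eq_iff] at hn
  have hn' : (wRep hle c (rep c q))⁻¹ * ModularGroup.T ^ n * wRep hle c2 (rep c2 q2) ∈ Γ' := hn
  have hc : c = c2 := by
    rw [← mk_mk_cuspRep Γ c, ← mk_mk_cuspRep Γ c2, mk_eq_mk_iff]
    refine ⟨n, ?_⟩
    rw [zpow_smul_mk_eq_iff]
    have h2 : (cuspRep Γ c)⁻¹ * ModularGroup.T ^ n * cuspRep Γ c2 =
        (((rep c q).out : Γ) : SL(2, ℤ)) *
          ((wRep hle c (rep c q))⁻¹ * ModularGroup.T ^ n * wRep hle c2 (rep c2 q2)) *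
          (((rep c2 q2).out : Γ) : SL(2, ℤ))⁻¹ := by
      unfold wRep
      group
    rw [h2]
    exact Γ.mul_mem (Γ.mul_mem (rep c q).out.2 (hle hn')) (Γ.inv_mem (rep c2 q2).out.2)
  subst hc
  obtain ⟨m, hm⟩ := dvd_of_wRep_conj_mem hle c _ _ n (hle hn')
  rw [hm, wRep_conj, ← smul_mk_eq_iff' hle, QuotientGroup.out_eq', QuotientGroup.out_eq'] at hn'
  have hq : q = q2 := (hrep c (rep c q)).unique ⟨0, by simp⟩ ⟨m, hn'⟩
  rw [hq]

theorem cuspMap_surjective (hrep : ∀ c, IsOrbitReps (cuspGen Γ c) (rep c)) :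
    Function.Surjective (cuspMap hle rep) := by
  intro c'
  obtain ⟨c, hc⟩ : ∃ c : CuspIdx Γ,
      c = Quotient.mk'' ((cuspRep Γ' c' : SL(2, ℤ)) : SL(2, ℤ) ⧸ Γ) := ⟨_, rfl⟩
  have h0 : (Quotient.mk'' ((cuspRep Γ c : SL(2, ℤ)) : SL(2, ℤ) ⧸ Γ) : CuspIdx Γ) =
      Quotient.mk'' ((cuspRep Γ' c' : SL(2, ℤ)) : SL(2, ℤ) ⧸ Γ) := by
    rw [mk_mk_cuspRep, hc]
  obtain ⟨n, hn⟩ := (mk_eq_mk_iff Γ _ _).mp h0
  rw [zpow_smul_mk_eq_iff] at hn
  obtain ⟨q, m, hm⟩ := (hrep c (((⟨_, hn⟩ : Γ)) : Γ ⧸ (Subgroup.inclusion hle).range)).exists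
  refine ⟨⟨c, q⟩, ?_⟩
  rw [← mk_mk_cuspRep Γ' c']
  show (Quotient.mk'' ((wRep hle c (rep c q) : SL(2, ℤ)) : SL(2, ℤ) ⧸ Γ') : CuspIdx Γ') = _
  rw [mk_eq_mk_iff]
  refine ⟨n - (cuspWidth Γ c : ℤ) * m, ?_⟩
  rw [zpow_smul_mk_eq_iff]
  rw [← QuotientGroup.out_eq' (rep c q), smul_mk_eq_iff' hle] at hm
  have h2 : (wRep hle c (rep c q))⁻¹ * ModularGroup.T ^ (n - (cuspWidth Γ c : ℤ) * m) *
      cuspRep Γ' c' = ((((⟨_, hn⟩ : Γ))⁻¹ * cuspGen Γ c ^ m * (rep c q).out : Γ) : SL(2, ℤ))⁻¹ := by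
    rw [Subgroup.coe_mul, Subgroup.coe_mul, Subgroup.coe_inv, coe_cuspGen_zpow]
    unfold wRep
    group
  rw [h2]
  exact Γ'.inv_mem hm

/-- **(Ind)-matching.** The family induced on `Γ'` by the cusp family of `Γ` is, up to
`Γ'`-conjugacy and the canonical reindexing, the cusp family of `Γ'`. -/
theorem exists_equiv_indFam (hrep : ∀ c, IsOrbitReps (cuspGen Γ c) (rep c)) :
    ∃ E : (Σ c, Q c) ≃ CuspIdx Γ', ∀ i, ∃ g : Γ',
      indFam (cosetCocycle (Subgroup.inclusion hle)) (cuspGen Γ) rep i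
        = g * cuspGen Γ' (E i) * g⁻¹ := by
  refine ⟨Equiv.ofBijective (cuspMap hle rep)
    ⟨cuspMap_injective hle rep hrep, cuspMap_surjective hle rep hrep⟩, ?_⟩
  rintro ⟨c, q⟩
  obtain ⟨g, hg⟩ := exists_conj_cuspGen hle c (rep c q)
  refine ⟨g, ?_⟩
  apply Subtype.ext
  have h1 := map_indFam_cosetCocycle (Subgroup.inclusion hle) (cuspGen Γ) rep ⟨c, q⟩
  have h2 : ((indFam (cosetCocycle (Subgroup.inclusion hle)) (cuspGen Γ) rep ⟨c, q⟩ : Γ') :
      SL(2, ℤ)) = ((Subgroup.inclusion hle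
        (indFam (cosetCocycle (Subgroup.inclusion hle)) (cuspGen Γ) rep ⟨c, q⟩) : Γ) :
          SL(2, ℤ)) := rfl
  rw [h2, h1]
  exact hg

end Matching

end TwoLevel

section Adj

open Additive

variable {A : Type*} [CommRing A]

/-- The relational transfer `Transfer.trf` along the coset cocycle is the corestriction
`Cores.cores`. -/
theorem cores_eq_trf {G H : Type*} [Group G] [Group H] (j : H →* G) (hj : Function.Injective j)
    [j.range.FiniteIndex] [Fintype (G ⧸ j.range)] (ψ' : Additive H →+ A) :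
    Cores.cores j hj ψ' = trf (isTrfCocycle_cosetCocycle j hj) ψ' := by
  refine AddMonoidHom.ext fun a => ?_
  obtain ⟨g, rfl⟩ : ∃ g : G, Additive.ofMul g = a := ⟨Additive.toMul a, rfl⟩
  have hr : Cores.IsRightTransversal j (fun x : G ⧸ j.range => x.out⁻¹) := by
    refine ⟨fun g => ?_, fun x y h hxy => ?_⟩
    · obtain ⟨x, ⟨h, hx⟩, -⟩ := existsUnique_out_inv j g
      exact ⟨x, h, hx⟩
    · exact (existsUnique_out_inv j (x.out⁻¹)).unique ⟨1, by simp⟩ ⟨h, hxy⟩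
  rw [Cores.cores_apply_of_rel j hj _ hr ψ' g (fun x => g⁻¹ • x)
    (fun x => cosetCocycle j g (g⁻¹ • x)) (out_inv_mul j g)]
  exact sum_cosetCocycle_inv_smul j hj ψ' g

variable {Γ' Γ : Subgroup SL(2, ℤ)} (hle : Γ' ≤ Γ)

instance finiteIndex_range_inclusion [Γ'.FiniteIndex] :
    (Subgroup.inclusion hle).range.FiniteIndex := by
  rw [Subgroup.inclusion_range]
  infer_instance

/-- The restriction to `Γ'` of a hom killing the cusp generators of `Γ` kills the cusp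
generators of `Γ'`. -/
theorem isPar_comp_inclusion [Γ'.FiniteIndex] [Γ.FiniteIndex] {φ : Additive Γ →+ A}
    (hφ : IsPar (cuspGen Γ) φ) :
    IsPar (cuspGen Γ') (φ.comp (MonoidHom.toAdditive (Subgroup.inclusion hle))) := by
  classical
  obtain ⟨E, hE⟩ := exists_equiv_indFam hle
    (fun (c : CuspIdx Γ) (q : OrbIdx (cuspGen Γ c) (Γ ⧸ (Subgroup.inclusion hle).range)) => q.out)
    (fun c => isOrbitReps_out (cuspGen Γ c))
  intro c'
  obtain ⟨g, hg⟩ := hE (E.symm c')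
  rw [Equiv.apply_symm_apply] at hg
  have h1 : cuspGen Γ' c' = g⁻¹ * indFam (cosetCocycle (Subgroup.inclusion hle)) (cuspGen Γ)
      (fun (c : CuspIdx Γ) (q : OrbIdx (cuspGen Γ c) (Γ ⧸ (Subgroup.inclusion hle).range)) => q.out)
      (E.symm c') * g := by
    rw [hg]; group
  have hadd : ∀ a b : Γ, φ (ofMul (a * b)) = φ (ofMul a) + φ (ofMul b) := fun a b => by
    rw [ofMul_mul, map_add]
  have hinv : ∀ a : Γ, φ (ofMul a⁻¹) = -φ (ofMul a) := fun a => by rw [ofMul_inv, map_neg]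
  have hpow : ∀ (a : Γ) (n : ℕ), φ (ofMul (a ^ n)) = n • φ (ofMul a) := fun a n => by
    rw [ofMul_pow, map_nsmul]
  show φ (ofMul (Subgroup.inclusion hle (cuspGen Γ' c'))) = 0
  rw [h1, (Subgroup.inclusion hle).map_mul, (Subgroup.inclusion hle).map_mul,
    (Subgroup.inclusion hle).map_inv, map_indFam_cosetCocycle, hadd, hadd, hinv, hadd, hadd, hinv,
    hpow, hφ (E.symm c').1]
  simp

/-- **(Adj), final form for `Transfer.trf`.** -/
theorem hasPairing_trf [Γ'.FiniteIndex] [Γ.FiniteIndex]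
    [Fintype (Γ ⧸ (Subgroup.inclusion hle).range)]
    {φ : Additive Γ →+ A} {ψ' : Additive Γ' →+ A}
    (hφ : IsPar (cuspGen Γ) φ) (hψ' : IsPar (cuspGen Γ') ψ') {a : A}
    (h : HasPairing (cuspGen Γ') (φ.comp (MonoidHom.toAdditive (Subgroup.inclusion hle))) ψ' a) :
    HasPairing (cuspGen Γ) φ
      (trf (isTrfCocycle_cosetCocycle (Subgroup.inclusion hle)
        (Subgroup.inclusion_injective hle)) ψ') a := by
  classical
  obtain ⟨k', hk', rfl⟩ := h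
  have hj : Function.Injective (Subgroup.inclusion hle) := Subgroup.inclusion_injective hle
  have : ∀ c : CuspIdx Γ,
      Fintype (OrbIdx (cuspGen Γ c) (Γ ⧸ (Subgroup.inclusion hle).range)) :=
    fun c => Fintype.ofFinite _
  have hrep : ∀ c : CuspIdx Γ, IsOrbitReps (cuspGen Γ c)
      (fun q : OrbIdx (cuspGen Γ c) (Γ ⧸ (Subgroup.inclusion hle).range) => q.out) :=
    fun c => isOrbitReps_out (cuspGen Γ c)
  obtain ⟨E, hE⟩ := exists_equiv_indFam hle _ hrep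
  have hφ' := isPar_comp_inclusion hle hφ
  have hψ0 : ∀ i, ψ' (ofMul (indFam (cosetCocycle (Subgroup.inclusion hle)) (cuspGen Γ)
      (fun (c : CuspIdx Γ) (q : OrbIdx (cuspGen Γ c) (Γ ⧸ (Subgroup.inclusion hle).range)) => q.out)
      i)) = 0 := by
    intro i
    obtain ⟨g, hg⟩ := hE i
    rw [hg, ofMul_mul, ofMul_mul, ofMul_inv, map_add, map_add, map_neg, hψ' (E i)]
    abel
  refine ⟨kappaTrf (cosetCocycle (Subgroup.inclusion hle)) (fun x => φ (ofMul x.out)) ψ' k',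
    isKappa_kappaTrf_cosetCocycle (Subgroup.inclusion hle) hj hk', ?_⟩
  rw [sum_kappaTrf_cosetCocycle (Subgroup.inclusion hle) hj hk' (cuspGen Γ) hrep hφ hψ0,
    ← Equiv.sum_comp E (fun c' => k' (cuspGen Γ' c'))]
  refine Finset.sum_congr rfl fun i _ => ?_
  obtain ⟨g, hg⟩ := hE i
  rw [hg]
  exact Periph.kappa_conj_of_par hk' g _ (hφ' _) (hψ' _)

/-- **(Adj), final form**: restriction and corestriction are adjoint for the Heisenberg pairing
along the cusp families: a pairing value of `(res φ, ψ')` on `Γ'` is a pairing value of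
`(φ, cores ψ')` on `Γ`. -/
theorem hasPairing_cores [Γ'.FiniteIndex] [Γ.FiniteIndex]
    {φ : Additive Γ →+ A} {ψ' : Additive Γ' →+ A}
    (hφ : IsPar (cuspGen Γ) φ) (hψ' : IsPar (cuspGen Γ') ψ') {a : A}
    (h : HasPairing (cuspGen Γ') (φ.comp (MonoidHom.toAdditive (Subgroup.inclusion hle))) ψ' a) :
    HasPairing (cuspGen Γ) φ
      (Cores.cores (Subgroup.inclusion hle) (Subgroup.inclusion_injective hle) ψ') a := by
  classical
  have : Fintype (Γ ⧸ (Subgroup.inclusion hle).range) := Fintype.ofFinite _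
  rw [cores_eq_trf]
  exact hasPairing_trf hle hφ hψ' h

end Adj

end Fermat.Agent.S41.Pairing.IndCusps
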