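import Mathlib

set_option autoImplicit false
set_option linter.unusedSectionVars false

/-!
# S41 / (P4): the finite model of the intersection pairing

`X` is a finite set (the cosets `Γ \ SL(2, ℤ)`), `σ`, `τ` are the permutations induced by `S`, `T`.
For `u : X → A` a *potential* along `τ` is `P` with `P x - P (τ⁻¹ x) = u x` (partial sums around
the cusps; it exists iff all `τ`-orbit sums of `u` vanish).  `b2 τ P u'` is twice the model pairing
`∑ₓ u' x * (P x + P (τ⁻¹ x)) / 2`.

Main results: independence of the potential, antisymmetry, vanishing on coboundaries, and the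
determination of the radical over a field of characteristic `≠ 2`.
-/

namespace Fermat.Agent.S41.Pairing.Model

open Finset

variable {X : Type*} [Fintype X]

section Ring

variable {A : Type*} [CommRing A]

/-- `P` is a potential of `u` along `τ`: `P x - P (τ⁻¹ x) = u x`. -/
def IsPot (τ : Equiv.Perm X) (P u : X → A) : Prop :=
  ∀ x, P x - P (τ.symm x) = u x

/-- Twice the model pairing, computed from a potential `P` of the first argument. -/
def b2 (τ : Equiv.Perm X) (P u' : X → A) : A :=
  ∑ x, u' x * (P x + P (τ.symm x))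

theorem IsPot.add {τ : Equiv.Perm X} {P u Q v : X → A} (h : IsPot τ P u) (h' : IsPot τ Q v) :
    IsPot τ (P + Q) (u + v) := by
  intro x
  simp only [Pi.add_apply]
  rw [← h x, ← h' x]; ring

theorem IsPot.smul {τ : Equiv.Perm X} {P u : X → A} (c : A) (h : IsPot τ P u) :
    IsPot τ (c • P) (c • u) := by
  intro x
  simp only [Pi.smul_apply, smul_eq_mul]
  rw [← h x]; ring

theorem IsPot.neg {τ : Equiv.Perm X} {P u : X → A} (h : IsPot τ P u) :
    IsPot τ (-P) (-u) := by
  intro x
  simp only [Pi.neg_apply]
  rw [← h x]; ring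

theorem isPot_zero (τ : Equiv.Perm X) : IsPot τ (0 : X → A) 0 := by
  intro x; simp

/-- A `τ`-invariant function is a potential of `0`. -/
theorem isPot_of_invariant {τ : Equiv.Perm X} {lam : X → A} (h : ∀ x, lam (τ x) = lam x) :
    IsPot τ lam 0 := by
  intro x
  have := h (τ.symm x)
  rw [Equiv.apply_symm_apply] at this
  simp [this]

/-- Orbit sums of a function with a potential vanish (in dual form). -/
theorem sum_mul_invariant_eq_zero {τ : Equiv.Perm X} {P u lam : X → A} (h : IsPot τ P u)
    (hl : ∀ x, lam (τ x) = lam x) : ∑ x, u x * lam x = 0 := by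
  have key : ∀ x, u x * lam x = P x * lam x - P (τ.symm x) * lam (τ.symm x) := by
    intro x
    have := hl (τ.symm x)
    rw [Equiv.apply_symm_apply] at this
    rw [← h x, ← this]; ring
  simp_rw [key]
  rw [Finset.sum_sub_distrib, Equiv.sum_comp τ.symm (fun y => P y * lam y)]
  exact sub_self _

theorem b2_add_left (τ : Equiv.Perm X) (P Q u' : X → A) :
    b2 τ (P + Q) u' = b2 τ P u' + b2 τ Q u' := by
  unfold b2
  rw [← Finset.sum_add_distrib]
  refine Finset.sum_congr rfl fun x _ => ?_
  simp only [Pi.add_apply]; ring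

theorem b2_add_right (τ : Equiv.Perm X) (P u' v' : X → A) :
    b2 τ P (u' + v') = b2 τ P u' + b2 τ P v' := by
  unfold b2
  rw [← Finset.sum_add_distrib]
  refine Finset.sum_congr rfl fun x _ => ?_
  simp only [Pi.add_apply]; ring

theorem b2_smul_left (τ : Equiv.Perm X) (c : A) (P u' : X → A) :
    b2 τ (c • P) u' = c * b2 τ P u' := by
  unfold b2
  rw [Finset.mul_sum]
  refine Finset.sum_congr rfl fun x _ => ?_
  simp only [Pi.smul_apply, smul_eq_mul]; ring

theorem b2_smul_right (τ : Equiv.Perm X) (c : A) (P u' : X → A) :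
    b2 τ P (c • u') = c * b2 τ P u' := by
  unfold b2
  rw [Finset.mul_sum]
  refine Finset.sum_congr rfl fun x _ => ?_
  simp only [Pi.smul_apply, smul_eq_mul]; ring

/-- Antisymmetry of the model pairing. -/
theorem b2_antisymm {τ : Equiv.Perm X} {P u P' u' : X → A}
    (h : IsPot τ P u) (h' : IsPot τ P' u') : b2 τ P u' + b2 τ P' u = 0 := by
  unfold b2
  rw [← Finset.sum_add_distrib]
  have key : ∀ x, u' x * (P x + P (τ.symm x)) + u x * (P' x + P' (τ.symm x))
      = 2 * (P x * P' x) - 2 * (P (τ.symm x) * P' (τ.symm x)) := by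
    intro x; rw [← h x, ← h' x]; ring
  simp_rw [key]
  rw [Finset.sum_sub_distrib, Equiv.sum_comp τ.symm (fun y => 2 * (P y * P' y))]
  exact sub_self _

/-- The model pairing does not depend on the potential of the first argument, provided the
second argument has a potential. -/
theorem b2_indep {τ : Equiv.Perm X} {P Q u P' u' : X → A}
    (h : IsPot τ P u) (hQ : IsPot τ Q u) (h' : IsPot τ P' u') : b2 τ P u' = b2 τ Q u' := by
  have h1 := b2_antisymm h h'
  have h2 := b2_antisymm hQ h'
  linear_combination h1 - h2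

/-- Coboundaries `g ∘ σ - g` with `g` invariant under `x ↦ τ (σ x)` pair to zero with everything. -/
theorem b2_coboundary {σ τ : Equiv.Perm X} {P u g : X → A}
    (hσ : ∀ x, σ (σ x) = x) (hu : ∀ x, u (σ x) = - u x) (h : IsPot τ P u)
    (hg : ∀ x, g (τ (σ x)) = g x) :
    b2 τ P (fun x => g (σ x) - g x) = 0 := by
  have hgσ : ∀ x, g (σ x) = g (τ x) := by
    intro x
    have := hg (σ x)
    rw [hσ] at this
    exact this.symm
  unfold b2
  have e1 : ∑ x, g (τ x) * (P x + P (τ.symm x))
      = ∑ y, g y * (P (τ.symm y) + P (τ.symm (τ.symm y))) := by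
    rw [← Equiv.sum_comp τ (fun y => g y * (P (τ.symm y) + P (τ.symm (τ.symm y))))]
    simp
  have e2 : ∑ y, g y * u (τ.symm y) = - ∑ z, g z * u z := by
    rw [← Equiv.sum_comp (σ.trans τ) (fun y => g y * u (τ.symm y)), ← Finset.sum_neg_distrib]
    refine Finset.sum_congr rfl fun z _ => ?_
    simp only [Equiv.trans_apply, Equiv.symm_apply_apply]
    rw [hg, hu]; ring
  have e3 : ∀ y, g y * (P (τ.symm y) + P (τ.symm (τ.symm y))) - g y * (P y + P (τ.symm y))
      = - (g y * u y) - g y * u (τ.symm y) := by
    intro y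
    rw [← h y, ← h (τ.symm y)]; ring
  calc ∑ x, (g (σ x) - g x) * (P x + P (τ.symm x))
      = ∑ x, g (τ x) * (P x + P (τ.symm x)) - ∑ x, g x * (P x + P (τ.symm x)) := by
        rw [← Finset.sum_sub_distrib]
        refine Finset.sum_congr rfl fun x _ => ?_
        rw [hgσ]; ring
    _ = ∑ y, (- (g y * u y) - g y * u (τ.symm y)) := by
        rw [e1, ← Finset.sum_sub_distrib]
        exact Finset.sum_congr rfl fun y _ => e3 y
    _ = 0 := by
        rw [Finset.sum_sub_distrib, Finset.sum_neg_distrib, e2]; ring

end Ring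

section Field

variable {F : Type*} [Field F]

/-- Separation in `X → F`: a vector outside a subspace is detected by a coefficient vector
pairing to zero with the subspace. -/
theorem exists_sep (W : Submodule F (X → F)) {w : X → F} (hw : w ∉ W) :
    ∃ c : X → F, ∑ x, w x * c x ≠ 0 ∧ ∀ v ∈ W, ∑ x, v x * c x = 0 := by
  classical
  obtain ⟨f, hfw, hW⟩ := Submodule.exists_le_ker_of_notMem hw
  refine ⟨fun x => f fun j => if x = j then 1 else 0, ?_, ?_⟩
  · have := LinearMap.pi_apply_eq_sum_univ f w
    simp only [smul_eq_mul] at this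
    rwa [← this]
  · intro v hv
    have h1 := LinearMap.pi_apply_eq_sum_univ f v
    simp only [smul_eq_mul] at h1
    rw [← h1]
    exact hW hv

/-- The linear map `P ↦ (x ↦ P x - P (τ⁻¹ x))`. -/
def potMap (τ : Equiv.Perm X) : (X → F) →ₗ[F] (X → F) where
  toFun P := fun x => P x - P (τ.symm x)
  map_add' P Q := by funext x; simp only [Pi.add_apply]; ring
  map_smul' c P := by funext x; simp only [Pi.smul_apply, smul_eq_mul, RingHom.id_apply]; ring

/-- The linear map `lam ↦ (x ↦ lam x - lam (σ x))`. -/
def antiMap (σ : Equiv.Perm X) : (X → F) →ₗ[F] (X → F) where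
  toFun lam := fun x => lam x - lam (σ x)
  map_add' P Q := by funext x; simp only [Pi.add_apply]; ring
  map_smul' c P := by funext x; simp only [Pi.smul_apply, smul_eq_mul, RingHom.id_apply]; ring

/-- The subspace of `τ`-invariant functions. -/
def invSub (τ : Equiv.Perm X) : Submodule F (X → F) where
  carrier := {lam | ∀ x, lam (τ x) = lam x}
  add_mem' := by
    intro a b ha hb x
    simp only [Pi.add_apply]
    rw [ha x, hb x]
  zero_mem' := by intro x; rfl
  smul_mem' := by
    intro c a ha x
    simp only [Pi.smul_apply]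
    rw [ha x]

/-- Over a field, a function orthogonal to all `τ`-invariant functions (i.e. with vanishing
`τ`-orbit sums) has a potential. -/
theorem exists_pot_field (τ : Equiv.Perm X) (w : X → F)
    (hw : ∀ lam : X → F, (∀ x, lam (τ x) = lam x) → ∑ x, w x * lam x = 0) :
    ∃ P : X → F, IsPot τ P w := by
  classical
  by_contra hcon
  have hnot : w ∉ LinearMap.range (potMap (F := F) τ) := by
    rintro ⟨P, hP⟩
    exact hcon ⟨P, fun x => congrFun hP x⟩
  obtain ⟨c, hc, hW⟩ := exists_sep _ hnot
  have h1 : ∀ P : X → F, ∑ x, P x * (c x - c (τ x)) = 0 := by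
    intro P
    have h := hW (potMap τ P) ⟨P, rfl⟩
    have e : ∑ x, P (τ.symm x) * c x = ∑ x, P x * c (τ x) := by
      rw [← Equiv.sum_comp τ (fun x => P (τ.symm x) * c x)]
      simp
    have e' : ∑ x, potMap τ P x * c x = ∑ x, P x * c x - ∑ x, P (τ.symm x) * c x := by
      rw [← Finset.sum_sub_distrib]
      refine Finset.sum_congr rfl fun x _ => ?_
      show (P x - P (τ.symm x)) * c x = _
      ring
    rw [e', e, ← Finset.sum_sub_distrib] at h
    rw [← h]
    refine Finset.sum_congr rfl fun x _ => ?_
    ring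
  have hinv : ∀ y, c (τ y) = c y := by
    intro y
    have h := h1 (fun x => if x = y then 1 else 0)
    simp only [ite_mul, one_mul, zero_mul, Finset.sum_ite_eq', Finset.mem_univ, if_true] at h
    exact (sub_eq_zero.mp h).symm
  exact hc (hw c hinv)

/-- **The radical of the model pairing** (over a field of characteristic `≠ 2`): if `u` is
`σ`-antisymmetric with potential `P` and pairs to zero with every `σ`-antisymmetric function having
a potential, then `u` is a coboundary `g ∘ σ - g` with `g` invariant under `x ↦ τ (σ x)`. -/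
theorem radical {σ τ : Equiv.Perm X} {P u : X → F} (h2 : (2 : F) ≠ 0)
    (hσ : ∀ x, σ (σ x) = x) (hu : ∀ x, u (σ x) = - u x) (h : IsPot τ P u)
    (hrad : ∀ u' P' : X → F, (∀ x, u' (σ x) = - u' x) → IsPot τ P' u' → b2 τ P u' = 0) :
    ∃ g : X → F, (∀ x, g (τ (σ x)) = g x) ∧ ∀ x, u x = g (σ x) - g x := by
  classical
  set m : X → F := fun x => P x + P (τ.symm x) with hm
  set n : X → F := fun x => m x - m (σ x) with hn
  -- Step 1: `n` lies in the image of the invariants under the antisymmetrisation map.
  have hmem : n ∈ (invSub (F := F) τ).map (antiMap σ) := by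
    by_contra hnot
    obtain ⟨c, hc, hW⟩ := exists_sep _ hnot
    set w : X → F := fun x => c x - c (σ x) with hw
    have hwanti : ∀ x, w (σ x) = - w x := by
      intro x; simp only [hw, hσ]; ring
    have hreidx : ∀ f : X → F, ∑ x, f (σ x) * c x = ∑ x, f x * c (σ x) := by
      intro f
      rw [← Equiv.sum_comp σ (fun x => f x * c (σ x))]
      refine Finset.sum_congr rfl fun x _ => ?_
      rw [hσ]
    have hworth : ∀ lam : X → F, (∀ x, lam (τ x) = lam x) → ∑ x, w x * lam x = 0 := by
      intro lam hlam
      have h0 := hW (antiMap σ lam) (Submodule.mem_map_of_mem hlam)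
      have e' : ∑ x, antiMap σ lam x * c x = ∑ x, lam x * c x - ∑ x, lam (σ x) * c x := by
        rw [← Finset.sum_sub_distrib]
        refine Finset.sum_congr rfl fun x _ => ?_
        show (lam x - lam (σ x)) * c x = _
        ring
      rw [e', hreidx lam, ← Finset.sum_sub_distrib] at h0
      rw [← h0]
      refine Finset.sum_congr rfl fun x _ => ?_
      simp only [hw]; ring
    obtain ⟨P', hP'⟩ := exists_pot_field τ w hworth
    have hb := hrad w P' hwanti hP'
    apply hc
    have e'' : ∑ x, n x * c x = ∑ x, m x * c x - ∑ x, m (σ x) * c x := by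
      rw [← Finset.sum_sub_distrib]
      refine Finset.sum_congr rfl fun x _ => ?_
      simp only [hn]; ring
    rw [e'', hreidx m, ← Finset.sum_sub_distrib]
    unfold b2 at hb
    rw [← hb]
    refine Finset.sum_congr rfl fun x _ => ?_
    simp only [hw, hm]; ring
  obtain ⟨lam, hlam, hlamn⟩ := hmem
  have hlam' : ∀ x, lam (τ x) = lam x := hlam
  have hlamsymm : ∀ x, lam (τ.symm x) = lam x := by
    intro x
    have := hlam' (τ.symm x)
    rw [Equiv.apply_symm_apply] at this
    exact this.symm
  have hlamn' : ∀ x, lam x - lam (σ x) = m x - m (σ x) := fun x => congrFun hlamn x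
  -- Step 2: the corrected potential.
  have h2' : (2 : F) * 2⁻¹ = 1 := mul_inv_cancel₀ h2
  obtain ⟨Pt, hPt⟩ : ∃ Pt : X → F, Pt = fun x => P x - lam x / 2 := ⟨_, rfl⟩
  have hPtpot : ∀ x, Pt x - Pt (τ.symm x) = u x := by
    intro x
    simp only [hPt, hlamsymm]
    rw [← h x]; ring
  have hE1 : ∀ x, Pt x + Pt (τ.symm x) = Pt (σ x) + Pt (τ.symm (σ x)) := by
    intro x
    have h1 := hlamn' x
    simp only [hm] at h1
    simp only [hPt, hlamsymm]
    linear_combination (-1 : F) * h1 - (lam x - lam (σ x)) * h2'
  have hstar : ∀ x, Pt x = Pt (τ.symm (σ x)) := by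
    intro x
    have e1 := hE1 x
    have e2 := hu x
    rw [← hPtpot x, ← hPtpot (σ x)] at e2
    have : (2 : F) * (Pt x - Pt (τ.symm (σ x))) = 0 := by linear_combination e1 + e2
    rcases mul_eq_zero.mp this with h0 | h0
    · exact absurd h0 h2
    · exact sub_eq_zero.mp h0
  refine ⟨fun x => Pt (σ x), ?_, ?_⟩
  · intro x
    show Pt (σ (τ (σ x))) = Pt (σ x)
    rw [hstar (σ (τ (σ x))), hσ, Equiv.symm_apply_apply]
  · intro x
    show u x = Pt (σ (σ x)) - Pt (σ x)
    rw [hσ, hstar (σ x), hσ, hPtpot]

end Field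

end Fermat.Agent.S41.Pairing.Model
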