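import Mathlib
import Fermat.Agent.S16.ShimuraLift
import Fermat.Agent.S41.Pairing.Periph
import Fermat.Agent.S41.Pairing.Model

set_option autoImplicit false
set_option linter.unusedSectionVars false

/-!
# S41 / (P4): evaluating a Heisenberg cocycle on the cusps

`X = SL(2, ℤ) ⧸ Γ` (left cosets, left action).  A *Heisenberg cocycle* is a triple
`a b k : SL(2, ℤ) → X → A` with `a`, `b` cocycles (`IsCoc`) and
`k (g * h) x = k g (h • x) + k h x + a g (h • x) * b h x`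
(the third coordinate of a monomial cocycle with values in the Heisenberg group of `A`).

* `isKappaRel`: `γ ↦ k γ x₀` is a kappa for the pair of homs `(homOfCoc a, homOfCoc b)`.
* `conj_eq`: conjugation invariance at fixed points where `a`, `b` vanish.
* `pow_eq_sum`, `pow_eq_sum_pot`: the value on `t ^ m`, and its form when `a t` has a potential.
* `sum_orbits`: summing over the `T`-orbits gives a sum over `X`.
* `two_mul_sum_cusp`: twice the sum of the kappa over the cusp generators is `- b2 τ P u'`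
  (model pairing of `Fermat.Agent.S41.Pairing.Model`).
-/

open scoped MatrixGroups
open ModularGroup

namespace Fermat.Agent.S41.Pairing.Eval

open Fermat.Agent.S16.ShimuraLift Fermat.Agent.S21.GroupBound Fermat.Agent.S41.Pairing.Model

variable {Γ : Subgroup SL(2, ℤ)} {A : Type*} [CommRing A]

/-- The Heisenberg cocycle relation for the third coordinate `k` over the pair `(a, b)`. -/
def IsHeisCoc (Γ : Subgroup SL(2, ℤ)) (a b k : SL(2, ℤ) → (SL(2, ℤ) ⧸ Γ) → A) : Prop :=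
  ∀ (g h : SL(2, ℤ)) (x : SL(2, ℤ) ⧸ Γ),
    k (g * h) x = k g (h • x) + k h x + a g (h • x) * b h x

section Basic

variable {a b k : SL(2, ℤ) → (SL(2, ℤ) ⧸ Γ) → A}

theorem IsHeisCoc.one (ha : IsCoc Γ a) (hk : IsHeisCoc Γ a b k) (x : SL(2, ℤ) ⧸ Γ) :
    k 1 x = 0 := by
  have h := hk 1 1 x
  rw [mul_one, one_smul, ha.one, zero_mul, add_zero] at h
  have h' : k 1 x + 0 = k 1 x + k 1 x := by rw [add_zero]; exact h
  exact (add_left_cancel h').symm

/-- The value of a cocycle on a power. -/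
theorem coc_pow_eq_sum {c : SL(2, ℤ) → (SL(2, ℤ) ⧸ Γ) → A} (hc : IsCoc Γ c) (t : SL(2, ℤ))
    (m : ℕ) (y : SL(2, ℤ) ⧸ Γ) : c (t ^ m) y = ∑ i ∈ Finset.range m, c t (t ^ i • y) := by
  induction m with
  | zero => simp [hc.one]
  | succ m ih =>
    rw [pow_succ', hc, ih, Finset.sum_range_succ, add_comm]

/-- **Kappa.**  The restriction of `k` to `Γ` at the base point is a kappa for the homs attached
to `a` and `b`. -/
theorem isKappaRel (ha : IsCoc Γ a) (hb : IsCoc Γ b) (hk : IsHeisCoc Γ a b k) :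
    Periph.IsKappaRel (homOfCoc a ha) (homOfCoc b hb) (fun γ : Γ => k (γ : SL(2, ℤ)) (x0 Γ)) := by
  intro g h
  show k ((g * h : Γ) : SL(2, ℤ)) (x0 Γ) = k (g : SL(2, ℤ)) (x0 Γ) + k (h : SL(2, ℤ)) (x0 Γ)
    + homOfCoc a ha (Additive.ofMul g) * homOfCoc b hb (Additive.ofMul h)
  rw [homOfCoc_apply, homOfCoc_apply, Subgroup.coe_mul, hk, smul_x0_of_mem Γ h.2]

/-- **Conjugation.**  If `t` fixes `y = g • x₀` then `k (g⁻¹ t g) x₀` is `k t y` up to two
correction terms, which vanish when `a t y = 0 = b t y`. -/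
theorem conj_eq' (ha : IsCoc Γ a) (hk : IsHeisCoc Γ a b k) (g t : SL(2, ℤ))
    (hfix : t • (g • x0 Γ) = g • x0 Γ) :
    k (g⁻¹ * t * g) (x0 Γ)
      = k t (g • x0 Γ) + a t (g • x0 Γ) * b g (x0 Γ) + a g⁻¹ (g • x0 Γ) * b t (g • x0 Γ) := by
  have e1 := hk (g⁻¹ * t) g (x0 Γ)
  have e2 := hk g⁻¹ t (g • x0 Γ)
  have e3 := ha g⁻¹ t (g • x0 Γ)
  have e4 := hk g⁻¹ g (x0 Γ)
  rw [inv_mul_cancel, hk.one ha] at e4
  rw [hfix] at e2 e3
  rw [e1, e2, e3]
  linear_combination (-1 : A) * e4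

theorem conj_eq (ha : IsCoc Γ a) (hk : IsHeisCoc Γ a b k) (g t : SL(2, ℤ))
    (hfix : t • (g • x0 Γ) = g • x0 Γ) (hat : a t (g • x0 Γ) = 0) (hbt : b t (g • x0 Γ) = 0) :
    k (g⁻¹ * t * g) (x0 Γ) = k t (g • x0 Γ) := by
  rw [conj_eq' ha hk g t hfix, hat, hbt]; ring

/-- **Powers.** -/
theorem pow_eq_sum (ha : IsCoc Γ a) (hb : IsCoc Γ b) (hk : IsHeisCoc Γ a b k) (t : SL(2, ℤ))
    (m : ℕ) (x : SL(2, ℤ) ⧸ Γ) :
    k (t ^ m) x = ∑ i ∈ Finset.range m,
      (k t (t ^ i • x) + a t (t ^ i • x) * ∑ j ∈ Finset.range i, b t (t ^ j • x)) := by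
  induction m with
  | zero =>
    simp only [pow_zero, Finset.range_zero, Finset.sum_empty]
    exact hk.one ha x
  | succ m ih =>
    rw [pow_succ', hk, ih, Finset.sum_range_succ, coc_pow_eq_sum hb]
    ring

/-- A cocycle whose value at `t` has a potential telescopes on powers of `t`. -/
theorem coc_pow_of_pot {c : SL(2, ℤ) → (SL(2, ℤ) ⧸ Γ) → A} (hc : IsCoc Γ c) (t : SL(2, ℤ))
    (P : (SL(2, ℤ) ⧸ Γ) → A) (hP : ∀ y, c t y = P (t • y) - P y) (m : ℕ) (y : SL(2, ℤ) ⧸ Γ) :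
    c (t ^ m) y = P (t ^ m • y) - P y := by
  induction m with
  | zero => simp [hc.one]
  | succ m ih =>
    rw [pow_succ', hc, ih, hP, ← mul_smul]
    ring

/-- Abel summation against a potential. -/
theorem sum_mul_sum_eq_pot (t : SL(2, ℤ)) (P : (SL(2, ℤ) ⧸ Γ) → A)
    (hP : ∀ y, a t y = P (t • y) - P y) (bt : ℕ → A) (m : ℕ) (x : SL(2, ℤ) ⧸ Γ) :
    ∑ i ∈ Finset.range m, a t (t ^ i • x) * ∑ j ∈ Finset.range i, bt j
      = ∑ j ∈ Finset.range m, bt j * (P (t ^ m • x) - P (t ^ (j + 1) • x)) := by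
  induction m with
  | zero => simp
  | succ m ih =>
    rw [Finset.sum_range_succ, ih, Finset.sum_range_succ, sub_self, mul_zero, add_zero, hP,
      ← mul_smul, ← pow_succ', Finset.mul_sum, ← Finset.sum_add_distrib]
    refine Finset.sum_congr rfl fun j _ => ?_
    ring

/-- **Powers, potential form.**  If `a t` has the potential `P`, `t ^ m` fixes `x` and
`b (t ^ m) x = 0`, then `k (t ^ m) x` is a sum of local terms along the orbit. -/
theorem pow_eq_sum_pot (ha : IsCoc Γ a) (hb : IsCoc Γ b) (hk : IsHeisCoc Γ a b k)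
    (t : SL(2, ℤ)) (P : (SL(2, ℤ) ⧸ Γ) → A) (hP : ∀ y, a t y = P (t • y) - P y) (m : ℕ)
    (x : SL(2, ℤ) ⧸ Γ) (hfix : t ^ m • x = x) (hbm : b (t ^ m) x = 0) :
    k (t ^ m) x = ∑ j ∈ Finset.range m, (k t (t ^ j • x) - b t (t ^ j • x) * P (t • (t ^ j • x))) := by
  rw [pow_eq_sum ha hb hk, Finset.sum_add_distrib,
    sum_mul_sum_eq_pot t P hP (fun j => b t (t ^ j • x)) m x, hfix, Finset.sum_sub_distrib]
  have h0 : ∑ j ∈ Finset.range m, b t (t ^ j • x) = 0 := by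
    rw [← coc_pow_eq_sum hb]; exact hbm
  have h1 : ∑ j ∈ Finset.range m, b t (t ^ j • x) * (P x - P (t ^ (j + 1) • x))
      = - ∑ j ∈ Finset.range m, b t (t ^ j • x) * P (t • (t ^ j • x)) := by
    have : ∀ j, b t (t ^ j • x) * (P x - P (t ^ (j + 1) • x))
        = b t (t ^ j • x) * P x - b t (t ^ j • x) * P (t • (t ^ j • x)) := by
      intro j
      rw [← mul_smul, ← pow_succ']; ring
    simp_rw [this]
    rw [Finset.sum_sub_distrib, ← Finset.sum_mul, h0]
    ring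
  rw [h1]; ring

end Basic

section Orbits

open MulAction Function

/-- Summing a function of the integer lift over `ZMod n`. -/
theorem sum_zmod_cast {n : ℕ} [NeZero n] (f : ℤ → A) :
    ∑ i : ZMod n, f (ZMod.cast i) = ∑ j ∈ Finset.range n, f (j : ℤ) := by
  cases n with
  | zero => exact absurd rfl (NeZero.ne 0)
  | succ n =>
    rw [← Fin.sum_univ_eq_sum_range (fun j => f (j : ℤ)) (n + 1)]
    rfl

variable [Fintype (SL(2, ℤ) ⧸ Γ)]

/-- **Orbit decomposition.**  Summing the partial orbit sums over the `⟨t⟩`-orbits gives the sum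
over `SL(2, ℤ) ⧸ Γ`. -/
theorem sum_orbits (t : SL(2, ℤ))
    [Fintype (Quotient (orbitRel (Subgroup.zpowers t) (SL(2, ℤ) ⧸ Γ)))]
    (F : (SL(2, ℤ) ⧸ Γ) → A) :
    ∑ q : Quotient (orbitRel (Subgroup.zpowers t) (SL(2, ℤ) ⧸ Γ)),
        ∑ j ∈ Finset.range (minimalPeriod (t • ·) q.out), F (t ^ j • q.out)
      = ∑ y, F y := by
  classical
  rw [← Equiv.sum_comp (Subgroup.quotientEquivSigmaZMod Γ t).symm F, Fintype.sum_sigma]
  refine Fintype.sum_congr _ _ fun q => ?_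
  simp only [Subgroup.quotientEquivSigmaZMod_symm_apply]
  rw [sum_zmod_cast (fun i : ℤ => F (t ^ i • q.out))]
  simp only [zpow_natCast]

end Orbits

section Cusp

open MulAction Function

variable {a b k : SL(2, ℤ) → (SL(2, ℤ) ⧸ Γ) → A}

theorem out_smul_x0 (y : SL(2, ℤ) ⧸ Γ) : y.out • x0 Γ = y := by
  show ((y.out * 1 : SL(2, ℤ)) : SL(2, ℤ) ⧸ Γ) = y
  rw [mul_one]; exact QuotientGroup.out_eq' y

theorem pow_minimalPeriod_smul (t : SL(2, ℤ)) (y : SL(2, ℤ) ⧸ Γ) :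
    t ^ minimalPeriod (t • ·) y • y = y :=
  MulAction.pow_smul_eq_iff_minimalPeriod_dvd.mpr dvd_rfl

/-- A potential of `c t` in the cocycle shape is a potential in the model shape. -/
theorem isPot_toPerm [Fintype (SL(2, ℤ) ⧸ Γ)] (t : SL(2, ℤ))
    (c : SL(2, ℤ) → (SL(2, ℤ) ⧸ Γ) → A) (P : (SL(2, ℤ) ⧸ Γ) → A)
    (hP : ∀ y, c t y = P (t • y) - P y) :
    IsPot (MulAction.toPerm t) P (fun z => c t (t⁻¹ • z)) := by
  intro z
  show P z - P (t⁻¹ • z) = c t (t⁻¹ • z)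
  rw [hP, smul_inv_smul]

/-- **Value at a cusp generator.**  If `a T` and `b T` have potentials, the kappa at the generator
`y.out⁻¹ T ^ h y.out` of the stabiliser of the cusp of `y` is a sum of local terms over the
`T`-orbit of `y`. -/
theorem cusp_eq (ha : IsCoc Γ a) (hb : IsCoc Γ b) (hk : IsHeisCoc Γ a b k)
    (P P' : (SL(2, ℤ) ⧸ Γ) → A) (hP : ∀ y, a T y = P (T • y) - P y)
    (hP' : ∀ y, b T y = P' (T • y) - P' y) (y : SL(2, ℤ) ⧸ Γ) :
    k (y.out⁻¹ * T ^ minimalPeriod (T • ·) y * y.out) (x0 Γ)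
      = ∑ j ∈ Finset.range (minimalPeriod (T • ·) y),
          (k T (T ^ j • y) - b T (T ^ j • y) * P (T • (T ^ j • y))) := by
  have hfix := pow_minimalPeriod_smul T y
  have hy := out_smul_x0 y
  have hat : a (T ^ minimalPeriod (T • ·) y) y = 0 := by
    rw [coc_pow_of_pot ha T P hP, hfix, sub_self]
  have hbt : b (T ^ minimalPeriod (T • ·) y) y = 0 := by
    rw [coc_pow_of_pot hb T P' hP', hfix, sub_self]
  have h1 := conj_eq ha hk y.out (T ^ minimalPeriod (T • ·) y) (by rw [hy]; exact hfix)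
    (by rw [hy]; exact hat) (by rw [hy]; exact hbt)
  rw [h1, hy]
  exact pow_eq_sum_pot ha hb hk T P hP _ y hfix hbt

variable [Fintype (SL(2, ℤ) ⧸ Γ)]
  [Fintype (Quotient (orbitRel (Subgroup.zpowers T) (SL(2, ℤ) ⧸ Γ)))]

/-- **Sum over the cusps.** -/
theorem sum_cusp (ha : IsCoc Γ a) (hb : IsCoc Γ b) (hk : IsHeisCoc Γ a b k)
    (P P' : (SL(2, ℤ) ⧸ Γ) → A) (hP : ∀ y, a T y = P (T • y) - P y)
    (hP' : ∀ y, b T y = P' (T • y) - P' y) :
    ∑ q : Quotient (orbitRel (Subgroup.zpowers T) (SL(2, ℤ) ⧸ Γ)),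
        k (q.out.out⁻¹ * T ^ minimalPeriod (T • ·) q.out * q.out.out) (x0 Γ)
      = ∑ y, (k T y - b T y * P (T • y)) := by
  rw [← sum_orbits T (fun y => k T y - b T y * P (T • y))]
  exact Fintype.sum_congr _ _ fun q => cusp_eq ha hb hk P P' hP hP' q.out

/-- **Formula (M2), general gauge.**  If `2 ∑ k T = ∑ (a T)(b T)` then twice the sum of the kappa
over the cusp generators is minus the model pairing `b2`. -/
theorem two_mul_sum_cusp (ha : IsCoc Γ a) (hb : IsCoc Γ b) (hk : IsHeisCoc Γ a b k)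
    (P P' : (SL(2, ℤ) ⧸ Γ) → A) (hP : ∀ y, a T y = P (T • y) - P y)
    (hP' : ∀ y, b T y = P' (T • y) - P' y)
    (h2 : 2 * ∑ y, k T y = ∑ y, a T y * b T y) :
    2 * ∑ q : Quotient (orbitRel (Subgroup.zpowers T) (SL(2, ℤ) ⧸ Γ)),
        k (q.out.out⁻¹ * T ^ minimalPeriod (T • ·) q.out * q.out.out) (x0 Γ)
      = - b2 (MulAction.toPerm T) P (fun z => b T (T⁻¹ • z)) := by
  rw [sum_cusp ha hb hk P P' hP hP', Finset.sum_sub_distrib, mul_sub, h2]
  unfold b2
  rw [← Equiv.sum_comp (MulAction.toPerm T)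
    (fun z => b T (T⁻¹ • z) * (P z + P ((MulAction.toPerm T).symm z)))]
  simp only [MulAction.toPerm_apply, MulAction.toPerm_symm_apply, inv_smul_smul]
  have key : ∀ y, a T y * b T y - 2 * (b T y * P (T • y)) = -(b T y * (P (T • y) + P y)) := by
    intro y; rw [hP y]; ring
  rw [Finset.mul_sum, ← Finset.sum_sub_distrib, ← Finset.sum_neg_distrib]
  exact Finset.sum_congr rfl fun y _ => key y

/-! ### The gauge `a (S * T) = 0 = b (S * T)`, `k (S * T) = 0` -/

omit [Fintype (SL(2, ℤ) ⧸ Γ)] [Fintype (Quotient (orbitRel (Subgroup.zpowers T) (SL(2, ℤ) ⧸ Γ)))] in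
theorem coc_T_of_gauge {c : SL(2, ℤ) → (SL(2, ℤ) ⧸ Γ) → A} (hc : IsCoc Γ c)
    (h0 : c (S * T) = 0) (y : SL(2, ℤ) ⧸ Γ) : c T y = - c S (T • y) := by
  have h := hc S T y
  rw [h0] at h
  have h' : (0 : A) = c S (T • y) + c T y := h
  linear_combination (-1 : A) * h'

omit [Fintype (SL(2, ℤ) ⧸ Γ)] [Fintype (Quotient (orbitRel (Subgroup.zpowers T) (SL(2, ℤ) ⧸ Γ)))] in
theorem kT_of_gauge (ha : IsCoc Γ a) (hk : IsHeisCoc Γ a b k)
    (hb0 : b (S * T) = 0) (hk0 : k (S * T) = 0) (y : SL(2, ℤ) ⧸ Γ) :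
    k T y = a S (T • y) * b S (T • y) - k S (T • y) := by
  have hT : (T : SL(2, ℤ)) = S⁻¹ * (S * T) := by group
  have e1 := hk S⁻¹ (S * T) y
  rw [← hT, hk0, hb0] at e1
  have hST : (S * T) • y = S • (T • y) := mul_smul S T y
  have e2 := hk S⁻¹ S (T • y)
  rw [inv_mul_cancel, hk.one ha] at e2
  have e3 := ha.inv S (S • (T • y))
  rw [inv_smul_smul] at e3
  rw [hST] at e1
  rw [e3] at e2
  simp only [Pi.zero_apply, mul_zero, add_zero] at e1
  rw [e1]
  linear_combination (-1 : A) * e2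

/-- In the gauge, the summed normalisation on `S` gives the summed normalisation on `T`. -/
theorem two_mul_sum_kT_of_gauge (ha : IsCoc Γ a) (hb : IsCoc Γ b) (hk : IsHeisCoc Γ a b k)
    (ha0 : a (S * T) = 0) (hb0 : b (S * T) = 0) (hk0 : k (S * T) = 0)
    (h2S : 2 * ∑ z, k S z = ∑ z, a S z * b S z) :
    2 * ∑ y, k T y = ∑ y, a T y * b T y := by
  have e1 : ∑ y, k T y = ∑ z, (a S z * b S z - k S z) := by
    rw [← Equiv.sum_comp (MulAction.toPerm T) (fun z => a S z * b S z - k S z)]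
    exact Finset.sum_congr rfl fun y _ => kT_of_gauge ha hk hb0 hk0 y
  have e2 : ∑ y, a T y * b T y = ∑ z, a S z * b S z := by
    rw [← Equiv.sum_comp (MulAction.toPerm T) (fun z => a S z * b S z)]
    refine Finset.sum_congr rfl fun y _ => ?_
    rw [coc_T_of_gauge ha ha0, coc_T_of_gauge hb hb0]
    simp only [MulAction.toPerm_apply]
    ring
  rw [e1, e2, Finset.sum_sub_distrib, mul_sub, h2S]
  ring

/-- **Formula (M2), normalised gauge.**  Let `(a, b, k)` be a Heisenberg cocycle with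
`a (S * T) = 0 = b (S * T)`, `k (S * T) = 0` and `2 ∑ k S = ∑ (a S)(b S)`.  If `P`, `P'` are
potentials of `a S`, `b S` along `τ = T •`, then twice the sum of `k` over the cusp generators is
`- b2 τ P (b S)`. -/
theorem two_mul_sum_cusp_gauge (ha : IsCoc Γ a) (hb : IsCoc Γ b) (hk : IsHeisCoc Γ a b k)
    (ha0 : a (S * T) = 0) (hb0 : b (S * T) = 0) (hk0 : k (S * T) = 0)
    (h2S : 2 * ∑ z, k S z = ∑ z, a S z * b S z)
    (P P' : (SL(2, ℤ) ⧸ Γ) → A) (hP : IsPot (MulAction.toPerm T) P (a S))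
    (hP' : IsPot (MulAction.toPerm T) P' (b S)) :
    2 * ∑ q : Quotient (orbitRel (Subgroup.zpowers T) (SL(2, ℤ) ⧸ Γ)),
        k (q.out.out⁻¹ * T ^ minimalPeriod (T • ·) q.out * q.out.out) (x0 Γ)
      = - b2 (MulAction.toPerm T) P (b S) := by
  have hPa : ∀ y, a T y = (-P) (T • y) - (-P) y := by
    intro y
    have h := hP (T • y)
    rw [MulAction.toPerm_symm_apply, inv_smul_smul] at h
    rw [coc_T_of_gauge ha ha0, ← h]
    simp only [Pi.neg_apply]; ring
  have hPb : ∀ y, b T y = (-P') (T • y) - (-P') y := by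
    intro y
    have h := hP' (T • y)
    rw [MulAction.toPerm_symm_apply, inv_smul_smul] at h
    rw [coc_T_of_gauge hb hb0, ← h]
    simp only [Pi.neg_apply]; ring
  rw [two_mul_sum_cusp ha hb hk (-P) (-P') hPa hPb
    (two_mul_sum_kT_of_gauge ha hb hk ha0 hb0 hk0 h2S)]
  have hb' : (fun z => b T (T⁻¹ • z)) = fun z => - b S z := by
    funext z
    rw [coc_T_of_gauge hb hb0, smul_inv_smul]
  rw [hb']
  unfold b2
  congr 1
  refine Finset.sum_congr rfl fun z _ => ?_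
  simp only [Pi.neg_apply]; ring

end Cusp

end Fermat.Agent.S41.Pairing.Eval
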