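import Mathlib
import Fermat.Agent.S41.Pairing.Model

set_option autoImplicit false
set_option linter.unusedSectionVars false

/-!
# S41 / (P4): lifting in the finite model of the intersection pairing

`X` is a finite set with two permutations `σ` (an involution) and `τ` generating a transitive
group (for `X = SL(2, ℤ) ⧸ Γ` these are the actions of `S` and `T`).

* `exists_anti_add_pot`: every `w : X → ℤ` with `∑ w = 0` is `v + (Q - Q ∘ τ⁻¹)` with `v`
  `σ`-antisymmetric (no orbit bookkeeping: the differences `δ_{g x} - δ_x` lie in the sum of the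
  two subgroups for `g = σ` and `g = τ`, hence for all `g` in the group they generate).
* `exists_lift_pot`: a `σ`-antisymmetric function with a `τ`-potential modulo `n` lifts to a
  `σ`-antisymmetric integral function with an integral `τ`-potential.
* `exists_coboundary_add_mul`: nondegeneracy modulo an odd prime `p` in integral form: if `u`
  pairs into `pℤ` with everything then `u` is a coboundary plus `p` times an antisymmetric
  function (reduce, apply `Model.radical`, lift back).
-/

namespace Fermat.Agent.S41.Pairing.ModelLift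

open Finset Fermat.Agent.S41.Pairing.Model

variable {X : Type*} [Fintype X]

/-- The subgroup of `σ`-antisymmetric functions. -/
def antiSub (σ : Equiv.Perm X) : AddSubgroup (X → ℤ) where
  carrier := {v | ∀ x, v (σ x) = - v x}
  add_mem' := by
    intro a b ha hb x
    simp only [Pi.add_apply]
    rw [ha x, hb x]; ring
  zero_mem' := by intro x; simp
  neg_mem' := by
    intro a ha x
    simp only [Pi.neg_apply]
    rw [ha x]

/-- The subgroup of functions having a `τ`-potential. -/
def potSub (τ : Equiv.Perm X) : AddSubgroup (X → ℤ) where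
  carrier := {w | ∃ Q : X → ℤ, IsPot τ Q w}
  add_mem' := by
    rintro a b ⟨Q, hQ⟩ ⟨Q', hQ'⟩
    exact ⟨Q + Q', hQ.add hQ'⟩
  zero_mem' := ⟨0, isPot_zero τ⟩
  neg_mem' := by
    rintro a ⟨Q, hQ⟩
    exact ⟨-Q, hQ.neg⟩

theorem mem_antiSub {σ : Equiv.Perm X} {v : X → ℤ} : v ∈ antiSub σ ↔ ∀ x, v (σ x) = - v x :=
  Iff.rfl

theorem mem_potSub {τ : Equiv.Perm X} {w : X → ℤ} : w ∈ potSub τ ↔ ∃ Q : X → ℤ, IsPot τ Q w :=
  Iff.rfl

section Key

variable [DecidableEq X]

/-- The difference of two point masses. -/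
def dlt (y x : X) : X → ℤ := fun z => (if z = y then 1 else 0) - (if z = x then 1 else 0)

theorem dlt_self (x : X) : dlt x x = 0 := by
  funext z; simp [dlt]

theorem dlt_add (z y x : X) : dlt z y + dlt y x = dlt z x := by
  funext t; simp only [dlt, Pi.add_apply]; ring

theorem dlt_neg (y x : X) : - dlt y x = dlt x y := by
  funext t; simp only [dlt, Pi.neg_apply]; ring

theorem dlt_sigma_mem {σ : Equiv.Perm X} (hσ : ∀ x, σ (σ x) = x) (τ : Equiv.Perm X) (x : X) :
    dlt (σ x) x ∈ antiSub σ ⊔ potSub τ := by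
  refine AddSubgroup.mem_sup_left ?_
  intro z
  have h1 : (σ z = σ x) ↔ (z = x) := σ.injective.eq_iff
  have h2 : (σ z = x) ↔ (z = σ x) := by
    constructor
    · intro h; rw [← h, hσ]
    · intro h; rw [h, hσ]
  simp only [dlt, h1, h2]
  ring

theorem dlt_tau_mem (σ τ : Equiv.Perm X) (x : X) :
    dlt (τ x) x ∈ antiSub σ ⊔ potSub τ := by
  refine AddSubgroup.mem_sup_right ⟨fun z => - (if z = x then 1 else 0), ?_⟩
  intro z
  have h2 : (τ.symm z = x) ↔ (z = τ x) := by
    rw [Equiv.symm_apply_eq]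
  simp only [dlt, h2]
  ring

/-- All differences of point masses lie in `antiSub σ ⊔ potSub τ` when `⟨σ, τ⟩` is transitive. -/
theorem dlt_mem {σ τ : Equiv.Perm X} (hσ : ∀ x, σ (σ x) = x)
    (htr : ∀ x y : X, ∃ g ∈ Subgroup.closure ({σ, τ} : Set (Equiv.Perm X)), g x = y) (y x : X) :
    dlt y x ∈ antiSub σ ⊔ potSub τ := by
  let H : Subgroup (Equiv.Perm X) :=
    { carrier := {g | ∀ x, dlt (g x) x ∈ antiSub σ ⊔ potSub τ}
      mul_mem' := by
        intro a b ha hb x
        have h := add_mem (ha (b x)) (hb x)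
        rw [dlt_add] at h
        exact h
      one_mem' := by
        intro x
        show dlt x x ∈ _
        rw [dlt_self]; exact zero_mem _
      inv_mem' := by
        intro a ha x
        have h := neg_mem (ha (a⁻¹ x))
        rw [dlt_neg] at h
        simpa using h }
  have hle : Subgroup.closure ({σ, τ} : Set (Equiv.Perm X)) ≤ H := by
    rw [Subgroup.closure_le]
    intro g hg
    rcases hg with rfl | rfl
    · exact fun x => dlt_sigma_mem hσ τ x
    · exact fun x => dlt_tau_mem σ g x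
  obtain ⟨g, hg, rfl⟩ := htr x y
  exact hle hg x

/-- **Key surjectivity.**  If `σ` is an involution and `⟨σ, τ⟩` is transitive, every integral
function of total sum zero is the sum of a `σ`-antisymmetric function and a function with a
`τ`-potential. -/
theorem exists_anti_add_pot {σ τ : Equiv.Perm X} (hσ : ∀ x, σ (σ x) = x)
    (htr : ∀ x y : X, ∃ g ∈ Subgroup.closure ({σ, τ} : Set (Equiv.Perm X)), g x = y)
    (w : X → ℤ) (hw : ∑ x, w x = 0) :
    ∃ v Q : X → ℤ, (∀ x, v (σ x) = - v x) ∧ ∀ x, w x = v x + (Q x - Q (τ.symm x)) := by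
  have hmem : w ∈ antiSub σ ⊔ potSub τ := by
    rcases isEmpty_or_nonempty X with hX | ⟨⟨x0⟩⟩
    · have : w = 0 := by funext x; exact (hX.false x).elim
      rw [this]; exact zero_mem _
    · have hdec : w = ∑ y, w y • dlt y x0 := by
        funext z
        rw [Finset.sum_apply]
        have h1 : ∀ y, (w y • dlt y x0) z
            = (if z = y then w y else 0) - w y * (if z = x0 then 1 else 0) := by
          intro y
          simp only [Pi.smul_apply, dlt, smul_eq_mul]
          split_ifs <;> ring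
        simp_rw [h1]
        rw [Finset.sum_sub_distrib, Finset.sum_ite_eq, ← Finset.sum_mul, hw]
        simp
      rw [hdec]
      exact sum_mem fun y _ => zsmul_mem (dlt_mem hσ htr y x0) _
  obtain ⟨v, hv, b, ⟨Q, hQ⟩, hvb⟩ := AddSubgroup.mem_sup.mp hmem
  refine ⟨v, Q, hv, fun x => ?_⟩
  rw [← hvb, Pi.add_apply, hQ x]

end Key

section Lift

/-- A `σ`-antisymmetric function has total sum zero. -/
theorem sum_eq_zero_of_anti {σ : Equiv.Perm X} {u : X → ℤ} (hu : ∀ x, u (σ x) = - u x) :
    ∑ x, u x = 0 := by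
  have h1 : ∑ x, u (σ x) = ∑ x, u x := Equiv.sum_comp σ u
  have h2 : ∑ x, u (σ x) = - ∑ x, u x := by
    rw [← Finset.sum_neg_distrib]
    exact Finset.sum_congr rfl fun x _ => hu x
  linarith

/-- A `σ`-antisymmetric function modulo `n` vanishing at the `σ`-fixed points has a
`σ`-antisymmetric integral lift. -/
theorem exists_anti_lift {n : ℕ} {σ : Equiv.Perm X} (hσ : ∀ x, σ (σ x) = x)
    (ub : X → ZMod n) (hub : ∀ x, ub (σ x) = - ub x) (hfix : ∀ x, σ x = x → ub x = 0) :
    ∃ u0 : X → ℤ, (∀ x, u0 (σ x) = - u0 x) ∧ ∀ x, ((u0 x : ℤ) : ZMod n) = ub x := by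
  classical
  obtain ⟨e, he⟩ := Countable.exists_injective_nat X
  choose L hL using (ZMod.intCast_surjective : Function.Surjective (Int.cast : ℤ → ZMod n))
  let u0 : X → ℤ := fun x =>
    if e x < e (σ x) then L (ub x)
    else if e (σ x) < e x then - L (ub (σ x)) else 0
  refine ⟨u0, ?_, ?_⟩
  · intro x
    simp only [u0, hσ x]
    split_ifs <;> omega
  · intro x
    simp only [u0]
    split_ifs with h1 h2
    · exact hL _
    · rw [Int.cast_neg, hL, hub, neg_neg]
    · have hx : σ x = x := (he (le_antisymm (not_lt.mp h2) (not_lt.mp h1))).symm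
      rw [Int.cast_zero, hfix x hx]

/-- **Model lift.**  Let `σ` be an involution with `⟨σ, τ⟩` transitive and `n ≠ 0`.  A
`σ`-antisymmetric function modulo `n` (zero at the `σ`-fixed points) with a `τ`-potential modulo
`n` is the reduction of a `σ`-antisymmetric integral function with an integral `τ`-potential
(which moreover reduces to the given potential). -/
theorem exists_lift_pot {n : ℕ} [NeZero n] {σ τ : Equiv.Perm X} (hσ : ∀ x, σ (σ x) = x)
    (htr : ∀ x y : X, ∃ g ∈ Subgroup.closure ({σ, τ} : Set (Equiv.Perm X)), g x = y)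
    (ub Pb : X → ZMod n) (hub : ∀ x, ub (σ x) = - ub x) (hfix : ∀ x, σ x = x → ub x = 0)
    (hPb : IsPot τ Pb ub) :
    ∃ u P : X → ℤ, (∀ x, u (σ x) = - u x) ∧ IsPot τ P u ∧
      (∀ x, ((u x : ℤ) : ZMod n) = ub x) ∧ ∀ x, ((P x : ℤ) : ZMod n) = Pb x := by
  classical
  obtain ⟨u0, hu0, hu0b⟩ := exists_anti_lift hσ ub hub hfix
  choose L hL using (ZMod.intCast_surjective : Function.Surjective (Int.cast : ℤ → ZMod n))
  let P0 : X → ℤ := fun x => L (Pb x)
  have hd : ∀ x, (n : ℤ) ∣ u0 x - (P0 x - P0 (τ.symm x)) := by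
    intro x
    rw [← ZMod.intCast_zmod_eq_zero_iff_dvd]
    simp only [P0, Int.cast_sub, hL, hu0b]
    rw [hPb x, sub_self]
  choose w hw using hd
  have hn : (n : ℤ) ≠ 0 := by exact_mod_cast NeZero.ne n
  have hwsum : ∑ x, w x = 0 := by
    have h1 : (n : ℤ) * ∑ x, w x = ∑ x, (u0 x - (P0 x - P0 (τ.symm x))) := by
      rw [Finset.mul_sum]
      exact Finset.sum_congr rfl fun x _ => (hw x).symm
    rw [Finset.sum_sub_distrib, Finset.sum_sub_distrib, Equiv.sum_comp τ.symm P0,
      sum_eq_zero_of_anti hu0, sub_self, sub_zero] at h1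
    rcases mul_eq_zero.mp h1 with h | h
    · exact absurd h hn
    · exact h
  obtain ⟨v, Q, hv, hvQ⟩ := exists_anti_add_pot hσ htr w hwsum
  refine ⟨fun x => u0 x - n * v x, fun x => P0 x + n * Q x, ?_, ?_, ?_, ?_⟩
  · intro x
    show u0 (σ x) - n * v (σ x) = - (u0 x - n * v x)
    rw [hu0, hv]; ring
  · intro x
    show P0 x + n * Q x - (P0 (τ.symm x) + n * Q (τ.symm x)) = u0 x - n * v x
    have h1 := hw x
    have h2 := hvQ x
    rw [h2] at h1
    linear_combination (-1 : ℤ) * h1
  · intro x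
    show (((u0 x - n * v x : ℤ)) : ZMod n) = ub x
    rw [Int.cast_sub, Int.cast_mul, Int.cast_natCast, ZMod.natCast_self, zero_mul, sub_zero, hu0b]
  · intro x
    show (((P0 x + n * Q x : ℤ)) : ZMod n) = Pb x
    rw [Int.cast_add, Int.cast_mul, Int.cast_natCast, ZMod.natCast_self, zero_mul, add_zero, hL]

end Lift

section Nondeg

/-- Reduction modulo `n` of a potential. -/
theorem isPot_cast {n : ℕ} {τ : Equiv.Perm X} {P u : X → ℤ} (h : IsPot τ P u) :
    IsPot τ (fun x => ((P x : ℤ) : ZMod n)) (fun x => ((u x : ℤ) : ZMod n)) := by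
  intro x
  show ((P x : ℤ) : ZMod n) - ((P (τ.symm x) : ℤ) : ZMod n) = ((u x : ℤ) : ZMod n)
  rw [← h x, Int.cast_sub]

/-- Reduction modulo `n` of the model pairing. -/
theorem b2_cast {n : ℕ} (τ : Equiv.Perm X) (P u' : X → ℤ) :
    ((b2 τ P u' : ℤ) : ZMod n)
      = b2 τ (fun x => ((P x : ℤ) : ZMod n)) (fun x => ((u' x : ℤ) : ZMod n)) := by
  unfold b2
  rw [Int.cast_sum]
  refine Finset.sum_congr rfl fun x _ => ?_
  rw [Int.cast_mul, Int.cast_add]

/-- **Nondegeneracy modulo an odd prime, integral form.**  Let `σ` be an involution with `⟨σ, τ⟩`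
transitive and `p` an odd prime.  If the `σ`-antisymmetric integral function `u` with potential
`P` pairs into `pℤ` with every `σ`-antisymmetric integral function having a potential, then `u` is
a coboundary `g ∘ σ - g` (`g` invariant under `τ ∘ σ`) plus `p` times a `σ`-antisymmetric
function. -/
theorem exists_coboundary_add_mul {p : ℕ} [Fact p.Prime] (hp2 : p ≠ 2) {σ τ : Equiv.Perm X}
    (hσ : ∀ x, σ (σ x) = x)
    (htr : ∀ x y : X, ∃ g ∈ Subgroup.closure ({σ, τ} : Set (Equiv.Perm X)), g x = y)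
    {u P : X → ℤ} (hu : ∀ x, u (σ x) = - u x) (hP : IsPot τ P u)
    (hrad : ∀ u' P' : X → ℤ, (∀ x, u' (σ x) = - u' x) → IsPot τ P' u' → (p : ℤ) ∣ b2 τ P u') :
    ∃ g u₁ : X → ℤ, (∀ x, g (τ (σ x)) = g x) ∧ (∀ x, u₁ (σ x) = - u₁ x) ∧
      ∀ x, u x = (g (σ x) - g x) + p * u₁ x := by
  classical
  have hp : p.Prime := Fact.out
  have h2 : (2 : ZMod p) ≠ 0 := by
    intro h
    have h' : ((2 : ℕ) : ZMod p) = 0 := by exact_mod_cast h
    rw [ZMod.natCast_eq_zero_iff] at h'
    exact hp2 ((Nat.prime_dvd_prime_iff_eq hp Nat.prime_two).mp h')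
  have hub : ∀ x, ((u (σ x) : ℤ) : ZMod p) = - ((u x : ℤ) : ZMod p) := by
    intro x; rw [hu, Int.cast_neg]
  have hradb : ∀ ub' Pb' : X → ZMod p, (∀ x, ub' (σ x) = - ub' x) → IsPot τ Pb' ub' →
      b2 τ (fun x => ((P x : ℤ) : ZMod p)) ub' = 0 := by
    intro ub' Pb' hub' hPb'
    have hfix : ∀ x, σ x = x → ub' x = 0 := by
      intro x hx
      have h := hub' x
      rw [hx] at h
      have h3 : (2 : ZMod p) * ub' x = 0 := by linear_combination h
      rcases mul_eq_zero.mp h3 with h4 | h4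
      · exact absurd h4 h2
      · exact h4
    obtain ⟨u', P', hu', hP', hu'b, -⟩ := exists_lift_pot hσ htr ub' Pb' hub' hfix hPb'
    have hdvd := hrad u' P' hu' hP'
    have h0 : ((b2 τ P u' : ℤ) : ZMod p) = 0 := (ZMod.intCast_zmod_eq_zero_iff_dvd _ _).mpr hdvd
    rw [b2_cast] at h0
    have : (fun x => ((u' x : ℤ) : ZMod p)) = ub' := funext hu'b
    rwa [this] at h0
  obtain ⟨gb, hgb, hugb⟩ := radical h2 hσ hub (isPot_cast (n := p) hP) hradb
  choose L hL using (ZMod.intCast_surjective : Function.Surjective (Int.cast : ℤ → ZMod p))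
  let g : X → ℤ := fun x => L (gb x)
  have hd : ∀ x, (p : ℤ) ∣ u x - (g (σ x) - g x) := by
    intro x
    rw [← ZMod.intCast_zmod_eq_zero_iff_dvd]
    simp only [g, Int.cast_sub, hL]
    rw [hugb x, sub_self]
  choose u₁ hu₁ using hd
  have hpz : (p : ℤ) ≠ 0 := by exact_mod_cast hp.ne_zero
  refine ⟨g, u₁, ?_, ?_, ?_⟩
  · intro x
    show L (gb (τ (σ x))) = L (gb x)
    rw [hgb]
  · intro x
    have h1 := hu₁ x
    have h3 := hu₁ (σ x)
    rw [hσ, hu] at h3
    have h4 : (p : ℤ) * (u₁ (σ x) + u₁ x) = 0 := by linear_combination (-1 : ℤ) * h3 - h1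
    rcases mul_eq_zero.mp h4 with h5 | h5
    · exact absurd h5 hpz
    · linarith
  · intro x
    have h1 := hu₁ x
    linarith

end Nondeg

end Fermat.Agent.S41.Pairing.ModelLift
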