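import Mathlib
import Fermat.Agent.S16.ShimuraLift

set_option autoImplicit false

/-!
# S41 (P4): the dictionary between homomorphisms of `Γ ≤ SL(2, ℤ)` and model cocycles

`X = SL(2, ℤ) ⧸ Γ` with the left action, `-1 ∈ Γ`.  A function `u : X → A` with
`u (S • x) = -u x` determines a cocycle `modCoc` with value `u` at `S` and `0` at `S * T`, hence a
homomorphism `homOf : Γ → A`.  For two such functions we construct a Heisenberg cocycle, whose
central component restricted to `Γ` is a `kappa` for the two homomorphisms, and we evaluate it on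
the cusp elements.
-/

open scoped MatrixGroups
open ModularGroup

namespace Fermat.Agent.S41.Pairing.Wreath

open Fermat.Agent.S21.GroupBound Fermat.Agent.S16.ShimuraLift

variable {Γ : Subgroup SL(2, ℤ)}

/-! ### Non-abelian cocycles -/

section NonAb

variable {H : Type*} [Group H]

/-- The (non-abelian) cocycle condition for maps `SL(2, ℤ) → (SL(2, ℤ) ⧸ Γ → H)`. -/
def IsCocM (Γ : Subgroup SL(2, ℤ)) (c : SL(2, ℤ) → (SL(2, ℤ) ⧸ Γ) → H) : Prop :=
  ∀ (g h : SL(2, ℤ)) (x : SL(2, ℤ) ⧸ Γ), c (g * h) x = c g (h • x) * c h x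

variable {c : SL(2, ℤ) → (SL(2, ℤ) ⧸ Γ) → H}

theorem IsCocM.one (hc : IsCocM Γ c) (x : SL(2, ℤ) ⧸ Γ) : c 1 x = 1 := by
  have h := hc 1 1 x
  rw [mul_one, one_smul] at h
  have h' : c 1 x * c 1 x = 1 * c 1 x := by rw [one_mul]; exact h.symm
  exact mul_right_cancel h'

theorem IsCocM.inv (hc : IsCocM Γ c) (g : SL(2, ℤ)) (x : SL(2, ℤ) ⧸ Γ) :
    c g⁻¹ x = (c g (g⁻¹ • x))⁻¹ := by
  have h := hc g g⁻¹ x
  rw [mul_inv_cancel, hc.one] at h
  exact eq_inv_of_mul_eq_one_right h.symm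

/-- Two cocycles agreeing on `S` and `S * T` agree everywhere. -/
theorem IsCocM.ext {c' : SL(2, ℤ) → (SL(2, ℤ) ⧸ Γ) → H} (hc : IsCocM Γ c) (hc' : IsCocM Γ c')
    (hS : c S = c' S) (hU : c (S * T) = c' (S * T)) (g : SL(2, ℤ)) : c g = c' g := by
  let K : Subgroup SL(2, ℤ) :=
    { carrier := {g | c g = c' g}
      mul_mem' := by
        intro a b (ha : c a = c' a) (hb : c b = c' b)
        funext x
        rw [hc, hc', ha, hb]
      one_mem' := by
        funext x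
        rw [hc.one, hc'.one]
      inv_mem' := by
        intro a (ha : c a = c' a)
        funext x
        rw [hc.inv, hc'.inv, ha] }
  have hSK : S ∈ K := hS
  have hTK : T ∈ K := by
    have h2 : S⁻¹ * (S * T) ∈ K := K.mul_mem (K.inv_mem hSK) hU
    simpa using h2
  have htop : K = ⊤ := by
    apply top_unique
    rw [← SpecialLinearGroup.SL2Z_generators, Subgroup.closure_le]
    intro a ha
    rcases ha with rfl | rfl
    · exact hSK
    · exact hTK
  have : g ∈ K := by rw [htop]; trivial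
  exact this

/-- The permutation of `X × H` attached to `(v, g)`. -/
def mulPerm (v : (SL(2, ℤ) ⧸ Γ) → H) (g : SL(2, ℤ)) : Equiv.Perm ((SL(2, ℤ) ⧸ Γ) × H) where
  toFun q := (g • q.1, v q.1 * q.2)
  invFun q := (g⁻¹ • q.1, (v (g⁻¹ • q.1))⁻¹ * q.2)
  left_inv q := by simp
  right_inv q := by simp

theorem mulPerm_apply (v : (SL(2, ℤ) ⧸ Γ) → H) (g : SL(2, ℤ)) (q : (SL(2, ℤ) ⧸ Γ) × H) :
    mulPerm v g q = (g • q.1, v q.1 * q.2) := rfl

/-- **Non-abelian cocycle extension.**  A cocycle is freely determined by its values on `S` and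
`S * T` subject to the two norm relations. -/
theorem exists_cocycleM (hΓ : (-1 : SL(2, ℤ)) ∈ Γ) (vS vU : (SL(2, ℤ) ⧸ Γ) → H)
    (hS : ∀ x, vS (S • x) * vS x = 1)
    (hU : ∀ x, vU ((S * T) • (S * T) • x) * vU ((S * T) • x) * vU x = 1) :
    ∃ c : SL(2, ℤ) → (SL(2, ℤ) ⧸ Γ) → H, IsCocM Γ c ∧ c S = vS ∧ c (S * T) = vU := by
  have hs : mulPerm vS S ^ 2 = 1 := by
    ext q : 1
    rw [pow_two, Equiv.Perm.mul_apply, mulPerm_apply, mulPerm_apply, Equiv.Perm.one_apply]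
    refine Prod.ext (S_smul_S_smul hΓ _) ?_
    show vS (S • q.1) * (vS q.1 * q.2) = q.2
    rw [← mul_assoc, hS, one_mul]
  have hu : mulPerm vU (S * T) ^ 3 = 1 := by
    ext q : 1
    rw [pow_succ, pow_two, Equiv.Perm.mul_apply, Equiv.Perm.mul_apply, mulPerm_apply,
      mulPerm_apply, mulPerm_apply, Equiv.Perm.one_apply]
    refine Prod.ext (U_smul_U_smul_U_smul hΓ _) ?_
    show vU ((S * T) • (S * T) • q.1) * (vU ((S * T) • q.1) * (vU q.1 * q.2)) = q.2
    rw [← mul_assoc, ← mul_assoc, hU, one_mul]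
  obtain ⟨Θ, hΘS, hΘU⟩ := Fermat.Agent.S16.SL2Pres.exists_hom _ _ hs hu
  let K : Subgroup SL(2, ℤ) :=
    { carrier := {g | ∃ v : (SL(2, ℤ) ⧸ Γ) → H, ∀ q, Θ g q = (g • q.1, v q.1 * q.2)}
      mul_mem' := by
        rintro a b ⟨v, hv⟩ ⟨w, hw⟩
        refine ⟨fun x => v (b • x) * w x, fun q => ?_⟩
        rw [map_mul, Equiv.Perm.mul_apply, hw, hv]
        exact Prod.ext (mul_smul _ _ _).symm (mul_assoc _ _ _).symm
      one_mem' := ⟨fun _ => 1, fun q => by simp⟩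
      inv_mem' := by
        rintro a ⟨v, hv⟩
        refine ⟨fun x => (v (a⁻¹ • x))⁻¹, fun q => ?_⟩
        rw [map_inv, Equiv.Perm.inv_def, Equiv.symm_apply_eq, hv]
        refine Prod.ext (by simp) ?_
        show q.2 = v (a⁻¹ • q.1) * ((v (a⁻¹ • q.1))⁻¹ * q.2)
        rw [mul_inv_cancel_left] }
  have hSK : S ∈ K := ⟨vS, fun q => by rw [hΘS, mulPerm_apply]⟩
  have hUK : S * T ∈ K := ⟨vU, fun q => by rw [hΘU, mulPerm_apply]⟩
  have hTK : T ∈ K := by
    have h2 : S⁻¹ * (S * T) ∈ K := K.mul_mem (K.inv_mem hSK) hUK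
    simpa using h2
  have htop : K = ⊤ := by
    apply top_unique
    rw [← SpecialLinearGroup.SL2Z_generators, Subgroup.closure_le]
    intro a ha
    rcases ha with rfl | rfl
    · exact hSK
    · exact hTK
  have key : ∀ g : SL(2, ℤ), ∀ q, Θ g q = (g • q.1, (Θ g (q.1, 1)).2 * q.2) := by
    intro g q
    have hg : g ∈ K := by rw [htop]; trivial
    obtain ⟨v, hv⟩ := hg
    rw [hv q, hv (q.1, 1)]
    simp
  refine ⟨fun g x => (Θ g (x, 1)).2, ?_, ?_, ?_⟩
  · intro g h x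
    show (Θ (g * h) (x, 1)).2 = (Θ g (h • x, 1)).2 * (Θ h (x, 1)).2
    rw [map_mul, Equiv.Perm.mul_apply, key h (x, 1), key g (h • x, _)]
  · funext x
    show (Θ S (x, 1)).2 = vS x
    rw [hΘS, mulPerm_apply]
    simp
  · funext x
    show (Θ (S * T) (x, 1)).2 = vU x
    rw [hΘU, mulPerm_apply]
    simp

/-- Value of a cocycle on the conjugate `delta g x` of an element `g` fixing `x`. -/
theorem IsCocM.delta_of_fixed (hc : IsCocM Γ c) {g : SL(2, ℤ)} {x : SL(2, ℤ) ⧸ Γ}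
    (hx : g • x = x) :
    c ((delta Γ g x : Γ) : SL(2, ℤ)) (x0 Γ) = (c x.out (x0 Γ))⁻¹ * c g x * c x.out (x0 Γ) := by
  have hout : x.out • x0 Γ = x := by
    change ((x.out * 1 : SL(2, ℤ)) : SL(2, ℤ) ⧸ Γ) = x
    rw [mul_one, QuotientGroup.out_eq']
  have hout' : x.out⁻¹ • x = x0 Γ := by rw [inv_smul_eq_iff, hout]
  rw [coe_delta_of_fixed hx, hc, hc, hout, hx, hc.inv, hout']

end NonAb

/-! ### The Heisenberg group -/

/-- The Heisenberg group over a commutative ring: triples `(a, b, k)` with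
`(a, b, k) * (a', b', k') = (a + a', b + b', k + k' + a * b')`. -/
@[ext] structure Heis (A : Type*) where
  /-- first coordinate -/
  a : A
  /-- second coordinate -/
  b : A
  /-- central coordinate -/
  k : A

namespace Heis

variable {A : Type*} [CommRing A]

instance : Group (Heis A) where
  mul p q := ⟨p.a + q.a, p.b + q.b, p.k + q.k + p.a * q.b⟩
  one := ⟨0, 0, 0⟩
  inv p := ⟨-p.a, -p.b, -p.k + p.a * p.b⟩
  mul_assoc p q r := by
    apply Heis.ext
    · exact add_assoc _ _ _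
    · exact add_assoc _ _ _
    · show (p.k + q.k + p.a * q.b) + r.k + (p.a + q.a) * r.b
        = p.k + (q.k + r.k + q.a * r.b) + p.a * (q.b + r.b)
      ring
  one_mul p := by
    apply Heis.ext
    · exact zero_add _
    · exact zero_add _
    · show (0 : A) + p.k + 0 * p.b = p.k
      ring
  mul_one p := by
    apply Heis.ext
    · exact add_zero _
    · exact add_zero _
    · show p.k + 0 + p.a * 0 = p.k
      ring
  inv_mul_cancel p := by
    apply Heis.ext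
    · exact neg_add_cancel _
    · exact neg_add_cancel _
    · show (-p.k + p.a * p.b) + p.k + (-p.a) * p.b = 0
      ring

@[simp] theorem mul_a (p q : Heis A) : (p * q).a = p.a + q.a := rfl
@[simp] theorem mul_b (p q : Heis A) : (p * q).b = p.b + q.b := rfl
@[simp] theorem mul_k (p q : Heis A) : (p * q).k = p.k + q.k + p.a * q.b := rfl
@[simp] theorem one_a : (1 : Heis A).a = 0 := rfl
@[simp] theorem one_b : (1 : Heis A).b = 0 := rfl
@[simp] theorem one_k : (1 : Heis A).k = 0 := rfl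
@[simp] theorem inv_a (p : Heis A) : p⁻¹.a = -p.a := rfl
@[simp] theorem inv_b (p : Heis A) : p⁻¹.b = -p.b := rfl
@[simp] theorem inv_k (p : Heis A) : p⁻¹.k = -p.k + p.a * p.b := rfl

/-- The central coordinate of a conjugate. -/
theorem conj_k (p m : Heis A) : (p⁻¹ * m * p).k = m.k + m.a * p.b - p.a * m.b := by
  simp only [mul_k, mul_a, inv_k, inv_a]
  ring

end Heis

/-! ### Model cocycles -/

section Model

variable {A : Type*} [CommRing A]

/-- The first coordinate of a Heisenberg cocycle is an additive cocycle. -/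
theorem IsCocM.isCoc_a {C : SL(2, ℤ) → (SL(2, ℤ) ⧸ Γ) → Heis A} (hC : IsCocM Γ C) :
    IsCoc Γ (fun g x => (C g x).a) := by
  intro g h x
  show (C (g * h) x).a = (C g (h • x)).a + (C h x).a
  rw [hC g h x]
  rfl

/-- The second coordinate of a Heisenberg cocycle is an additive cocycle. -/
theorem IsCocM.isCoc_b {C : SL(2, ℤ) → (SL(2, ℤ) ⧸ Γ) → Heis A} (hC : IsCocM Γ C) :
    IsCoc Γ (fun g x => (C g x).b) := by
  intro g h x
  show (C (g * h) x).b = (C g (h • x)).b + (C h x).b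
  rw [hC g h x]
  rfl

/-- Value of an additive cocycle on the conjugate `x.out⁻¹ * g * x.out` of an element `g`
fixing `x`. -/
theorem isCoc_conj_out {B : Type*} [AddCommGroup B] {c : SL(2, ℤ) → (SL(2, ℤ) ⧸ Γ) → B}
    (hc : IsCoc Γ c) {g : SL(2, ℤ)} {x : SL(2, ℤ) ⧸ Γ} (hx : g • x = x) :
    c (x.out⁻¹ * g * x.out) (x0 Γ) = c g x := by
  have hout : x.out • x0 Γ = x := by
    change ((x.out * 1 : SL(2, ℤ)) : SL(2, ℤ) ⧸ Γ) = x
    rw [mul_one, QuotientGroup.out_eq']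
  have hout' : x.out⁻¹ • x = x0 Γ := by rw [inv_smul_eq_iff, hout]
  rw [hc, hc, hout, hx, hc.inv, hout']
  abel

/-- The value at `S` of the Heisenberg cocycle attached to `(u, u', kS)`. -/
def heisS (u u' kS : (SL(2, ℤ) ⧸ Γ) → A) (x : SL(2, ℤ) ⧸ Γ) : Heis A :=
  ⟨u x, u' x, kS x⟩

theorem exists_heisCoc (hΓ : (-1 : SL(2, ℤ)) ∈ Γ) (u u' kS : (SL(2, ℤ) ⧸ Γ) → A)
    (hu : ∀ x, u (S • x) = -u x) (hu' : ∀ x, u' (S • x) = -u' x)
    (hk : ∀ x, kS (S • x) + kS x = u x * u' x) :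
    ∃ C : SL(2, ℤ) → (SL(2, ℤ) ⧸ Γ) → Heis A,
      IsCocM Γ C ∧ C S = heisS u u' kS ∧ C (S * T) = fun _ => 1 := by
  refine exists_cocycleM hΓ _ _ ?_ ?_
  · intro x
    apply Heis.ext
    · show u (S • x) + u x = 0
      rw [hu]; ring
    · show u' (S • x) + u' x = 0
      rw [hu']; ring
    · show kS (S • x) + kS x + u (S • x) * u' x = 0
      rw [hu]
      linear_combination hk x
  · intro x
    simp

/-- With `2` invertible the symmetric choice `kS = u * u' / 2` works. -/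
theorem exists_kS_of_invertible [Invertible (2 : A)] (u u' : (SL(2, ℤ) ⧸ Γ) → A)
    (hu : ∀ x, u (S • x) = -u x) (hu' : ∀ x, u' (S • x) = -u' x) :
    ∃ kS : (SL(2, ℤ) ⧸ Γ) → A, ∀ x, kS (S • x) + kS x = u x * u' x := by
  refine ⟨fun x => ⅟2 * (u x * u' x), fun x => ?_⟩
  show ⅟2 * (u (S • x) * u' (S • x)) + ⅟2 * (u x * u' x) = u x * u' x
  rw [hu, hu']
  have h2 : (⅟2 : A) + ⅟2 = 1 := invOf_two_add_invOf_two
  linear_combination (u x * u' x) * h2

/-- Without `2`-torsion (e.g. over `ℤ`) an asymmetric choice of `kS` works. -/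
theorem exists_kS (hΓ : (-1 : SL(2, ℤ)) ∈ Γ) (h2 : ∀ a : A, a + a = 0 → a = 0)
    (u u' : (SL(2, ℤ) ⧸ Γ) → A)
    (hu : ∀ x, u (S • x) = -u x) (hu' : ∀ x, u' (S • x) = -u' x) :
    ∃ kS : (SL(2, ℤ) ⧸ Γ) → A, ∀ x, kS (S • x) + kS x = u x * u' x := by
  classical
  have : Countable (Matrix (Fin 2) (Fin 2) ℤ) := inferInstanceAs (Countable (Fin 2 → Fin 2 → ℤ))
  have : Countable SL(2, ℤ) := Subtype.countable
  have : Countable (SL(2, ℤ) ⧸ Γ) := Function.Surjective.countable QuotientGroup.mk_surjective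
  obtain ⟨e, he⟩ := Countable.exists_injective_nat (SL(2, ℤ) ⧸ Γ)
  refine ⟨fun x => if e x < e (S • x) then u x * u' x else 0, fun x => ?_⟩
  show (if e (S • x) < e (S • S • x) then u (S • x) * u' (S • x) else 0)
    + (if e x < e (S • x) then u x * u' x else 0) = u x * u' x
  rw [S_smul_S_smul hΓ x, hu, hu']
  by_cases h1 : e x < e (S • x)
  · rw [if_pos h1, if_neg (by omega)]; ring
  · by_cases h3 : e (S • x) < e x
    · rw [if_neg h1, if_pos h3]; ring
    · have hx : S • x = x := he (by omega)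
      have hux : u x = 0 := by
        have h4 := hu x
        rw [hx] at h4
        exact h2 _ (by linear_combination h4)
      rw [if_neg h1, if_neg h3, hux]; ring

theorem exists_modCoc (hΓ : (-1 : SL(2, ℤ)) ∈ Γ) (u : (SL(2, ℤ) ⧸ Γ) → A)
    (hu : ∀ x, u (S • x) = -u x) :
    ∃ c : SL(2, ℤ) → (SL(2, ℤ) ⧸ Γ) → A, IsCoc Γ c ∧ c S = u ∧ c (S * T) = 0 := by
  obtain ⟨C, hC, hCS, hCU⟩ := exists_heisCoc hΓ u 0 0 hu (by simp) (by simp)
  refine ⟨fun g x => (C g x).a, hC.isCoc_a, ?_, ?_⟩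
  · funext x
    show (C S x).a = u x
    rw [hCS]; rfl
  · funext x
    show (C (S * T) x).a = 0
    rw [hCU]; rfl

/-- The model cocycle with value `u` at `S` and `0` at `S * T`. -/
noncomputable def modCoc (hΓ : (-1 : SL(2, ℤ)) ∈ Γ) (u : (SL(2, ℤ) ⧸ Γ) → A)
    (hu : ∀ x, u (S • x) = -u x) : SL(2, ℤ) → (SL(2, ℤ) ⧸ Γ) → A :=
  (exists_modCoc hΓ u hu).choose

variable (hΓ : (-1 : SL(2, ℤ)) ∈ Γ) (u u' kS : (SL(2, ℤ) ⧸ Γ) → A)
  (hu : ∀ x, u (S • x) = -u x) (hu' : ∀ x, u' (S • x) = -u' x)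
  (hk : ∀ x, kS (S • x) + kS x = u x * u' x)

theorem isCoc_modCoc : IsCoc Γ (modCoc hΓ u hu) := (exists_modCoc hΓ u hu).choose_spec.1

theorem modCoc_S : modCoc hΓ u hu S = u := (exists_modCoc hΓ u hu).choose_spec.2.1

theorem modCoc_U : modCoc hΓ u hu (S * T) = 0 := (exists_modCoc hΓ u hu).choose_spec.2.2

/-- Uniqueness of the model cocycle. -/
theorem eq_modCoc {c : SL(2, ℤ) → (SL(2, ℤ) ⧸ Γ) → A} (hc : IsCoc Γ c) (hS : c S = u)
    (hU : c (S * T) = 0) (g : SL(2, ℤ)) : c g = modCoc hΓ u hu g :=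
  IsCoc.ext hc (isCoc_modCoc hΓ u hu) (by rw [hS, modCoc_S]) (by rw [hU, modCoc_U]) g

theorem modCoc_T (x : SL(2, ℤ) ⧸ Γ) : modCoc hΓ u hu T x = -u (T • x) := by
  have h := isCoc_modCoc hΓ u hu S T x
  rw [modCoc_U, modCoc_S] at h
  have h' : u (T • x) + modCoc hΓ u hu T x = 0 := h.symm
  exact eq_neg_of_add_eq_zero_right h'

theorem modCoc_T_pow (h : ℕ) (x : SL(2, ℤ) ⧸ Γ) :
    modCoc hΓ u hu (T ^ h) x = -∑ i ∈ Finset.range h, u (T ^ (i + 1) • x) := by
  induction h with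
  | zero => simp [(isCoc_modCoc hΓ u hu).one]
  | succ h ih =>
    have e1 : (T ^ (h + 1) : SL(2, ℤ)) = T * T ^ h := pow_succ' T h
    have e2 : T • T ^ h • x = T ^ (h + 1) • x := by rw [e1, mul_smul]
    rw [e1, isCoc_modCoc hΓ u hu, ih, modCoc_T, e2, Finset.sum_range_succ]
    ring

/-- Additivity of the model cocycle in `u`. -/
theorem modCoc_add (huu' : ∀ x, (u + u') (S • x) = -(u + u') x) (g : SL(2, ℤ)) :
    modCoc hΓ (u + u') huu' g = modCoc hΓ u hu g + modCoc hΓ u' hu' g := by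
  have hc : IsCoc Γ (fun g => modCoc hΓ u hu g + modCoc hΓ u' hu' g) := by
    intro g h x
    simp only [Pi.add_apply]
    rw [isCoc_modCoc hΓ u hu, isCoc_modCoc hΓ u' hu']
    abel
  exact (eq_modCoc hΓ (u + u') huu' hc (by simp only [modCoc_S]) (by simp only [modCoc_U, add_zero])
    g).symm

/-- Homogeneity of the model cocycle in `u`. -/
theorem modCoc_smul (r : A) (hru : ∀ x, (r • u) (S • x) = -(r • u) x) (g : SL(2, ℤ)) :
    modCoc hΓ (r • u) hru g = r • modCoc hΓ u hu g := by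
  have hc : IsCoc Γ (fun g => r • modCoc hΓ u hu g) := by
    intro g h x
    simp only [Pi.smul_apply]
    rw [isCoc_modCoc hΓ u hu, smul_add]
  exact (eq_modCoc hΓ (r • u) hru hc (by simp only [modCoc_S]) (by simp only [modCoc_U, smul_zero])
    g).symm

/-- Base change of the model cocycle. -/
theorem modCoc_map {B : Type*} [CommRing B] (f : A →+* B)
    (hfu : ∀ x, (fun y => f (u y)) (S • x) = -(fun y => f (u y)) x) (g : SL(2, ℤ))
    (x : SL(2, ℤ) ⧸ Γ) :
    modCoc hΓ (fun y => f (u y)) hfu g x = f (modCoc hΓ u hu g x) := by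
  have hc : IsCoc Γ (fun g x => f (modCoc hΓ u hu g x)) := by
    intro g h x
    show f (modCoc hΓ u hu (g * h) x) = _
    rw [isCoc_modCoc hΓ u hu, map_add]
  have h := eq_modCoc hΓ (fun y => f (u y)) hfu hc (by funext y; simp only [modCoc_S])
    (by funext y; simp only [modCoc_U, Pi.zero_apply, map_zero]) g
  exact (congrFun h x).symm

/-- The homomorphism `Γ → A` attached to `u`. -/
noncomputable def homOf : Additive Γ →+ A :=
  homOfCoc (modCoc hΓ u hu) (isCoc_modCoc hΓ u hu)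

theorem homOf_apply (γ : Γ) :
    homOf hΓ u hu (Additive.ofMul γ) = modCoc hΓ u hu (γ : SL(2, ℤ)) (x0 Γ) := rfl

theorem homOf_add (huu' : ∀ x, (u + u') (S • x) = -(u + u') x) :
    homOf hΓ (u + u') huu' = homOf hΓ u hu + homOf hΓ u' hu' := by
  refine AddMonoidHom.ext fun γ => ?_
  show modCoc hΓ (u + u') huu' ((Additive.toMul γ : Γ) : SL(2, ℤ)) (x0 Γ) = _
  rw [modCoc_add hΓ u u' hu hu' huu']
  rfl

theorem homOf_smul (r : A) (hru : ∀ x, (r • u) (S • x) = -(r • u) x) :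
    homOf hΓ (r • u) hru = r • homOf hΓ u hu := by
  refine AddMonoidHom.ext fun γ => ?_
  show modCoc hΓ (r • u) hru ((Additive.toMul γ : Γ) : SL(2, ℤ)) (x0 Γ) = _
  rw [modCoc_smul hΓ u hu r hru]
  rfl

theorem homOf_map {B : Type*} [CommRing B] (f : A →+* B)
    (hfu : ∀ x, (fun y => f (u y)) (S • x) = -(fun y => f (u y)) x) (γ : Γ) :
    homOf hΓ (fun y => f (u y)) hfu (Additive.ofMul γ) = f (homOf hΓ u hu (Additive.ofMul γ)) :=
  modCoc_map hΓ u hu f hfu _ _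

/-- The homomorphism attached to a coboundary vanishes. -/
theorem homOf_eq_zero_of_coboundary (g : (SL(2, ℤ) ⧸ Γ) → A) (hg : ∀ x, g ((S * T) • x) = g x)
    (hug : ∀ x, u x = g (S • x) - g x) : homOf hΓ u hu = 0 := by
  have hc : IsCoc Γ (fun (a : SL(2, ℤ)) (x : SL(2, ℤ) ⧸ Γ) => g (a • x) - g x) := by
    intro a b x
    show g ((a * b) • x) - g x = (g (a • b • x) - g (b • x)) + (g (b • x) - g x)
    rw [mul_smul]; abel
  refine AddMonoidHom.ext fun γ => ?_
  have h := eq_modCoc hΓ u hu hc (by funext x; exact (hug x).symm)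
    (by funext x; show g ((S * T) • x) - g x = 0; rw [hg, sub_self])
    ((Additive.toMul γ : Γ) : SL(2, ℤ))
  show modCoc hΓ u hu ((Additive.toMul γ : Γ) : SL(2, ℤ)) (x0 Γ) = 0
  rw [← h]
  show g (((Additive.toMul γ : Γ) : SL(2, ℤ)) • x0 Γ) - g (x0 Γ) = 0
  rw [smul_x0_of_mem Γ (Additive.toMul γ).2, sub_self]

/-- If the homomorphism attached to `u` vanishes then `u` is a coboundary. -/
theorem exists_coboundary_of_homOf_eq_zero (h0 : homOf hΓ u hu = 0) :
    ∃ g : (SL(2, ℤ) ⧸ Γ) → A, (∀ x, g ((S * T) • x) = g x) ∧ ∀ x, u x = g (S • x) - g x := by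
  have hc := isCoc_modCoc hΓ u hu
  have hout : ∀ x : SL(2, ℤ) ⧸ Γ, x.out • x0 Γ = x := by
    intro x
    change ((x.out * 1 : SL(2, ℤ)) : SL(2, ℤ) ⧸ Γ) = x
    rw [mul_one, QuotientGroup.out_eq']
  have key : ∀ (a : SL(2, ℤ)) (x : SL(2, ℤ) ⧸ Γ),
      modCoc hΓ u hu a x = modCoc hΓ u hu (a • x).out (x0 Γ) - modCoc hΓ u hu x.out (x0 Γ) := by
    intro a x
    have e1 : a * x.out = (a • x).out * ((delta Γ a x : Γ) : SL(2, ℤ)) := by
      simp [delta, mul_assoc]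
    have e2 := hc a x.out (x0 Γ)
    have e3 := hc (a • x).out ((delta Γ a x : Γ) : SL(2, ℤ)) (x0 Γ)
    rw [smul_x0_of_mem Γ (delta Γ a x).2] at e3
    have e4 : modCoc hΓ u hu ((delta Γ a x : Γ) : SL(2, ℤ)) (x0 Γ) = 0 := by
      have := congrArg (fun f : Additive Γ →+ A => f (Additive.ofMul (delta Γ a x))) h0
      exact this
    rw [hout, e1, e3, e4, add_zero] at e2
    rw [e2]; abel
  refine ⟨fun x => modCoc hΓ u hu x.out (x0 Γ), fun x => ?_, fun x => ?_⟩
  · have h1 := key (S * T) x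
    rw [modCoc_U] at h1
    exact (sub_eq_zero.mp h1.symm)
  · have h1 := key S x
    rw [modCoc_S] at h1
    exact h1

/-- Value of `homOf u` on a conjugate of a power of `T`. -/
theorem homOf_cusp {x : SL(2, ℤ) ⧸ Γ} {h : ℕ} (hx : T ^ h • x = x) (γ : Γ)
    (hγ : (γ : SL(2, ℤ)) = x.out⁻¹ * T ^ h * x.out) :
    homOf hΓ u hu (Additive.ofMul γ) = -∑ i ∈ Finset.range h, u (T ^ (i + 1) • x) := by
  rw [homOf_apply, hγ, isCoc_conj_out (isCoc_modCoc hΓ u hu) hx, modCoc_T_pow]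

/-- The Heisenberg cocycle attached to `(u, u', kS)`. -/
noncomputable def heisCoc : SL(2, ℤ) → (SL(2, ℤ) ⧸ Γ) → Heis A :=
  (exists_heisCoc hΓ u u' kS hu hu' hk).choose

theorem isCocM_heisCoc : IsCocM Γ (heisCoc hΓ u u' kS hu hu' hk) :=
  (exists_heisCoc hΓ u u' kS hu hu' hk).choose_spec.1

theorem heisCoc_S : heisCoc hΓ u u' kS hu hu' hk S = heisS u u' kS :=
  (exists_heisCoc hΓ u u' kS hu hu' hk).choose_spec.2.1

theorem heisCoc_U : heisCoc hΓ u u' kS hu hu' hk (S * T) = fun _ => 1 :=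
  (exists_heisCoc hΓ u u' kS hu hu' hk).choose_spec.2.2

theorem heisCoc_a (g : SL(2, ℤ)) (x : SL(2, ℤ) ⧸ Γ) :
    (heisCoc hΓ u u' kS hu hu' hk g x).a = modCoc hΓ u hu g x := by
  have h := eq_modCoc hΓ u hu (isCocM_heisCoc hΓ u u' kS hu hu' hk).isCoc_a
    (by funext y; show (heisCoc hΓ u u' kS hu hu' hk S y).a = u y; rw [heisCoc_S]; rfl)
    (by funext y; show (heisCoc hΓ u u' kS hu hu' hk (S * T) y).a = 0; rw [heisCoc_U]; rfl) g
  exact congrFun h x

theorem heisCoc_b (g : SL(2, ℤ)) (x : SL(2, ℤ) ⧸ Γ) :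
    (heisCoc hΓ u u' kS hu hu' hk g x).b = modCoc hΓ u' hu' g x := by
  have h := eq_modCoc hΓ u' hu' (isCocM_heisCoc hΓ u u' kS hu hu' hk).isCoc_b
    (by funext y; show (heisCoc hΓ u u' kS hu hu' hk S y).b = u' y; rw [heisCoc_S]; rfl)
    (by funext y; show (heisCoc hΓ u u' kS hu hu' hk (S * T) y).b = 0; rw [heisCoc_U]; rfl) g
  exact congrFun h x

/-- The `kappa` of the pair `(homOf u, homOf u')`: the central coordinate of the Heisenberg
cocycle at the base point. -/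
noncomputable def kap (γ : Γ) : A := (heisCoc hΓ u u' kS hu hu' hk (γ : SL(2, ℤ)) (x0 Γ)).k

/-- The defining relation of a `kappa`. -/
theorem kap_mul (γ γ' : Γ) :
    kap hΓ u u' kS hu hu' hk (γ * γ') = kap hΓ u u' kS hu hu' hk γ + kap hΓ u u' kS hu hu' hk γ'
      + homOf hΓ u hu (Additive.ofMul γ) * homOf hΓ u' hu' (Additive.ofMul γ') := by
  have h := isCocM_heisCoc hΓ u u' kS hu hu' hk (γ : SL(2, ℤ)) (γ' : SL(2, ℤ)) (x0 Γ)
  rw [smul_x0_of_mem Γ γ'.2] at h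
  show (heisCoc hΓ u u' kS hu hu' hk ((γ * γ' : Γ) : SL(2, ℤ)) (x0 Γ)).k = _
  rw [Subgroup.coe_mul, h, Heis.mul_k, heisCoc_a, heisCoc_b]
  rfl

/-- The value of the Heisenberg cocycle at `T`. -/
theorem heisCoc_T (x : SL(2, ℤ) ⧸ Γ) :
    heisCoc hΓ u u' kS hu hu' hk T x = ⟨-u (T • x), -u' (T • x), kS (S • T • x)⟩ := by
  have h := isCocM_heisCoc hΓ u u' kS hu hu' hk S T x
  rw [heisCoc_U, heisCoc_S] at h
  have h' : heisCoc hΓ u u' kS hu hu' hk T x = (heisS u u' kS (T • x))⁻¹ :=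
    eq_inv_of_mul_eq_one_right h.symm
  rw [h']
  apply Heis.ext
  · rfl
  · rfl
  · show -kS (T • x) + u (T • x) * u' (T • x) = kS (S • T • x)
    linear_combination -hk (T • x)

theorem heisCoc_T_pow_k (h : ℕ) (x : SL(2, ℤ) ⧸ Γ) :
    (heisCoc hΓ u u' kS hu hu' hk (T ^ h) x).k
      = ∑ i ∈ Finset.range h, (kS (S • T ^ (i + 1) • x)
          + u (T ^ (i + 1) • x) * ∑ j ∈ Finset.range i, u' (T ^ (j + 1) • x)) := by
  induction h with
  | zero => simp [(isCocM_heisCoc hΓ u u' kS hu hu' hk).one]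
  | succ h ih =>
    have e1 : (T ^ (h + 1) : SL(2, ℤ)) = T * T ^ h := pow_succ' T h
    have e2 : T • T ^ h • x = T ^ (h + 1) • x := by rw [e1, mul_smul]
    have hTk : (heisCoc hΓ u u' kS hu hu' hk T (T ^ h • x)).k = kS (S • T ^ (h + 1) • x) := by
      rw [heisCoc_T, e2]
    have hTa : (heisCoc hΓ u u' kS hu hu' hk T (T ^ h • x)).a = -u (T ^ (h + 1) • x) := by
      rw [heisCoc_T, e2]
    rw [e1, isCocM_heisCoc hΓ u u' kS hu hu' hk, Heis.mul_k, ih, hTk, hTa, heisCoc_b,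
      modCoc_T_pow, Finset.sum_range_succ]
    ring

/-- Value of `kap` on a conjugate of a power of `T` on which both homomorphisms vanish. -/
theorem kap_cusp {x : SL(2, ℤ) ⧸ Γ} {h : ℕ} (hx : T ^ h • x = x) (γ : Γ)
    (hγ : (γ : SL(2, ℤ)) = x.out⁻¹ * T ^ h * x.out)
    (ha : ∑ i ∈ Finset.range h, u (T ^ (i + 1) • x) = 0)
    (hb : ∑ i ∈ Finset.range h, u' (T ^ (i + 1) • x) = 0) :
    kap hΓ u u' kS hu hu' hk γ
      = ∑ i ∈ Finset.range h, (kS (S • T ^ (i + 1) • x)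
          + u (T ^ (i + 1) • x) * ∑ j ∈ Finset.range i, u' (T ^ (j + 1) • x)) := by
  have hδ : (γ : SL(2, ℤ)) = ((delta Γ (T ^ h) x : Γ) : SL(2, ℤ)) := by
    rw [hγ, coe_delta_of_fixed hx]
  show (heisCoc hΓ u u' kS hu hu' hk (γ : SL(2, ℤ)) (x0 Γ)).k = _
  rw [hδ, (isCocM_heisCoc hΓ u u' kS hu hu' hk).delta_of_fixed hx, Heis.conj_k, heisCoc_T_pow_k]
  simp only [heisCoc_a, heisCoc_b, modCoc_T_pow, ha, hb]
  ring

end Model

end Fermat.Agent.S41.Pairing.Wreath
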