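import Mathlib
import Fermat.Agent.S16.ShimuraLift
import Fermat.Agent.S41.Pairing.Periph
import Fermat.Agent.S41.Pairing.Model
import Fermat.Agent.S41.Pairing.ModelLift
import Fermat.Agent.S41.Pairing.Wreath
import Fermat.Agent.S41.Pairing.Eval

set_option autoImplicit false
set_option linter.unusedSectionVars false

/-!
# S41 / (P4): nondegeneracy of the cusp pairing modulo an odd prime, over `ℤ`

`Γ ≤ SL(2, ℤ)` of finite index with `-1 ∈ Γ`, `X = SL(2, ℤ) ⧸ Γ`.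

* `exists_pot_of_fixed` : a cocycle whose values on the stabilisers `⟨g⟩_y` vanish has a potential
  along `g` (no finiteness, no orbit bookkeeping).
* `exists_homOf_eq` : every hom `Γ → ℤ` is `Wreath.homOf u` for a `S`-antisymmetric `u`.
* `isParabolicHom_homOf_iff` : `homOf u` is parabolic iff `u` has a potential along `T`.
* `exists_kappa_int`, `two_mul_sum_kappa` : kappas exist over `ℤ`, and for parabolic homs twice the
  sum of ANY kappa over the cusp family is `- b2 τ P u'`.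
* `nondeg` : if a parabolic `φ` pairs into `pℤ` with every parabolic hom (`p` an odd prime), then
  `φ ∈ p · Hom_par(Γ, ℤ)`.
-/

open scoped MatrixGroups
open ModularGroup

namespace Fermat.Agent.S41.Pairing.Nondeg

open Fermat.Agent.S16.ShimuraLift Fermat.Agent.S21.GroupBound Fermat.Agent.S41.Pairing.Model
open ModularCurve.Period

variable {Γ : Subgroup SL(2, ℤ)}

/-! ### The potential lemma -/

/-- **Potential lemma.**  If a cocycle vanishes at `(g ^ m, y)` whenever `g ^ m` fixes `y`, then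
`c g` is a coboundary along `g`: `c g y = P (g • y) - P y`. -/
theorem exists_pot_of_fixed {B : Type*} [AddCommGroup B] {c : SL(2, ℤ) → (SL(2, ℤ) ⧸ Γ) → B}
    (hc : IsCoc Γ c) (g : SL(2, ℤ))
    (h0 : ∀ (y : SL(2, ℤ) ⧸ Γ) (m : ℤ), g ^ m • y = y → c (g ^ m) y = 0) :
    ∃ P : (SL(2, ℤ) ⧸ Γ) → B, ∀ y, c g y = P (g • y) - P y := by
  classical
  let rel := MulAction.orbitRel (Subgroup.zpowers g) (SL(2, ℤ) ⧸ Γ)
  let rep : (SL(2, ℤ) ⧸ Γ) → (SL(2, ℤ) ⧸ Γ) := fun y => (Quotient.mk rel y).out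
  have hrep : ∀ y, ∃ m : ℤ, g ^ m • rep y = y := by
    intro y
    have h1 : rel (rep y) y := Quotient.mk_out (s := rel) y
    rw [MulAction.orbitRel_apply] at h1
    obtain ⟨⟨h, hh⟩, hy⟩ := h1
    obtain ⟨m, rfl⟩ := Subgroup.mem_zpowers_iff.mp hh
    refine ⟨-m, ?_⟩
    have hy' : g ^ m • y = rep y := hy
    rw [← hy', ← mul_smul, ← zpow_add, neg_add_cancel, zpow_zero, one_smul]
  have hrepg : ∀ y, rep (g • y) = rep y := by
    intro y
    have : Quotient.mk rel (g • y) = Quotient.mk rel y := by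
      apply Quotient.sound
      show rel (g • y) y
      rw [MulAction.orbitRel_apply]
      exact ⟨⟨g, Subgroup.mem_zpowers g⟩, rfl⟩
    show (Quotient.mk rel (g • y)).out = (Quotient.mk rel y).out
    rw [this]
  choose kk hkk using hrep
  refine ⟨fun y => c (g ^ kk y) (rep y), fun y => ?_⟩
  show c g y = c (g ^ kk (g • y)) (rep (g • y)) - c (g ^ kk y) (rep y)
  rw [hrepg]
  have ha := hkk (g • y)
  rw [hrepg] at ha
  have hb := hkk y
  have e : g ^ kk (g • y) = g ^ (kk (g • y) - kk y - 1) * (g * g ^ kk y) := by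
    rw [← zpow_one_add, ← zpow_add]
    congr 1; ring
  have hfix : g ^ (kk (g • y) - kk y - 1) • (g • y) = g • y := by
    have h1 : g ^ (kk (g • y) - kk y - 1) • (g • y)
        = (g ^ (kk (g • y) - kk y - 1) * (g * g ^ kk y)) • rep y := by
      rw [mul_smul, mul_smul, hb]
    rw [h1, ← e, ha]
  have h2 := hc (g ^ (kk (g • y) - kk y - 1)) (g * g ^ kk y) (rep y)
  rw [← e, mul_smul, hb, h0 _ _ hfix, zero_add, hc g (g ^ kk y) (rep y), hb] at h2
  rw [h2]; abel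

/-! ### Surjectivity of the dictionary over `ℤ` -/

theorem ST_pow_six : ((S * T) ^ 6 : SL(2, ℤ)) = 1 := by
  have h : ((S * T) ^ 6 : SL(2, ℤ)) = ((S * T) ^ 3) ^ 2 := by rw [← pow_mul]
  rw [h, ST_cube]; simp

/-- Every homomorphism `Γ → ℤ` is attached to a `S`-antisymmetric function. -/
theorem exists_homOf_eq (hΓ : (-1 : SL(2, ℤ)) ∈ Γ) (φ : Additive Γ →+ ℤ) :
    ∃ (u : (SL(2, ℤ) ⧸ Γ) → ℤ) (hu : ∀ x, u (S • x) = -u x), Wreath.homOf hΓ u hu = φ := by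
  have hc0 := isCoc_shap φ
  -- the Shapiro cocycle vanishes on the stabilisers of `S * T`
  have h0 : ∀ (y : SL(2, ℤ) ⧸ Γ) (m : ℤ), (S * T) ^ m • y = y → shap φ ((S * T) ^ m) y = 0 := by
    intro y m hy
    have h6 : (delta Γ ((S * T) ^ m) y) ^ 6 = 1 := by
      apply Subtype.ext
      rw [Subgroup.coe_pow, coe_delta_pow_of_fixed hy]
      have : (((S * T) ^ m) ^ 6 : SL(2, ℤ)) = 1 := by
        rw [← zpow_natCast, ← zpow_mul, mul_comm, zpow_mul, zpow_natCast, ST_pow_six, one_zpow]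
      rw [this]; simp
    have h1 : (6 : ℤ) * φ (Additive.ofMul (delta Γ ((S * T) ^ m) y)) = 0 := by
      have h2 := congrArg (fun γ : Γ => φ (Additive.ofMul γ)) h6
      simp only [ofMul_pow, map_nsmul, ofMul_one, map_zero] at h2
      simpa using h2
    show φ (Additive.ofMul (delta Γ ((S * T) ^ m) y)) = 0
    omega
  obtain ⟨P, hP⟩ := exists_pot_of_fixed hc0 (S * T) h0
  let c : SL(2, ℤ) → (SL(2, ℤ) ⧸ Γ) → ℤ := fun g x => shap φ g x - (P (g • x) - P x)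
  have hc : IsCoc Γ c := by
    intro g h x
    show shap φ (g * h) x - (P ((g * h) • x) - P x)
      = shap φ g (h • x) - (P (g • h • x) - P (h • x)) + (shap φ h x - (P (h • x) - P x))
    rw [hc0 g h x, mul_smul]; ring
  have hcU : c (S * T) = 0 := by
    funext x
    show shap φ (S * T) x - (P ((S * T) • x) - P x) = 0
    rw [hP x]; ring
  have hneg : ∀ x, c (-1) x = 0 := by
    intro x
    have h1 := hc (-1) (-1) x
    rw [neg_one_smul' Γ hΓ x] at h1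
    have h2 : ((-1 : SL(2, ℤ)) * (-1)) = 1 := by simp
    rw [h2, hc.one] at h1
    omega
  have hu : ∀ x, c S (S • x) = - c S x := by
    intro x
    have h1 := hc S S x
    have h2 : (S * S : SL(2, ℤ)) = -1 := by rw [← pow_two, S_sq]
    rw [h2, hneg] at h1
    omega
  refine ⟨c S, hu, ?_⟩
  refine AddMonoidHom.ext fun γ => ?_
  have h1 := Wreath.eq_modCoc hΓ (c S) hu hc rfl hcU ((Additive.toMul γ : Γ) : SL(2, ℤ))
  show Wreath.modCoc hΓ (c S) hu ((Additive.toMul γ : Γ) : SL(2, ℤ)) (x0 Γ) = φ γ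
  rw [← h1]
  show shap φ ((Additive.toMul γ : Γ) : SL(2, ℤ)) (x0 Γ)
    - (P (((Additive.toMul γ : Γ) : SL(2, ℤ)) • x0 Γ) - P (x0 Γ)) = φ γ
  rw [smul_x0_of_mem Γ (Additive.toMul γ).2, shap_x0_of_mem]
  simp

/-! ### Parabolic homomorphisms and potentials -/

/-- A cocycle whose value at `T` has a potential telescopes on all integer powers of `T`. -/
theorem coc_T_zpow_of_pot {c : SL(2, ℤ) → (SL(2, ℤ) ⧸ Γ) → ℤ} (hc : IsCoc Γ c)
    (Q : (SL(2, ℤ) ⧸ Γ) → ℤ) (hQ : ∀ y, c T y = Q (T • y) - Q y) (m : ℤ) (y : SL(2, ℤ) ⧸ Γ) :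
    c (T ^ m) y = Q (T ^ m • y) - Q y := by
  cases m with
  | ofNat n =>
    have h := Eval.coc_pow_of_pot hc T Q hQ n y
    simpa using h
  | negSucc n =>
    rw [zpow_negSucc, hc.inv, Eval.coc_pow_of_pot hc T Q hQ (n + 1), smul_inv_smul]
    ring

/-- A cocycle whose value at `T` has a potential gives a parabolic homomorphism. -/
theorem isParabolicHom_homOfCoc_of_pot (hΓ : (-1 : SL(2, ℤ)) ∈ Γ)
    {c : SL(2, ℤ) → (SL(2, ℤ) ⧸ Γ) → ℤ} (hc : IsCoc Γ c)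
    (Q : (SL(2, ℤ) ⧸ Γ) → ℤ) (hQ : ∀ y, c T y = Q (T • y) - Q y) :
    IsParabolicHom Γ (homOfCoc c hc) := by
  have key : ∀ (δ : SL(2, ℤ)) (m : ℤ), (δ * T ^ m * δ⁻¹) • x0 Γ = x0 Γ →
      c (δ * T ^ m * δ⁻¹) (x0 Γ) = 0 := by
    intro δ m hfix
    set y := δ⁻¹ • x0 Γ with hy
    have hfy : T ^ m • y = y := by
      have h1 : T ^ m • y = δ⁻¹ • ((δ * T ^ m * δ⁻¹) • x0 Γ) := by
        rw [hy, ← mul_smul, ← mul_smul]; congr 1; group
      rw [h1, hfix]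
    have h1 : c (δ * T ^ m * δ⁻¹) (x0 Γ) = c (T ^ m) y := by
      have e1 := hc (δ * T ^ m) δ⁻¹ (x0 Γ)
      have e2 := hc δ (T ^ m) y
      have e3 := hc δ δ⁻¹ (x0 Γ)
      rw [mul_inv_cancel, hc.one] at e3
      rw [← hy] at e1 e3
      rw [hfy] at e2
      rw [e1, e2]
      linarith
    rw [h1, coc_T_zpow_of_pot hc Q hQ, hfy, sub_self]
  have hneg : c (-1) (x0 Γ) = 0 := by
    have h1 := hc (-1) (-1) (x0 Γ)
    rw [neg_one_smul' Γ hΓ] at h1
    have h2 : ((-1 : SL(2, ℤ)) * (-1)) = 1 := by simp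
    rw [h2, hc.one] at h1
    omega
  intro γ htr
  rw [homOfCoc_apply]
  obtain ⟨δ, hδ⟩ := Fermat.Agent.S21.exists_conj_upper (γ : SL(2, ℤ)) htr
  obtain ⟨m, hm⟩ := Fermat.Agent.S21.upper_eq_T_zpow _ hδ
  rcases hm with hm | hm
  · have h1 : (γ : SL(2, ℤ)) = δ * T ^ m * δ⁻¹ := by rw [← hm]; group
    rw [h1]
    refine key δ m ?_
    rw [← h1]; exact smul_x0_of_mem _ γ.2
  · have h1 : (γ : SL(2, ℤ)) = -1 * (δ * T ^ m * δ⁻¹) := by
      have : δ * T ^ m * δ⁻¹ = -(γ : SL(2, ℤ)) := by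
        have h2 : T ^ m = -(δ⁻¹ * (γ : SL(2, ℤ)) * δ) := by rw [hm, neg_neg]
        rw [h2]
        simp [mul_assoc]
      rw [this]; simp
    have hmem : δ * T ^ m * δ⁻¹ ∈ Γ := by
      have : δ * T ^ m * δ⁻¹ = -1 * (γ : SL(2, ℤ)) := by rw [h1]; simp
      rw [this]
      exact mul_mem hΓ γ.2
    have hfix := smul_x0_of_mem _ hmem
    rw [h1, hc, hfix, hneg, key δ m hfix, add_zero]

section Dict

variable [Fintype (SL(2, ℤ) ⧸ Γ)] (hΓ : (-1 : SL(2, ℤ)) ∈ Γ)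
  (u : (SL(2, ℤ) ⧸ Γ) → ℤ) (hu : ∀ x, u (S • x) = -u x)

/-- A potential of `u` along `T` makes `homOf u` parabolic. -/
theorem isParabolicHom_of_pot (P : (SL(2, ℤ) ⧸ Γ) → ℤ) (hP : IsPot (MulAction.toPerm T) P u) :
    IsParabolicHom Γ (Wreath.homOf hΓ u hu) := by
  refine isParabolicHom_homOfCoc_of_pot hΓ (Wreath.isCoc_modCoc hΓ u hu) (-P) fun y => ?_
  have h := hP (T • y)
  rw [MulAction.toPerm_symm_apply, inv_smul_smul] at h
  rw [Wreath.modCoc_T, ← h]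
  simp only [Pi.neg_apply]; ring

/-- If `homOf u` is parabolic then `u` has a potential along `T`. -/
theorem exists_pot_of_parabolic (hpar : IsParabolicHom Γ (Wreath.homOf hΓ u hu)) :
    ∃ P : (SL(2, ℤ) ⧸ Γ) → ℤ, IsPot (MulAction.toPerm T) P u := by
  have hc := Wreath.isCoc_modCoc hΓ u hu
  have h0 : ∀ (y : SL(2, ℤ) ⧸ Γ) (m : ℤ), T ^ m • y = y →
      Wreath.modCoc hΓ u hu (T ^ m) y = 0 := by
    intro y m hy
    rw [← Wreath.isCoc_conj_out hc hy]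
    have hcoe : ((delta Γ (T ^ m) y : Γ) : SL(2, ℤ)) = y.out⁻¹ * T ^ m * y.out :=
      coe_delta_of_fixed hy
    rw [← hcoe]
    refine hpar (delta Γ (T ^ m) y) ?_
    rw [hcoe, trace_conj, ModularGroup.coe_T_zpow, Matrix.trace_fin_two_of]
    norm_num
  obtain ⟨P0, hP0⟩ := exists_pot_of_fixed hc T h0
  refine ⟨-P0, fun z => ?_⟩
  have h := hP0 (T⁻¹ • z)
  rw [smul_inv_smul, Wreath.modCoc_T, smul_inv_smul] at h
  show (-P0) z - (-P0) ((MulAction.toPerm T).symm z) = u z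
  rw [MulAction.toPerm_symm_apply]
  simp only [Pi.neg_apply]
  linarith

theorem isParabolicHom_homOf_iff :
    IsParabolicHom Γ (Wreath.homOf hΓ u hu) ↔
      ∃ P : (SL(2, ℤ) ⧸ Γ) → ℤ, IsPot (MulAction.toPerm T) P u :=
  ⟨exists_pot_of_parabolic hΓ u hu, fun ⟨P, hP⟩ => isParabolicHom_of_pot hΓ u hu P hP⟩

end Dict

section Cusp

open MulAction Function

/-- The cusp family: the generator `g⁻¹ T ^ h g` of the stabiliser of the cusp of each `T`-orbit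
(`g` the chosen representative, `h` the length of the orbit).  Same indexing and same elements as
Mathlib's explicit transfer formula. -/
noncomputable def cuspFam (Γ : Subgroup SL(2, ℤ))
    (q : Quotient (orbitRel (Subgroup.zpowers T) (SL(2, ℤ) ⧸ Γ))) : Γ :=
  ⟨q.out.out⁻¹ * T ^ minimalPeriod (T • ·) q.out * q.out.out,
    QuotientGroup.out_conj_pow_minimalPeriod_mem Γ T q.out⟩

theorem coe_cuspFam (Γ : Subgroup SL(2, ℤ))
    (q : Quotient (orbitRel (Subgroup.zpowers T) (SL(2, ℤ) ⧸ Γ))) :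
    (cuspFam Γ q : SL(2, ℤ)) = q.out.out⁻¹ * T ^ minimalPeriod (T • ·) q.out * q.out.out := rfl

/-- Kappas exist for every pair of homomorphisms `Γ → ℤ`. -/
theorem exists_kappa_int (hΓ : (-1 : SL(2, ℤ)) ∈ Γ) (φ ψ : Additive Γ →+ ℤ) :
    ∃ k : Γ → ℤ, Periph.IsKappaRel φ ψ k := by
  obtain ⟨u, hu, rfl⟩ := exists_homOf_eq hΓ φ
  obtain ⟨u', hu', rfl⟩ := exists_homOf_eq hΓ ψ
  obtain ⟨kS, hkS⟩ := Wreath.exists_kS hΓ (fun a ha => by omega) u u' hu hu'
  exact ⟨Wreath.kap hΓ u u' kS hu hu' hkS, fun γ γ' => Wreath.kap_mul hΓ u u' kS hu hu' hkS γ γ'⟩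

variable [Fintype (SL(2, ℤ) ⧸ Γ)]
  [Fintype (Quotient (orbitRel (Subgroup.zpowers T) (SL(2, ℤ) ⧸ Γ)))]

/-- **Formula (M2)** for the kappa of `Wreath`: twice its sum over the cusp family is `- b2`. -/
theorem two_mul_sum_kap (hΓ : (-1 : SL(2, ℤ)) ∈ Γ) (u u' kS : (SL(2, ℤ) ⧸ Γ) → ℤ)
    (hu : ∀ x, u (S • x) = -u x) (hu' : ∀ x, u' (S • x) = -u' x)
    (hk : ∀ x, kS (S • x) + kS x = u x * u' x)
    (P P' : (SL(2, ℤ) ⧸ Γ) → ℤ) (hP : IsPot (MulAction.toPerm T) P u)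
    (hP' : IsPot (MulAction.toPerm T) P' u') :
    2 * ∑ q, Wreath.kap hΓ u u' kS hu hu' hk (cuspFam Γ q) = - b2 (MulAction.toPerm T) P u' := by
  have hH : Eval.IsHeisCoc Γ (Wreath.modCoc hΓ u hu) (Wreath.modCoc hΓ u' hu')
      (fun g x => (Wreath.heisCoc hΓ u u' kS hu hu' hk g x).k) := by
    intro g h x
    have h1 := Wreath.isCocM_heisCoc hΓ u u' kS hu hu' hk g h x
    show (Wreath.heisCoc hΓ u u' kS hu hu' hk (g * h) x).k = _
    rw [h1, Wreath.Heis.mul_k, Wreath.heisCoc_a, Wreath.heisCoc_b]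
  have hk0 : (fun g x => (Wreath.heisCoc hΓ u u' kS hu hu' hk g x).k) (S * T) = 0 := by
    funext x
    show (Wreath.heisCoc hΓ u u' kS hu hu' hk (S * T) x).k = 0
    rw [Wreath.heisCoc_U]; rfl
  have h2S : 2 * ∑ z, (fun g x => (Wreath.heisCoc hΓ u u' kS hu hu' hk g x).k) S z
      = ∑ z, Wreath.modCoc hΓ u hu S z * Wreath.modCoc hΓ u' hu' S z := by
    rw [Wreath.modCoc_S, Wreath.modCoc_S]
    show 2 * ∑ z, (Wreath.heisCoc hΓ u u' kS hu hu' hk S z).k = ∑ z, u z * u' z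
    rw [Wreath.heisCoc_S]
    show 2 * ∑ z, kS z = ∑ z, u z * u' z
    have e : ∑ z, (kS (S • z) + kS z) = ∑ z, u z * u' z :=
      Finset.sum_congr rfl fun z _ => hk z
    have e2 : ∑ z, kS (S • z) = ∑ z, kS z := Equiv.sum_comp (MulAction.toPerm S) kS
    rw [Finset.sum_add_distrib, e2] at e
    linarith
  have h := Eval.two_mul_sum_cusp_gauge (Wreath.isCoc_modCoc hΓ u hu)
    (Wreath.isCoc_modCoc hΓ u' hu') hH (Wreath.modCoc_U hΓ u hu) (Wreath.modCoc_U hΓ u' hu') hk0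
    h2S P P' (by rw [Wreath.modCoc_S]; exact hP) (by rw [Wreath.modCoc_S]; exact hP')
  rw [Wreath.modCoc_S] at h
  exact h

/-- **Balancedness over `ℤ`**: every homomorphism `Γ → ℤ` sums to zero over the cusp family. -/
theorem sum_cuspFam_hom (hΓ : (-1 : SL(2, ℤ)) ∈ Γ) (lam : Additive Γ →+ ℤ) :
    ∑ q, lam (Additive.ofMul (cuspFam Γ q)) = 0 := by
  obtain ⟨w, hw, rfl⟩ := exists_homOf_eq hΓ lam
  have h1 : ∀ q : Quotient (orbitRel (Subgroup.zpowers T) (SL(2, ℤ) ⧸ Γ)),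
      Wreath.homOf hΓ w hw (Additive.ofMul (cuspFam Γ q))
        = - ∑ i ∈ Finset.range (minimalPeriod (T • ·) q.out), w (T • (T ^ i • q.out)) := by
    intro q
    rw [Wreath.homOf_cusp hΓ w hw (Eval.pow_minimalPeriod_smul T q.out) (cuspFam Γ q) rfl]
    congr 1
    refine Finset.sum_congr rfl fun i _ => ?_
    rw [pow_succ', mul_smul]
  have e2 : ∑ y, w (T • y) = ∑ y, w y := Equiv.sum_comp (MulAction.toPerm T) w
  rw [Finset.sum_congr rfl fun q _ => h1 q, Finset.sum_neg_distrib,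
    Eval.sum_orbits (Γ := Γ) T (fun y => w (T • y)), e2,
    ModelLift.sum_eq_zero_of_anti (σ := MulAction.toPerm S) hw, neg_zero]

/-- **Formula (M2) for any kappa.**  For `S`-antisymmetric `u`, `u'` with potentials `P`, `P'`
along `T`, and ANY kappa `k` of the pair `(homOf u, homOf u')`, twice the sum of `k` over the cusp
family is `- b2 τ P u'`. -/
theorem two_mul_sum_kappa (hΓ : (-1 : SL(2, ℤ)) ∈ Γ) (u u' : (SL(2, ℤ) ⧸ Γ) → ℤ)
    (hu : ∀ x, u (S • x) = -u x) (hu' : ∀ x, u' (S • x) = -u' x)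
    (P P' : (SL(2, ℤ) ⧸ Γ) → ℤ) (hP : IsPot (MulAction.toPerm T) P u)
    (hP' : IsPot (MulAction.toPerm T) P' u') (k : Γ → ℤ)
    (hk : Periph.IsKappaRel (Wreath.homOf hΓ u hu) (Wreath.homOf hΓ u' hu') k) :
    2 * ∑ q, k (cuspFam Γ q) = - b2 (MulAction.toPerm T) P u' := by
  obtain ⟨kS, hkS⟩ := Wreath.exists_kS hΓ (fun a ha => by omega) u u' hu hu'
  let lam : Additive Γ →+ ℤ := AddMonoidHom.mk'
    (fun γ => k (Additive.toMul γ) - Wreath.kap hΓ u u' kS hu hu' hkS (Additive.toMul γ))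
    (by
      intro a b
      show k (Additive.toMul a * Additive.toMul b)
          - Wreath.kap hΓ u u' kS hu hu' hkS (Additive.toMul a * Additive.toMul b) = _
      rw [hk, Wreath.kap_mul]
      ring)
  have hbal := sum_cuspFam_hom hΓ lam
  have hbal' : ∑ q, (k (cuspFam Γ q) - Wreath.kap hΓ u u' kS hu hu' hkS (cuspFam Γ q)) = 0 := hbal
  rw [Finset.sum_sub_distrib] at hbal'
  have h0 := two_mul_sum_kap hΓ u u' kS hu hu' hkS P P' hP hP'
  rw [← h0]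
  linarith

/-- `S`, `T` act transitively on `SL(2, ℤ) ⧸ Γ`, in the closure form used by `ModelLift`. -/
theorem exists_mem_closure_apply_eq (x y : SL(2, ℤ) ⧸ Γ) :
    ∃ g ∈ Subgroup.closure ({MulAction.toPerm S, MulAction.toPerm T} :
      Set (Equiv.Perm (SL(2, ℤ) ⧸ Γ))), g x = y := by
  obtain ⟨a, ha⟩ := MulAction.exists_smul_eq SL(2, ℤ) x y
  refine ⟨MulAction.toPermHom SL(2, ℤ) (SL(2, ℤ) ⧸ Γ) a, ?_, ha⟩
  have hmem : a ∈ Subgroup.closure ({S, T} : Set SL(2, ℤ)) := by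
    rw [SpecialLinearGroup.SL2Z_generators]; trivial
  have h1 := Subgroup.mem_map_of_mem (MulAction.toPermHom SL(2, ℤ) (SL(2, ℤ) ⧸ Γ)) hmem
  rw [MonoidHom.map_closure, Set.image_pair] at h1
  exact h1

/-- **Nondegeneracy modulo an odd prime** (`(L5)`).  Let `p` be an odd prime and `φ : Γ → ℤ` a
parabolic homomorphism.  If for every parabolic `ψ` some kappa of `(φ, ψ)` has sum over the cusp
family divisible by `p`, then `φ = p • φ₁` with `φ₁` parabolic. -/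
theorem nondeg (hΓ : (-1 : SL(2, ℤ)) ∈ Γ) {p : ℕ} [Fact p.Prime] (hp2 : p ≠ 2)
    (φ : Additive Γ →+ ℤ) (hφ : IsParabolicHom Γ φ)
    (H : ∀ ψ : Additive Γ →+ ℤ, IsParabolicHom Γ ψ →
      ∃ k : Γ → ℤ, Periph.IsKappaRel φ ψ k ∧ (p : ℤ) ∣ ∑ q, k (cuspFam Γ q)) :
    ∃ φ₁ : Additive Γ →+ ℤ, IsParabolicHom Γ φ₁ ∧ φ = (p : ℤ) • φ₁ := by
  have hp : p.Prime := Fact.out
  have hpz : (p : ℤ) ≠ 0 := by exact_mod_cast hp.ne_zero
  obtain ⟨u, hu, rfl⟩ := exists_homOf_eq hΓ φ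
  obtain ⟨P, hP⟩ := exists_pot_of_parabolic hΓ u hu hφ
  have hσ : ∀ x : SL(2, ℤ) ⧸ Γ, (MulAction.toPerm S) ((MulAction.toPerm S) x) = x :=
    fun x => S_smul_S_smul hΓ x
  have hrad : ∀ u' P' : (SL(2, ℤ) ⧸ Γ) → ℤ, (∀ x, u' ((MulAction.toPerm S) x) = - u' x) →
      IsPot (MulAction.toPerm T) P' u' → (p : ℤ) ∣ b2 (MulAction.toPerm T) P u' := by
    intro u' P' hu' hP'
    have hψ := isParabolicHom_of_pot hΓ u' hu' P' hP'
    obtain ⟨k, hk, hdvd⟩ := H _ hψ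
    have h2 := two_mul_sum_kappa hΓ u u' hu hu' P P' hP hP' k hk
    have h3 : (p : ℤ) ∣ - b2 (MulAction.toPerm T) P u' := by
      rw [← h2]; exact Dvd.dvd.mul_left hdvd 2
    exact (dvd_neg.mp h3)
  obtain ⟨g, u₁, hg, hu₁, hdec⟩ := ModelLift.exists_coboundary_add_mul hp2 hσ
    exists_mem_closure_apply_eq (u := u) (P := P) hu hP hrad
  have hu₁ : ∀ x, u₁ (S • x) = - u₁ x := hu₁
  have hdec : ∀ x, u x = g (S • x) - g x + (p : ℤ) * u₁ x := hdec
  have hg : ∀ x, g (T • S • x) = g x := hg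
  -- the coboundary part
  have hw : ∀ x, (fun x => g (S • x) - g x) (S • x) = -(fun x => g (S • x) - g x) x := by
    intro x
    show g (S • S • x) - g (S • x) = -(g (S • x) - g x)
    rw [S_smul_S_smul hΓ x]; ring
  have hgT : ∀ x, g (T • x) = g (S • x) := by
    intro x
    have h := hg (S • x)
    rwa [S_smul_S_smul hΓ x] at h
  have h0 : Wreath.homOf hΓ (fun x => g (S • x) - g x) hw = 0 := by
    refine Wreath.homOf_eq_zero_of_coboundary hΓ _ hw (fun x => - g (S • x)) ?_ ?_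
    · intro x
      show - g (S • (S * T) • x) = - g (S • x)
      rw [mul_smul, S_smul_S_smul hΓ, hgT]
    · intro x
      show g (S • x) - g x = - g (S • S • x) - - g (S • x)
      rw [S_smul_S_smul hΓ x]; ring
  have hpu₁ : ∀ x, ((p : ℤ) • u₁) (S • x) = -((p : ℤ) • u₁) x := by
    intro x
    show (p : ℤ) • u₁ (S • x) = -((p : ℤ) • u₁ x)
    rw [hu₁ x]; simp
  have hsum : u = (fun x => g (S • x) - g x) + (p : ℤ) • u₁ := by
    funext x
    show u x = (g (S • x) - g x) + (p : ℤ) • u₁ x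
    rw [hdec x]; simp
  subst hsum
  refine ⟨Wreath.homOf hΓ u₁ hu₁, ?_, ?_⟩
  · intro γ htr
    have h1 := hφ γ htr
    rw [Wreath.homOf_add hΓ _ _ hw hpu₁ hu, h0, zero_add, Wreath.homOf_smul hΓ u₁ hu₁ (p : ℤ) hpu₁]
      at h1
    have h2 : (p : ℤ) * Wreath.homOf hΓ u₁ hu₁ (Additive.ofMul γ) = 0 := by
      simpa using h1
    rcases mul_eq_zero.mp h2 with h3 | h3
    · exact absurd h3 hpz
    · exact h3
  · rw [Wreath.homOf_add hΓ _ _ hw hpu₁ hu, h0, zero_add, Wreath.homOf_smul hΓ u₁ hu₁ (p : ℤ) hpu₁]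

/-- `nondeg` in the language of `Periph.HasPairing`. -/
theorem nondeg_hasPairing (hΓ : (-1 : SL(2, ℤ)) ∈ Γ) {p : ℕ} [Fact p.Prime] (hp2 : p ≠ 2)
    (φ : Additive Γ →+ ℤ) (hφ : IsParabolicHom Γ φ)
    (H : ∀ ψ : Additive Γ →+ ℤ, IsParabolicHom Γ ψ →
      ∃ a : ℤ, HasPairing (cuspFam Γ) φ ψ a ∧ (p : ℤ) ∣ a) :
    ∃ φ₁ : Additive Γ →+ ℤ, IsParabolicHom Γ φ₁ ∧ φ = (p : ℤ) • φ₁ := by
  refine nondeg hΓ hp2 φ hφ fun ψ hψ => ?_
  obtain ⟨a, ⟨k, hk, hka⟩, hdvd⟩ := H ψ hψ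
  exact ⟨k, hk, by rw [hka]; exact hdvd⟩

/-- The cusp family is balanced over `ℤ`. -/
theorem isBalanced_cuspFam (hΓ : (-1 : SL(2, ℤ)) ∈ Γ) : IsBalanced ℤ (cuspFam Γ) :=
  fun lam => sum_cuspFam_hom hΓ lam

/-- Every pair of homomorphisms `Γ → ℤ` has a pairing value along the cusp family. -/
theorem exists_hasPairing (hΓ : (-1 : SL(2, ℤ)) ∈ Γ) (φ ψ : Additive Γ →+ ℤ) :
    ∃ a : ℤ, HasPairing (cuspFam Γ) φ ψ a := by
  obtain ⟨k, hk⟩ := exists_kappa_int hΓ φ ψ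
  exact ⟨_, k, hk, rfl⟩

end Cusp

end Fermat.Agent.S41.Pairing.Nondeg
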