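import Mathlib
import Fermat.Agent.S41.Frame
import Fermat.Agent.S41.Pairing.Periph
import Fermat.Agent.S41.Pairing.Cusps
import Fermat.Agent.S41.Pairing.Nondeg

set_option autoImplicit false
set_option linter.unusedSectionVars false

/-!
# S41 / (P4): the cusp pairing on the cohomology lattice `Lat M = H¹_par(Γ₀(M), ℤ)`

* `pair M : Lat M →ₗ[ℤ] Lat M →ₗ[ℤ] ℤ`, the `ℤ`-valued pairing `∑_c k (cuspGen c)` (`k` any kappa
  of the pair of homs);
* `pair_spec`, `pair_eq_of_hasPairing`, `pair_eq_sum`: its characterisation through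
  `Periph.HasPairing` along `Cusps.cuspGen (Gamma0 M)`;
* `pair_swap`, `pair_self`: antisymmetry;
* `pair_nondeg`: nondegeneracy modulo every odd prime.
-/

open scoped MatrixGroups
open ModularGroup CongruenceSubgroup ModularCurve.Period

namespace Fermat.Agent.S41.Pairing.Lat

open Fermat.Agent.S41.Frame Fermat.Agent.S41.Pairing

/-- Parabolic homomorphisms kill the cusp generators. -/
theorem isPar_cuspGen_of_isParabolicHom {Γ : Subgroup SL(2, ℤ)} {A : Type*} [CommRing A]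
    {φ : Additive Γ →+ A} (hφ : IsParabolicHom Γ φ) : IsPar (Cusps.cuspGen Γ) φ := by
  intro c
  refine hφ _ ?_
  show ((c.out.out⁻¹ * T ^ Function.minimalPeriod (T • ·) c.out * c.out.out : SL(2, ℤ)) :
    Matrix (Fin 2) (Fin 2) ℤ).trace ^ 2 = 4
  rw [Fermat.Agent.S21.GroupBound.trace_conj, ← zpow_natCast, ModularGroup.coe_T_zpow,
    Matrix.trace_fin_two_of]
  norm_num

variable (M : ℕ) [NeZero M]

theorem neg_one_mem : (-1 : SL(2, ℤ)) ∈ Gamma0 M :=
  Fermat.Agent.S16.ShimuraLift.neg_one_mem_Gamma0 M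

/-- The cusp family of `Γ₀(M)` is balanced over `ℤ`. -/
theorem isBalanced_cuspGen : IsBalanced ℤ (Cusps.cuspGen (Gamma0 M)) := by
  have := (Gamma0 M).fintypeQuotientOfFiniteIndex
  exact Nondeg.isBalanced_cuspFam (neg_one_mem M)

/-- Every pair of homomorphisms `Γ₀(M) → ℤ` has a pairing value. -/
theorem exists_hasPairing (φ ψ : Additive (Gamma0 M) →+ ℤ) :
    ∃ a : ℤ, HasPairing (Cusps.cuspGen (Gamma0 M)) φ ψ a := by
  have := (Gamma0 M).fintypeQuotientOfFiniteIndex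
  exact Nondeg.exists_hasPairing (neg_one_mem M) φ ψ

/-- **The cusp pairing** on `Lat M = H¹_par(Γ₀(M), ℤ)`, with values in `ℤ`. -/
noncomputable def pair : Lat M →ₗ[ℤ] Lat M →ₗ[ℤ] ℤ :=
  pairingOn (Cusps.cuspGen (Gamma0 M)) (isBalanced_cuspGen M) (Lat M)
    (fun φ _ ψ _ => exists_hasPairing M φ ψ)

theorem pair_spec (x y : Lat M) : HasPairing (Cusps.cuspGen (Gamma0 M)) x.1 y.1 (pair M x y) :=
  pairingOn_spec _ _ x y

theorem pair_eq_of_hasPairing (x y : Lat M) {a : ℤ}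
    (h : HasPairing (Cusps.cuspGen (Gamma0 M)) x.1 y.1 a) : pair M x y = a :=
  pairingOn_eq_of_hasPairing _ _ x y h

theorem pair_eq_sum (x y : Lat M) {k : Gamma0 M → ℤ} (hk : Periph.IsKappaRel x.1 y.1 k) :
    pair M x y = ∑ c, k (Cusps.cuspGen (Gamma0 M) c) :=
  pairingOn_eq_sum _ _ x y hk

theorem lat_le_parHoms : Lat M ≤ parHoms ℤ (Cusps.cuspGen (Gamma0 M)) := by
  intro φ hφ
  exact isPar_cuspGen_of_isParabolicHom (mem_parabolicHoms_iff.mp hφ)

/-- Antisymmetry of the cusp pairing. -/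
theorem pair_swap (x y : Lat M) : pair M y x = - pair M x y :=
  pairingOn_swap _ _ (lat_le_parHoms M) x y

theorem pair_self (x : Lat M) : pair M x x = 0 :=
  pairingOn_self _ _ (lat_le_parHoms M) (fun a ha => by omega) x

/-- **Nondegeneracy modulo every odd prime.** -/
theorem pair_nondeg {p : ℕ} [Fact p.Prime] (hp2 : p ≠ 2) (x : Lat M)
    (h : ∀ z : Lat M, (p : ℤ) ∣ pair M x z) : ∃ x' : Lat M, x = (p : ℤ) • x' := by
  have := (Gamma0 M).fintypeQuotientOfFiniteIndex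
  obtain ⟨φ₁, hφ₁, hx⟩ := Nondeg.nondeg_hasPairing (neg_one_mem M) hp2 x.1
    (mem_parabolicHoms_iff.mp x.2)
    (fun ψ hψ => ⟨pair M x ⟨ψ, mem_parabolicHoms_iff.mpr hψ⟩,
      pair_spec M x ⟨ψ, mem_parabolicHoms_iff.mpr hψ⟩, h _⟩)
  exact ⟨⟨φ₁, mem_parabolicHoms_iff.mpr hφ₁⟩, Subtype.ext hx⟩

end Fermat.Agent.S41.Pairing.Lat
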