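import Mathlib
import Fermat.Agent.S41.Frame
import Fermat.Agent.S41.Pairing.Lat

/-!
# S41 / (P4): adjointness glue for the cusp pairing `Lat.pair M` on `Lat M = H¹_par(Γ₀(M), ℤ)`

The pairing itself, its antisymmetry and its nondegeneracy modulo odd primes live in
`Pairing/Lat.lean` (`Lat.pair`, `Lat.pair_swap`, `Lat.pair_nondeg`).  This file adds

* `pairAdd M` — the pairing as a biadditive map `Lat M →+ Lat M →+ ℤ`;
* `pair_eq_of_hasPairing_imp` — a `HasPairing`-level adjointness statement for a pair of maps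
  `(r, t)` (restriction, transfer) gives the adjointness identity for `Lat.pair`;
* `pair_hecke_of_adj` — from the two adjointness identities, `t₁ ∘ r₂` is adjoint to `t₂ ∘ r₁`
  (self-adjointness of `T_l = tr₁ ∘ res₂ = tr₂ ∘ res₁`).
-/

set_option autoImplicit false

open scoped MatrixGroups
open CongruenceSubgroup ModularCurve.Period
open Fermat.Agent.S41.Frame

namespace Fermat.Agent.S41.Pairing.Main

open Fermat.Agent.S41.Pairing.Lat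

section Basic

variable (M : ℕ) [NeZero M]

/-- The pairing as a biadditive map. -/
noncomputable def pairAdd : Lat M →+ Lat M →+ ℤ :=
  AddMonoidHom.mk' (fun φ => ((pair M φ : Lat M →ₗ[ℤ] ℤ) : Lat M →+ ℤ)) (fun φ φ' => by
    ext ψ
    simp)

@[simp] theorem pairAdd_apply (φ ψ : Lat M) : pairAdd M φ ψ = pair M φ ψ := rfl

end Basic

section Adjoint

variable {N N' : ℕ} [NeZero N] [NeZero N']

/-- Glue: a `HasPairing`-level adjointness statement for a pair of maps `r` (restriction) and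
`t` (transfer) gives the adjointness identity for `pair`. -/
theorem pair_eq_of_hasPairing_imp
    (r : (Additive (Gamma0 N) →+ ℤ) → (Additive (Gamma0 N') →+ ℤ))
    (t : (Additive (Gamma0 N') →+ ℤ) → (Additive (Gamma0 N) →+ ℤ))
    (hadj : ∀ (φ : Additive (Gamma0 N) →+ ℤ) (ψ : Additive (Gamma0 N') →+ ℤ),
      IsParabolicHom (Gamma0 N) φ → IsParabolicHom (Gamma0 N') ψ → ∀ a : ℤ,
      HasPairing (Cusps.cuspGen (Gamma0 N')) (r φ) ψ a →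
      HasPairing (Cusps.cuspGen (Gamma0 N)) φ (t ψ) a)
    (x : Lat N) (y : Lat N') (hr : r x.1 ∈ Lat N') (ht : t y.1 ∈ Lat N) :
    pair N' ⟨r x.1, hr⟩ y = pair N x ⟨t y.1, ht⟩ :=
  (pair_eq_of_hasPairing N x ⟨t y.1, ht⟩
    (hadj x.1 y.1 x.2 y.2 _ (pair_spec N' ⟨r x.1, hr⟩ y))).symm

/-- Glue: from the two adjointness identities (for `(r₁, t₁)` and `(r₂, t₂)`), the operator
`t₁ ∘ r₂` is adjoint to `t₂ ∘ r₁`. -/
theorem pair_hecke_of_adj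
    (r₁ r₂ : (Additive (Gamma0 N) →+ ℤ) → (Additive (Gamma0 N') →+ ℤ))
    (t₁ t₂ : (Additive (Gamma0 N') →+ ℤ) → (Additive (Gamma0 N) →+ ℤ))
    (hr₁ : ∀ φ ∈ Lat N, r₁ φ ∈ Lat N') (hr₂ : ∀ φ ∈ Lat N, r₂ φ ∈ Lat N')
    (ht₁ : ∀ ψ ∈ Lat N', t₁ ψ ∈ Lat N) (ht₂ : ∀ ψ ∈ Lat N', t₂ ψ ∈ Lat N)
    (hadj₁ : ∀ (x : Lat N) (y : Lat N'),
      pair N' ⟨r₁ x.1, hr₁ _ x.2⟩ y = pair N x ⟨t₁ y.1, ht₁ _ y.2⟩)
    (hadj₂ : ∀ (x : Lat N) (y : Lat N'),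
      pair N' ⟨r₂ x.1, hr₂ _ x.2⟩ y = pair N x ⟨t₂ y.1, ht₂ _ y.2⟩)
    (x z : Lat N) :
    pair N ⟨t₁ (r₂ x.1), ht₁ _ (hr₂ _ x.2)⟩ z = pair N x ⟨t₂ (r₁ z.1), ht₂ _ (hr₁ _ z.2)⟩ := by
  rw [pair_swap N z ⟨t₁ (r₂ x.1), ht₁ _ (hr₂ _ x.2)⟩,
    ← hadj₁ z ⟨r₂ x.1, hr₂ _ x.2⟩, ← pair_swap N' ⟨r₁ z.1, hr₁ _ z.2⟩ ⟨r₂ x.1, hr₂ _ x.2⟩,
    hadj₂ x ⟨r₁ z.1, hr₁ _ z.2⟩]

end Adjoint

end Fermat.Agent.S41.Pairing.Main
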