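import Fermat.Agent.S41.Ihara.Conj

/-!
# `tr₁ ∘ res₂ = tr₂ ∘ res₁`  (S41, package P4, part (C) of `Gamma0`)

Abstract form: two injective homomorphisms `j1 j2 : H →* G` of finite index whose images are
conjugate in a compatible way give the same "Hecke operator" on `Hom(G, A)`:
the transfer along `j1` of `φ ∘ j2` equals the transfer along `j2` of `φ ∘ j1`.
Everything is stated relationally (right transversals `r`, `r x * g = j (γ x) * r (σ x)`), so it
applies to any definition of the transfer.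

Concrete form: `j1 = inclLevel N l`, `j2 = conjDelta N l` with `N`, `l` coprime, i.e.
`Γ₀(N) diag(l,1) Γ₀(N) = Γ₀(N) diag(1,l) Γ₀(N)`.
-/

set_option autoImplicit false
set_option linter.unusedSimpArgs false

namespace Fermat.Agent.S41.Pairing.Swap

open Matrix MatrixGroups CongruenceSubgroup

section Abstract

variable {G H A : Type*} [Group G] [Group H] [AddCommGroup A]

/-- Uniqueness of the index in a right transversal. -/
theorem idx_unique (j : H →* G) {ι : Type*} (r : ι → G)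
    (hr : ∀ g : G, ∃! x : ι, ∃ h : H, g = j h * r x) {h h' : H} {x x' : ι}
    (e : j h * r x = j h' * r x') : x = x' :=
  (hr (j h * r x)).unique ⟨h, rfl⟩ ⟨h', e⟩

/-- The permutation attached to an element is injective. -/
theorem sigma_injective (j : H →* G) {ι : Type*} (r : ι → G)
    (hr : ∀ g : G, ∃! x : ι, ∃ h : H, g = j h * r x) (g : G) (σ : ι → ι) (γ : ι → H)
    (hσ : ∀ x, r x * g = j (γ x) * r (σ x)) : Function.Injective σ := by
  intro y y' hyy
  have a1 := hσ y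
  have a2 := hσ y'
  rw [hyy] at a1
  have : j 1 * r y = j (γ y * (γ y')⁻¹) * r y' := by
    rw [map_one, one_mul, map_mul, map_inv]
    have b1 : r y = j (γ y) * r (σ y') * g⁻¹ := by rw [← a1]; group
    have b2 : r (σ y') = (j (γ y'))⁻¹ * (r y' * g) := by rw [a2]; group
    rw [b1, b2]; group
  exact idx_unique j r hr this

/-- **Abstract swap.** If `j1 k' * r₀ = r₀ * j2 k` and `h₀ * j2 k' = j1 k * h₀` can be solved for
`k'` (for every `k`), and `r₀ * j2 m' = j1 m * r₀` can be solved for `m'` (for every `m`), then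
the transfer along `j1` of `φ ∘ j2` equals the transfer along `j2` of `φ ∘ j1`. -/
theorem sum_swap (j1 j2 : H →* G) (hj1 : Function.Injective j1) (r₀ h₀ : G)
    (h1 : ∀ k : H, ∃ k' : H, j1 k' * r₀ = r₀ * j2 k ∧ h₀ * j2 k' = j1 k * h₀)
    (h1' : ∀ m : H, ∃ m' : H, r₀ * j2 m' = j1 m * r₀)
    {ι1 ι2 : Type*} [Fintype ι1] [Fintype ι2]
    (r1 : ι1 → G) (hr1 : ∀ g : G, ∃! x : ι1, ∃ h : H, g = j1 h * r1 x)
    (r2 : ι2 → G) (hr2 : ∀ g : G, ∃! y : ι2, ∃ h : H, g = j2 h * r2 y)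
    (g : G) (σ1 : ι1 → ι1) (γ1 : ι1 → H) (hσ1 : ∀ x, r1 x * g = j1 (γ1 x) * r1 (σ1 x))
    (σ2 : ι2 → ι2) (γ2 : ι2 → H) (hσ2 : ∀ y, r2 y * g = j2 (γ2 y) * r2 (σ2 y))
    (φ : Additive G →+ A) :
    ∑ x, φ (Additive.ofMul (j2 (γ1 x))) = ∑ y, φ (Additive.ofMul (j1 (γ2 y))) := by
  classical
  choose τ hτ1 hτ2 using h1
  choose τ' hτ' using h1'
  choose e k hek using fun y : ι2 => (hr1 (r₀ * r2 y)).exists
  have he_inj : Function.Injective e := by
    intro y y' hyy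
    have a1 := hek y
    have a2 := hek y'
    rw [hyy] at a1
    have : j2 1 * r2 y = j2 (τ' (k y * (k y')⁻¹)) * r2 y' := by
      rw [map_one, one_mul]
      have b0 : j2 (τ' (k y * (k y')⁻¹)) = r₀⁻¹ * (j1 (k y) * (j1 (k y'))⁻¹) * r₀ := by
        have h3 := hτ' (k y * (k y')⁻¹)
        rw [map_mul, map_inv] at h3
        rw [mul_assoc, ← h3]; group
      have b1 : r2 y = r₀⁻¹ * (j1 (k y) * r1 (e y')) := by rw [← a1]; group
      have b2 : r1 (e y') = (j1 (k y'))⁻¹ * (r₀ * r2 y') := by rw [a2]; group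
      rw [b0, b1, b2]; group
    exact idx_unique j2 r2 hr2 this
  have he_surj : Function.Surjective e := by
    intro x
    obtain ⟨y, h, hy⟩ := (hr2 (r₀⁻¹ * r1 x)).exists
    refine ⟨y, ?_⟩
    have : j1 (k y) * r1 (e y) = j1 (τ h⁻¹) * r1 x := by
      rw [← hek y]
      have b0 : j1 (τ h⁻¹) = r₀ * (j2 h)⁻¹ * r₀⁻¹ := by
        have h3 := hτ1 h⁻¹
        rw [map_inv] at h3
        rw [← h3]; group
      have b1 : r1 x = r₀ * (j2 h * r2 y) := by rw [← hy]; group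
      rw [b0, b1]; group
    exact idx_unique j1 r1 hr1 this
  have key : ∀ y, σ1 (e y) = e (σ2 y) ∧ k y * γ1 (e y) = τ (γ2 y) * k (σ2 y) := by
    intro y
    have E : j1 (k y * γ1 (e y)) * r1 (σ1 (e y)) =
        j1 (τ (γ2 y) * k (σ2 y)) * r1 (e (σ2 y)) := by
      calc j1 (k y * γ1 (e y)) * r1 (σ1 (e y))
          = j1 (k y) * (j1 (γ1 (e y)) * r1 (σ1 (e y))) := by rw [map_mul, mul_assoc]
        _ = j1 (k y) * r1 (e y) * g := by rw [← hσ1, mul_assoc]
        _ = r₀ * (r2 y * g) := by rw [← hek, mul_assoc]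
        _ = r₀ * j2 (γ2 y) * r2 (σ2 y) := by rw [hσ2, mul_assoc]
        _ = j1 (τ (γ2 y)) * (r₀ * r2 (σ2 y)) := by rw [← hτ1, mul_assoc]
        _ = j1 (τ (γ2 y) * k (σ2 y)) * r1 (e (σ2 y)) := by rw [hek, map_mul, mul_assoc]
    have hx := idx_unique j1 r1 hr1 E
    refine ⟨hx, ?_⟩
    rw [hx] at E
    exact hj1 (mul_right_cancel E)
  have hσ2_bij : Function.Bijective σ2 :=
    Finite.injective_iff_bijective.mp (sigma_injective j2 r2 hr2 g σ2 γ2 hσ2)
  let E : ι2 ≃ ι1 := Equiv.ofBijective e ⟨he_inj, he_surj⟩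
  let S2 : ι2 ≃ ι2 := Equiv.ofBijective σ2 hσ2_bij
  have hγ : ∀ y, γ1 (e y) = (k y)⁻¹ * (τ (γ2 y) * k (σ2 y)) := by
    intro y; rw [← (key y).2]; group
  have hadd : ∀ a b : G, φ (Additive.ofMul (a * b)) =
      φ (Additive.ofMul a) + φ (Additive.ofMul b) := fun a b => by
    rw [ofMul_mul, map_add]
  have hinv : ∀ a : G, φ (Additive.ofMul a⁻¹) = -φ (Additive.ofMul a) := fun a => by
    rw [ofMul_inv, map_neg]
  have hφ : ∀ m, φ (Additive.ofMul (j2 (τ m))) = φ (Additive.ofMul (j1 m)) := by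
    intro m
    have : j2 (τ m) = h₀⁻¹ * (j1 m * h₀) := by rw [← hτ2]; group
    rw [this, hadd, hadd, hinv]
    abel
  calc ∑ x, φ (Additive.ofMul (j2 (γ1 x)))
      = ∑ y, φ (Additive.ofMul (j2 (γ1 (e y)))) :=
        (Fintype.sum_equiv E _ _ (fun y => rfl)).symm
    _ = ∑ y, (φ (Additive.ofMul (j1 (γ2 y))) +
          (φ (Additive.ofMul (j2 (k (σ2 y)))) - φ (Additive.ofMul (j2 (k y))))) := by
        refine Finset.sum_congr rfl fun y _ => ?_
        rw [hγ y, j2.map_mul, j2.map_mul, j2.map_inv, hadd, hadd, hinv, hφ]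
        abel
    _ = ∑ y, φ (Additive.ofMul (j1 (γ2 y))) := by
        rw [Finset.sum_add_distrib, Finset.sum_sub_distrib]
        have : ∑ y, φ (Additive.ofMul (j2 (k (σ2 y)))) = ∑ y, φ (Additive.ofMul (j2 (k y))) :=
          Fintype.sum_equiv S2 _ _ (fun y => rfl)
        rw [this, sub_self, add_zero]

end Abstract

section Concrete

open Fermat.Agent.S41.Ihara

/-- Integer matrix of an element of `Γ₀(N)`. -/
abbrev mat {N : ℕ} (x : Gamma0 N) : Matrix (Fin 2) (Fin 2) ℤ := ((x : SL(2, ℤ)) : Matrix (Fin 2) (Fin 2) ℤ)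

theorem mat_mul {N : ℕ} (x y : Gamma0 N) (i j : Fin 2) :
    mat (x * y) i j = mat x i 0 * mat y 0 j + mat x i 1 * mat y 1 j := by
  show ((((x * y : Gamma0 N) : SL(2, ℤ)) : Matrix (Fin 2) (Fin 2) ℤ)) i j = _
  rw [Subgroup.coe_mul, Matrix.SpecialLinearGroup.coe_mul, Matrix.mul_apply, Fin.sum_univ_two]

theorem mat_ext {N : ℕ} {x y : Gamma0 N} (h00 : mat x 0 0 = mat y 0 0) (h01 : mat x 0 1 = mat y 0 1)
    (h10 : mat x 1 0 = mat y 1 0) (h11 : mat x 1 1 = mat y 1 1) : x = y := by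
  apply Subtype.ext
  ext i j
  fin_cases i <;> fin_cases j
  · exact h00
  · exact h01
  · exact h10
  · exact h11

/-- `r₀ = [[1, -b], [-N, a l]]`. -/
def swapR (N l : ℕ) (a b : ℤ) (hab : a * l - b * N = 1) : Gamma0 N :=
  ⟨(⟨!![1, -b; -(N : ℤ), a * l], by rw [Matrix.det_fin_two_of]; linarith⟩ : SL(2, ℤ)),
    Gamma0_mem_iff_dvd.mpr (show (N : ℤ) ∣ -(N : ℤ) from dvd_neg.mpr dvd_rfl)⟩

/-- `r₀⁻¹ = [[a l, b], [N, 1]]`. -/
def swapRinv (N l : ℕ) (a b : ℤ) (hab : a * l - b * N = 1) : Gamma0 N :=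
  ⟨(⟨!![a * l, b; (N : ℤ), 1], by rw [Matrix.det_fin_two_of]; linarith⟩ : SL(2, ℤ)),
    Gamma0_mem_iff_dvd.mpr (show (N : ℤ) ∣ (N : ℤ) from dvd_rfl)⟩

/-- `h₀ = [[a, b], [N, l]]`. -/
def swapH (N l : ℕ) (a b : ℤ) (hab : a * l - b * N = 1) : Gamma0 N :=
  ⟨(⟨!![a, b; (N : ℤ), (l : ℤ)], by rw [Matrix.det_fin_two_of]; linarith⟩ : SL(2, ℤ)),
    Gamma0_mem_iff_dvd.mpr (show (N : ℤ) ∣ (N : ℤ) from dvd_rfl)⟩

variable {N l : ℕ} {a b : ℤ} (hab : a * l - b * N = 1)

@[simp] theorem swapR_00 : mat (swapR N l a b hab) 0 0 = 1 := rfl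
@[simp] theorem swapR_01 : mat (swapR N l a b hab) 0 1 = -b := rfl
@[simp] theorem swapR_10 : mat (swapR N l a b hab) 1 0 = -(N : ℤ) := rfl
@[simp] theorem swapR_11 : mat (swapR N l a b hab) 1 1 = a * l := rfl
@[simp] theorem swapRinv_00 : mat (swapRinv N l a b hab) 0 0 = a * l := rfl
@[simp] theorem swapRinv_01 : mat (swapRinv N l a b hab) 0 1 = b := rfl
@[simp] theorem swapRinv_10 : mat (swapRinv N l a b hab) 1 0 = (N : ℤ) := rfl
@[simp] theorem swapRinv_11 : mat (swapRinv N l a b hab) 1 1 = 1 := rfl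
@[simp] theorem swapH_00 : mat (swapH N l a b hab) 0 0 = a := rfl
@[simp] theorem swapH_01 : mat (swapH N l a b hab) 0 1 = b := rfl
@[simp] theorem swapH_10 : mat (swapH N l a b hab) 1 0 = (N : ℤ) := rfl
@[simp] theorem swapH_11 : mat (swapH N l a b hab) 1 1 = (l : ℤ) := rfl

theorem mat_one_00 : mat (1 : Gamma0 N) 0 0 = 1 := rfl
theorem mat_one_01 : mat (1 : Gamma0 N) 0 1 = 0 := rfl
theorem mat_one_10 : mat (1 : Gamma0 N) 1 0 = 0 := rfl
theorem mat_one_11 : mat (1 : Gamma0 N) 1 1 = 1 := rfl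

theorem swapR_mul_swapRinv : swapR N l a b hab * swapRinv N l a b hab = 1 := by
  apply mat_ext
  · rw [mat_mul, mat_one_00]; simp only [swapR_00, swapR_01, swapRinv_00, swapRinv_10]; linarith
  · rw [mat_mul, mat_one_01]; simp only [swapR_00, swapR_01, swapRinv_01, swapRinv_11]; ring
  · rw [mat_mul, mat_one_10]; simp only [swapR_10, swapR_11, swapRinv_00, swapRinv_10]; ring
  · rw [mat_mul, mat_one_11]; simp only [swapR_10, swapR_11, swapRinv_01, swapRinv_11]; linarith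

theorem swapRinv_mul_swapR : swapRinv N l a b hab * swapR N l a b hab = 1 :=
  mul_eq_one_comm.mp (swapR_mul_swapRinv hab)

variable [NeZero l]

theorem mat_conjDelta_00 (k : Gamma0 (N * l)) : mat (conjDelta N l k) 0 0 = mat k 0 0 := rfl
theorem mat_conjDelta_01 (k : Gamma0 (N * l)) : mat (conjDelta N l k) 0 1 = l * mat k 0 1 := rfl
theorem mat_conjDelta_11 (k : Gamma0 (N * l)) : mat (conjDelta N l k) 1 1 = mat k 1 1 := rfl
theorem mat_conjDelta_10 (k : Gamma0 (N * l)) : (l : ℤ) * mat (conjDelta N l k) 1 0 = mat k 1 0 :=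
  Int.mul_ediv_cancel' (dvd_of_mem_Gamma0_mul k)
omit [NeZero l] in
theorem mat_inclLevel (k : Gamma0 (N * l)) (i j : Fin 2) : mat (inclLevel N l k) i j = mat k i j := rfl

/-- Solving `j1 k' * r₀ = r₀ * j2 k` and `h₀ * j2 k' = j1 k * h₀`. -/
theorem exists_tau (hNl : Nat.Coprime N l) (k : Gamma0 (N * l)) :
    ∃ k' : Gamma0 (N * l),
      inclLevel N l k' * swapR N l a b hab = swapR N l a b hab * conjDelta N l k ∧
      swapH N l a b hab * conjDelta N l k' = inclLevel N l k * swapH N l a b hab := by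
  have hl : (l : ℤ) ≠ 0 := by exact_mod_cast NeZero.ne l
  obtain ⟨p, hp⟩ : ∃ p, mat k 0 0 = p := ⟨_, rfl⟩
  obtain ⟨q, hq⟩ : ∃ q, mat k 0 1 = q := ⟨_, rfl⟩
  obtain ⟨c', hc'⟩ : ∃ c', mat (conjDelta N l k) 1 0 = c' := ⟨_, rfl⟩
  obtain ⟨s, hs⟩ : ∃ s, mat k 1 1 = s := ⟨_, rfl⟩
  have hc : mat k 1 0 = (l : ℤ) * c' := by rw [← hc', mat_conjDelta_10]
  obtain ⟨x, hx⟩ : ∃ x : Gamma0 N,
      x = swapR N l a b hab * conjDelta N l k * swapRinv N l a b hab := ⟨_, rfl⟩
  have x00 : mat x 0 0 = (p - b * c') * (a * l) + (l * q - b * s) * N := by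
    rw [hx]
    simp only [mat_mul, swapR_00, swapR_01, swapRinv_00, swapRinv_10, mat_conjDelta_00,
      mat_conjDelta_01, mat_conjDelta_11, hp, hq, hc', hs]
    ring
  have x01 : mat x 0 1 = (p - b * c') * b + (l * q - b * s) := by
    rw [hx]
    simp only [mat_mul, swapR_00, swapR_01, swapRinv_01, swapRinv_11, mat_conjDelta_00,
      mat_conjDelta_01, mat_conjDelta_11, hp, hq, hc', hs]
    ring
  have x10 : mat x 1 0 = (l : ℤ) * ((-N * p + a * l * c') * a + (-N * q + a * s) * N) := by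
    rw [hx]
    simp only [mat_mul, swapR_10, swapR_11, swapRinv_00, swapRinv_10, mat_conjDelta_00,
      mat_conjDelta_01, mat_conjDelta_11, hp, hq, hc', hs]
    ring
  have x11 : mat x 1 1 = (-N * p + a * l * c') * b + (-N * l * q + a * l * s) := by
    rw [hx]
    simp only [mat_mul, swapR_10, swapR_11, swapRinv_01, swapRinv_11, mat_conjDelta_00,
      mat_conjDelta_01, mat_conjDelta_11, hp, hq, hc', hs]
    ring
  obtain ⟨k', hk'⟩ := (mem_range_inclLevel_iff hNl x).mpr ⟨_, x10⟩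
  have hk'm : ∀ i j, mat k' i j = mat x i j := fun i j => by rw [← hk']; rfl
  refine ⟨k', ?_, ?_⟩
  · rw [hk', hx, mul_assoc, swapRinv_mul_swapR, mul_one]
  · have y10 : mat (conjDelta N l k') 1 0 = (-N * p + a * l * c') * a + (-N * q + a * s) * N := by
      apply mul_left_cancel₀ hl
      rw [mat_conjDelta_10, hk'm, x10]
    apply mat_ext
    · simp only [mat_mul, swapH_00, swapH_01, swapH_10, swapH_11, mat_conjDelta_00,
        mat_conjDelta_01, mat_conjDelta_11, mat_inclLevel, hk'm, y10, x00, x01, x11, hp, hq, hc, hs]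
      linear_combination (a * p + q * N) * hab
    · simp only [mat_mul, swapH_00, swapH_01, swapH_10, swapH_11, mat_conjDelta_00,
        mat_conjDelta_01, mat_conjDelta_11, mat_inclLevel, hk'm, y10, x00, x01, x11, hp, hq, hc, hs]
      linear_combination (p * b + q * l) * hab
    · simp only [mat_mul, swapH_00, swapH_01, swapH_10, swapH_11, mat_conjDelta_00,
        mat_conjDelta_01, mat_conjDelta_11, mat_inclLevel, hk'm, y10, x00, x01, x11, hp, hq, hc, hs]
      linear_combination (l * c' * a + s * N) * hab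
    · simp only [mat_mul, swapH_00, swapH_01, swapH_10, swapH_11, mat_conjDelta_00,
        mat_conjDelta_01, mat_conjDelta_11, mat_inclLevel, hk'm, y10, x00, x01, x11, hp, hq, hc, hs]
      linear_combination (l * c' * b + s * l) * hab

/-- Solving `r₀ * j2 m' = j1 m * r₀`. -/
theorem exists_tau' (m : Gamma0 (N * l)) :
    ∃ m' : Gamma0 (N * l),
      swapR N l a b hab * conjDelta N l m' = inclLevel N l m * swapR N l a b hab := by
  obtain ⟨x, hx⟩ : ∃ x : Gamma0 N,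
      x = swapRinv N l a b hab * inclLevel N l m * swapR N l a b hab := ⟨_, rfl⟩
  have x01 : mat x 0 1 = (l : ℤ) * (-(a * b * mat m 0 0) - b * b * mat (conjDelta N l m) 1 0
      + a * a * l * mat m 0 1 + a * b * mat m 1 1) := by
    rw [hx]
    simp only [mat_mul, swapR_01, swapR_11, swapRinv_00, swapRinv_01, mat_inclLevel]
    rw [← mat_conjDelta_10 m]
    ring
  obtain ⟨m', hm'⟩ := (mem_range_conjDelta_iff x).mpr ⟨_, x01⟩
  refine ⟨m', ?_⟩
  rw [hm', hx, ← mul_assoc, ← mul_assoc, swapR_mul_swapRinv, one_mul]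

/-- **`tr₁ ∘ res₂ = tr₂ ∘ res₁` for `Γ₀(N l) ⇉ Γ₀(N)`, `l` prime to `N`** (relational form):
the two Hecke operators `Γ₀(N) diag(l,1) Γ₀(N)` and `Γ₀(N) diag(1,l) Γ₀(N)` on
`Hom(Γ₀(N), A)` coincide. -/
theorem sum_conjDelta_eq_sum_inclLevel {A : Type*} [AddCommGroup A] (hNl : Nat.Coprime N l)
    {ι1 ι2 : Type*} [Fintype ι1] [Fintype ι2]
    (r1 : ι1 → Gamma0 N)
    (hr1 : ∀ g : Gamma0 N, ∃! x : ι1, ∃ h : Gamma0 (N * l), g = inclLevel N l h * r1 x)
    (r2 : ι2 → Gamma0 N)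
    (hr2 : ∀ g : Gamma0 N, ∃! y : ι2, ∃ h : Gamma0 (N * l), g = conjDelta N l h * r2 y)
    (g : Gamma0 N) (σ1 : ι1 → ι1) (γ1 : ι1 → Gamma0 (N * l))
    (hσ1 : ∀ x, r1 x * g = inclLevel N l (γ1 x) * r1 (σ1 x))
    (σ2 : ι2 → ι2) (γ2 : ι2 → Gamma0 (N * l))
    (hσ2 : ∀ y, r2 y * g = conjDelta N l (γ2 y) * r2 (σ2 y))
    (φ : Additive (Gamma0 N) →+ A) :
    ∑ x, φ (Additive.ofMul (conjDelta N l (γ1 x))) =
      ∑ y, φ (Additive.ofMul (inclLevel N l (γ2 y))) := by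
  have hcop : IsCoprime (l : ℤ) (N : ℤ) := by
    exact_mod_cast (Nat.isCoprime_iff_coprime.mpr hNl.symm)
  obtain ⟨a, b', hab'⟩ := hcop
  have hab : a * l - (-b') * N = 1 := by linarith
  exact sum_swap (inclLevel N l) (conjDelta N l) (inclLevel_injective N l)
    (swapR N l a (-b') hab) (swapH N l a (-b') hab) (exists_tau hab hNl) (exists_tau' hab)
    r1 hr1 r2 hr2 g σ1 γ1 hσ1 σ2 γ2 hσ2 φ

end Concrete

end Fermat.Agent.S41.Pairing.Swap
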