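import Fermat.Agent.S41.Frame
import Fermat.Agent.S41.Pairing.Swap

/-!
# `heckeT M l = heckeU M l` for `l` prime to `M`  (S41, package P4, part (C), in the Frame)

`Frame.heckeT M l = tr₁ ∘ res₂` and `Frame.heckeU M l = tr₂ ∘ res₁` coincide on
`Hom(Γ₀(M), A)` when `l` is prime to `M`.
-/

set_option autoImplicit false

open scoped MatrixGroups
open CongruenceSubgroup
open Fermat.Agent.S41.Ihara Fermat.Agent.S41.Cores Fermat.Agent.S41.Frame

namespace Fermat.Agent.S41.Pairing.Swap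

/-- A right transversal in the sense of `Cores` has the unique-index property. -/
theorem existsUnique_of_isRightTransversal {G H : Type*} [Group G] [Group H] (j : H →* G)
    {ι : Type*} (r : ι → G) (hr : IsRightTransversal j r) (g : G) :
    ∃! x : ι, ∃ h : H, g = j h * r x := by
  obtain ⟨x, h, hx⟩ := hr.1 g
  refine ⟨x, ⟨h, hx⟩, ?_⟩
  rintro y ⟨h', hy⟩
  refine hr.2 y x (h'⁻¹ * h) ?_
  have : r y = (j h')⁻¹ * g := by rw [hy]; group
  rw [this, hx, map_mul, map_inv]; group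

/-- **`T_l` via `diag(l,1)` and via `diag(1,l)` agree**: `tr₁ ∘ res₂ = tr₂ ∘ res₁` on
`Hom(Γ₀(M), A)` for `l` prime to `M`. -/
theorem heckeT_eq_heckeU {A : Type*} [AddCommGroup A] (M l : ℕ) [NeZero M] [NeZero l]
    (hMl : Nat.Coprime M l) :
    (heckeT M l : (Additive (Gamma0 M) →+ A) →+ (Additive (Gamma0 M) →+ A)) = heckeU M l := by
  classical
  refine AddMonoidHom.ext fun φ => AddMonoidHom.ext fun a => ?_
  obtain ⟨g, rfl⟩ : ∃ g : Gamma0 M, Additive.ofMul g = a := ⟨Additive.toMul a, rfl⟩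
  have : Fintype (RQ (inclLevel M l)) := Fintype.ofFinite _
  have : Fintype (RQ (conjDelta M l)) := Fintype.ofFinite _
  have hr1 := isRightTransversal_out (inclLevel M l)
  have hr2 := isRightTransversal_out (conjDelta M l)
  obtain ⟨σ1, γ1, hσ1⟩ := exists_rel (inclLevel M l) _ hr1 g
  obtain ⟨σ2, γ2, hσ2⟩ := exists_rel (conjDelta M l) _ hr2 g
  have e1 : heckeT M l φ (Additive.ofMul g) = ∑ x, res₂ M l φ (Additive.ofMul (γ1 x)) :=
    tr₁_apply_of_rel M l _ hr1 (res₂ M l φ) g σ1 γ1 hσ1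
  have e2 : heckeU M l φ (Additive.ofMul g) = ∑ y, res₁ M l φ (Additive.ofMul (γ2 y)) :=
    tr₂_apply_of_rel M l _ hr2 (res₁ M l φ) g σ2 γ2 hσ2
  rw [e1, e2]
  simp only [res₁_apply, res₂_apply]
  exact sum_conjDelta_eq_sum_inclLevel hMl _
    (existsUnique_of_isRightTransversal _ _ hr1) _
    (existsUnique_of_isRightTransversal _ _ hr2) g σ1 γ1 hσ1 σ2 γ2 hσ2 φ

end Fermat.Agent.S41.Pairing.Swap
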