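import Fermat.Agent.S41.Frame
import Fermat.Agent.S41.Pairing.Cusps
import Fermat.Agent.S41.Pairing.Swap
import Fermat.Agent.S41.Pairing.IndCusps
import Fermat.Agent.S41.Pairing.AdjIncl
import Fermat.Agent.S41.Pairing.AdjEquiv
import Fermat.Agent.S41.Pairing.Main
import Fermat.Agent.S41.Pairing.SwapFrame

/-!
# `Γ₀(N) ∩ Γ⁰(l)` and the isomorphism `Γ₀(N l) ≃ Γ₀(N) ∩ Γ⁰(l)`  (S41, package P4)

* `gammaUp N l : Subgroup SL(2, ℤ)` — the image of `conjDelta N l` (`γ ↦ δ γ δ⁻¹`, `δ = diag(l,1)`),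
  i.e. `Γ₀(N) ∩ Γ⁰(l)`;
* `thetaDelta N l : Γ₀(N l) ≃* gammaUp N l`;
* `isPrimPosPar_thetaDelta_iff` — `thetaDelta` preserves primitive positive parabolic elements
  (the hypothesis of the cusp-matching lemma).
-/

set_option autoImplicit false

open scoped MatrixGroups
open CongruenceSubgroup
open Fermat.Agent.S41.Ihara

namespace Fermat.Agent.S41.Pairing.Gamma0

open Fermat.Agent.S41.Pairing.Cusps

variable (N l : ℕ) [NeZero l]

/-- `conjDelta` as a homomorphism to `SL(2, ℤ)`. -/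
def conjDeltaSL : Gamma0 (N * l) →* SL(2, ℤ) := (Gamma0 N).subtype.comp (conjDelta N l)

theorem conjDeltaSL_apply (k : Gamma0 (N * l)) :
    conjDeltaSL N l k = ((conjDelta N l k : Gamma0 N) : SL(2, ℤ)) := rfl

theorem conjDeltaSL_injective : Function.Injective (conjDeltaSL N l) :=
  Subtype.coe_injective.comp (conjDelta_injective N l)

/-- `Γ₀(N) ∩ Γ⁰(l)`: the image of `conjDelta N l` in `SL(2, ℤ)`. -/
def gammaUp : Subgroup SL(2, ℤ) := (conjDeltaSL N l).range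

/-- The isomorphism `Γ₀(N l) ≃ Γ₀(N) ∩ Γ⁰(l)`, `γ ↦ δ γ δ⁻¹`. -/
noncomputable def thetaDelta : Gamma0 (N * l) ≃* gammaUp N l :=
  MonoidHom.ofInjective (conjDeltaSL_injective N l)

theorem coe_thetaDelta (k : Gamma0 (N * l)) :
    ((thetaDelta N l k : gammaUp N l) : SL(2, ℤ)) = ((conjDelta N l k : Gamma0 N) : SL(2, ℤ)) :=
  rfl

theorem gammaUp_le : gammaUp N l ≤ Gamma0 N := by
  rintro _ ⟨k, rfl⟩
  exact (conjDelta N l k).2

theorem inclusion_thetaDelta (k : Gamma0 (N * l)) :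
    Subgroup.inclusion (gammaUp_le N l) (thetaDelta N l k) = conjDelta N l k :=
  Subtype.ext rfl

theorem mem_gammaUp_iff (g : SL(2, ℤ)) :
    g ∈ gammaUp N l ↔ ∃ k : Gamma0 (N * l), ((conjDelta N l k : Gamma0 N) : SL(2, ℤ)) = g :=
  Iff.rfl

/-- The four entries of `δ γ δ⁻¹`. -/
theorem conjDelta_entries (k : Gamma0 (N * l)) :
    ((conjDelta N l k : Gamma0 N) : SL(2, ℤ)) 0 0 = (k : SL(2, ℤ)) 0 0 ∧
    ((conjDelta N l k : Gamma0 N) : SL(2, ℤ)) 0 1 = l * (k : SL(2, ℤ)) 0 1 ∧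
    (l : ℤ) * ((conjDelta N l k : Gamma0 N) : SL(2, ℤ)) 1 0 = (k : SL(2, ℤ)) 1 0 ∧
    ((conjDelta N l k : Gamma0 N) : SL(2, ℤ)) 1 1 = (k : SL(2, ℤ)) 1 1 :=
  ⟨rfl, rfl, Swap.mat_conjDelta_10 k, rfl⟩

theorem isPosPar_conjDelta_iff (k : Gamma0 (N * l)) :
    IsPosPar (k : SL(2, ℤ)) ↔ IsPosPar ((conjDelta N l k : Gamma0 N) : SL(2, ℤ)) := by
  obtain ⟨e00, e01, e10, e11⟩ := conjDelta_entries N l k
  have hl : (0 : ℤ) < (l : ℤ) := by exact_mod_cast Nat.pos_of_ne_zero (NeZero.ne l)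
  have hne : (k : SL(2, ℤ)) ≠ 1 ↔ ((conjDelta N l k : Gamma0 N) : SL(2, ℤ)) ≠ 1 := by
    refine not_congr ?_
    constructor
    · intro h
      have hk : k = 1 := Subtype.ext h
      rw [hk, map_one]; rfl
    · intro h
      have h1 : conjDelta N l k = 1 := Subtype.ext h
      have hk : k = 1 := conjDelta_injective N l (by rw [h1, map_one])
      rw [hk]; rfl
  unfold IsPosPar
  rw [e00, e01, e11, ← e10, ← hne]
  constructor
  · rintro ⟨h1, h2, h3, h4⟩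
    exact ⟨h1, h2, by positivity, by nlinarith⟩
  · rintro ⟨h1, h2, h3, h4⟩
    exact ⟨h1, h2, by nlinarith, by nlinarith⟩

/-- `thetaDelta` preserves primitive positive parabolic elements. -/
theorem isPrimPosPar_thetaDelta_iff (k : Gamma0 (N * l)) :
    IsPrimPosPar (Gamma0 (N * l)) (k : SL(2, ℤ)) ↔
      IsPrimPosPar (gammaUp N l) ((thetaDelta N l k : gammaUp N l) : SL(2, ℤ)) := by
  rw [coe_thetaDelta]
  unfold IsPrimPosPar
  rw [← isPosPar_conjDelta_iff]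
  constructor
  · rintro ⟨-, hpos, hprim⟩
    refine ⟨⟨k, rfl⟩, hpos, ?_⟩
    rintro _ ⟨r, rfl⟩ htr m hm hpow
    have h1 : conjDeltaSL N l (r ^ m) = conjDeltaSL N l k := by
      rw [map_pow]; exact hpow
    have h2 : r ^ m = k := conjDeltaSL_injective N l h1
    refine hprim (r : SL(2, ℤ)) r.2 ?_ m hm ?_
    · obtain ⟨e00, -, -, e11⟩ := conjDelta_entries N l r
      rw [← e00, ← e11]; exact htr
    · rw [← h2]; rfl
  · rintro ⟨-, hpos, hprim⟩
    refine ⟨k.2, hpos, ?_⟩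
    intro ρ hρ htr m hm hpow
    have h2 : (⟨ρ, hρ⟩ : Gamma0 (N * l)) ^ m = k := Subtype.ext hpow
    refine hprim (conjDeltaSL N l ⟨ρ, hρ⟩) ⟨⟨ρ, hρ⟩, rfl⟩ ?_ m hm ?_
    · obtain ⟨e00, -, -, e11⟩ := conjDelta_entries N l ⟨ρ, hρ⟩
      rw [conjDeltaSL_apply, e00, e11]; exact htr
    · rw [← map_pow, h2]; rfl

theorem neg_one_mem_gammaUp : (-1 : SL(2, ℤ)) ∈ gammaUp N l := by
  have hmem : (-1 : SL(2, ℤ)) ∈ Gamma0 (N * l) := by
    rw [Gamma0_mem]
    simp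
  refine ⟨⟨-1, hmem⟩, ?_⟩
  obtain ⟨e00, e01, e10, e11⟩ := conjDelta_entries N l ⟨-1, hmem⟩
  have hl : (l : ℤ) ≠ 0 := by exact_mod_cast NeZero.ne l
  rw [conjDeltaSL_apply]
  apply Cusps.ext_entries
  · rw [e00]
  · rw [e01]; simp
  · have : (l : ℤ) * ((conjDelta N l ⟨-1, hmem⟩ : Gamma0 N) : SL(2, ℤ)) 1 0 = (l : ℤ) * 0 := by
      rw [e10]; simp
    rw [mul_left_cancel₀ hl this]; simp
  · rw [e11]

instance finiteIndex_gammaUp [NeZero N] : (gammaUp N l).FiniteIndex := by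
  have : NeZero (N * l) := ⟨Nat.mul_ne_zero (NeZero.ne N) (NeZero.ne l)⟩
  have hle : Gamma (N * l) ≤ gammaUp N l := by
    intro g hg
    rw [Gamma_mem] at hg
    have h01 : ((N * l : ℕ) : ℤ) ∣ (g : Matrix (Fin 2) (Fin 2) ℤ) 0 1 :=
      (ZMod.intCast_zmod_eq_zero_iff_dvd _ _).mp hg.2.1
    have h10 : ((N * l : ℕ) : ℤ) ∣ (g : Matrix (Fin 2) (Fin 2) ℤ) 1 0 :=
      (ZMod.intCast_zmod_eq_zero_iff_dvd _ _).mp hg.2.2.1
    have hg0 : g ∈ Gamma0 N := by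
      rw [Gamma0_mem_iff_dvd]
      exact dvd_trans ⟨(l : ℤ), by push_cast; ring⟩ h10
    have hl : (l : ℤ) ∣ (((⟨g, hg0⟩ : Gamma0 N) : SL(2, ℤ)) : Matrix (Fin 2) (Fin 2) ℤ) 0 1 :=
      dvd_trans ⟨(N : ℤ), by push_cast; ring⟩ h01
    obtain ⟨k, hk⟩ := (mem_range_conjDelta_iff (⟨g, hg0⟩ : Gamma0 N)).mpr hl
    exact ⟨k, by rw [conjDeltaSL_apply, hk]⟩
  exact Subgroup.finiteIndex_of_le hle

section Adjoint

open Fermat.Agent.S41.Frame Fermat.Agent.S41.Cores ModularCurve.Period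

variable [NeZero N]

/-- **(X1), `HasPairing` level**: `res₁` and `tr₁` are adjoint. -/
theorem hasPairing_res₁ {φ : Additive (Gamma0 N) →+ ℤ} {ψ : Additive (Gamma0 (N * l)) →+ ℤ}
    (hφ : IsParabolicHom (Gamma0 N) φ) (hψ : IsParabolicHom (Gamma0 (N * l)) ψ) {a : ℤ}
    (h : HasPairing (cuspGen (Gamma0 (N * l))) (res₁ N l φ) ψ a) :
    HasPairing (cuspGen (Gamma0 N)) φ (tr₁ N l ψ) a :=
  IndCusps.hasPairing_cores (Gamma0_mul_le N l) (Lat.isPar_cuspGen_of_isParabolicHom hφ)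
    (Lat.isPar_cuspGen_of_isParabolicHom hψ) h

/-- **(X2), `HasPairing` level**: `res₂` and `tr₂` are adjoint. -/
theorem hasPairing_res₂ {φ : Additive (Gamma0 N) →+ ℤ} {ψ : Additive (Gamma0 (N * l)) →+ ℤ}
    (hφ : IsParabolicHom (Gamma0 N) φ) (hψ : IsParabolicHom (Gamma0 (N * l)) ψ) {a : ℤ}
    (h : HasPairing (cuspGen (Gamma0 (N * l))) (res₂ N l φ) ψ a) :
    HasPairing (cuspGen (Gamma0 N)) φ (tr₂ N l ψ) a := by
  refine AdjEquiv.hasPairing_cores_of_equiv (Γ' := Gamma0 (N * l)) (Γ₁ := gammaUp N l)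
    (Γ₂ := Gamma0 N) (by rw [Gamma0_mem]; simp) (neg_one_mem_gammaUp N l)
    (conjDelta N l) (conjDelta_injective N l)
    (Subgroup.inclusion (gammaUp_le N l)) (Subgroup.inclusion_injective _)
    (thetaDelta N l) (fun x => (inclusion_thetaDelta N l x).symm)
    (isPrimPosPar_thetaDelta_iff N l) ?_ ?_ φ ψ a hφ hψ (isParabolicHom_res₂ N l hφ) h
  · intro g
    obtain ⟨e00, -, -, e11⟩ := conjDelta_entries N l g
    rw [coe_thetaDelta, Matrix.trace_fin_two, Matrix.trace_fin_two]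
    exact (congrArg₂ (· + ·) e00 e11).symm
  · intro φ' ψ₁ a' hφ' hψ₁ h'
    exact IndCusps.hasPairing_cores (gammaUp_le N l) (Lat.isPar_cuspGen_of_isParabolicHom hφ')
      (Lat.isPar_cuspGen_of_isParabolicHom hψ₁) h'

/-- The transfer `tr₁` of a parabolic hom is parabolic. -/
theorem isParabolicHom_tr₁ {ψ : Additive (Gamma0 (N * l)) →+ ℤ}
    (hψ : IsParabolicHom (Gamma0 (N * l)) ψ) : IsParabolicHom (Gamma0 N) (tr₁ N l ψ) := by
  classical
  have : Fintype (Gamma0 N ⧸ (inclLevel N l).range) := Fintype.ofFinite _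
  have h := isParabolicHom_trf (inclLevel N l) (fun _ => rfl) hψ
  rw [← IndCusps.cores_eq_trf] at h
  exact h

/-- The transfer `tr₂` of a parabolic hom is parabolic. -/
theorem isParabolicHom_tr₂ {ψ : Additive (Gamma0 (N * l)) →+ ℤ}
    (hψ : IsParabolicHom (Gamma0 (N * l)) ψ) : IsParabolicHom (Gamma0 N) (tr₂ N l ψ) := by
  classical
  have : Fintype (Gamma0 N ⧸ (Subgroup.inclusion (gammaUp_le N l)).range) := Fintype.ofFinite _
  have hψ₁ : IsParabolicHom (gammaUp N l)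
      (ψ.comp (MonoidHom.toAdditive (thetaDelta N l).symm.toMonoidHom)) := by
    intro γ hγ
    refine hψ ((thetaDelta N l).symm γ) ?_
    obtain ⟨e00, -, -, e11⟩ := conjDelta_entries N l ((thetaDelta N l).symm γ)
    have hc := coe_thetaDelta N l ((thetaDelta N l).symm γ)
    rw [MulEquiv.apply_symm_apply] at hc
    rw [Matrix.trace_fin_two] at hγ ⊢
    rw [hc] at hγ
    rw [← e00, ← e11]
    exact hγ
  have h := isParabolicHom_trf (Subgroup.inclusion (gammaUp_le N l)) (fun _ => rfl) hψ₁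
  rw [← IndCusps.cores_eq_trf] at h
  have e := AdjEquiv.cores_eq_of_comp (conjDelta N l) (conjDelta_injective N l)
    (Subgroup.inclusion (gammaUp_le N l)) (Subgroup.inclusion_injective _) (thetaDelta N l)
    (fun x => (inclusion_thetaDelta N l x).symm) ψ
  show IsParabolicHom (Gamma0 N) (cores (conjDelta N l) (conjDelta_injective N l) ψ)
  rw [e]
  exact h

/-- **(X1)** `res₁` and `tr₁` are adjoint for the cusp pairing. -/
theorem pair_res₁ (x : Lat N) (y : Lat (N * l)) :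
    Lat.pair (N * l) ⟨res₁ N l x.1, isParabolicHom_res₁ N l x.2⟩ y =
      Lat.pair N x ⟨tr₁ N l y.1, isParabolicHom_tr₁ N l y.2⟩ :=
  Main.pair_eq_of_hasPairing_imp (fun φ => res₁ N l φ) (fun ψ => tr₁ N l ψ)
    (fun _ _ hφ hψ _ h => hasPairing_res₁ N l hφ hψ h) x y _ _

/-- **(X2)** `res₂` and `tr₂` are adjoint for the cusp pairing. -/
theorem pair_res₂ (x : Lat N) (y : Lat (N * l)) :
    Lat.pair (N * l) ⟨res₂ N l x.1, isParabolicHom_res₂ N l x.2⟩ y =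
      Lat.pair N x ⟨tr₂ N l y.1, isParabolicHom_tr₂ N l y.2⟩ :=
  Main.pair_eq_of_hasPairing_imp (fun φ => res₂ N l φ) (fun ψ => tr₂ N l ψ)
    (fun _ _ hφ hψ _ h => hasPairing_res₂ N l hφ hψ h) x y _ _

/-- `heckeT N l` preserves the lattice `Lat N`. -/
theorem isParabolicHom_heckeT {φ : Additive (Gamma0 N) →+ ℤ} (hφ : IsParabolicHom (Gamma0 N) φ) :
    IsParabolicHom (Gamma0 N) (heckeT N l φ) :=
  isParabolicHom_tr₁ N l (isParabolicHom_res₂ N l hφ)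

/-- **(X3)** `T_l = heckeT N l` is self-adjoint for the cusp pairing (`l` prime to `N`). -/
theorem pair_heckeT (hNl : Nat.Coprime N l) (x z : Lat N) :
    Lat.pair N ⟨heckeT N l x.1, isParabolicHom_heckeT N l x.2⟩ z =
      Lat.pair N x ⟨heckeT N l z.1, isParabolicHom_heckeT N l z.2⟩ := by
  have h := Main.pair_hecke_of_adj (N := N) (N' := N * l)
    (fun φ => res₁ N l φ) (fun φ => res₂ N l φ) (fun ψ => tr₁ N l ψ) (fun ψ => tr₂ N l ψ)
    (fun _ hφ => isParabolicHom_res₁ N l hφ) (fun _ hφ => isParabolicHom_res₂ N l hφ)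
    (fun _ hψ => isParabolicHom_tr₁ N l hψ) (fun _ hψ => isParabolicHom_tr₂ N l hψ)
    (pair_res₁ N l) (pair_res₂ N l) x z
  have e : tr₂ N l (res₁ N l z.1) = heckeT N l z.1 := by
    have := congrArg (fun F : (Additive (Gamma0 N) →+ ℤ) →+ (Additive (Gamma0 N) →+ ℤ) => F z.1)
      (Swap.heckeT_eq_heckeU (A := ℤ) N l hNl)
    exact this.symm
  have h2 : (⟨tr₂ N l (res₁ N l z.1),
      isParabolicHom_tr₂ N l (isParabolicHom_res₁ N l z.2)⟩ : Lat N) =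
      ⟨heckeT N l z.1, isParabolicHom_heckeT N l z.2⟩ := Subtype.ext e
  rw [← h2]
  exact h

end Adjoint

end Fermat.Agent.S41.Pairing.Gamma0
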