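/-
S41 / (P4), strand (X2): the second degeneracy map `conjDelta : Γ₀(N l) → Γ₀(N)` is the
composite of an isomorphism `thetaDelta : Γ₀(N l) ≃* gammaUp N l` onto the subgroup
`gammaUp N l = Γ₀(N) ∩ Γ⁰(l)` of `SL(2, ℤ)` and the honest inclusion `inclUp : gammaUp N l → Γ₀(N)`.
The isomorphism matches the cusp families (`Cusps.exists_cuspIdx_equiv`), and corestriction
along `conjDelta` is corestriction along `inclUp` after transport.
-/
import Mathlib
import Fermat.Agent.S41.Frame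
import Fermat.Agent.S41.Pairing.Periph
import Fermat.Agent.S41.Pairing.Cusps

set_option autoImplicit false

open scoped MatrixGroups
open CongruenceSubgroup ModularCurve.Period
open Fermat.Agent.S41.Ihara Fermat.Agent.S41.Cores Fermat.Agent.S41.Frame

namespace Fermat.Agent.S41.Pairing.ConjDelta

/-! ### The subgroup `gammaUp N l` and the isomorphism `thetaDelta` -/

/-- `conjDelta` followed by the inclusion of `Γ₀(N)` in `SL(2, ℤ)`. -/
def conjHom (N l : ℕ) [NeZero l] : Gamma0 (N * l) →* SL(2, ℤ) :=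
  (Gamma0 N).subtype.comp (conjDelta N l)

theorem conjHom_injective (N l : ℕ) [NeZero l] : Function.Injective (conjHom N l) :=
  Subtype.val_injective.comp (conjDelta_injective N l)

/-- The image of `conjDelta` as a subgroup of `SL(2, ℤ)`: the elements of `Γ₀(N)` with upper
right entry divisible by `l`. -/
def gammaUp (N l : ℕ) [NeZero l] : Subgroup SL(2, ℤ) := (conjHom N l).range

/-- `Γ₀(N l) ≃* gammaUp N l`, `γ ↦ δ γ δ⁻¹`. -/
noncomputable def thetaDelta (N l : ℕ) [NeZero l] : Gamma0 (N * l) ≃* gammaUp N l :=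
  MonoidHom.ofInjective (conjHom_injective N l)

theorem coe_thetaDelta (N l : ℕ) [NeZero l] (γ : Gamma0 (N * l)) :
    ((thetaDelta N l γ : gammaUp N l) : SL(2, ℤ)) = ((conjDelta N l γ : Gamma0 N) : SL(2, ℤ)) :=
  rfl

theorem gammaUp_le (N l : ℕ) [NeZero l] : gammaUp N l ≤ Gamma0 N := by
  rintro _ ⟨γ, rfl⟩
  exact (conjDelta N l γ).2

theorem mem_gammaUp_iff {N l : ℕ} [NeZero l] {g : SL(2, ℤ)} :
    g ∈ gammaUp N l ↔ g ∈ Gamma0 N ∧ (l : ℤ) ∣ (g : Matrix (Fin 2) (Fin 2) ℤ) 0 1 := by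
  constructor
  · rintro ⟨γ, rfl⟩
    exact ⟨(conjDelta N l γ).2, (mem_range_conjDelta_iff (conjDelta N l γ)).mp ⟨γ, rfl⟩⟩
  · rintro ⟨hg, hl⟩
    obtain ⟨γ, hγ⟩ := (mem_range_conjDelta_iff (⟨g, hg⟩ : Gamma0 N)).mpr hl
    exact ⟨γ, congrArg Subtype.val hγ⟩

theorem neg_one_mem_gammaUp (N l : ℕ) [NeZero l] : (-1 : SL(2, ℤ)) ∈ gammaUp N l := by
  rw [mem_gammaUp_iff]
  refine ⟨?_, ?_⟩
  · rw [Gamma0_mem]; simp
  · simp

instance finiteIndex_gammaUp (N l : ℕ) [NeZero N] [NeZero l] : (gammaUp N l).FiniteIndex := by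
  have : NeZero (N * l) := ⟨Nat.mul_ne_zero (NeZero.ne N) (NeZero.ne l)⟩
  have hle : Gamma (N * l) ≤ gammaUp N l := by
    intro g hg
    rw [Gamma_mem] at hg
    rw [mem_gammaUp_iff]
    have h01 : ((N * l : ℕ) : ℤ) ∣ (g : Matrix (Fin 2) (Fin 2) ℤ) 0 1 :=
      (ZMod.intCast_zmod_eq_zero_iff_dvd _ _).mp hg.2.1
    have h10 : ((N * l : ℕ) : ℤ) ∣ (g : Matrix (Fin 2) (Fin 2) ℤ) 1 0 :=
      (ZMod.intCast_zmod_eq_zero_iff_dvd _ _).mp hg.2.2.1
    refine ⟨?_, dvd_trans ⟨(N : ℤ), by push_cast; ring⟩ h01⟩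
    rw [Gamma0_mem_iff_dvd]
    exact dvd_trans ⟨(l : ℤ), by push_cast; ring⟩ h10
  exact Subgroup.finiteIndex_of_le hle

/-- The honest inclusion `gammaUp N l → Γ₀(N)`. -/
def inclUp (N l : ℕ) [NeZero l] : gammaUp N l →* Gamma0 N := Subgroup.inclusion (gammaUp_le N l)

theorem coe_inclUp (N l : ℕ) [NeZero l] (h : gammaUp N l) :
    ((inclUp N l h : Gamma0 N) : SL(2, ℤ)) = (h : SL(2, ℤ)) := rfl

theorem inclUp_injective (N l : ℕ) [NeZero l] : Function.Injective (inclUp N l) :=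
  Subgroup.inclusion_injective _

theorem conjDelta_eq (N l : ℕ) [NeZero l] (γ : Gamma0 (N * l)) :
    conjDelta N l γ = inclUp N l (thetaDelta N l γ) := rfl

theorem range_inclUp (N l : ℕ) [NeZero l] : (inclUp N l).range = (conjDelta N l).range := by
  ext g
  constructor
  · rintro ⟨h, rfl⟩
    exact ⟨(thetaDelta N l).symm h, by rw [conjDelta_eq, MulEquiv.apply_symm_apply]⟩
  · rintro ⟨γ, rfl⟩
    exact ⟨thetaDelta N l γ, rfl⟩

instance finiteIndex_range_inclUp (N l : ℕ) [NeZero N] [NeZero l] :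
    (inclUp N l).range.FiniteIndex := by
  rw [range_inclUp]
  infer_instance

/-! ### `thetaDelta` matches the cusp families -/

theorem thetaDelta_apply_entries (N l : ℕ) [NeZero l] (γ : Gamma0 (N * l)) :
    ((thetaDelta N l γ : gammaUp N l) : SL(2, ℤ)) 0 0 = (γ : SL(2, ℤ)) 0 0 ∧
    ((thetaDelta N l γ : gammaUp N l) : SL(2, ℤ)) 0 1 = (l : ℤ) * (γ : SL(2, ℤ)) 0 1 ∧
    (l : ℤ) * ((thetaDelta N l γ : gammaUp N l) : SL(2, ℤ)) 1 0 = (γ : SL(2, ℤ)) 1 0 ∧
    ((thetaDelta N l γ : gammaUp N l) : SL(2, ℤ)) 1 1 = (γ : SL(2, ℤ)) 1 1 := by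
  have h := conjDelta_apply_coe N l γ
  refine ⟨congrFun (congrFun h 0) 0, congrFun (congrFun h 0) 1, ?_, congrFun (congrFun h 1) 1⟩
  have h10 : ((thetaDelta N l γ : gammaUp N l) : SL(2, ℤ)) 1 0 = (γ : SL(2, ℤ)) 1 0 / (l : ℤ) :=
    congrFun (congrFun h 1) 0
  rw [h10]
  exact Int.mul_ediv_cancel' (dvd_of_mem_Gamma0_mul γ)

theorem thetaDelta_coe_eq_one_iff (N l : ℕ) [NeZero l] (γ : Gamma0 (N * l)) :
    ((thetaDelta N l γ : gammaUp N l) : SL(2, ℤ)) = 1 ↔ (γ : SL(2, ℤ)) = 1 := by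
  rw [OneMemClass.coe_eq_one, OneMemClass.coe_eq_one, MulEquiv.map_eq_one_iff]

theorem isPosPar_thetaDelta_iff (N l : ℕ) [NeZero l] (γ : Gamma0 (N * l)) :
    Cusps.IsPosPar (γ : SL(2, ℤ)) ↔ Cusps.IsPosPar ((thetaDelta N l γ : gammaUp N l) : SL(2, ℤ)) := by
  obtain ⟨h00, h01, h10, h11⟩ := thetaDelta_apply_entries N l γ
  have hl : (0 : ℤ) < (l : ℤ) := by exact_mod_cast Nat.pos_of_ne_zero (NeZero.ne l)
  unfold Cusps.IsPosPar
  rw [h00, h11, h01, ← h10, Ne, Ne, thetaDelta_coe_eq_one_iff]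
  constructor
  · rintro ⟨e1, e2, e3, e4⟩
    exact ⟨e1, e2, mul_nonneg hl.le e3, by nlinarith⟩
  · rintro ⟨e1, e2, e3, e4⟩
    exact ⟨e1, e2, by nlinarith, by nlinarith⟩

theorem isPrimPosPar_thetaDelta_iff (N l : ℕ) [NeZero l] (γ : Gamma0 (N * l)) :
    Cusps.IsPrimPosPar (Gamma0 (N * l)) γ ↔ Cusps.IsPrimPosPar (gammaUp N l) (thetaDelta N l γ) := by
  refine Cusps.isPrimPosPar_iff_of_equiv (thetaDelta N l) (fun g => ?_)
    (fun g => isPosPar_thetaDelta_iff N l g) γ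
  obtain ⟨h00, -, -, h11⟩ := thetaDelta_apply_entries N l g
  rw [h00, h11]

/-- The cusp families of `Γ₀(N l)` and of `gammaUp N l` correspond under `thetaDelta`. -/
theorem exists_cuspIdx_equiv_thetaDelta (N l : ℕ) [NeZero N] [NeZero l] :
    ∃ e : Cusps.CuspIdx (Gamma0 (N * l)) ≃ Cusps.CuspIdx (gammaUp N l),
      ∀ c, ∃ d : gammaUp N l, thetaDelta N l (Cusps.cuspGen (Gamma0 (N * l)) c) =
        d * Cusps.cuspGen (gammaUp N l) (e c) * d⁻¹ := by
  have : NeZero (N * l) := ⟨Nat.mul_ne_zero (NeZero.ne N) (NeZero.ne l)⟩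
  have h₁ : (-1 : SL(2, ℤ)) ∈ Gamma0 (N * l) := by rw [Gamma0_mem]; simp
  exact Cusps.exists_cuspIdx_equiv h₁ (neg_one_mem_gammaUp N l) (thetaDelta N l)
    (isPrimPosPar_thetaDelta_iff N l)

/-- The same correspondence, read through `thetaDelta.symm` (the hypothesis of the invariance
statement `HasPairing.comp` for `θ := thetaDelta.symm`). -/
theorem exists_cuspIdx_equiv_thetaDelta_symm (N l : ℕ) [NeZero N] [NeZero l] :
    ∃ e : Cusps.CuspIdx (gammaUp N l) ≃ Cusps.CuspIdx (Gamma0 (N * l)),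
      ∀ c, ∃ g : Gamma0 (N * l), (thetaDelta N l).symm (Cusps.cuspGen (gammaUp N l) c) =
        g * Cusps.cuspGen (Gamma0 (N * l)) (e c) * g⁻¹ := by
  obtain ⟨e, he⟩ := exists_cuspIdx_equiv_thetaDelta N l
  refine ⟨e.symm, fun c => ?_⟩
  obtain ⟨d, hd⟩ := he (e.symm c)
  rw [Equiv.apply_symm_apply] at hd
  refine ⟨(thetaDelta N l).symm d⁻¹, ?_⟩
  apply (thetaDelta N l).injective
  simp only [map_mul, map_inv, MulEquiv.apply_symm_apply, hd, inv_inv]
  group

/-! ### Corestriction along `conjDelta` -/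

/-- Corestriction along `j' = j ∘ θ` (`θ` an isomorphism) is corestriction along `j` after
transport of the character by `θ`. -/
theorem cores_of_equiv {G H K : Type*} [Group G] [Group H] [Group K] {A : Type*} [AddCommGroup A]
    (j' : K →* G) (hj' : Function.Injective j') [j'.range.FiniteIndex]
    (j : H →* G) (hj : Function.Injective j) [j.range.FiniteIndex]
    (θ : K ≃* H) (h : ∀ k, j' k = j (θ k)) (ψ : Additive K →+ A) :
    cores j' hj' ψ = cores j hj (ψ.comp (MonoidHom.toAdditive θ.symm.toMonoidHom)) := by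
  classical
  refine AddMonoidHom.ext fun a => ?_
  have : Fintype (RQ j) := Fintype.ofFinite _
  have hr := isRightTransversal_out j
  have hr' : IsRightTransversal j' (fun q : RQ j => q.out) := by
    refine ⟨fun g => ?_, fun x y k hxy => ?_⟩
    · obtain ⟨x, h0, hx⟩ := hr.1 g
      exact ⟨x, θ.symm h0, by rw [h, θ.apply_symm_apply]; exact hx⟩
    · exact hr.2 x y (θ k) (by rw [← h]; exact hxy)
  obtain ⟨σ, γ', hrel⟩ := exists_rel j _ hr (Additive.toMul a)
  have e1 : cores j hj (ψ.comp (MonoidHom.toAdditive θ.symm.toMonoidHom)) a =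
      ∑ x, (ψ.comp (MonoidHom.toAdditive θ.symm.toMonoidHom)) (Additive.ofMul (γ' x)) :=
    cores_apply_of_rel j hj _ hr _ (Additive.toMul a) σ γ' hrel
  have e2 : cores j' hj' ψ a = ∑ x, ψ (Additive.ofMul (θ.symm (γ' x))) :=
    cores_apply_of_rel j' hj' _ hr' ψ (Additive.toMul a) σ (fun x => θ.symm (γ' x))
      (fun x => by rw [h, θ.apply_symm_apply]; exact hrel x)
  rw [e1, e2]
  rfl

variable {A : Type*}

/-- `tr₂` is the corestriction along the honest inclusion `inclUp`, after transport by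
`thetaDelta`. -/
theorem tr₂_eq_cores_inclUp [AddCommGroup A] (N l : ℕ) [NeZero N] [NeZero l]
    (ψ : Additive (Gamma0 (N * l)) →+ A) :
    tr₂ N l ψ = cores (inclUp N l) (inclUp_injective N l)
      (ψ.comp (MonoidHom.toAdditive (thetaDelta N l).symm.toMonoidHom)) :=
  cores_of_equiv _ _ _ _ (thetaDelta N l) (conjDelta_eq N l) ψ

/-- `res₂` is restriction along `inclUp` followed by transport by `thetaDelta`. -/
theorem res₂_comp_thetaDelta_symm [AddCommGroup A] (N l : ℕ) [NeZero l]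
    (φ : Additive (Gamma0 N) →+ A) :
    (res₂ N l φ).comp (MonoidHom.toAdditive (thetaDelta N l).symm.toMonoidHom) =
      φ.comp (MonoidHom.toAdditive (inclUp N l)) := by
  refine AddMonoidHom.ext fun x => ?_
  show φ (Additive.ofMul (conjDelta N l ((thetaDelta N l).symm (Additive.toMul x)))) =
    φ (Additive.ofMul (inclUp N l (Additive.toMul x)))
  rw [conjDelta_eq, MulEquiv.apply_symm_apply]

/-- Transport of a parabolic hom of `Γ₀(N l)` to `gammaUp N l` is parabolic. -/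
theorem isParabolicHom_comp_thetaDelta_symm [AddCommGroup A] (N l : ℕ) [NeZero l]
    {ψ : Additive (Gamma0 (N * l)) →+ A} (hψ : IsParabolicHom (Gamma0 (N * l)) ψ) :
    IsParabolicHom (gammaUp N l)
      (ψ.comp (MonoidHom.toAdditive (thetaDelta N l).symm.toMonoidHom)) := by
  intro g hg
  refine hψ ((thetaDelta N l).symm g) ?_
  obtain ⟨h00, -, -, h11⟩ := thetaDelta_apply_entries N l ((thetaDelta N l).symm g)
  rw [MulEquiv.apply_symm_apply] at h00 h11
  rw [Matrix.trace_fin_two] at hg ⊢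
  have e00 : (((thetaDelta N l).symm g : Gamma0 (N * l)) : SL(2, ℤ)) 0 0 = (g : SL(2, ℤ)) 0 0 :=
    h00.symm
  have e11 : (((thetaDelta N l).symm g : Gamma0 (N * l)) : SL(2, ℤ)) 1 1 = (g : SL(2, ℤ)) 1 1 :=
    h11.symm
  rw [show ((((thetaDelta N l).symm g : Gamma0 (N * l)) : SL(2, ℤ)) : Matrix (Fin 2) (Fin 2) ℤ) 0 0
      = (g : SL(2, ℤ)) 0 0 from e00,
    show ((((thetaDelta N l).symm g : Gamma0 (N * l)) : SL(2, ℤ)) : Matrix (Fin 2) (Fin 2) ℤ) 1 1
      = (g : SL(2, ℤ)) 1 1 from e11]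
  exact hg

/-- Prelude-parabolic homs kill the cusp generators. -/
theorem isPar_cuspGen [CommRing A] {Γ : Subgroup SL(2, ℤ)} [Γ.FiniteIndex]
    {φ : Additive Γ →+ A} (hφ : IsParabolicHom Γ φ) : IsPar (Cusps.cuspGen Γ) φ := by
  intro c
  apply hφ
  have h := (Cusps.isPosPar_cuspGen Γ c).1
  rw [Matrix.trace_fin_two]
  have h' : ((Cusps.cuspGen Γ c : SL(2, ℤ)) : Matrix (Fin 2) (Fin 2) ℤ) 0 0
      + ((Cusps.cuspGen Γ c : SL(2, ℤ)) : Matrix (Fin 2) (Fin 2) ℤ) 1 1 = 2 := h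
  rw [h']
  norm_num

/-- **(X2), conditional form.**  Adjointness of `res₂` and `tr₂` for the cusp pairing, from the
adjointness of restriction and corestriction along the honest inclusion
`inclUp : gammaUp N l → Γ₀(N)`. -/
theorem hasPairing_res₂_tr₂_of_adj [CommRing A] (N l : ℕ) [NeZero N] [NeZero l]
    (hAdj : ∀ (φ : Additive (Gamma0 N) →+ A) (ψ'' : Additive (gammaUp N l) →+ A),
      IsParabolicHom (Gamma0 N) φ → IsParabolicHom (gammaUp N l) ψ'' → ∀ a : A,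
      HasPairing (Cusps.cuspGen (gammaUp N l)) (φ.comp (MonoidHom.toAdditive (inclUp N l))) ψ'' a →
      HasPairing (Cusps.cuspGen (Gamma0 N)) φ (cores (inclUp N l) (inclUp_injective N l) ψ'') a)
    (φ : Additive (Gamma0 N) →+ A) (ψ : Additive (Gamma0 (N * l)) →+ A)
    (hφ : IsParabolicHom (Gamma0 N) φ) (hψ : IsParabolicHom (Gamma0 (N * l)) ψ) (a : A)
    (h : HasPairing (Cusps.cuspGen (Gamma0 (N * l))) (res₂ N l φ) ψ a) :
    HasPairing (Cusps.cuspGen (Gamma0 N)) φ (tr₂ N l ψ) a := by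
  obtain ⟨e, he⟩ := exists_cuspIdx_equiv_thetaDelta_symm N l
  have h1 := HasPairing.comp (π := Cusps.cuspGen (gammaUp N l))
    (π' := Cusps.cuspGen (Gamma0 (N * l))) (thetaDelta N l).symm.toMonoidHom e he
    (isPar_cuspGen (isParabolicHom_res₂ N l hφ)) (isPar_cuspGen hψ) h
  rw [res₂_comp_thetaDelta_symm] at h1
  rw [tr₂_eq_cores_inclUp]
  exact hAdj φ _ hφ (isParabolicHom_comp_thetaDelta_symm N l hψ) a h1

end Fermat.Agent.S41.Pairing.ConjDelta
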