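/-
S41 / (P4), strands (X1) and (X2): adjointness of `res₁`/`tr₁` and of `res₂`/`tr₂` for the cusp
pairing, unconditionally, at the `HasPairing` level and for `Main.pair`.
-/
import Mathlib
import Fermat.Agent.S41.Pairing.ConjDelta
import Fermat.Agent.S41.Pairing.IndCusps
import Fermat.Agent.S41.Pairing.AdjIncl
import Fermat.Agent.S41.Pairing.SwapFrame
import Fermat.Agent.S41.Pairing.Main

set_option autoImplicit false

open scoped MatrixGroups
open CongruenceSubgroup ModularCurve.Period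
open Fermat.Agent.S41.Ihara Fermat.Agent.S41.Cores Fermat.Agent.S41.Frame

namespace Fermat.Agent.S41.Pairing.ConjDeltaAdj

open Fermat.Agent.S41.Pairing.ConjDelta

variable {A : Type*} [CommRing A]

/-- **(X1), `HasPairing` level**: `res₁` and `tr₁` are adjoint for the cusp pairing. -/
theorem hasPairing_res₁_tr₁ (N l : ℕ) [NeZero N] [NeZero l]
    (φ : Additive (Gamma0 N) →+ A) (ψ : Additive (Gamma0 (N * l)) →+ A)
    (hφ : IsParabolicHom (Gamma0 N) φ) (hψ : IsParabolicHom (Gamma0 (N * l)) ψ) (a : A)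
    (h : HasPairing (Cusps.cuspGen (Gamma0 (N * l))) (res₁ N l φ) ψ a) :
    HasPairing (Cusps.cuspGen (Gamma0 N)) φ (tr₁ N l ψ) a :=
  IndCusps.hasPairing_cores (Gamma0_mul_le N l) (isPar_cuspGen hφ) (isPar_cuspGen hψ) h

/-- **(X2), `HasPairing` level**: `res₂` and `tr₂` are adjoint for the cusp pairing. -/
theorem hasPairing_res₂_tr₂ (N l : ℕ) [NeZero N] [NeZero l]
    (φ : Additive (Gamma0 N) →+ A) (ψ : Additive (Gamma0 (N * l)) →+ A)
    (hφ : IsParabolicHom (Gamma0 N) φ) (hψ : IsParabolicHom (Gamma0 (N * l)) ψ) (a : A)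
    (h : HasPairing (Cusps.cuspGen (Gamma0 (N * l))) (res₂ N l φ) ψ a) :
    HasPairing (Cusps.cuspGen (Gamma0 N)) φ (tr₂ N l ψ) a :=
  hasPairing_res₂_tr₂_of_adj N l
    (fun _ _ hφ' hψ'' _ h' =>
      IndCusps.hasPairing_cores (gammaUp_le N l) (isPar_cuspGen hφ') (isPar_cuspGen hψ'') h')
    φ ψ hφ hψ a h

/-- **(X1)** for `Main.pair`. -/
theorem pair_res₁ (N l : ℕ) [NeZero N] [NeZero l] (x : Lat N) (y : Lat (N * l))
    (hr : res₁ N l x.1 ∈ Lat (N * l)) (ht : tr₁ N l y.1 ∈ Lat N) :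
    Lat.pair (N * l) ⟨res₁ N l x.1, hr⟩ y = Lat.pair N x ⟨tr₁ N l y.1, ht⟩ :=
  Main.pair_eq_of_hasPairing_imp (fun φ => res₁ N l φ) (fun ψ => tr₁ N l ψ)
    (fun φ ψ hφ hψ a h => hasPairing_res₁_tr₁ N l φ ψ hφ hψ a h) x y hr ht

/-- **(X2)** for `Main.pair`. -/
theorem pair_res₂ (N l : ℕ) [NeZero N] [NeZero l] (x : Lat N) (y : Lat (N * l))
    (hr : res₂ N l x.1 ∈ Lat (N * l)) (ht : tr₂ N l y.1 ∈ Lat N) :
    Lat.pair (N * l) ⟨res₂ N l x.1, hr⟩ y = Lat.pair N x ⟨tr₂ N l y.1, ht⟩ :=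
  Main.pair_eq_of_hasPairing_imp (fun φ => res₂ N l φ) (fun ψ => tr₂ N l ψ)
    (fun φ ψ hφ hψ a h => hasPairing_res₂_tr₂ N l φ ψ hφ hψ a h) x y hr ht

/-! ### Transfers of parabolic homs are parabolic; self-adjointness of `heckeT` -/

/-- Corestriction along an honest inclusion of finite-index subgroups of `SL(2, ℤ)` preserves
parabolic homs. -/
theorem isParabolicHom_cores_inclusion {Γ' Γ : Subgroup SL(2, ℤ)} (hle : Γ' ≤ Γ)
    [Γ'.FiniteIndex] {ψ' : Additive Γ' →+ A} (hψ' : IsParabolicHom Γ' ψ') :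
    IsParabolicHom Γ
      (cores (Subgroup.inclusion hle) (Subgroup.inclusion_injective hle) ψ') := by
  classical
  have : Fintype (Γ ⧸ (Subgroup.inclusion hle).range) := Fintype.ofFinite _
  rw [IndCusps.cores_eq_trf]
  exact isParabolicHom_trf (Subgroup.inclusion hle) (fun _ => rfl) hψ'

theorem isParabolicHom_tr₁ (N l : ℕ) [NeZero N] [NeZero l]
    {ψ : Additive (Gamma0 (N * l)) →+ A} (hψ : IsParabolicHom (Gamma0 (N * l)) ψ) :
    IsParabolicHom (Gamma0 N) (tr₁ N l ψ) :=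
  isParabolicHom_cores_inclusion (Gamma0_mul_le N l) hψ

theorem isParabolicHom_tr₂ (N l : ℕ) [NeZero N] [NeZero l]
    {ψ : Additive (Gamma0 (N * l)) →+ A} (hψ : IsParabolicHom (Gamma0 (N * l)) ψ) :
    IsParabolicHom (Gamma0 N) (tr₂ N l ψ) := by
  rw [tr₂_eq_cores_inclUp]
  exact isParabolicHom_cores_inclusion (gammaUp_le N l) (isParabolicHom_comp_thetaDelta_symm N l hψ)

theorem isParabolicHom_heckeT (N l : ℕ) [NeZero N] [NeZero l]
    {φ : Additive (Gamma0 N) →+ A} (hφ : IsParabolicHom (Gamma0 N) φ) :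
    IsParabolicHom (Gamma0 N) (heckeT N l φ) :=
  isParabolicHom_tr₁ N l (isParabolicHom_res₂ N l hφ)

theorem isParabolicHom_heckeU (N l : ℕ) [NeZero N] [NeZero l]
    {φ : Additive (Gamma0 N) →+ A} (hφ : IsParabolicHom (Gamma0 N) φ) :
    IsParabolicHom (Gamma0 N) (heckeU N l φ) :=
  isParabolicHom_tr₂ N l (isParabolicHom_res₁ N l hφ)

/-- **(X1)**, with the membership proofs supplied. -/
theorem pair_res₁' (N l : ℕ) [NeZero N] [NeZero l] (x : Lat N) (y : Lat (N * l)) :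
    Lat.pair (N * l) ⟨res₁ N l x.1, isParabolicHom_res₁ N l x.2⟩ y =
      Lat.pair N x ⟨tr₁ N l y.1, isParabolicHom_tr₁ N l y.2⟩ :=
  pair_res₁ N l x y _ _

/-- **(X2)**, with the membership proofs supplied. -/
theorem pair_res₂' (N l : ℕ) [NeZero N] [NeZero l] (x : Lat N) (y : Lat (N * l)) :
    Lat.pair (N * l) ⟨res₂ N l x.1, isParabolicHom_res₂ N l x.2⟩ y =
      Lat.pair N x ⟨tr₂ N l y.1, isParabolicHom_tr₂ N l y.2⟩ :=
  pair_res₂ N l x y _ _

/-- **(X3)**: `heckeT N l` is self-adjoint for the cusp pairing when `l` is prime to `N`. -/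
theorem pair_heckeT (N l : ℕ) [NeZero N] [NeZero l] (hNl : Nat.Coprime N l) (x z : Lat N) :
    Lat.pair N ⟨heckeT N l x.1, isParabolicHom_heckeT N l x.2⟩ z =
      Lat.pair N x ⟨heckeT N l z.1, isParabolicHom_heckeT N l z.2⟩ := by
  have h := Main.pair_hecke_of_adj (N := N) (N' := N * l)
    (fun φ => res₁ N l φ) (fun φ => res₂ N l φ) (fun ψ => tr₁ N l ψ) (fun ψ => tr₂ N l ψ)
    (fun φ hφ => isParabolicHom_res₁ N l hφ) (fun φ hφ => isParabolicHom_res₂ N l hφ)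
    (fun ψ hψ => isParabolicHom_tr₁ N l hψ) (fun ψ hψ => isParabolicHom_tr₂ N l hψ)
    (fun x y => pair_res₁ N l x y _ _) (fun x y => pair_res₂ N l x y _ _) x z
  have e : tr₂ N l (res₁ N l z.1) = heckeT N l z.1 :=
    (DFunLike.congr_fun (Swap.heckeT_eq_heckeU (A := ℤ) N l hNl) z.1).symm
  have e' : (⟨tr₂ N l (res₁ N l z.1), isParabolicHom_tr₂ N l (isParabolicHom_res₁ N l z.2)⟩ : Lat N)
      = ⟨heckeT N l z.1, isParabolicHom_heckeT N l z.2⟩ := Subtype.ext e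
  rw [← e']
  exact h

end Fermat.Agent.S41.Pairing.ConjDeltaAdj
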