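import Mathlib
import Fermat.Agent.S16.SL2Pres

/-!
# Monomial cocycles on `SL(2, ℤ)` and Heisenberg lifts (S41, package P4)

`X` is a set with an action of `SL(2, ℤ)` on which `-1` acts trivially (in the application
`X = SL(2, ℤ) ⧸ Γ` with `-1 ∈ Γ`).

* `exists_monomial`: from the presentation `PSL(2, ℤ) = C₂ * C₃` (`S16.SL2Pres.exists_hom`):
  a *monomial cocycle* `C : SL(2, ℤ) → X → H` (`C (g * h) x = C g (h • x) * C h x`) with
  prescribed values on `S` and `S * T`.
* `IsCoc`, `IsCoc.eq_zero`, `exists_coc`: additive monomial cocycles, uniqueness, existence.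
* `IsCup`, `exists_cup`: a cochain `K` with `K (g * h) x = K g (h • x) + K h x + c g (h • x) * c' h x`
  (the third coordinate of a Heisenberg-valued monomial cocycle).
* `cup_T_pow_eq`: the value of `K` on powers of `T` in terms of a potential.
-/

set_option autoImplicit false

open scoped MatrixGroups
open ModularGroup

namespace Fermat.Agent.S41.Pairing.Cup

universe u v

/-! ### The wreath product `H ≀ Perm X` -/

/-- The wreath product of a group `H` with the permutations of `X`. -/
@[ext] structure Wr (X : Type u) (H : Type v) where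
  /-- the permutation -/
  perm : Equiv.Perm X
  /-- the `H`-valued function -/
  c : X → H

namespace Wr

variable {X : Type u} {H : Type v} [Group H]

instance : Mul (Wr X H) := ⟨fun a b => ⟨a.perm * b.perm, fun x => a.c (b.perm x) * b.c x⟩⟩
instance : One (Wr X H) := ⟨⟨1, fun _ => 1⟩⟩
instance : Inv (Wr X H) := ⟨fun a => ⟨a.perm⁻¹, fun x => (a.c (a.perm⁻¹ x))⁻¹⟩⟩

@[simp] lemma mul_perm (a b : Wr X H) : (a * b).perm = a.perm * b.perm := rfl
@[simp] lemma mul_c (a b : Wr X H) (x : X) : (a * b).c x = a.c (b.perm x) * b.c x := rfl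
@[simp] lemma one_perm : (1 : Wr X H).perm = 1 := rfl
@[simp] lemma one_c (x : X) : (1 : Wr X H).c x = 1 := rfl
@[simp] lemma inv_perm (a : Wr X H) : a⁻¹.perm = a.perm⁻¹ := rfl
@[simp] lemma inv_c (a : Wr X H) (x : X) : a⁻¹.c x = (a.c (a.perm⁻¹ x))⁻¹ := rfl

instance : Group (Wr X H) where
  mul_assoc a b c := by
    ext x
    · simp [mul_assoc]
    · simp [mul_assoc]
  one_mul a := by
    ext x
    · simp
    · simp
  mul_one a := by
    ext x
    · simp
    · simp
  inv_mul_cancel a := by
    ext x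
    · simp
    · simp

/-- The projection to the permutation. -/
def permHom : Wr X H →* Equiv.Perm X where
  toFun a := a.perm
  map_one' := rfl
  map_mul' _ _ := rfl

@[simp] lemma permHom_apply (a : Wr X H) : permHom a = a.perm := rfl

end Wr

/-! ### Monomial cocycles from the presentation -/

lemma S_mul_S : S * S = (-1 : SL(2, ℤ)) := by decide

lemma R_cube : S * T * (S * T) * (S * T) = (-1 : SL(2, ℤ)) := by decide

lemma R_cube' : S * T * (S * T * (S * T)) = (-1 : SL(2, ℤ)) := by decide

lemma S_inv_mul_R : S⁻¹ * (S * T) = T := by simp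

section Monomial

variable {X : Type u} [MulAction SL(2, ℤ) X] {H : Type v} [Group H]

/-- **Monomial cocycles from the presentation of `PSL(2, ℤ)`.** -/
theorem exists_monomial (hneg : ∀ x : X, (-1 : SL(2, ℤ)) • x = x) (cS cR : X → H)
    (hS : ∀ x, cS (S • x) * cS x = 1)
    (hR : ∀ x, cR ((S * T) • (S * T) • x) * cR ((S * T) • x) * cR x = 1) :
    ∃ C : SL(2, ℤ) → X → H, (∀ g h x, C (g * h) x = C g (h • x) * C h x) ∧
      C S = cS ∧ C (S * T) = cR := by
  have hS2 : ∀ x : X, S • S • x = x := fun x => by rw [← mul_smul, S_mul_S, hneg]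
  have hR3 : ∀ x : X, (S * T) • (S * T) • (S * T) • x = x := fun x => by
    rw [← mul_smul, ← mul_smul, R_cube, hneg]
  let s : Wr X H := ⟨MulAction.toPerm S, cS⟩
  let r : Wr X H := ⟨MulAction.toPerm (S * T), cR⟩
  have hs : s ^ 2 = 1 := by
    rw [pow_two]
    ext x
    · simp [s, hS2]
    · simp [s, hS]
  have hr : r ^ 3 = 1 := by
    rw [pow_succ, pow_two]
    ext x
    · simp [r, hR3]
    · simp [r, hR]
  obtain ⟨Φ, hΦS, hΦR⟩ := Fermat.Agent.S16.SL2Pres.exists_hom s r hs hr
  have hperm : Wr.permHom.comp Φ = MulAction.toPermHom SL(2, ℤ) X := by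
    apply MonoidHom.eq_of_eqOn_dense SpecialLinearGroup.SL2Z_generators
    have h1 : (Wr.permHom.comp Φ) S = MulAction.toPermHom SL(2, ℤ) X S := by
      simp [hΦS, s]
    have h2 : (Wr.permHom.comp Φ) (S * T) = MulAction.toPermHom SL(2, ℤ) X (S * T) := by
      simp only [MonoidHom.comp_apply, hΦR]
      rfl
    rintro g (rfl | rfl)
    · exact h1
    · have e1 : (Wr.permHom.comp Φ) (S⁻¹ * (S * T))
          = MulAction.toPermHom SL(2, ℤ) X (S⁻¹ * (S * T)) := by
        rw [map_mul, map_inv, h1, h2, ← map_inv, ← map_mul]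
      rwa [S_inv_mul_R] at e1
  have hperm' : ∀ (g : SL(2, ℤ)) (x : X), (Φ g).perm x = g • x := by
    intro g x
    have := congrArg (fun f : SL(2, ℤ) →* Equiv.Perm X => f g x) hperm
    simpa using this
  refine ⟨fun g x => (Φ g).c x, ?_, ?_, ?_⟩
  · intro g h x
    simp only [map_mul, Wr.mul_c, hperm']
  · funext x
    show (Φ S).c x = cS x
    rw [hΦS]
  · funext x
    show (Φ (S * T)).c x = cR x
    rw [hΦR]

end Monomial

/-! ### The Heisenberg group -/

/-- The Heisenberg group on `A × A × A`: `(a, b, k) (a', b', k') = (a + a', b + b', k + k' + a b')`. -/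
@[ext] structure Heis (A : Type v) where
  /-- first coordinate -/
  a : A
  /-- second coordinate -/
  b : A
  /-- central coordinate -/
  k : A

namespace Heis

variable {A : Type v} [CommRing A]

instance : Mul (Heis A) := ⟨fun x y => ⟨x.a + y.a, x.b + y.b, x.k + y.k + x.a * y.b⟩⟩
instance : One (Heis A) := ⟨⟨0, 0, 0⟩⟩
instance : Inv (Heis A) := ⟨fun x => ⟨-x.a, -x.b, -x.k + x.a * x.b⟩⟩

@[simp] lemma mul_a (x y : Heis A) : (x * y).a = x.a + y.a := rfl
@[simp] lemma mul_b (x y : Heis A) : (x * y).b = x.b + y.b := rfl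
@[simp] lemma mul_k (x y : Heis A) : (x * y).k = x.k + y.k + x.a * y.b := rfl
@[simp] lemma one_a : (1 : Heis A).a = 0 := rfl
@[simp] lemma one_b : (1 : Heis A).b = 0 := rfl
@[simp] lemma one_k : (1 : Heis A).k = 0 := rfl
@[simp] lemma inv_a (x : Heis A) : x⁻¹.a = -x.a := rfl
@[simp] lemma inv_b (x : Heis A) : x⁻¹.b = -x.b := rfl
@[simp] lemma inv_k (x : Heis A) : x⁻¹.k = -x.k + x.a * x.b := rfl

instance : Group (Heis A) where
  mul_assoc x y z := by
    ext
    · show x.a + y.a + z.a = x.a + (y.a + z.a)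
      ring
    · show x.b + y.b + z.b = x.b + (y.b + z.b)
      ring
    · show x.k + y.k + x.a * y.b + z.k + (x.a + y.a) * z.b
        = x.k + (y.k + z.k + y.a * z.b) + x.a * (y.b + z.b)
      ring
  one_mul x := by
    ext
    · show (0 : A) + x.a = x.a
      ring
    · show (0 : A) + x.b = x.b
      ring
    · show (0 : A) + x.k + 0 * x.b = x.k
      ring
  mul_one x := by
    ext
    · show x.a + 0 = x.a
      ring
    · show x.b + 0 = x.b
      ring
    · show x.k + 0 + x.a * 0 = x.k
      ring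
  inv_mul_cancel x := by
    ext
    · show -x.a + x.a = 0
      ring
    · show -x.b + x.b = 0
      ring
    · show -x.k + x.a * x.b + x.k + -x.a * x.b = 0
      ring

end Heis

/-! ### Additive monomial cocycles -/

section Additive

variable {X : Type u} [MulAction SL(2, ℤ) X] {A : Type v}

/-- Additive monomial cocycles: `c (g * h) x = c g (h • x) + c h x`. -/
def IsCoc [AddCommGroup A] (c : SL(2, ℤ) → X → A) : Prop :=
  ∀ g h x, c (g * h) x = c g (h • x) + c h x

namespace IsCoc

variable [AddCommGroup A] {c c' : SL(2, ℤ) → X → A}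

lemma one (hc : IsCoc c) (x : X) : c 1 x = 0 := by
  have h := hc 1 1 x
  rw [mul_one, one_smul] at h
  have h2 : c 1 x + 0 = c 1 x + c 1 x := by rw [add_zero]; exact h
  exact (add_left_cancel h2).symm

lemma inv_smul (hc : IsCoc c) (g : SL(2, ℤ)) (x : X) : c g⁻¹ (g • x) = -c g x := by
  have h := hc g⁻¹ g x
  rw [inv_mul_cancel, hc.one] at h
  exact eq_neg_of_add_eq_zero_left h.symm

lemma inv (hc : IsCoc c) (g : SL(2, ℤ)) (x : X) : c g⁻¹ x = -c g (g⁻¹ • x) := by
  have h := hc.inv_smul g (g⁻¹ • x)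
  rwa [smul_inv_smul] at h

lemma sub (hc : IsCoc c) (hc' : IsCoc c') : IsCoc (fun g x => c g x - c' g x) := by
  intro g h x
  show c (g * h) x - c' (g * h) x = c g (h • x) - c' g (h • x) + (c h x - c' h x)
  rw [hc g h x, hc' g h x]
  abel

/-- A cocycle vanishing on `S` and `S * T` vanishes. -/
lemma eq_zero (hc : IsCoc c) (hS : c S = 0) (hR : c (S * T) = 0) : c = 0 := by
  let K : Subgroup SL(2, ℤ) :=
    { carrier := {g | c g = 0}
      mul_mem' := by
        intro a b ha hb
        have ha' : c a = 0 := ha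
        have hb' : c b = 0 := hb
        show c (a * b) = 0
        funext x
        rw [hc a b x, ha', hb']
        simp
      one_mem' := by
        show c 1 = 0
        funext x
        exact hc.one x
      inv_mem' := by
        intro a ha
        have ha' : c a = 0 := ha
        show c a⁻¹ = 0
        funext x
        rw [hc.inv a x, ha']
        simp }
  have hSK : S ∈ K := hS
  have hRK : S * T ∈ K := hR
  have hTK : T ∈ K := by
    have h2 : S⁻¹ * (S * T) ∈ K := K.mul_mem (K.inv_mem hSK) hRK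
    rwa [S_inv_mul_R] at h2
  have htop : K = ⊤ := by
    apply top_unique
    rw [← SpecialLinearGroup.SL2Z_generators, Subgroup.closure_le]
    rintro a (rfl | rfl)
    · exact hSK
    · exact hTK
  funext g
  have hg : g ∈ K := by rw [htop]; trivial
  exact hg

/-- Two cocycles agreeing on `S` and `S * T` agree. -/
lemma ext' (hc : IsCoc c) (hc' : IsCoc c') (hS : c S = c' S) (hR : c (S * T) = c' (S * T)) :
    c = c' := by
  have h := (hc.sub hc').eq_zero (by funext x; simp [hS]) (by funext x; simp [hR])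
  funext g x
  have := congrFun (congrFun h g) x
  exact sub_eq_zero.mp this

/-- `c (-1) = 0` when `c (S * T) = 0`. -/
lemma neg_one (hc : IsCoc c) (hR : c (S * T) = 0) (x : X) : c (-1) x = 0 := by
  rw [← R_cube, hc, hc, hR]
  simp

/-- `c S (S • x) = - c S x` when `c (S * T) = 0`. -/
lemma S_smul (hc : IsCoc c) (hR : c (S * T) = 0) (x : X) : c S (S • x) = -c S x := by
  have h := hc S S x
  rw [S_mul_S, hc.neg_one hR] at h
  exact eq_neg_of_add_eq_zero_left h.symm

/-- `c T x = - c S (T • x)` when `c (S * T) = 0`. -/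
lemma T_eq (hc : IsCoc c) (hR : c (S * T) = 0) (x : X) : c T x = -c S (T • x) := by
  have h := hc S⁻¹ (S * T) x
  rw [S_inv_mul_R, hR] at h
  simp only [Pi.zero_apply, add_zero] at h
  rw [h, mul_smul, hc.inv_smul]

/-- The value on powers of `T`. -/
lemma T_pow (hc : IsCoc c) (n : ℕ) (x : X) :
    c (T ^ n) x = ∑ i ∈ Finset.range n, c T (T ^ i • x) := by
  induction n with
  | zero => simp [hc.one]
  | succ n ih =>
    rw [pow_succ', hc, ih, Finset.sum_range_succ]
    abel

end IsCoc

/-- Existence of an additive cocycle with `c S = u`, `c (S * T) = 0`. -/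
theorem exists_coc [AddCommGroup A] (hneg : ∀ x : X, (-1 : SL(2, ℤ)) • x = x) (u : X → A)
    (hu : ∀ x, u (S • x) = -u x) :
    ∃ c : SL(2, ℤ) → X → A, IsCoc c ∧ c S = u ∧ c (S * T) = 0 := by
  obtain ⟨C, hC, hCS, hCR⟩ := exists_monomial (H := Multiplicative A) hneg
    (fun x => Multiplicative.ofAdd (u x)) (fun _ => 1)
    (fun x => by
      rw [← ofAdd_add, hu x]
      simp)
    (fun x => by simp)
  refine ⟨fun g x => Multiplicative.toAdd (C g x), ?_, ?_, ?_⟩
  · intro g h x
    show Multiplicative.toAdd (C (g * h) x) = Multiplicative.toAdd (C g (h • x))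
      + Multiplicative.toAdd (C h x)
    rw [hC g h x, toAdd_mul]
  · funext x
    show Multiplicative.toAdd (C S x) = u x
    rw [hCS]
    rfl
  · funext x
    show Multiplicative.toAdd (C (S * T) x) = 0
    rw [hCR]
    rfl

end Additive

/-! ### Cup cochains -/

section Cup

variable {X : Type u} [MulAction SL(2, ℤ) X] {A : Type v} [CommRing A]

/-- `K` is a cup cochain for the cocycles `c`, `c'`:
`K (g * h) x = K g (h • x) + K h x + c g (h • x) * c' h x`. -/
def IsCup (c c' K : SL(2, ℤ) → X → A) : Prop :=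
  ∀ g h x, K (g * h) x = K g (h • x) + K h x + c g (h • x) * c' h x

/-- Existence of a cup cochain (Heisenberg lift) for two cocycles trivial on `S * T`. -/
theorem exists_cup (hneg : ∀ x : X, (-1 : SL(2, ℤ)) • x = x) {c c' : SL(2, ℤ) → X → A}
    (hc : IsCoc c) (hc' : IsCoc c') (hR : c (S * T) = 0) (hR' : c' (S * T) = 0)
    (κS : X → A) (hκ : ∀ x, κS (S • x) + κS x = c S x * c' S x) :
    ∃ K : SL(2, ℤ) → X → A, IsCup c c' K ∧ K S = κS ∧ K (S * T) = 0 := by
  obtain ⟨C, hC, hCS, hCR⟩ := exists_monomial (H := Heis A) hneg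
    (fun x => ⟨c S x, c' S x, κS x⟩) (fun _ => 1)
    (fun x => by
      ext
      · show c S (S • x) + c S x = 0
        rw [hc.S_smul hR]
        ring
      · show c' S (S • x) + c' S x = 0
        rw [hc'.S_smul hR']
        ring
      · show κS (S • x) + κS x + c S (S • x) * c' S x = 0
        rw [hκ, hc.S_smul hR]
        ring)
    (fun x => by simp)
  have hCa : IsCoc (fun g x => (C g x).a) := by
    intro g h x
    show (C (g * h) x).a = (C g (h • x)).a + (C h x).a
    rw [hC]
    rfl
  have hCb : IsCoc (fun g x => (C g x).b) := by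
    intro g h x
    show (C (g * h) x).b = (C g (h • x)).b + (C h x).b
    rw [hC]
    rfl
  have ha : (fun g x => (C g x).a) = c := by
    apply hCa.ext' hc
    · funext x
      show (C S x).a = c S x
      rw [hCS]
    · funext x
      show (C (S * T) x).a = c (S * T) x
      rw [hCR, hR]
      rfl
  have hb : (fun g x => (C g x).b) = c' := by
    apply hCb.ext' hc'
    · funext x
      show (C S x).b = c' S x
      rw [hCS]
    · funext x
      show (C (S * T) x).b = c' (S * T) x
      rw [hCR, hR']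
      rfl
  refine ⟨fun g x => (C g x).k, ?_, ?_, ?_⟩
  · intro g h x
    show (C (g * h) x).k = (C g (h • x)).k + (C h x).k + c g (h • x) * c' h x
    rw [hC, Heis.mul_k]
    have e1 : (C g (h • x)).a = c g (h • x) := congrFun (congrFun ha g) (h • x)
    have e2 : (C h x).b = c' h x := congrFun (congrFun hb h) x
    rw [e1, e2]
  · funext x
    show (C S x).k = κS x
    rw [hCS]
  · funext x
    show (C (S * T) x).k = 0
    rw [hCR]
    rfl

namespace IsCoc

variable {c : SL(2, ℤ) → X → A}

/-- With a potential `Q` of `u = c S` along `T` (`Q z - Q (T⁻¹ • z) = u z`), the cocycle on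
powers of `T` telescopes. -/
lemma T_pow_pot (hc : IsCoc c) (hR : c (S * T) = 0) (Q : X → A)
    (hQ : ∀ z, Q z - Q (T⁻¹ • z) = c S z) (n : ℕ) (x : X) :
    c (T ^ n) x = Q x - Q (T ^ n • x) := by
  induction n with
  | zero => simp [hc.one]
  | succ n ih =>
    rw [pow_succ', hc, ih, hc.T_eq hR, mul_smul]
    have h := hQ (T • T ^ n • x)
    rw [inv_smul_smul] at h
    rw [← h]
    ring

end IsCoc

namespace IsCup

variable {c c' K : SL(2, ℤ) → X → A}

lemma one (hc : IsCoc c) (hK : IsCup c c' K) (x : X) : K 1 x = 0 := by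
  have h := hK 1 1 x
  rw [mul_one, one_smul, hc.one, zero_mul, add_zero] at h
  have h2 : K 1 x + 0 = K 1 x + K 1 x := by rw [add_zero]; exact h
  exact (add_left_cancel h2).symm

lemma inv_smul (hc : IsCoc c) (hK : IsCup c c' K) (g : SL(2, ℤ)) (x : X) :
    K g⁻¹ (g • x) = -K g x + c g x * c' g x := by
  have h := hK g⁻¹ g x
  rw [inv_mul_cancel, hK.one hc, hc.inv_smul] at h
  linear_combination -h

/-- The value of a cup cochain on `T`. -/
lemma T_eq (hc : IsCoc c) (hK : IsCup c c' K) (hR' : c' (S * T) = 0) (hKR : K (S * T) = 0)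
    (x : X) : K T x = -K S (T • x) + c S (T • x) * c' S (T • x) := by
  have h := hK S⁻¹ (S * T) x
  rw [S_inv_mul_R, hKR, hR'] at h
  simp only [Pi.zero_apply, add_zero, mul_zero] at h
  rw [h, mul_smul, hK.inv_smul hc]

/-- The value of a cup cochain on powers of `T`, in terms of a potential `Q` of `u' = c' S`
along `T`. -/
theorem T_pow_eq (hc : IsCoc c) (hc' : IsCoc c') (hK : IsCup c c' K)
    (hR : c (S * T) = 0) (hR' : c' (S * T) = 0) (hKR : K (S * T) = 0)
    (Q : X → A) (hQ : ∀ z, Q z - Q (T⁻¹ • z) = c' S z) (n : ℕ) (x : X) :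
    K (T ^ n) x = ∑ i ∈ Finset.range n,
      (c S (T ^ (i + 1) • x) * (Q (T ^ (i + 1) • x) - Q x) - K S (T ^ (i + 1) • x)) := by
  induction n with
  | zero => simp [hK.one hc]
  | succ n ih =>
    rw [Finset.sum_range_succ, ← ih, pow_succ' T n, hK, hK.T_eq hc hR' hKR, hc.T_eq hR,
      hc'.T_pow_pot hR' Q hQ, ← mul_smul, ← pow_succ']
    have h := hQ (T ^ (n + 1) • x)
    have h2 : T⁻¹ • T ^ (n + 1) • x = T ^ n • x := by
      rw [pow_succ', mul_smul, inv_smul_smul]
    rw [h2] at h
    rw [← h]
    ring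

/-- Conjugation invariance at a fixed point: `K (g⁻¹ * t * g) x₀ = K t (g • x₀)` when `t` fixes
`g • x₀` and both cocycles vanish on `t` there. -/
theorem conj_eq (hc : IsCoc c) (hc' : IsCoc c') (hK : IsCup c c' K) (g t : SL(2, ℤ)) (x₀ : X)
    (ht : t • g • x₀ = g • x₀) (h0 : c t (g • x₀) = 0) (h0' : c' t (g • x₀) = 0) :
    K (g⁻¹ * t * g) x₀ = K t (g • x₀) := by
  rw [mul_assoc, hK, hK, hc', mul_smul, ht, h0, h0', hK.inv_smul hc, hc.inv_smul]
  ring

end IsCup

end Cup

end Fermat.Agent.S41.Pairing.Cup
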