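import Fermat.Agent.S41.Pairing.Model

set_option autoImplicit false
set_option linter.unusedSectionVars false

/-!
# S41 / (P4): potentials over arbitrary coefficients, lifting mod `p`, integral radical

* `exists_pot`: a function all of whose `τ`-orbit sums vanish has a potential (any coefficients);
* `conn`: if `σ`, `τ` act transitively, every integer function of total sum `0` is
  `(a - a ∘ σ) + (b - b ∘ τ⁻¹)`;
* `pot_lift`: a `σ`-antisymmetric function mod `p` (`p` odd) with a potential lifts to a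
  `σ`-antisymmetric integer function with a potential;
* `radical_int`: the integral form of `Model.radical`: an integral `u` pairing into `p ℤ` with all
  integral antisymmetric functions having potentials is a coboundary mod `p`.
-/

namespace Fermat.Agent.S41.Pairing.Model

open Finset

variable {X : Type*} [Fintype X]

section Pot

variable {A : Type*} [AddCommGroup A]

/-- Telescoping: orbit sums of a function with a potential vanish. -/
theorem sum_range_eq_zero_of_pot {τ : Equiv.Perm X} {P u : X → A}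
    (h : ∀ x, P x - P (τ.symm x) = u x) (y : X) (m : ℕ) (hy : (τ ^ m) y = y) :
    ∑ i ∈ Finset.range m, u ((τ ^ i) y) = 0 := by
  have key : ∀ k : ℕ, ∑ i ∈ Finset.range k, u ((τ ^ i) y) = P ((τ ^ k) (τ.symm y)) - P (τ.symm y) := by
    intro k
    induction k with
    | zero => simp
    | succ k ih =>
      rw [Finset.sum_range_succ, ih, ← h ((τ ^ k) y)]
      have e1 : τ.symm ((τ ^ k) y) = (τ ^ k) (τ.symm y) := by
        have : (τ ^ k) (τ.symm y) = τ.symm ((τ ^ k) y) := by
          have hc : τ ^ k * τ⁻¹ = τ⁻¹ * τ ^ k := ((Commute.refl τ).pow_left k).inv_right.eq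
          have := congrArg (fun f : Equiv.Perm X => f y) hc
          simpa [Equiv.Perm.mul_apply] using this
        exact this.symm
      have e2 : (τ ^ (k + 1)) (τ.symm y) = (τ ^ k) y := by
        rw [pow_succ, Equiv.Perm.mul_apply, Equiv.apply_symm_apply]
      rw [e1, e2]; abel
  rw [key m]
  have e3 : (τ ^ m) (τ.symm y) = τ.symm y := by
    have hc : τ ^ m * τ⁻¹ = τ⁻¹ * τ ^ m := ((Commute.refl τ).pow_left m).inv_right.eq
    have := congrArg (fun f : Equiv.Perm X => f y) hc
    simp only [Equiv.Perm.mul_apply, Equiv.Perm.inv_def] at this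
    rw [this, hy]
  rw [e3, sub_self]

/-- **Existence of potentials**: if all orbit sums of `u` along `τ` vanish, `u` has a potential. -/
theorem exists_pot (τ : Equiv.Perm X) (u : X → A)
    (hu : ∀ (y : X) (m : ℕ), (τ ^ m) y = y → ∑ i ∈ Finset.range m, u ((τ ^ i) y) = 0) :
    ∃ P : X → A, ∀ x, P x - P (τ.symm x) = u x := by
  classical
  -- representatives of the cycles
  let r : X → X := fun x => (Quotient.mk (Equiv.Perm.SameCycle.setoid τ) x).out
  have hr : ∀ x, Equiv.Perm.SameCycle τ (r x) x := fun x =>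
    Quotient.exact (Quotient.out_eq (Quotient.mk (Equiv.Perm.SameCycle.setoid τ) x))
  have hrτ : ∀ x, r (τ.symm x) = r x := by
    intro x
    have : Quotient.mk (Equiv.Perm.SameCycle.setoid τ) (τ.symm x)
        = Quotient.mk (Equiv.Perm.SameCycle.setoid τ) x := by
      apply Quotient.sound
      show Equiv.Perm.SameCycle τ (τ.symm x) x
      exact ⟨1, by simp⟩
    show (Quotient.mk (Equiv.Perm.SameCycle.setoid τ) (τ.symm x)).out = _
    rw [this]
  have hex : ∀ x, ∃ j : ℕ, (τ ^ j) (r x) = x := fun x => (hr x).exists_nat_pow_eq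
  -- well-definedness of partial sums
  have hwd : ∀ (b : X) (j j' : ℕ), j ≤ j' → (τ ^ j) b = (τ ^ j') b →
      ∑ i ∈ Finset.range j, u ((τ ^ (i + 1)) b) = ∑ i ∈ Finset.range j', u ((τ ^ (i + 1)) b) := by
    intro b j j' hjj h
    obtain ⟨m, rfl⟩ := Nat.exists_eq_add_of_le hjj
    rw [Finset.sum_range_add]
    have hy : (τ ^ m) ((τ ^ (j + 1)) b) = (τ ^ (j + 1)) b := by
      rw [← Equiv.Perm.mul_apply, ← pow_add]
      have e : m + (j + 1) = (j + m) + 1 := by ring
      rw [e, pow_succ', Equiv.Perm.mul_apply, ← h, ← Equiv.Perm.mul_apply, ← pow_succ']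
    have h0 := hu ((τ ^ (j + 1)) b) m hy
    have e : ∑ x ∈ Finset.range m, u ((τ ^ (j + x + 1)) b)
        = ∑ i ∈ Finset.range m, u ((τ ^ i) ((τ ^ (j + 1)) b)) := by
      refine Finset.sum_congr rfl fun i _ => ?_
      rw [← Equiv.Perm.mul_apply, ← pow_add]
      congr 3
      ring
    rw [e, h0, add_zero]
  have hwd' : ∀ (b : X) (j j' : ℕ), (τ ^ j) b = (τ ^ j') b →
      ∑ i ∈ Finset.range j, u ((τ ^ (i + 1)) b) = ∑ i ∈ Finset.range j', u ((τ ^ (i + 1)) b) := by
    intro b j j' h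
    rcases le_total j j' with hle | hle
    · exact hwd b j j' hle h
    · exact (hwd b j' j hle h.symm).symm
  let jj : X → ℕ := fun x => (hex x).choose
  have hjj : ∀ x, (τ ^ jj x) (r x) = x := fun x => (hex x).choose_spec
  refine ⟨fun x => ∑ i ∈ Finset.range (jj x), u ((τ ^ (i + 1)) (r x)), fun x => ?_⟩
  show ∑ i ∈ Finset.range (jj x), u ((τ ^ (i + 1)) (r x))
    - ∑ i ∈ Finset.range (jj (τ.symm x)), u ((τ ^ (i + 1)) (r (τ.symm x))) = u x
  rw [hrτ x]
  set k := jj (τ.symm x) with hk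
  have hk' : (τ ^ k) (r x) = τ.symm x := by
    have := hjj (τ.symm x)
    rwa [hrτ x] at this
  have hk1 : (τ ^ (k + 1)) (r x) = x := by
    rw [pow_succ', Equiv.Perm.mul_apply, hk', Equiv.apply_symm_apply]
  have e := hwd' (r x) (jj x) (k + 1) (by rw [hjj x, hk1])
  rw [e, Finset.sum_range_succ, hk1]
  abel

end Pot

section Lift

/-- The subgroup of integer functions of the form `(a - a ∘ σ) + (b - b ∘ τ⁻¹)`. -/
def bdrySub (σ τ : Equiv.Perm X) : AddSubgroup (X → ℤ) where
  carrier := {w | ∃ a b : X → ℤ, ∀ x, w x = (a x - a (σ x)) + (b x - b (τ.symm x))}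
  zero_mem' := ⟨0, 0, fun x => by simp⟩
  add_mem' := by
    rintro w w' ⟨a, b, h⟩ ⟨a', b', h'⟩
    exact ⟨a + a', b + b', fun x => by simp only [Pi.add_apply, h x, h' x]; ring⟩
  neg_mem' := by
    rintro w ⟨a, b, h⟩
    exact ⟨-a, -b, fun x => by simp only [Pi.neg_apply, h x]; ring⟩

theorem mem_bdrySub {σ τ : Equiv.Perm X} {w : X → ℤ} :
    w ∈ bdrySub σ τ ↔ ∃ a b : X → ℤ, ∀ x, w x = (a x - a (σ x)) + (b x - b (τ.symm x)) :=
  Iff.rfl

/-- **Connectedness**: if no proper nonempty subset of `X` is stable under `σ` and `τ`, every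
integer function of total sum zero is of the form `(a - a ∘ σ) + (b - b ∘ τ⁻¹)`. -/
theorem conn {σ τ : Equiv.Perm X}
    (htrans : ∀ s : Set X, s.Nonempty → (∀ x ∈ s, σ x ∈ s) → (∀ x ∈ s, τ x ∈ s) → s = Set.univ)
    (w : X → ℤ) (hw : ∑ x, w x = 0) :
    ∃ a b : X → ℤ, ∀ x, w x = (a x - a (σ x)) + (b x - b (τ.symm x)) := by
  classical
  rcases isEmpty_or_nonempty X with hX | ⟨⟨x0⟩⟩
  · exact ⟨0, 0, fun x => (hX.false x).elim⟩
  let e : X → (X → ℤ) := fun y => fun x => if x = y then 1 else 0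
  have hσ : ∀ y, e (σ y) - e y ∈ bdrySub σ τ := by
    intro y
    refine ⟨e (σ y), 0, fun x => ?_⟩
    show (if x = σ y then (1 : ℤ) else 0) - (if x = y then 1 else 0)
      = ((if x = σ y then (1 : ℤ) else 0) - (if σ x = σ y then 1 else 0)) + (0 - 0)
    have : (σ x = σ y) ↔ (x = y) := σ.injective.eq_iff
    simp only [this]; ring
  have hτ : ∀ y, e (τ y) - e y ∈ bdrySub σ τ := by
    intro y
    refine ⟨0, -e y, fun x => ?_⟩
    show (if x = τ y then (1 : ℤ) else 0) - (if x = y then 1 else 0)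
      = (0 - 0) + (-(if x = y then (1 : ℤ) else 0) - -(if τ.symm x = y then 1 else 0))
    have : (τ.symm x = y) ↔ (x = τ y) := by
      constructor
      · intro h; rw [← h, Equiv.apply_symm_apply]
      · intro h; rw [h, Equiv.symm_apply_apply]
    simp only [this]; ring
  let s : Set X := {y | e y - e x0 ∈ bdrySub σ τ}
  have hs : s = Set.univ := by
    apply htrans
    · refine ⟨x0, ?_⟩
      show e x0 - e x0 ∈ bdrySub σ τ
      rw [sub_self]; exact zero_mem _
    · intro y hy
      show e (σ y) - e x0 ∈ bdrySub σ τ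
      have : e (σ y) - e x0 = (e (σ y) - e y) + (e y - e x0) := by abel
      rw [this]; exact add_mem (hσ y) hy
    · intro y hy
      show e (τ y) - e x0 ∈ bdrySub σ τ
      have : e (τ y) - e x0 = (e (τ y) - e y) + (e y - e x0) := by abel
      rw [this]; exact add_mem (hτ y) hy
  have hall : ∀ y, e y - e x0 ∈ bdrySub σ τ := fun y => by
    have : y ∈ s := by rw [hs]; trivial
    exact this
  have hwsum : w = ∑ y, w y • (e y - e x0) := by
    funext x
    rw [Finset.sum_apply]
    have h1 : ∀ y, (w y • (e y - e x0)) x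
        = (if x = y then w y else 0) - w y * (if x = x0 then 1 else 0) := by
      intro y
      show w y • ((if x = y then (1 : ℤ) else 0) - (if x = x0 then 1 else 0)) = _
      rw [smul_eq_mul, mul_sub]
      congr 1
      split_ifs <;> simp
    simp_rw [h1]
    rw [Finset.sum_sub_distrib, ← Finset.sum_mul, hw, zero_mul, sub_zero,
      Finset.sum_ite_eq Finset.univ x w]
    simp
  have hmem : w ∈ bdrySub σ τ := by
    rw [hwsum]
    exact AddSubgroup.sum_mem _ fun y _ => AddSubgroup.zsmul_mem _ (hall y) _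
  exact hmem

/-- **Lifting**: a `σ`-antisymmetric function mod `p` (`p` odd) with a potential lifts to a
`σ`-antisymmetric integer function with an integer potential. -/
theorem pot_lift {p : ℕ} [Fact p.Prime] (hp2 : p ≠ 2) {σ τ : Equiv.Perm X}
    (hσ : ∀ x, σ (σ x) = x)
    (htrans : ∀ s : Set X, s.Nonempty → (∀ x ∈ s, σ x ∈ s) → (∀ x ∈ s, τ x ∈ s) → s = Set.univ)
    {ub Pb : X → ZMod p} (hub : ∀ x, ub (σ x) = - ub x) (hPb : IsPot τ Pb ub) :
    ∃ u P : X → ℤ, (∀ x, u (σ x) = - u x) ∧ IsPot τ P u ∧ ∀ x, ((u x : ℤ) : ZMod p) = ub x := by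
  classical
  have hp : p.Prime := Fact.out
  have h2 : (2 : ZMod p) ≠ 0 := by
    intro h
    have h' : ((2 : ℕ) : ZMod p) = 0 := by exact_mod_cast h
    rw [ZMod.natCast_eq_zero_iff] at h'
    exact hp2 ((Nat.prime_dvd_prime_iff_eq hp Nat.prime_two).mp h')
  -- integer lifts
  have hlift : ∀ z : ZMod p, (((z.val : ℕ) : ℤ) : ZMod p) = z := by
    intro z
    rw [Int.cast_natCast, ZMod.natCast_zmod_val]
  set hh : ℤ := (((2 : ZMod p)⁻¹).val : ℤ) with hhdef
  have hhh : ((hh : ℤ) : ZMod p) = (2 : ZMod p)⁻¹ := hlift _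
  set u1 : X → ℤ := fun x => ((ub x).val : ℤ) with hu1
  have hu1c : ∀ x, ((u1 x : ℤ) : ZMod p) = ub x := fun x => hlift _
  set P0 : X → ℤ := fun x => ((Pb x).val : ℤ) with hP0
  have hP0c : ∀ x, ((P0 x : ℤ) : ZMod p) = Pb x := fun x => hlift _
  set u0 : X → ℤ := fun x => hh * (u1 x - u1 (σ x)) with hu0
  have hu0anti : ∀ x, u0 (σ x) = - u0 x := by
    intro x; simp only [hu0, hσ]; ring
  have hu0c : ∀ x, ((u0 x : ℤ) : ZMod p) = ub x := by
    intro x
    simp only [hu0]
    push_cast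
    rw [hhh, hu1c, hu1c, hub x]
    field_simp
    ring
  -- the defect is divisible by `p`
  set d : X → ℤ := fun x => u0 x - (P0 x - P0 (τ.symm x)) with hd
  have hdc : ∀ x, ((d x : ℤ) : ZMod p) = 0 := by
    intro x
    simp only [hd]
    push_cast
    rw [hu0c, hP0c, hP0c, hPb x, sub_self]
  have hdvd : ∀ x, (p : ℤ) ∣ d x := fun x => (ZMod.intCast_zmod_eq_zero_iff_dvd _ p).mp (hdc x)
  choose w hw using hdvd
  have hsum_u0 : ∑ x, u0 x = 0 := by
    simp only [hu0]
    rw [← Finset.mul_sum, Finset.sum_sub_distrib, Equiv.sum_comp σ u1, sub_self, mul_zero]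
  have hsum_P0 : ∑ x, (P0 x - P0 (τ.symm x)) = 0 := by
    rw [Finset.sum_sub_distrib, Equiv.sum_comp τ.symm P0, sub_self]
  have hsum_d : ∑ x, d x = 0 := by
    simp only [hd]
    rw [Finset.sum_sub_distrib, hsum_u0, hsum_P0, sub_self]
  have hsum_w : ∑ x, w x = 0 := by
    have h1 : (p : ℤ) * ∑ x, w x = 0 := by
      rw [Finset.mul_sum, ← hsum_d]
      exact Finset.sum_congr rfl fun x _ => (hw x).symm
    rcases mul_eq_zero.mp h1 with h0 | h0
    · exact absurd (Int.natCast_eq_zero.mp h0) hp.ne_zero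
    · exact h0
  obtain ⟨a, b, hab⟩ := conn htrans w hsum_w
  refine ⟨fun x => u0 x - p * (a x - a (σ x)), fun x => P0 x + p * b x, ?_, ?_, ?_⟩
  · intro x
    show u0 (σ x) - p * (a (σ x) - a (σ (σ x))) = - (u0 x - p * (a x - a (σ x)))
    rw [hu0anti, hσ]; ring
  · intro x
    show P0 x + p * b x - (P0 (τ.symm x) + p * b (τ.symm x)) = u0 x - p * (a x - a (σ x))
    have h1 := hw x
    have h2' := hab x
    simp only [hd] at h1
    linear_combination (-1 : ℤ) * h1 - (p : ℤ) * h2'
  · intro x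
    show (((u0 x - p * (a x - a (σ x)) : ℤ)) : ZMod p) = ub x
    push_cast
    rw [hu0c]
    simp

/-- **Integral radical**: if the integral `σ`-antisymmetric `u` with potential `P` pairs into
`p ℤ` with every integral `σ`-antisymmetric function having a potential, then `u` is a coboundary
modulo `p`. -/
theorem radical_int {p : ℕ} [Fact p.Prime] (hp2 : p ≠ 2) {σ τ : Equiv.Perm X}
    (hσ : ∀ x, σ (σ x) = x)
    (htrans : ∀ s : Set X, s.Nonempty → (∀ x ∈ s, σ x ∈ s) → (∀ x ∈ s, τ x ∈ s) → s = Set.univ)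
    {u P : X → ℤ} (hu : ∀ x, u (σ x) = - u x) (hP : IsPot τ P u)
    (hrad : ∀ u' P' : X → ℤ, (∀ x, u' (σ x) = - u' x) → IsPot τ P' u' → (p : ℤ) ∣ b2 τ P u') :
    ∃ g : X → ZMod p, (∀ x, g (τ (σ x)) = g x) ∧
      ∀ x, ((u x : ℤ) : ZMod p) = g (σ x) - g x := by
  have hp : p.Prime := Fact.out
  have h2 : (2 : ZMod p) ≠ 0 := by
    intro h
    have h' : ((2 : ℕ) : ZMod p) = 0 := by exact_mod_cast h
    rw [ZMod.natCast_eq_zero_iff] at h'
    exact hp2 ((Nat.prime_dvd_prime_iff_eq hp Nat.prime_two).mp h')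
  refine radical (F := ZMod p) (σ := σ) (τ := τ) (P := fun x => ((P x : ℤ) : ZMod p))
    (u := fun x => ((u x : ℤ) : ZMod p)) h2 hσ ?_ ?_ ?_
  · intro x
    show ((u (σ x) : ℤ) : ZMod p) = - ((u x : ℤ) : ZMod p)
    rw [hu x]; push_cast; ring
  · intro x
    show ((P x : ℤ) : ZMod p) - ((P (τ.symm x) : ℤ) : ZMod p) = ((u x : ℤ) : ZMod p)
    rw [← hP x]; push_cast; ring
  · intro ub Pb hub hPb
    obtain ⟨u', P', hu', hP', hc⟩ := pot_lift hp2 hσ htrans hub hPb
    have hdiv := hrad u' P' hu' hP'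
    have hz : ((b2 τ P u' : ℤ) : ZMod p) = 0 := (ZMod.intCast_zmod_eq_zero_iff_dvd _ p).mpr hdiv
    rw [← hz]
    unfold b2
    push_cast
    refine Finset.sum_congr rfl fun x _ => ?_
    rw [hc x]

end Lift

end Fermat.Agent.S41.Pairing.Model
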