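import Mathlib
import Fermat.Agent.S21.Parabolic
import Fermat.Agent.S41.Pairing.Wreath
import Fermat.Agent.S41.Pairing.Eval
import Fermat.Agent.S41.Pairing.Cusps
import Fermat.Agent.S41.Pairing.ModelLift
import Fermat.Agent.S41.Pairing.Lift

set_option autoImplicit false

/-!
# S41 (P4): the dictionary `Hom(Γ, A) ↔ model vectors`, and nondegeneracy modulo `p`

`Γ ≤ SL(2, ℤ)` with `-1 ∈ Γ`, `X = SL(2, ℤ) ⧸ Γ`, `σ = S •`, `τ = T •`.

* `exists_eq_homOf`: every homomorphism `Γ → A` killing `-1` and the elliptic elements of order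
  `3` is `Wreath.homOf u` for a `σ`-antisymmetric `u`; over `ℤ` every homomorphism is.
* `exists_pot_of_isParabolicHom`, `isParabolicHom_homOf_of_isPot`: `homOf u` is parabolic iff `u`
  has a `τ`-potential.
* `hasPairing_homOf`: the value of the Heisenberg pairing of `homOf u`, `homOf u'` along the cusp
  family is `-b2 τ P u' / 2`.
* `nondeg`: nondegeneracy modulo an odd prime of the pairing on parabolic homomorphisms `Γ → ℤ`.
-/

open scoped MatrixGroups
open ModularGroup ModularCurve.Period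

namespace Fermat.Agent.S41.Pairing.Dict

open Fermat.Agent.S21.GroupBound Fermat.Agent.S16.ShimuraLift Fermat.Agent.S41.Pairing.Wreath
  Fermat.Agent.S41.Pairing.Model

variable {Γ : Subgroup SL(2, ℤ)}

/-! ### Gauge normalisation -/

section Gauge

/-- Solving `w (U • y) - w y = a y` for the element `U = S * T` of order three. -/
theorem exists_prim_U {B : Type*} [AddCommGroup B] (hΓ : (-1 : SL(2, ℤ)) ∈ Γ)
    (a : (SL(2, ℤ) ⧸ Γ) → B)
    (hnorm : ∀ y, a ((S * T) • (S * T) • y) + a ((S * T) • y) + a y = 0)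
    (hfix : ∀ y, (S * T) • y = y → a y = 0) :
    ∃ w : (SL(2, ℤ) ⧸ Γ) → B, ∀ y, w ((S * T) • y) - w y = a y := by
  classical
  have : Countable (Matrix (Fin 2) (Fin 2) ℤ) := inferInstanceAs (Countable (Fin 2 → Fin 2 → ℤ))
  have : Countable SL(2, ℤ) := Subtype.countable
  have : Countable (SL(2, ℤ) ⧸ Γ) := Function.Surjective.countable QuotientGroup.mk_surjective
  obtain ⟨e, he⟩ := Countable.exists_injective_nat (SL(2, ℤ) ⧸ Γ)
  have hU3 : ∀ y : SL(2, ℤ) ⧸ Γ, (S * T) • (S * T) • (S * T) • y = y :=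
    U_smul_U_smul_U_smul hΓ
  generalize (S * T : SL(2, ℤ)) = U at hnorm hfix hU3 ⊢
  let w : (SL(2, ℤ) ⧸ Γ) → B := fun y =>
    if e y < e (U • y) ∧ e y < e (U • U • y) then 0
    else if e (U • U • y) < e y ∧ e (U • U • y) < e (U • y) then a (U • U • y)
    else if e (U • y) < e y ∧ e (U • y) < e (U • U • y) then a (U • y) + a (U • U • y)
    else 0
  refine ⟨w, fun y => ?_⟩
  have wy : w y = if e y < e (U • y) ∧ e y < e (U • U • y) then 0
      else if e (U • U • y) < e y ∧ e (U • U • y) < e (U • y) then a (U • U • y)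
      else if e (U • y) < e y ∧ e (U • y) < e (U • U • y) then a (U • y) + a (U • U • y)
      else 0 := rfl
  have wy1 : w (U • y) = if e (U • y) < e (U • U • y) ∧ e (U • y) < e y then 0
      else if e y < e (U • y) ∧ e y < e (U • U • y) then a y
      else if e (U • U • y) < e (U • y) ∧ e (U • U • y) < e y then a (U • U • y) + a y
      else 0 := by
    show (if e (U • y) < e (U • U • y) ∧ e (U • y) < e (U • U • U • y) then 0
      else if e (U • U • U • y) < e (U • y) ∧ e (U • U • U • y) < e (U • U • y)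
        then a (U • U • U • y)
      else if e (U • U • y) < e (U • y) ∧ e (U • U • y) < e (U • U • U • y)
        then a (U • U • y) + a (U • U • U • y)
      else 0) = _
    rw [hU3 y]
  have key : (e y < e (U • y) ∧ e y < e (U • U • y))
      ∨ (e (U • U • y) < e y ∧ e (U • U • y) < e (U • y))
      ∨ (e (U • y) < e y ∧ e (U • y) < e (U • U • y)) ∨ U • y = y := by
    by_contra hcon
    push Not at hcon
    obtain ⟨h1, h2, h3, h4⟩ := hcon
    have d1 : e y ≠ e (U • y) := fun h => h4 (he h).symm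
    have d2 : e (U • y) ≠ e (U • U • y) := fun h => h4 (smul_left_cancel U (he h)).symm
    have d3 : e y ≠ e (U • U • y) := fun h => h4 (by
      have h5 := congrArg (fun z => U • z) (he h)
      simp only [hU3] at h5
      exact h5)
    omega
  rcases key with hA | hB | hC | hD
  · have n1 : ¬(e (U • y) < e (U • U • y) ∧ e (U • y) < e y) := by omega
    rw [wy, wy1, if_neg n1, if_pos hA, if_pos hA, sub_zero]
  · have n1 : ¬(e (U • y) < e (U • U • y) ∧ e (U • y) < e y) := by omega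
    have n2 : ¬(e y < e (U • y) ∧ e y < e (U • U • y)) := by omega
    have p3 : e (U • U • y) < e (U • y) ∧ e (U • U • y) < e y := by omega
    rw [wy, wy1, if_neg n1, if_neg n2, if_pos p3, if_neg n2, if_pos hB]
    abel
  · have p1 : e (U • y) < e (U • U • y) ∧ e (U • y) < e y := by omega
    have n2 : ¬(e y < e (U • y) ∧ e y < e (U • U • y)) := by omega
    have n3 : ¬(e (U • U • y) < e y ∧ e (U • U • y) < e (U • y)) := by omega
    rw [wy, wy1, if_pos p1, if_neg n2, if_neg n3, if_pos hC]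
    have h := hnorm y
    have h' : a y = -(a (U • y) + a (U • U • y)) := by
      rw [eq_neg_iff_add_eq_zero, ← h]; abel
    rw [h']; abel
  · rw [wy1, wy]
    simp only [hD, lt_self_iff_false, false_and, if_false, sub_self]
    exact (hfix y hD).symm

variable {A : Type*} [CommRing A]

/-- **Dictionary, surjectivity.**  A homomorphism `Γ → A` killing `-1` and the elliptic elements
`delta (S * T) x` is `homOf u` for a suitable `u`. -/
theorem exists_eq_homOf (hΓ : (-1 : SL(2, ℤ)) ∈ Γ) (φ : Additive Γ →+ A)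
    (hneg : φ (Additive.ofMul (⟨-1, hΓ⟩ : Γ)) = 0)
    (hell : ∀ x : SL(2, ℤ) ⧸ Γ, (S * T) • x = x → φ (Additive.ofMul (delta Γ (S * T) x)) = 0) :
    ∃ (u : (SL(2, ℤ) ⧸ Γ) → A) (hu : ∀ x, u (S • x) = -u x), homOf hΓ u hu = φ := by
  have hc := isCoc_shap φ
  have hneg1 : ∀ y, shap φ (-1) y = 0 := by
    intro y
    have hfix : (-1 : SL(2, ℤ)) • y = y := neg_one_smul' Γ hΓ y
    have hd : delta Γ (-1) y = ⟨-1, hΓ⟩ := by
      apply Subtype.ext
      rw [coe_delta_of_fixed hfix]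
      simp
    show φ (Additive.ofMul (delta Γ (-1) y)) = 0
    rw [hd, hneg]
  have hnorm : ∀ y, shap φ (S * T) ((S * T) • (S * T) • y) + shap φ (S * T) ((S * T) • y)
      + shap φ (S * T) y = 0 := by
    intro y
    have h1 := hc (S * T) ((S * T) * (S * T)) y
    have h2 := hc (S * T) (S * T) y
    have h3 : (S * T * (S * T * (S * T)) : SL(2, ℤ)) = -1 := by decide
    rw [h3, hneg1, h2, mul_smul] at h1
    rw [h1]; abel
  obtain ⟨w, hw⟩ := exists_prim_U hΓ (shap φ (S * T)) hnorm (fun y hy => hell y hy)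
  let c' : SL(2, ℤ) → (SL(2, ℤ) ⧸ Γ) → A := fun g y => shap φ g y - (w (g • y) - w y)
  have hc' : IsCoc Γ c' := by
    intro g h y
    show shap φ (g * h) y - (w ((g * h) • y) - w y)
      = (shap φ g (h • y) - (w (g • h • y) - w (h • y))) + (shap φ h y - (w (h • y) - w y))
    rw [hc g h y, mul_smul]; abel
  have hU' : c' (S * T) = 0 := by
    funext y
    show shap φ (S * T) y - (w ((S * T) • y) - w y) = 0
    rw [hw y, sub_self]
  have hu : ∀ x, c' S (S • x) = -c' S x := by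
    intro x
    have h1 := hc' S S x
    have h2 : (S * S : SL(2, ℤ)) = -1 := by decide
    have h3 : c' (-1) x = 0 := by
      show shap φ (-1) x - (w ((-1 : SL(2, ℤ)) • x) - w x) = 0
      rw [hneg1, neg_one_smul' Γ hΓ x]; abel
    rw [h2, h3] at h1
    exact eq_neg_of_add_eq_zero_left h1.symm
  refine ⟨c' S, hu, ?_⟩
  refine AddMonoidHom.ext fun γ => ?_
  have h := eq_modCoc hΓ (c' S) hu hc' rfl hU' ((Additive.toMul γ : Γ) : SL(2, ℤ))
  show modCoc hΓ (c' S) hu ((Additive.toMul γ : Γ) : SL(2, ℤ)) (x0 Γ) = φ γ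
  rw [← h]
  show shap φ ((Additive.toMul γ : Γ) : SL(2, ℤ)) (x0 Γ)
    - (w (((Additive.toMul γ : Γ) : SL(2, ℤ)) • x0 Γ) - w (x0 Γ)) = φ γ
  rw [smul_x0_of_mem Γ (Additive.toMul γ).2, sub_self, sub_zero, shap_x0_of_mem]
  rfl

/-- Over a ring without `2`- and `3`-torsion every homomorphism `Γ → A` is a `homOf u`. -/
theorem exists_eq_homOf_of_torsionFree (hΓ : (-1 : SL(2, ℤ)) ∈ Γ)
    (h2 : ∀ a : A, a + a = 0 → a = 0) (h3 : ∀ a : A, a + a + a = 0 → a = 0)
    (φ : Additive Γ →+ A) :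
    ∃ (u : (SL(2, ℤ) ⧸ Γ) → A) (hu : ∀ x, u (S • x) = -u x), homOf hΓ u hu = φ := by
  have hneg : φ (Additive.ofMul (⟨-1, hΓ⟩ : Γ)) = 0 := by
    apply h2
    rw [← map_add, ← ofMul_mul]
    have : (⟨-1, hΓ⟩ : Γ) * ⟨-1, hΓ⟩ = 1 := by
      apply Subtype.ext
      show (-1 : SL(2, ℤ)) * -1 = 1
      simp
    rw [this, ofMul_one, map_zero]
  refine exists_eq_homOf hΓ φ hneg (fun x hx => ?_)
  apply h3
  rw [← map_add, ← map_add, ← ofMul_mul, ← ofMul_mul]
  have : delta Γ (S * T) x * delta Γ (S * T) x * delta Γ (S * T) x = ⟨-1, hΓ⟩ := by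
    apply Subtype.ext
    have h := coe_delta_pow_of_fixed hx 3
    rw [ST_cube] at h
    show ((delta Γ (S * T) x : Γ) : SL(2, ℤ)) * ((delta Γ (S * T) x : Γ) : SL(2, ℤ))
      * ((delta Γ (S * T) x : Γ) : SL(2, ℤ)) = -1
    rw [← pow_two, ← pow_succ, h]
    simp
  rw [this, hneg]

/-- Every homomorphism `Γ → ℤ` is a `homOf u`. -/
theorem exists_eq_homOf_int (hΓ : (-1 : SL(2, ℤ)) ∈ Γ) (φ : Additive Γ →+ ℤ) :
    ∃ (u : (SL(2, ℤ) ⧸ Γ) → ℤ) (hu : ∀ x, u (S • x) = -u x), homOf hΓ u hu = φ :=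
  exists_eq_homOf_of_torsionFree hΓ (fun a h => by omega) (fun a h => by omega) φ

end Gauge

/-! ### Parabolicity and potentials -/

section Par

variable {A : Type*} [CommRing A]
variable (hΓ : (-1 : SL(2, ℤ)) ∈ Γ) (u u' : (SL(2, ℤ) ⧸ Γ) → A)
  (hu : ∀ x, u (S • x) = -u x) (hu' : ∀ x, u' (S • x) = -u' x)

theorem toPerm_pow_apply (g : SL(2, ℤ)) (m : ℕ) (y : SL(2, ℤ) ⧸ Γ) :
    ((MulAction.toPerm g : Equiv.Perm (SL(2, ℤ) ⧸ Γ)) ^ m) y = g ^ m • y := by
  induction m generalizing y with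
  | zero => simp
  | succ m ih =>
    rw [pow_succ', Equiv.Perm.mul_apply, ih, pow_succ', mul_smul]
    rfl

/-- The model cocycle vanishes at `-1`. -/
theorem modCoc_neg_one (y : SL(2, ℤ) ⧸ Γ) : modCoc hΓ u hu (-1) y = 0 := by
  have hc := isCoc_modCoc hΓ u hu
  have h1 := hc (S * T) ((S * T) * (S * T)) y
  have h2 := hc (S * T) (S * T) y
  have h3 : (S * T * (S * T * (S * T)) : SL(2, ℤ)) = -1 := by decide
  rw [h3, h2, modCoc_U] at h1
  simpa using h1

/-- Value of the model cocycle on powers of `T` in terms of a potential. -/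
theorem modCoc_T_pow_of_isPot (P : (SL(2, ℤ) ⧸ Γ) → A)
    (hP : ∀ z, P z - P (T⁻¹ • z) = u z) (n : ℕ) (y : SL(2, ℤ) ⧸ Γ) :
    modCoc hΓ u hu (T ^ n) y = P y - P (T ^ n • y) := by
  induction n with
  | zero => simp [(isCoc_modCoc hΓ u hu).one]
  | succ n ih =>
    have e1 : (T ^ (n + 1) : SL(2, ℤ)) = T * T ^ n := pow_succ' T n
    have e2 : T • T ^ n • y = T ^ (n + 1) • y := by rw [e1, mul_smul]
    have e3 : T⁻¹ • T ^ (n + 1) • y = T ^ n • y := by rw [← e2, inv_smul_smul]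
    have h := hP (T ^ (n + 1) • y)
    rw [e3] at h
    rw [e1, isCoc_modCoc hΓ u hu, ih, modCoc_T, e2, ← e1, ← h]
    ring

/-- Value of the model cocycle on integral powers of `T` fixing the point. -/
theorem modCoc_T_zpow_of_isPot (P : (SL(2, ℤ) ⧸ Γ) → A)
    (hP : ∀ z, P z - P (T⁻¹ • z) = u z) (m : ℤ) (y : SL(2, ℤ) ⧸ Γ) (hy : T ^ m • y = y) :
    modCoc hΓ u hu (T ^ m) y = 0 := by
  rcases Int.eq_nat_or_neg m with ⟨n, rfl | rfl⟩
  · rw [zpow_natCast] at hy ⊢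
    rw [modCoc_T_pow_of_isPot hΓ u hu P hP, hy, sub_self]
  · rw [zpow_neg, zpow_natCast] at hy ⊢
    have hy' : T ^ n • y = y := by
      rw [inv_smul_eq_iff] at hy
      exact hy.symm
    rw [(isCoc_modCoc hΓ u hu).inv, hy, modCoc_T_pow_of_isPot hΓ u hu P hP, hy', sub_self,
      neg_zero]

/-- If `u` has a potential along `T` then `homOf u` is parabolic. -/
theorem isParabolicHom_homOf_of_isPot (P : (SL(2, ℤ) ⧸ Γ) → A)
    (hP : ∀ z, P z - P (T⁻¹ • z) = u z) : IsParabolicHom Γ (homOf hΓ u hu) := by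
  have hc := isCoc_modCoc hΓ u hu
  have key : ∀ (δ : SL(2, ℤ)) (m : ℤ), (δ * T ^ m * δ⁻¹) • x0 Γ = x0 Γ →
      modCoc hΓ u hu (δ * T ^ m * δ⁻¹) (x0 Γ) = 0 := by
    intro δ m hfix
    set y := δ⁻¹ • x0 Γ with hy
    have hfy : T ^ m • y = y := by
      have h1 : T ^ m • y = δ⁻¹ • ((δ * T ^ m * δ⁻¹) • x0 Γ) := by
        rw [hy, ← mul_smul, ← mul_smul]; congr 1; group
      rw [h1, hfix]
    have h1 : modCoc hΓ u hu (δ * T ^ m * δ⁻¹) (x0 Γ) = modCoc hΓ u hu (T ^ m) y := by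
      have e1 := hc (δ * T ^ m) δ⁻¹ (x0 Γ)
      have e2 := hc δ (T ^ m) y
      have e3 := hc δ δ⁻¹ (x0 Γ)
      rw [mul_inv_cancel, hc.one] at e3
      rw [← hy] at e1 e3
      rw [hfy] at e2
      rw [e1, e2]
      linear_combination -e3
    rw [h1]
    exact modCoc_T_zpow_of_isPot hΓ u hu P hP m y hfy
  intro γ htr
  rw [homOf_apply]
  obtain ⟨δ, hδ⟩ := Fermat.Agent.S21.exists_conj_upper (γ : SL(2, ℤ)) htr
  obtain ⟨m, hm⟩ := Fermat.Agent.S21.upper_eq_T_zpow _ hδ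
  rcases hm with hm | hm
  · have h1 : (γ : SL(2, ℤ)) = δ * T ^ m * δ⁻¹ := by rw [← hm]; group
    rw [h1]
    refine key δ m ?_
    rw [← h1]; exact smul_x0_of_mem _ γ.2
  · have h1 : (γ : SL(2, ℤ)) = -1 * (δ * T ^ m * δ⁻¹) := by
      have : δ * T ^ m * δ⁻¹ = -(γ : SL(2, ℤ)) := by
        have h2 : T ^ m = -(δ⁻¹ * (γ : SL(2, ℤ)) * δ) := by rw [hm, neg_neg]
        rw [h2]
        simp [mul_assoc]
      rw [this]; simp
    have hmem : δ * T ^ m * δ⁻¹ ∈ Γ := by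
      have : δ * T ^ m * δ⁻¹ = -1 * (γ : SL(2, ℤ)) := by rw [h1]; simp
      rw [this]
      exact mul_mem hΓ γ.2
    have hfix := smul_x0_of_mem _ hmem
    rw [h1, hc, hfix, modCoc_neg_one, key δ m hfix, add_zero]

variable [Fintype (SL(2, ℤ) ⧸ Γ)]

/-- If `homOf u` is parabolic then `u` has a potential along `τ = T •`. -/
theorem exists_pot_of_isParabolicHom (hpar : IsParabolicHom Γ (homOf hΓ u hu)) :
    ∃ P : (SL(2, ℤ) ⧸ Γ) → A, IsPot (MulAction.toPerm T) P u := by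
  obtain ⟨P, hP⟩ := exists_pot (MulAction.toPerm T) u (fun y m hy => by
    rw [toPerm_pow_apply] at hy
    have htr : (((delta Γ (T ^ m) y : Γ) : SL(2, ℤ)) : Matrix (Fin 2) (Fin 2) ℤ).trace ^ 2 = 4 := by
      rw [coe_delta_of_fixed hy, trace_conj, trace_T_pow]; norm_num
    have h := hpar (delta Γ (T ^ m) y) htr
    rw [homOf_cusp hΓ u hu hy _ (coe_delta_of_fixed hy), neg_eq_zero] at h
    have hshift : ∑ i ∈ Finset.range m, u (T ^ (i + 1) • y)
        = ∑ i ∈ Finset.range m, u (T ^ i • y) := by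
      have h1 := Finset.sum_range_succ (fun i => u (T ^ i • y)) m
      have h2 := Finset.sum_range_succ' (fun i => u (T ^ i • y)) m
      rw [h1] at h2
      simp only [pow_zero, one_smul] at h2
      rw [hy] at h2
      exact (add_right_cancel h2).symm
    rw [hshift] at h
    simpa only [toPerm_pow_apply] using h)
  exact ⟨P, hP⟩

end Par

/-! ### The pairing in the model -/

section Pair

variable {A : Type*} [CommRing A] [Fintype (SL(2, ℤ) ⧸ Γ)] [Γ.FiniteIndex]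
variable (hΓ : (-1 : SL(2, ℤ)) ∈ Γ) (u u' : (SL(2, ℤ) ⧸ Γ) → A)
  (hu : ∀ x, u (S • x) = -u x) (hu' : ∀ x, u' (S • x) = -u' x)

/-- **Formula (M2).**  If `u`, `u'` have potentials `P`, `P'` along `τ = T •`, the Heisenberg
pairing of `homOf u` and `homOf u'` along the cusp family has a value `a` with
`2 * a = - b2 τ P u'`. -/
theorem hasPairing_homOf_of_kS (kS : (SL(2, ℤ) ⧸ Γ) → A)
    (hk : ∀ x, kS (S • x) + kS x = u x * u' x) (P P' : (SL(2, ℤ) ⧸ Γ) → A)
    (hP : IsPot (MulAction.toPerm T) P u) (hP' : IsPot (MulAction.toPerm T) P' u') :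
    ∃ a : A, HasPairing (Cusps.cuspGen Γ) (homOf hΓ u hu) (homOf hΓ u' hu') a ∧
      2 * a = -b2 (MulAction.toPerm T) P u' := by
  have hC := isCocM_heisCoc hΓ u u' kS hu hu' hk
  have ha := isCoc_modCoc hΓ u hu
  have hb := isCoc_modCoc hΓ u' hu'
  have hkk : Eval.IsHeisCoc Γ (modCoc hΓ u hu) (modCoc hΓ u' hu')
      (fun g x => (heisCoc hΓ u u' kS hu hu' hk g x).k) := by
    intro g h x
    show (heisCoc hΓ u u' kS hu hu' hk (g * h) x).k
      = (heisCoc hΓ u u' kS hu hu' hk g (h • x)).k + (heisCoc hΓ u u' kS hu hu' hk h x).k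
        + modCoc hΓ u hu g (h • x) * modCoc hΓ u' hu' h x
    rw [hC g h x, Heis.mul_k, heisCoc_a, heisCoc_b]
  have hk0 : (fun g x => (heisCoc hΓ u u' kS hu hu' hk g x).k) (S * T) = 0 := by
    funext x
    show (heisCoc hΓ u u' kS hu hu' hk (S * T) x).k = 0
    rw [heisCoc_U]; rfl
  have h2S : 2 * ∑ z, (fun g x => (heisCoc hΓ u u' kS hu hu' hk g x).k) S z
      = ∑ z, modCoc hΓ u hu S z * modCoc hΓ u' hu' S z := by
    have e1 : ∀ z, (heisCoc hΓ u u' kS hu hu' hk S z).k = kS z := by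
      intro z; rw [heisCoc_S]; rfl
    have e2 : ∑ z, kS (S • z) = ∑ z, kS z := Equiv.sum_comp (MulAction.toPerm S) kS
    simp only [e1, modCoc_S]
    rw [two_mul]
    nth_rewrite 1 [← e2]
    rw [← Finset.sum_add_distrib]
    exact Finset.sum_congr rfl (fun z _ => hk z)
  have h := Eval.two_mul_sum_cusp_gauge ha hb hkk (modCoc_U hΓ u hu) (modCoc_U hΓ u' hu') hk0 h2S
    P P' (by rw [modCoc_S]; exact hP) (by rw [modCoc_S]; exact hP')
  rw [modCoc_S] at h
  exact ⟨_, ⟨fun γ : Γ => (heisCoc hΓ u u' kS hu hu' hk (γ : SL(2, ℤ)) (x0 Γ)).k,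
    Eval.isKappaRel ha hb hkk, rfl⟩, h⟩

end Pair

section Exists

variable {A : Type*} [CommRing A] [Γ.FiniteIndex]

/-- Existence of a value of the pairing for every pair of homomorphisms (no `2`-, `3`-torsion in
the coefficients). -/
theorem exists_hasPairing (hΓ : (-1 : SL(2, ℤ)) ∈ Γ)
    (h2 : ∀ a : A, a + a = 0 → a = 0) (h3 : ∀ a : A, a + a + a = 0 → a = 0)
    (φ ψ : Additive Γ →+ A) : ∃ a : A, HasPairing (Cusps.cuspGen Γ) φ ψ a := by
  obtain ⟨u, hu, rfl⟩ := exists_eq_homOf_of_torsionFree hΓ h2 h3 φ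
  obtain ⟨u', hu', rfl⟩ := exists_eq_homOf_of_torsionFree hΓ h2 h3 ψ
  obtain ⟨kS, hk⟩ := exists_kS hΓ h2 u u' hu hu'
  exact ⟨_, ⟨kap hΓ u u' kS hu hu' hk, kap_mul hΓ u u' kS hu hu' hk, rfl⟩⟩

/-- Existence of a value of the pairing for every pair of homomorphisms `Γ → ℤ`. -/
theorem exists_hasPairing_int (hΓ : (-1 : SL(2, ℤ)) ∈ Γ) (φ ψ : Additive Γ →+ ℤ) :
    ∃ a : ℤ, HasPairing (Cusps.cuspGen Γ) φ ψ a :=
  exists_hasPairing hΓ (fun a h => by omega) (fun a h => by omega) φ ψ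

end Exists

/-! ### Nondegeneracy modulo an odd prime -/

section Nondeg

theorem closure_toPerm_transitive (x y : SL(2, ℤ) ⧸ Γ) :
    ∃ g ∈ Subgroup.closure ({MulAction.toPerm S, MulAction.toPerm T} :
      Set (Equiv.Perm (SL(2, ℤ) ⧸ Γ))), g x = y := by
  obtain ⟨h, hh⟩ := MulAction.exists_smul_eq SL(2, ℤ) x y
  refine ⟨MulAction.toPermHom SL(2, ℤ) (SL(2, ℤ) ⧸ Γ) h, ?_, hh⟩
  have hmem : h ∈ Subgroup.closure ({S, T} : Set SL(2, ℤ)) := by
    rw [SpecialLinearGroup.SL2Z_generators]; trivial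
  have h1 := Subgroup.mem_map_of_mem (MulAction.toPermHom SL(2, ℤ) (SL(2, ℤ) ⧸ Γ)) hmem
  rw [MonoidHom.map_closure, Set.image_pair] at h1
  exact h1

variable [Γ.FiniteIndex]

/-- **Nondegeneracy modulo `p`.**  A parabolic homomorphism `φ : Γ → ℤ` whose pairing with every
parabolic homomorphism is divisible by the odd prime `p` is `p` times a parabolic
homomorphism. -/
theorem nondeg {p : ℕ} [Fact p.Prime] (hp2 : p ≠ 2) (hΓ : (-1 : SL(2, ℤ)) ∈ Γ)
    (φ : Additive Γ →+ ℤ) (hφ : IsParabolicHom Γ φ)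
    (h : ∀ ψ : Additive Γ →+ ℤ, IsParabolicHom Γ ψ →
      ∀ a : ℤ, HasPairing (Cusps.cuspGen Γ) φ ψ a → (p : ℤ) ∣ a) :
    ∃ φ₁ : Additive Γ →+ ℤ, IsParabolicHom Γ φ₁ ∧ φ = (p : ℤ) • φ₁ := by
  have : Fintype (SL(2, ℤ) ⧸ Γ) := Fintype.ofFinite _
  have hp : p.Prime := Fact.out
  obtain ⟨u, hu, rfl⟩ := exists_eq_homOf_int hΓ φ
  obtain ⟨P, hP⟩ := exists_pot_of_isParabolicHom hΓ u hu hφ
  have hσ : ∀ x : SL(2, ℤ) ⧸ Γ, (MulAction.toPerm S) ((MulAction.toPerm S) x) = x :=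
    fun x => S_smul_S_smul hΓ x
  have hrad : ∀ u' P' : (SL(2, ℤ) ⧸ Γ) → ℤ, (∀ x, u' ((MulAction.toPerm S) x) = -u' x) →
      IsPot (MulAction.toPerm T) P' u' → (p : ℤ) ∣ b2 (MulAction.toPerm T) P u' := by
    intro u' P' hu' hP'
    obtain ⟨kS, hk⟩ := exists_kS hΓ (fun a ha => by omega) u u' hu hu'
    obtain ⟨a, ha, h2a⟩ := hasPairing_homOf_of_kS hΓ u u' hu hu' kS hk P P' hP hP'
    have hpar' : IsParabolicHom Γ (homOf hΓ u' hu') :=
      isParabolicHom_homOf_of_isPot hΓ u' hu' P' (fun z => by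
        have h1 := hP' z
        rwa [MulAction.toPerm_symm_apply] at h1)
    have hpa := h _ hpar' a ha
    have e : b2 (MulAction.toPerm T) P u' = -(2 * a) := by rw [h2a]; ring
    rw [e]
    exact (dvd_mul_of_dvd_right hpa 2).neg_right
  obtain ⟨g, u₁, hg, hu₁, hdec⟩ := ModelLift.exists_coboundary_add_mul hp2 hσ
    closure_toPerm_transitive (u := u) (P := P) hu hP hrad
  have hg : ∀ x, g (T • S • x) = g x := hg
  have hu₁ : ∀ x, u₁ (S • x) = -u₁ x := hu₁
  have hdec : ∀ x, u x = g (S • x) - g x + (p : ℤ) * u₁ x := hdec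
  -- the coboundary in the `S * T`-invariant form
  let g' : (SL(2, ℤ) ⧸ Γ) → ℤ := fun x => -g (S • x)
  have hg' : ∀ x, g' ((S * T) • x) = g' x := by
    intro x
    show -g (S • (S * T) • x) = -g (S • x)
    rw [mul_smul, S_smul_S_smul hΓ]
    have h1 := hg (S • x)
    rw [S_smul_S_smul hΓ] at h1
    rw [h1]
  let u₀ : (SL(2, ℤ) ⧸ Γ) → ℤ := fun x => g' (S • x) - g' x
  have hu₀ : ∀ x, u₀ (S • x) = -u₀ x := by
    intro x
    show g' (S • S • x) - g' (S • x) = -(g' (S • x) - g' x)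
    rw [S_smul_S_smul hΓ]; ring
  have hpu₁ : ∀ x, ((p : ℤ) • u₁) (S • x) = -((p : ℤ) • u₁) x := by
    intro x
    show (p : ℤ) • u₁ (S • x) = -((p : ℤ) • u₁ x)
    rw [hu₁ x, smul_neg]
  have hu_eq : u = u₀ + (p : ℤ) • u₁ := by
    funext x
    show u x = (g' (S • x) - g' x) + (p : ℤ) • u₁ x
    rw [hdec x, smul_eq_mul]
    show g (S • x) - g x + (p : ℤ) * u₁ x = (-g (S • S • x) - -g (S • x)) + (p : ℤ) * u₁ x
    rw [S_smul_S_smul hΓ]; ring
  subst hu_eq
  have e : homOf hΓ (u₀ + (p : ℤ) • u₁) hu = (p : ℤ) • homOf hΓ u₁ hu₁ := by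
    rw [homOf_add hΓ u₀ ((p : ℤ) • u₁) hu₀ hpu₁ hu, homOf_smul hΓ u₁ hu₁ (p : ℤ) hpu₁,
      homOf_eq_zero_of_coboundary hΓ u₀ hu₀ g' hg' (fun x => rfl), zero_add]
  refine ⟨homOf hΓ u₁ hu₁, ?_, e⟩
  intro γ htr
  have h1 := hφ γ htr
  rw [e, AddMonoidHom.smul_apply, smul_eq_mul] at h1
  rcases mul_eq_zero.mp h1 with h2 | h2
  · exact absurd (Int.natCast_eq_zero.mp h2) hp.ne_zero
  · exact h2

end Nondeg

end Fermat.Agent.S41.Pairing.Dict
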