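import Fermat.Agent.S41.Pairing.AdjIncl
import Fermat.Agent.S41.Pairing.IndCusps
import Fermat.Agent.S41.Frame

set_option autoImplicit false

/-!
# (P-tr) The transfer of a parabolic character is parabolic

For an injective homomorphism `j : Γ₁ →* Γ₂` of finite index between subgroups of `SL(2, ℤ)`
which preserves the trace, the corestriction `Cores.cores j hj ψ` of an `IsParabolicHom` is an
`IsParabolicHom`.  Instances: `Frame.tr₁ M l` (along `inclLevel`) and `Frame.tr₂ M l`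
(along `conjDelta`), so both transfers map `Lat (M * l)` into `Lat M`.
-/

open scoped MatrixGroups
open CongruenceSubgroup ModularCurve.Period Additive MulAction
open Fermat.Agent.S41.Ihara Fermat.Agent.S41.Cores

namespace Fermat.Agent.S41.Pairing.ParTr

open Fermat.Agent.S41.Pairing

section General

variable {Γ₁ Γ₂ : Subgroup SL(2, ℤ)} (j : Γ₁ →* Γ₂) (hj : Function.Injective j)
  [j.range.FiniteIndex]

/-- The corestriction along a trace-preserving injective homomorphism of finite index maps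
parabolic characters to parabolic characters. -/
theorem isParabolicHom_cores
    (htr : ∀ h : Γ₁, (((j h : Γ₂) : SL(2, ℤ)) : Matrix (Fin 2) (Fin 2) ℤ).trace
      = ((h : SL(2, ℤ)) : Matrix (Fin 2) (Fin 2) ℤ).trace)
    {A : Type*} [CommRing A] {ψ : Additive Γ₁ →+ A} (hψ : IsParabolicHom Γ₁ ψ) :
    IsParabolicHom Γ₂ (cores j hj ψ) := by
  classical
  intro γ hγ
  let _ : Fintype (Γ₂ ⧸ j.range) := Fintype.ofFinite _
  let _ : Fintype (OrbIdx γ (Γ₂ ⧸ j.range)) := Fintype.ofFinite _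
  rw [IndCusps.cores_eq_trf j hj ψ, trf_eq_sum_reps _ ψ γ (isOrbitReps_out γ)]
  refine Finset.sum_eq_zero (fun q _ => hψ _ ?_)
  rw [← htr, map_cosetCocycle, pow_minimalPeriod_smul, Subgroup.coe_mul, Subgroup.coe_mul,
    Subgroup.coe_inv, Subgroup.coe_pow, trace_conj_inv]
  exact trace_sq_pow hγ _

end General

section Frame

open Fermat.Agent.S41.Frame

variable {A : Type*} [CommRing A]

theorem isParabolicHom_tr₁ (M l : ℕ) [NeZero M] [NeZero l] {ψ : Additive (Gamma0 (M * l)) →+ A}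
    (hψ : IsParabolicHom (Gamma0 (M * l)) ψ) : IsParabolicHom (Gamma0 M) (tr₁ M l ψ) :=
  isParabolicHom_cores (inclLevel M l) (inclLevel_injective M l) (fun _ => rfl) hψ

theorem isParabolicHom_tr₂ (M l : ℕ) [NeZero M] [NeZero l] {ψ : Additive (Gamma0 (M * l)) →+ A}
    (hψ : IsParabolicHom (Gamma0 (M * l)) ψ) : IsParabolicHom (Gamma0 M) (tr₂ M l ψ) :=
  isParabolicHom_cores (conjDelta M l) (conjDelta_injective M l) (fun γ => by
    rw [conjDelta_apply_coe, Matrix.trace_fin_two, Matrix.trace_fin_two]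
    simp) hψ

theorem tr₁_mem_Lat (M l : ℕ) [NeZero M] [NeZero l] {ψ : Additive (Gamma0 (M * l)) →+ ℤ}
    (hψ : ψ ∈ Lat (M * l)) : tr₁ M l ψ ∈ Lat M :=
  isParabolicHom_tr₁ M l hψ

theorem tr₂_mem_Lat (M l : ℕ) [NeZero M] [NeZero l] {ψ : Additive (Gamma0 (M * l)) →+ ℤ}
    (hψ : ψ ∈ Lat (M * l)) : tr₂ M l ψ ∈ Lat M :=
  isParabolicHom_tr₂ M l hψ

theorem res₁_mem_Lat (M l : ℕ) {φ : Additive (Gamma0 M) →+ ℤ}
    (hφ : φ ∈ Lat M) : res₁ M l φ ∈ Lat (M * l) :=
  isParabolicHom_res₁ M l hφ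

theorem res₂_mem_Lat (M l : ℕ) [NeZero l] {φ : Additive (Gamma0 M) →+ ℤ}
    (hφ : φ ∈ Lat M) : res₂ M l φ ∈ Lat (M * l) :=
  isParabolicHom_res₂ M l hφ

end Frame

end Fermat.Agent.S41.Pairing.ParTr
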