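import Mathlib
import Fermat.Agent.S41.FrameLat
import Fermat.Agent.S41.HeckeBridge
import Fermat.Agent.S41.Pairing.Gamma0
import Fermat.Agent.S41.Pairing.ParTr
import Fermat.Agent.S41.Pairing.Main

/-!
# S41 / (P4): the pairing package in the literal shapes of the final wiring

`B := Main.pairAdd N`, `B' := Main.pairAdd (N * q)` on `Lam = Frame.Lat`, with the maps
`FrameLat.α₁ α₂ β₁ β₂`:

* `hadj₁`, `hadj₂` : `B' (α_i x) y = B x (β_i y)`;
* `hsa_tLam` : `B (tLam x) z = B x (tLam z)` (self-adjointness of `T_ℓ`, `ℓ ∤ N`);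
* `hsa_rho` : the same for `ρ (T_ℓ)` of any `Compat` Hecke action `ρ`;
* `hnd` : nondegeneracy modulo an odd prime.
-/

set_option autoImplicit false

open scoped MatrixGroups
open CongruenceSubgroup ModularCurve.Period
open Fermat.Agent.S30.BettiHecke
open Fermat.Agent.S41.Frame Fermat.Agent.S41.FrameLat

namespace Fermat.Agent.S41.Pairing.Export

open Fermat.Agent.S41.Pairing.Lat Fermat.Agent.S41.Pairing.Main

section Frame

variable (N l : ℕ) [NeZero N] [NeZero l]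

/-- **(X1)** `res₁` and `tr₁` are adjoint for the cusp pairings. -/
theorem pair_res₁ (x : Lat N) (y : Lat (N * l)) (hr : res₁ N l x.1 ∈ Lat (N * l))
    (ht : tr₁ N l y.1 ∈ Lat N) :
    haveI : NeZero (N * l) := ⟨Nat.mul_ne_zero (NeZero.ne N) (NeZero.ne l)⟩
    pair (N * l) ⟨res₁ N l x.1, hr⟩ y = pair N x ⟨tr₁ N l y.1, ht⟩ := by
  haveI : NeZero (N * l) := ⟨Nat.mul_ne_zero (NeZero.ne N) (NeZero.ne l)⟩
  exact pair_eq_of_hasPairing_imp (fun φ => res₁ N l φ) (fun ψ => tr₁ N l ψ)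
    (fun φ ψ hφ hψ a h => Gamma0.hasPairing_res₁ N l hφ hψ h) x y hr ht

/-- **(X2)** `res₂` and `tr₂` are adjoint for the cusp pairings. -/
theorem pair_res₂ (x : Lat N) (y : Lat (N * l)) (hr : res₂ N l x.1 ∈ Lat (N * l))
    (ht : tr₂ N l y.1 ∈ Lat N) :
    haveI : NeZero (N * l) := ⟨Nat.mul_ne_zero (NeZero.ne N) (NeZero.ne l)⟩
    pair (N * l) ⟨res₂ N l x.1, hr⟩ y = pair N x ⟨tr₂ N l y.1, ht⟩ := by
  haveI : NeZero (N * l) := ⟨Nat.mul_ne_zero (NeZero.ne N) (NeZero.ne l)⟩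
  exact pair_eq_of_hasPairing_imp (fun φ => res₂ N l φ) (fun ψ => tr₂ N l ψ)
    (fun φ ψ hφ hψ a h => Gamma0.hasPairing_res₂ N l hφ hψ h) x y hr ht

/-- **(X3), general form**: `tr₁ ∘ res₂` is adjoint to `tr₂ ∘ res₁`. -/
theorem pair_heckeT_heckeU (x z : Lat N) (h₁ : heckeT N l x.1 ∈ Lat N)
    (h₂ : heckeU N l z.1 ∈ Lat N) :
    pair N ⟨heckeT N l x.1, h₁⟩ z = pair N x ⟨heckeU N l z.1, h₂⟩ := by
  haveI : NeZero (N * l) := ⟨Nat.mul_ne_zero (NeZero.ne N) (NeZero.ne l)⟩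
  exact pair_hecke_of_adj (N := N) (N' := N * l)
    (fun φ => res₁ N l φ) (fun φ => res₂ N l φ) (fun ψ => tr₁ N l ψ) (fun ψ => tr₂ N l ψ)
    (fun φ hφ => ParTr.res₁_mem_Lat N l hφ) (fun φ hφ => ParTr.res₂_mem_Lat N l hφ)
    (fun ψ hψ => ParTr.tr₁_mem_Lat N l hψ) (fun ψ hψ => ParTr.tr₂_mem_Lat N l hψ)
    (fun x y => pair_res₁ N l x y _ _) (fun x y => pair_res₂ N l x y _ _) x z

end Frame

section Wire

variable {N q : ℕ} [NeZero N] [hq : Fact q.Prime] (hqN : ¬ q ∣ N)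

/-- `hadj₁` of the final wiring. -/
theorem hadj₁ (x : Lam N) (y : Lam (N * q)) :
    haveI : NeZero q := ⟨hq.out.ne_zero⟩
    haveI : NeZero (N * q) := ⟨Nat.mul_ne_zero (NeZero.ne N) hq.out.ne_zero⟩
    pairAdd (N * q) (α₁ N q x) y = pairAdd N x (β₁ hqN y) := by
  haveI : NeZero q := ⟨hq.out.ne_zero⟩
  exact pair_res₁ N q x y _ _

/-- `hadj₂` of the final wiring. -/
theorem hadj₂ (x : Lam N) (y : Lam (N * q)) :
    haveI : NeZero q := ⟨hq.out.ne_zero⟩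
    haveI : NeZero (N * q) := ⟨Nat.mul_ne_zero (NeZero.ne N) hq.out.ne_zero⟩
    pairAdd (N * q) (α₂ N q x) y = pairAdd N x (β₂ hqN y) := by
  haveI : NeZero q := ⟨hq.out.ne_zero⟩
  exact pair_res₂ N q x y _ _

end Wire

section SelfAdjoint

variable {N : ℕ} [NeZero N]

/-- `hsa` of the final wiring: `T_ℓ` (`ℓ ∤ N`) is self-adjoint for the cusp pairing. -/
theorem hsa_tLam {ℓ : ℕ} [NeZero ℓ] (hℓ : ℓ.Prime) (hℓN : ¬ ℓ ∣ N) (x z : Lam N) :
    pairAdd N (tLam hℓ hℓN x) z = pairAdd N x (tLam hℓ hℓN z) := by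
  have e1 : tLam hℓ hℓN x = ⟨heckeT N ℓ x.1, by
      rw [← HeckeBridge.tHom_eq_heckeT hℓ hℓN]; exact (tLam hℓ hℓN x).2⟩ :=
    Subtype.ext ((tLam_coe hℓ hℓN x).trans (HeckeBridge.tHom_eq_heckeT hℓ hℓN _))
  have e2 : tLam hℓ hℓN z = ⟨heckeU N ℓ z.1, by
      rw [← HeckeBridge.tHom_eq_heckeU hℓ hℓN]; exact (tLam hℓ hℓN z).2⟩ :=
    Subtype.ext ((tLam_coe hℓ hℓN z).trans (HeckeBridge.tHom_eq_heckeU hℓ hℓN _))
  rw [e1, e2]
  exact pair_heckeT_heckeU N ℓ x z _ _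

/-- Nondegeneracy modulo an odd prime, in the shape of the final wiring. -/
theorem hnd {p : ℕ} (hp : p.Prime) (hp2 : p ≠ 2) (x : Lam N)
    (h : ∀ z, (p : ℤ) ∣ pairAdd N x z) : ∃ x' : Lam N, x = (p : ℤ) • x' := by
  haveI : Fact p.Prime := ⟨hp⟩
  exact pair_nondeg N hp2 x h

end SelfAdjoint

end Fermat.Agent.S41.Pairing.Export
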