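import Fermat.Agent.S41.Pairing.Gamma0
import Fermat.Agent.S41.FrameLat
import Fermat.Agent.S41.HeckeBridge

/-!
# S41 / (P4): the pairing inputs of `Wire.result_of_frame`, in their literal shapes

With `B := Main.pairAdd N`, `B' := Main.pairAdd (N * q)`, `α_i`, `β_i` the lattice maps of
`FrameLat` and `tLam` the Hecke operator of `S30.BettiHecke`:

* `hadj₁ : B' (α₁ N q x) y = B x (β₁ hqN y)`, `hadj₂ : B' (α₂ N q x) y = B x (β₂ hqN y)`;
* `hsa : B (tLam hℓ hℓN x) z = B x (tLam hℓ hℓN z)`;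
* `hnd : (∀ z, (p : ℤ) ∣ B x z) → ∃ x', x = (p : ℤ) • x'` (`p` an odd prime).
-/

set_option autoImplicit false

open scoped MatrixGroups
open CongruenceSubgroup ModularCurve ModularCurve.Period
open Fermat.Agent.S30.BettiHecke (Lam tHom tLam)

namespace Fermat.Agent.S41.Pairing.Exports

open Fermat.Agent.S41.FrameLat

/-- `res₁` and `tr₁` are adjoint (literal shape of `hadj₁` in `Wire.result_of_frame`). -/
theorem hadj₁ {N q : ℕ} [NeZero N] [Fact q.Prime] (hqN : ¬ q ∣ N) (x : Lam N) (y : Lam (N * q)) :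
    Main.pairAdd (N * q) (α₁ N q x) y = Main.pairAdd N x (β₁ hqN y) :=
  Gamma0.pair_res₁ N q x y

/-- `res₂` and `tr₂` are adjoint (literal shape of `hadj₂` in `Wire.result_of_frame`). -/
theorem hadj₂ {N q : ℕ} [NeZero N] [Fact q.Prime] (hqN : ¬ q ∣ N) (x : Lam N) (y : Lam (N * q)) :
    Main.pairAdd (N * q) (α₂ N q x) y = Main.pairAdd N x (β₂ hqN y) :=
  Gamma0.pair_res₂ N q x y

/-- `T_ℓ` is self-adjoint (literal shape of `hsa` in `Wire.result_of_frame`). -/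
theorem hsa {N ℓ : ℕ} [NeZero N] [NeZero ℓ] (hℓ : ℓ.Prime) (hℓN : ¬ ℓ ∣ N) (x z : Lam N) :
    Main.pairAdd N (tLam hℓ hℓN x) z = Main.pairAdd N x (tLam hℓ hℓN z) := by
  have hcop : Nat.Coprime N ℓ := ((Nat.Prime.coprime_iff_not_dvd hℓ).mpr hℓN).symm
  have e : ∀ w : Lam N, tLam hℓ hℓN w =
      ⟨Frame.heckeT N ℓ w.1, Gamma0.isParabolicHom_heckeT N ℓ w.2⟩ := fun w =>
    Subtype.ext (HeckeBridge.tHom_eq_heckeT hℓ hℓN w.1)
  rw [e x, e z]
  exact Gamma0.pair_heckeT N ℓ hcop x z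

/-- Nondegeneracy modulo an odd prime (literal shape of `hnd`, `hnd'`). -/
theorem hnd (M : ℕ) [NeZero M] {p : ℕ} (hp : p.Prime) (hp2 : p ≠ 2) (x : Lam M)
    (h : ∀ z : Lam M, (p : ℤ) ∣ Main.pairAdd M x z) : ∃ x' : Lam M, x = (p : ℤ) • x' :=
  haveI : Fact p.Prime := ⟨hp⟩
  Lat.pair_nondeg M hp2 x h

end Fermat.Agent.S41.Pairing.Exports
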