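import Mathlib

set_option autoImplicit false

/-!
# Heisenberg cochains ("kappas")

For two additive characters `φ ψ : Additive G →+ A` of a group `G` with values in a commutative
ring `A`, a *kappa* is a function `k : G → A` with
`k (g * h) = k g + k h + φ g * ψ h`.
Equivalently `g ↦ (φ g, ψ g, k g)` is a homomorphism into the Heisenberg group over `A`.
This file contains the calculus of such cochains; it depends on Mathlib only.
-/

namespace Fermat.Agent.S41.Pairing

open Additive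

variable {G : Type*} [Group G] {A : Type*} [CommRing A]

/-- A Heisenberg cochain for the pair of additive characters `(φ, ψ)`. -/
def IsKappa (φ ψ : Additive G →+ A) (k : G → A) : Prop :=
  ∀ g h : G, k (g * h) = k g + k h + φ (ofMul g) * ψ (ofMul h)

namespace IsKappa

variable {φ ψ φ₁ φ₂ ψ₁ ψ₂ : Additive G →+ A} {k k₁ k₂ : G → A}

theorem map_mul (hk : IsKappa φ ψ k) (g h : G) :
    k (g * h) = k g + k h + φ (ofMul g) * ψ (ofMul h) := hk g h

theorem map_one (hk : IsKappa φ ψ k) : k 1 = 0 := by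
  have h := hk 1 1
  simp only [mul_one, ofMul_one, map_zero, mul_zero, add_zero] at h
  simpa using h

theorem map_inv (hk : IsKappa φ ψ k) (g : G) :
    k g⁻¹ = -k g + φ (ofMul g) * ψ (ofMul g) := by
  have h := hk g g⁻¹
  rw [mul_inv_cancel, hk.map_one, ofMul_inv, map_neg] at h
  linear_combination -h

theorem map_mul_inv (hk : IsKappa φ ψ k) (g h : G) :
    k (g * h⁻¹) = k g - k h + φ (ofMul h) * ψ (ofMul h) - φ (ofMul g) * ψ (ofMul h) := by
  rw [hk g h⁻¹, hk.map_inv, ofMul_inv, map_neg]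
  ring

/-- Value of a kappa on a conjugate. -/
theorem map_conj (hk : IsKappa φ ψ k) (g c : G) :
    k (g * c * g⁻¹) = k c + φ (ofMul g) * ψ (ofMul c) - φ (ofMul c) * ψ (ofMul g) := by
  rw [hk (g * c) g⁻¹, hk g c, hk.map_inv, ofMul_inv, map_neg, ofMul_mul, map_add]
  ring

/-- A kappa is conjugation invariant on the common kernel of `φ` and `ψ`. -/
theorem map_conj_of_zero (hk : IsKappa φ ψ k) (g : G) {c : G} (hφ : φ (ofMul c) = 0)
    (hψ : ψ (ofMul c) = 0) : k (g * c * g⁻¹) = k c := by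
  rw [hk.map_conj, hφ, hψ]; ring

theorem map_conj_inv_of_zero (hk : IsKappa φ ψ k) (g : G) {c : G} (hφ : φ (ofMul c) = 0)
    (hψ : ψ (ofMul c) = 0) : k (g⁻¹ * c * g) = k c := by
  simpa using hk.map_conj_of_zero g⁻¹ hφ hψ

/-- Value of a kappa on a power. -/
theorem map_pow (hk : IsKappa φ ψ k) (c : G) (n : ℕ) :
    k (c ^ n) = n * k c + (n.choose 2 : A) * (φ (ofMul c) * ψ (ofMul c)) := by
  induction n with
  | zero => simp [hk.map_one]
  | succ n ih =>
    rw [pow_succ, hk, ih, ofMul_pow, map_nsmul, Nat.choose_succ_succ', Nat.choose_one_right]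
    simp only [nsmul_eq_mul, Nat.cast_add, Nat.cast_one]
    ring

theorem map_pow_of_left_zero (hk : IsKappa φ ψ k) {c : G} (hφ : φ (ofMul c) = 0) (n : ℕ) :
    k (c ^ n) = n * k c := by
  rw [hk.map_pow, hφ]; ring

theorem map_pow_of_right_zero (hk : IsKappa φ ψ k) {c : G} (hψ : ψ (ofMul c) = 0) (n : ℕ) :
    k (c ^ n) = n * k c := by
  rw [hk.map_pow, hψ]; ring

theorem map_zpow_of_left_zero (hk : IsKappa φ ψ k) {c : G} (hφ : φ (ofMul c) = 0)
    (n : ℤ) : k (c ^ n) = n * k c := by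
  obtain ⟨m, rfl | rfl⟩ := Int.eq_nat_or_neg n
  · rw [zpow_natCast, hk.map_pow_of_left_zero hφ]; simp
  · rw [zpow_neg, zpow_natCast, hk.map_inv, hk.map_pow_of_left_zero hφ, ofMul_pow, map_nsmul, hφ]
    simp

/-- The difference of two kappas for the same pair is an additive character. -/
theorem sub_map_mul (h₁ : IsKappa φ ψ k₁) (h₂ : IsKappa φ ψ k₂) (g h : G) :
    k₁ (g * h) - k₂ (g * h) = (k₁ g - k₂ g) + (k₁ h - k₂ h) := by
  rw [h₁, h₂]; ring

/-- The difference of two kappas for the same pair, as an additive character. -/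
def subHom (h₁ : IsKappa φ ψ k₁) (h₂ : IsKappa φ ψ k₂) : Additive G →+ A where
  toFun g := k₁ (toMul g) - k₂ (toMul g)
  map_zero' := by
    show k₁ 1 - k₂ 1 = 0
    rw [h₁.map_one, h₂.map_one, sub_zero]
  map_add' g h := h₁.sub_map_mul h₂ (toMul g) (toMul h)

@[simp]
theorem subHom_apply (h₁ : IsKappa φ ψ k₁) (h₂ : IsKappa φ ψ k₂) (g : G) :
    h₁.subHom h₂ (ofMul g) = k₁ g - k₂ g := rfl

theorem exists_hom_sub (h₁ : IsKappa φ ψ k₁) (h₂ : IsKappa φ ψ k₂) :
    ∃ lam : Additive G →+ A, ∀ g, k₁ g = k₂ g + lam (ofMul g) :=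
  ⟨h₁.subHom h₂, fun g => by simp⟩

/-- Adding an additive character to a kappa gives a kappa. -/
theorem add_hom (hk : IsKappa φ ψ k) (lam : Additive G →+ A) :
    IsKappa φ ψ (fun g => k g + lam (ofMul g)) := by
  intro g h
  simp only [ofMul_mul, map_add, hk g h]
  ring

/-- An additive character is a kappa for `(0, ψ)`. -/
theorem of_hom_left (lam ψ : Additive G →+ A) :
    IsKappa (0 : Additive G →+ A) ψ (fun g => lam (ofMul g)) := by
  intro g h
  simp

/-- An additive character is a kappa for `(φ, 0)`. -/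
theorem of_hom_right (lam φ : Additive G →+ A) :
    IsKappa φ (0 : Additive G →+ A) (fun g => lam (ofMul g)) := by
  intro g h
  simp

theorem zero_left (ψ : Additive G →+ A) : IsKappa (0 : Additive G →+ A) ψ (0 : G → A) := by
  intro g h; simp

theorem zero_right (φ : Additive G →+ A) : IsKappa φ (0 : Additive G →+ A) (0 : G → A) := by
  intro g h; simp

theorem add_left (h₁ : IsKappa φ₁ ψ k₁) (h₂ : IsKappa φ₂ ψ k₂) :
    IsKappa (φ₁ + φ₂) ψ (k₁ + k₂) := by
  intro g h
  simp only [Pi.add_apply, AddMonoidHom.add_apply, h₁ g h, h₂ g h]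
  ring

theorem add_right (h₁ : IsKappa φ ψ₁ k₁) (h₂ : IsKappa φ ψ₂ k₂) :
    IsKappa φ (ψ₁ + ψ₂) (k₁ + k₂) := by
  intro g h
  simp only [Pi.add_apply, AddMonoidHom.add_apply, h₁ g h, h₂ g h]
  ring

theorem neg_left (hk : IsKappa φ ψ k) : IsKappa (-φ) ψ (-k) := by
  intro g h
  simp only [Pi.neg_apply, AddMonoidHom.neg_apply, hk g h]
  ring

theorem neg_right (hk : IsKappa φ ψ k) : IsKappa φ (-ψ) (-k) := by
  intro g h
  simp only [Pi.neg_apply, AddMonoidHom.neg_apply, hk g h]
  ring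

theorem sub_left (h₁ : IsKappa φ₁ ψ k₁) (h₂ : IsKappa φ₂ ψ k₂) :
    IsKappa (φ₁ - φ₂) ψ (k₁ - k₂) := by
  intro g h
  simp only [Pi.sub_apply, AddMonoidHom.sub_apply, h₁ g h, h₂ g h]
  ring

theorem sub_right (h₁ : IsKappa φ ψ₁ k₁) (h₂ : IsKappa φ ψ₂ k₂) :
    IsKappa φ (ψ₁ - ψ₂) (k₁ - k₂) := by
  intro g h
  simp only [Pi.sub_apply, AddMonoidHom.sub_apply, h₁ g h, h₂ g h]
  ring

theorem smul_left (hk : IsKappa φ ψ k) (a : A) : IsKappa (a • φ) ψ (a • k) := by
  intro g h
  simp only [Pi.smul_apply, AddMonoidHom.smul_apply, smul_eq_mul, hk g h]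
  ring

theorem smul_right (hk : IsKappa φ ψ k) (a : A) : IsKappa φ (a • ψ) (a • k) := by
  intro g h
  simp only [Pi.smul_apply, AddMonoidHom.smul_apply, smul_eq_mul, hk g h]
  ring

/-- Swapping the two characters: `k' = φ ψ - k`. -/
theorem swap (hk : IsKappa φ ψ k) :
    IsKappa ψ φ (fun g => φ (ofMul g) * ψ (ofMul g) - k g) := by
  intro g h
  simp only [ofMul_mul, map_add, hk g h]
  ring

/-- The standard kappa of a pair `(φ, φ)` when `2` is invertible. -/
theorem self [Invertible (2 : A)] (φ : Additive G →+ A) :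
    IsKappa φ φ (fun g => ⅟(2 : A) * φ (ofMul g) ^ 2) := by
  intro g h
  simp only [ofMul_mul, map_add]
  have h2 : (2 : A) * ⅟(2 : A) = 1 := mul_invOf_self 2
  linear_combination (φ (ofMul g) * φ (ofMul h)) * h2

/-- Pull-back of a kappa along a group homomorphism. -/
theorem comp {G' : Type*} [Group G'] (hk : IsKappa φ ψ k) (θ : G' →* G) :
    IsKappa (φ.comp (MonoidHom.toAdditive θ)) (ψ.comp (MonoidHom.toAdditive θ)) (k ∘ θ) := by
  intro g h
  have h1 : k (θ (g * h)) = k (θ g) + k (θ h) + φ (ofMul (θ g)) * ψ (ofMul (θ h)) := by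
    rw [_root_.map_mul, hk (θ g) (θ h)]
  exact h1

/-- Post-composition of a kappa with a ring homomorphism. -/
theorem map {B : Type*} [CommRing B] (hk : IsKappa φ ψ k) (f : A →+* B) :
    IsKappa (f.toAddMonoidHom.comp φ) (f.toAddMonoidHom.comp ψ) (f ∘ k) := by
  intro g h
  have h1 : f (k (g * h)) = f (k g) + f (k h) + f (φ (ofMul g)) * f (ψ (ofMul h)) := by
    rw [hk g h, map_add, map_add, _root_.map_mul]
  exact h1

end IsKappa

end Fermat.Agent.S41.Pairing
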