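import Mathlib
import Fermat.Agent.S41.Pairing.ModelLift

set_option autoImplicit false
set_option linter.unusedSectionVars false

/-!
# S41 / (P4) at the prime `2`: the radical of the model pairing modulo `2`

Same setting as `Model` / `ModelLift`: `X` a finite set, `σ` an involution, `τ` a permutation,
`⟨σ, τ⟩` transitive.  For integral `σ`-antisymmetric `u`, `u'` with `τ`-potentials `P`, `P'` the
model pairing is `- b2 τ P u' / 2` (an integer).  `Model.radical` determines its radical over a
field of characteristic `≠ 2`; here is the case of characteristic `2`.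

Modulo `2` the reductions of the integral `σ`-antisymmetric functions are exactly the functions
`c + c ∘ σ`, and for such a `u'` one has `b2 τ P u' / 2 ≡ ∑ₓ c x * (P (σ x) + P (τ⁻¹ x))`.

* `radical_two` : over `ZMod 2`, if `∑ₓ c x * (P (σ x) + P (τ⁻¹ x)) = 0` for every `c` such that
  `c + c ∘ σ` has a `τ`-potential, then `u = g ∘ σ + g` with `g` invariant under `τ ∘ σ`.
* `exists_coboundary_add_two` : integral form, the analogue of
  `ModelLift.exists_coboundary_add_mul` for `p = 2`: if `4 ∣ b2 τ P u'` for every integral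
  `σ`-antisymmetric `u'` with a potential, then `u = (g ∘ σ - g) + 2 u₁`.
-/

namespace Fermat.Agent.S41.Pairing.ModelTwo

open Finset Fermat.Agent.S41.Pairing.Model Fermat.Agent.S41.Pairing.ModelLift

variable {X : Type*} [Fintype X]

/-- **The radical of the model pairing in characteristic `2`.** -/
theorem radical_two {σ τ : Equiv.Perm X} {P u : X → ZMod 2}
    (h : IsPot τ P u)
    (hrad : ∀ c P' : X → ZMod 2, IsPot τ P' (fun x => c x + c (σ x)) →
      ∑ x, c x * (P (σ x) + P (τ.symm x)) = 0)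
    (hσ : ∀ x, σ (σ x) = x) :
    ∃ g : X → ZMod 2, (∀ x, g (τ (σ x)) = g x) ∧ ∀ x, u x = g (σ x) + g x := by
  classical
  -- Step 1: `M = P ∘ σ + P ∘ τ⁻¹` is `lam - lam ∘ σ` for a `τ`-invariant `lam`.
  have hmem : (fun x => P (σ x) + P (τ.symm x)) ∈ (invSub (F := ZMod 2) τ).map (antiMap σ) := by
    by_contra hnot
    obtain ⟨c, hc, hW⟩ := exists_sep _ hnot
    have hreidx : ∀ f : X → ZMod 2, ∑ x, f (σ x) * c x = ∑ x, f x * c (σ x) := by
      intro f
      rw [← Equiv.sum_comp σ (fun x => f x * c (σ x))]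
      refine Finset.sum_congr rfl fun x _ => ?_
      rw [hσ]
    have hworth : ∀ lam : X → ZMod 2, (∀ x, lam (τ x) = lam x) →
        ∑ x, (c x + c (σ x)) * lam x = 0 := by
      intro lam hlam
      have h0 := hW (antiMap σ lam) (Submodule.mem_map_of_mem hlam)
      have e' : ∑ x, antiMap σ lam x * c x = ∑ x, lam x * c x - ∑ x, lam (σ x) * c x := by
        rw [← Finset.sum_sub_distrib]
        refine Finset.sum_congr rfl fun x _ => ?_
        show (lam x - lam (σ x)) * c x = _
        ring
      rw [e', hreidx lam, ← Finset.sum_sub_distrib] at h0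
      rw [← h0]
      refine Finset.sum_congr rfl fun x _ => ?_
      have h2 : lam x * c (σ x) + lam x * c (σ x) = 0 := CharTwo.add_self_eq_zero _
      linear_combination h2
    obtain ⟨P', hP'⟩ := exists_pot_field τ (fun x => c x + c (σ x)) hworth
    apply hc
    have h0 := hrad c P' hP'
    rw [← h0]
    exact Finset.sum_congr rfl fun x _ => mul_comm _ _
  obtain ⟨lam, hlam, hlamM⟩ := hmem
  have hlam' : ∀ x, lam (τ x) = lam x := hlam
  have hlamsymm : ∀ x, lam (τ.symm x) = lam x := by
    intro x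
    have := hlam' (τ.symm x)
    rw [Equiv.apply_symm_apply] at this
    exact this.symm
  have hlamM' : ∀ x, lam x - lam (σ x) = P (σ x) + P (τ.symm x) := fun x => congrFun hlamM x
  -- Step 2: the corrected potential `Pt = P + lam` satisfies `Pt ∘ σ = Pt ∘ τ⁻¹`.
  have hstar : ∀ x, P (σ x) + lam (σ x) = P (τ.symm x) + lam (τ.symm x) := by
    intro x
    rw [hlamsymm]
    have h1 := hlamM' x
    have h3 : P (τ.symm x) + P (τ.symm x) = 0 := CharTwo.add_self_eq_zero _
    linear_combination (-1 : ZMod 2) * h1 - h3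
  refine ⟨fun x => P (σ x) + lam (σ x), ?_, ?_⟩
  · intro x
    show P (σ (τ (σ x))) + lam (σ (τ (σ x))) = P (σ x) + lam (σ x)
    have h1 := hstar (τ (σ x))
    rw [Equiv.symm_apply_apply] at h1
    exact h1
  · intro x
    show u x = (P (σ (σ x)) + lam (σ (σ x))) + (P (σ x) + lam (σ x))
    rw [hσ, hstar x, hlamsymm, ← h x]
    have h2 : lam x + lam x = 0 := CharTwo.add_self_eq_zero _
    have h3 : P (τ.symm x) + P (τ.symm x) = 0 := CharTwo.add_self_eq_zero _
    linear_combination (-1 : ZMod 2) * h2 - h3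

/-- **Nondegeneracy modulo `2`, integral form.**  Let `σ` be an involution with `⟨σ, τ⟩`
transitive.  If the `σ`-antisymmetric integral function `u` with potential `P` satisfies
`4 ∣ b2 τ P u'` (i.e. the pairing `- b2 / 2` is even) for every `σ`-antisymmetric integral `u'`
having a potential, then `u` is a coboundary `g ∘ σ - g` (`g` invariant under `τ ∘ σ`) plus `2`
times a `σ`-antisymmetric function. -/
theorem exists_coboundary_add_two {σ τ : Equiv.Perm X}
    (hσ : ∀ x, σ (σ x) = x)
    (htr : ∀ x y : X, ∃ g ∈ Subgroup.closure ({σ, τ} : Set (Equiv.Perm X)), g x = y)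
    {u P : X → ℤ} (hu : ∀ x, u (σ x) = - u x) (hP : IsPot τ P u)
    (hrad : ∀ u' P' : X → ℤ, (∀ x, u' (σ x) = - u' x) → IsPot τ P' u' → (4 : ℤ) ∣ b2 τ P u') :
    ∃ g u₁ : X → ℤ, (∀ x, g (τ (σ x)) = g x) ∧ (∀ x, u₁ (σ x) = - u₁ x) ∧
      ∀ x, u x = (g (σ x) - g x) + 2 * u₁ x := by
  classical
  choose L hL using (ZMod.intCast_surjective : Function.Surjective (Int.cast : ℤ → ZMod 2))
  have hPb : IsPot τ (fun x => ((P x : ℤ) : ZMod 2)) (fun x => ((u x : ℤ) : ZMod 2)) :=
    isPot_cast (n := 2) hP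
  have hsum : ∀ y, ((P y : ℤ) : ZMod 2) + ((P (τ.symm y) : ℤ) : ZMod 2) = ((u y : ℤ) : ZMod 2) := by
    intro y
    rw [← CharTwo.sub_eq_add, ← hP y, Int.cast_sub]
  have hradb : ∀ c Pb' : X → ZMod 2, IsPot τ Pb' (fun x => c x + c (σ x)) →
      ∑ x, c x * (((P (σ x) : ℤ) : ZMod 2) + ((P (τ.symm x) : ℤ) : ZMod 2)) = 0 := by
    intro c Pb' hPb'
    have hub : ∀ x, (fun x => c x + c (σ x)) (σ x) = - (fun x => c x + c (σ x)) x := by
      intro x
      show c (σ x) + c (σ (σ x)) = - (c x + c (σ x))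
      rw [hσ, CharTwo.neg_eq, add_comm]
    have hfix : ∀ x, σ x = x → (fun x => c x + c (σ x)) x = 0 := by
      intro x hx
      show c x + c (σ x) = 0
      rw [hx]
      exact CharTwo.add_self_eq_zero _
    obtain ⟨u', P', hu', hP', hu'b, -⟩ :=
      exists_lift_pot (n := 2) hσ htr (fun x => c x + c (σ x)) Pb' hub hfix hPb'
    have hu'b' : ∀ x, ((u' x : ℤ) : ZMod 2) = c x + c (σ x) := fun x => hu'b x
    have h4 := hrad u' P' hu' hP'
    -- an integral lift of `c`
    have hC : ∀ x, ((L (c x) : ℤ) : ZMod 2) = c x := fun x => hL _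
    have hd : ∀ x, (2 : ℤ) ∣ u' x - (L (c x) - L (c (σ x))) := by
      intro x
      have h0 : (((u' x - (L (c x) - L (c (σ x))) : ℤ)) : ZMod 2) = 0 := by
        rw [Int.cast_sub, Int.cast_sub, hu'b', hC, hC]
        have h2 : c (σ x) + c (σ x) = 0 := CharTwo.add_self_eq_zero _
        linear_combination h2
      have h1 := (ZMod.intCast_zmod_eq_zero_iff_dvd _ 2).mp h0
      exact_mod_cast h1
    choose E hE using hd
    have hEanti : ∀ x, E (σ x) = - E x := by
      intro x
      have h1 := hE x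
      have h2 := hE (σ x)
      rw [hσ, hu'] at h2
      omega
    -- the integral identity `b2 = 2 * (∑ C (P∘τ⁻¹ - P∘σ) + ∑ E (P + P∘τ⁻¹))`
    have hm : ∀ x, (P x + P (τ.symm x)) - (P (σ x) + P (τ.symm (σ x)))
        = 2 * (P (τ.symm x) - P (σ x)) := by
      intro x
      have h1 := hP x
      have h2 := hP (σ x)
      rw [hu] at h2
      linarith
    have hreidx : ∑ x, L (c (σ x)) * (P x + P (τ.symm x))
        = ∑ x, L (c x) * (P (σ x) + P (τ.symm (σ x))) := by
      rw [← Equiv.sum_comp σ (fun x => L (c x) * (P (σ x) + P (τ.symm (σ x))))]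
      refine Finset.sum_congr rfl fun x _ => ?_
      rw [hσ]
    have e1 : b2 τ P u' = ∑ x, L (c x) * (P x + P (τ.symm x))
        - ∑ x, L (c (σ x)) * (P x + P (τ.symm x)) + 2 * ∑ x, E x * (P x + P (τ.symm x)) := by
      unfold b2
      rw [Finset.mul_sum, ← Finset.sum_sub_distrib, ← Finset.sum_add_distrib]
      refine Finset.sum_congr rfl fun x _ => ?_
      have h1 := hE x
      linear_combination (P x + P (τ.symm x)) * h1
    have e2 : ∑ x, L (c x) * (P x + P (τ.symm x)) - ∑ x, L (c (σ x)) * (P x + P (τ.symm x))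
        = 2 * ∑ x, L (c x) * (P (τ.symm x) - P (σ x)) := by
      rw [hreidx, ← Finset.sum_sub_distrib, Finset.mul_sum]
      refine Finset.sum_congr rfl fun x _ => ?_
      have h1 := hm x
      linear_combination L (c x) * h1
    have h2A : (2 : ℤ) ∣ ∑ x, L (c x) * (P (τ.symm x) - P (σ x))
        + ∑ x, E x * (P x + P (τ.symm x)) := by
      rw [e1, e2] at h4
      obtain ⟨k, hk⟩ := h4
      exact ⟨k, by linarith⟩
    have hA0 : (((∑ x, L (c x) * (P (τ.symm x) - P (σ x))
        + ∑ x, E x * (P x + P (τ.symm x)) : ℤ)) : ZMod 2) = 0 :=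
      (ZMod.intCast_zmod_eq_zero_iff_dvd _ 2).mpr (by exact_mod_cast h2A)
    -- the `E`-part vanishes modulo `2` (sum over the orbits of the involution `σ`)
    have hEsum : ∑ x, ((E x : ℤ) : ZMod 2)
        * (((P x : ℤ) : ZMod 2) + ((P (τ.symm x) : ℤ) : ZMod 2)) = 0 := by
      refine Finset.sum_ninvolution σ ?_ ?_ (fun x => Finset.mem_univ _) hσ
      · intro x
        rw [hsum x, hsum (σ x), hEanti, hu, Int.cast_neg, Int.cast_neg, neg_mul_neg]
        exact CharTwo.add_self_eq_zero _
      · intro x hne hfix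
        apply hne
        have hux : u x = 0 := by
          have h1 := hu x
          rw [hfix] at h1
          omega
        rw [hsum x, hux, Int.cast_zero, mul_zero]
    have hfin : ∑ x, c x * (((P (τ.symm x) : ℤ) : ZMod 2) - ((P (σ x) : ℤ) : ZMod 2)) = 0 := by
      have h5 : ∑ x, ((L (c x) : ℤ) : ZMod 2)
            * (((P (τ.symm x) : ℤ) : ZMod 2) - ((P (σ x) : ℤ) : ZMod 2))
          + ∑ x, ((E x : ℤ) : ZMod 2)
            * (((P x : ℤ) : ZMod 2) + ((P (τ.symm x) : ℤ) : ZMod 2)) = 0 := by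
        have h6 := hA0
        push_cast at h6
        exact h6
      rw [hEsum, add_zero] at h5
      refine Eq.trans (Finset.sum_congr rfl fun x _ => ?_) h5
      rw [hC]
    refine Eq.trans (Finset.sum_congr rfl fun x _ => ?_) hfin
    rw [CharTwo.sub_eq_add]
    ring
  obtain ⟨gb, hgb, hugb⟩ := radical_two hPb hradb hσ
  have hugb' : ∀ x, ((u x : ℤ) : ZMod 2) = gb (σ x) + gb x := fun x => hugb x
  have hd : ∀ x, (2 : ℤ) ∣ u x - (L (gb (σ x)) - L (gb x)) := by
    intro x
    have h0 : (((u x - (L (gb (σ x)) - L (gb x)) : ℤ)) : ZMod 2) = 0 := by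
      rw [Int.cast_sub, Int.cast_sub, hL, hL, hugb' x]
      have h2 : gb x + gb x = 0 := CharTwo.add_self_eq_zero _
      linear_combination h2
    have h1 := (ZMod.intCast_zmod_eq_zero_iff_dvd _ 2).mp h0
    exact_mod_cast h1
  choose u₁ hu₁ using hd
  refine ⟨fun x => L (gb x), u₁, ?_, ?_, ?_⟩
  · intro x
    show L (gb (τ (σ x))) = L (gb x)
    rw [hgb]
  · intro x
    have h1 := hu₁ x
    have h3 := hu₁ (σ x)
    rw [hσ, hu] at h3
    omega
  · intro x
    have h1 := hu₁ x
    show u x = (L (gb (σ x)) - L (gb x)) + 2 * u₁ x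
    omega

end Fermat.Agent.S41.Pairing.ModelTwo
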