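import Mathlib
import Fermat.Agent.S41.Pairing.Nondeg
import Fermat.Agent.S41.Pairing.ModelTwo

set_option autoImplicit false
set_option linter.unusedSectionVars false

/-!
# S41 / (P4): nondegeneracy of the cusp pairing modulo `2`, over `ℤ`

The companion of `Nondeg.nondeg` (odd primes) for the prime `2`, for every finite-index
`Γ ≤ SL(2, ℤ)` with `-1 ∈ Γ` (elliptic elements of order `2` are allowed):

* `nondeg_two` : if a parabolic `φ : Γ → ℤ` pairs into `2ℤ` with every parabolic hom, then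
  `φ ∈ 2 · Hom_par(Γ, ℤ)`.

Proof: `2 * ∑ kappa = - b2` (`Nondeg.two_mul_sum_kappa`), so the hypothesis is `4 ∣ b2`, and
`ModelTwo.exists_coboundary_add_two` applies; the rest is the endgame of `Nondeg.nondeg`.
-/

open scoped MatrixGroups
open ModularGroup

namespace Fermat.Agent.S41.Pairing.NondegTwo

open Fermat.Agent.S16.ShimuraLift Fermat.Agent.S21.GroupBound Fermat.Agent.S41.Pairing.Model
open ModularCurve.Period
open Fermat.Agent.S41.Pairing.Nondeg
open MulAction Function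

variable {Γ : Subgroup SL(2, ℤ)}

variable [Fintype (SL(2, ℤ) ⧸ Γ)]
  [Fintype (Quotient (orbitRel (Subgroup.zpowers T) (SL(2, ℤ) ⧸ Γ)))]

/-- **Nondegeneracy modulo `2`.**  Let `φ : Γ → ℤ` be a parabolic homomorphism.  If for every
parabolic `ψ` some kappa of `(φ, ψ)` has even sum over the cusp family, then `φ = 2 • φ₁` with
`φ₁` parabolic. -/
theorem nondeg_two (hΓ : (-1 : SL(2, ℤ)) ∈ Γ)
    (φ : Additive Γ →+ ℤ) (hφ : IsParabolicHom Γ φ)
    (H : ∀ ψ : Additive Γ →+ ℤ, IsParabolicHom Γ ψ →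
      ∃ k : Γ → ℤ, Periph.IsKappaRel φ ψ k ∧ (2 : ℤ) ∣ ∑ q, k (cuspFam Γ q)) :
    ∃ φ₁ : Additive Γ →+ ℤ, IsParabolicHom Γ φ₁ ∧ φ = (2 : ℤ) • φ₁ := by
  have hpz : (2 : ℤ) ≠ 0 := by norm_num
  obtain ⟨u, hu, rfl⟩ := exists_homOf_eq hΓ φ
  obtain ⟨P, hP⟩ := exists_pot_of_parabolic hΓ u hu hφ
  have hσ : ∀ x : SL(2, ℤ) ⧸ Γ, (MulAction.toPerm S) ((MulAction.toPerm S) x) = x :=
    fun x => S_smul_S_smul hΓ x
  have hrad : ∀ u' P' : (SL(2, ℤ) ⧸ Γ) → ℤ, (∀ x, u' ((MulAction.toPerm S) x) = - u' x) →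
      IsPot (MulAction.toPerm T) P' u' → (4 : ℤ) ∣ b2 (MulAction.toPerm T) P u' := by
    intro u' P' hu' hP'
    have hψ := isParabolicHom_of_pot hΓ u' hu' P' hP'
    obtain ⟨k, hk, m, hm⟩ := H _ hψ
    have h2 := two_mul_sum_kappa hΓ u u' hu hu' P P' hP hP' k hk
    rw [hm] at h2
    exact ⟨-m, by linarith⟩
  obtain ⟨g, u₁, hg, hu₁, hdec⟩ := ModelTwo.exists_coboundary_add_two hσ
    exists_mem_closure_apply_eq (u := u) (P := P) hu hP hrad
  have hu₁ : ∀ x, u₁ (S • x) = - u₁ x := hu₁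
  have hdec : ∀ x, u x = g (S • x) - g x + 2 * u₁ x := hdec
  have hg : ∀ x, g (T • S • x) = g x := hg
  -- the coboundary part
  have hw : ∀ x, (fun x => g (S • x) - g x) (S • x) = -(fun x => g (S • x) - g x) x := by
    intro x
    show g (S • S • x) - g (S • x) = -(g (S • x) - g x)
    rw [S_smul_S_smul hΓ x]; ring
  have hgT : ∀ x, g (T • x) = g (S • x) := by
    intro x
    have h := hg (S • x)
    rwa [S_smul_S_smul hΓ x] at h
  have h0 : Wreath.homOf hΓ (fun x => g (S • x) - g x) hw = 0 := by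
    refine Wreath.homOf_eq_zero_of_coboundary hΓ _ hw (fun x => - g (S • x)) ?_ ?_
    · intro x
      show - g (S • (S * T) • x) = - g (S • x)
      rw [mul_smul, S_smul_S_smul hΓ, hgT]
    · intro x
      show g (S • x) - g x = - g (S • S • x) - - g (S • x)
      rw [S_smul_S_smul hΓ x]; ring
  have hpu₁ : ∀ x, ((2 : ℤ) • u₁) (S • x) = -((2 : ℤ) • u₁) x := by
    intro x
    show (2 : ℤ) • u₁ (S • x) = -((2 : ℤ) • u₁ x)
    rw [hu₁ x]; simp
  have hsum : u = (fun x => g (S • x) - g x) + (2 : ℤ) • u₁ := by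
    funext x
    show u x = (g (S • x) - g x) + (2 : ℤ) • u₁ x
    rw [hdec x]; simp
  subst hsum
  refine ⟨Wreath.homOf hΓ u₁ hu₁, ?_, ?_⟩
  · intro γ htr
    have h1 := hφ γ htr
    rw [Wreath.homOf_add hΓ _ _ hw hpu₁ hu, h0, zero_add, Wreath.homOf_smul hΓ u₁ hu₁ (2 : ℤ) hpu₁]
      at h1
    have h2 : (2 : ℤ) * Wreath.homOf hΓ u₁ hu₁ (Additive.ofMul γ) = 0 := by
      simpa using h1
    rcases mul_eq_zero.mp h2 with h3 | h3
    · exact absurd h3 hpz
    · exact h3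
  · rw [Wreath.homOf_add hΓ _ _ hw hpu₁ hu, h0, zero_add, Wreath.homOf_smul hΓ u₁ hu₁ (2 : ℤ) hpu₁]

end Fermat.Agent.S41.Pairing.NondegTwo
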