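import Mathlib
import Fermat.Agent.S41.Pairing.Heis
import Fermat.Agent.S41.Pairing.Nondeg
import Fermat.Agent.S41.Pairing.NondegTwo

set_option autoImplicit false
set_option linter.unusedSectionVars false

/-!
# S41 / (P4): parabolic lifts and mixed nondegeneracy of the cusp pairing modulo a prime

`Γ ≤ SL(2, ℤ)` of finite index with `-1 ∈ Γ`, `X = SL(2, ℤ) ⧸ Γ`.  A homomorphism
`c : Γ → ℤ/n` is called *special-trivial* here if it kills every `γ ∈ Γ` with `tr(γ)² ≤ 4`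
(i.e. `±1`, the parabolic and the elliptic elements).

* `exists_pot_of_par` : over any commutative ring, if `Wreath.homOf u` is parabolic then `u` has
  a potential along `T` (the ring-generic form of `Nondeg.exists_pot_of_parabolic`).
* `exists_parabolic_lift` : every special-trivial `c : Γ → ℤ/n` (`n ≠ 0`) is the reduction of a
  parabolic homomorphism `Γ → ℤ`.
* `kappa_eq_zero_of_isOfFinOrder` : an integral kappa vanishes on the torsion elements.
* `mixed_nondeg_int`, `mixed_nondeg` : for a prime `p` and a nonzero special-trivial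
  `c : Γ → ℤ/p` there is a parabolic `ψ : Γ → ℤ` such that the cusp sum of a kappa of
  `(c, ψ mod p)` is nonzero in `ℤ/p`.
-/

open scoped MatrixGroups
open ModularGroup

namespace Fermat.Agent.S41.Pairing.MixedNondeg

open Fermat.Agent.S16.ShimuraLift Fermat.Agent.S21.GroupBound Fermat.Agent.S41.Pairing.Model
open ModularCurve.Period
open Fermat.Agent.S41.Pairing.Nondeg
open MulAction Function

variable {Γ : Subgroup SL(2, ℤ)}

/-- `Wreath.homOf` only depends on the function. -/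
theorem homOf_congr {A : Type*} [CommRing A] (hΓ : (-1 : SL(2, ℤ)) ∈ Γ)
    {u u' : (SL(2, ℤ) ⧸ Γ) → A} (h : u = u') (hu : ∀ x, u (S • x) = -u x)
    (hu' : ∀ x, u' (S • x) = -u' x) : Wreath.homOf hΓ u hu = Wreath.homOf hΓ u' hu' := by
  subst h
  rfl

/-- An integral kappa vanishes on the elements of finite order. -/
theorem kappa_eq_zero_of_isOfFinOrder {φ ψ : Additive Γ →+ ℤ} {k : Γ → ℤ}
    (hk : Periph.IsKappaRel φ ψ k) {γ : Γ} (hγ : IsOfFinOrder γ) : k γ = 0 := by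
  obtain ⟨m, hm, hγm⟩ := isOfFinOrder_iff_pow_eq_one.mp hγ
  have hk' : IsKappa φ ψ k := hk
  have hm0 : (m : ℤ) ≠ 0 := by exact_mod_cast hm.ne'
  have hφγ : φ (Additive.ofMul γ) = 0 := by
    have h1 : m • φ (Additive.ofMul γ) = 0 := by
      rw [← map_nsmul, ← ofMul_pow, hγm, ofMul_one, map_zero]
    rw [nsmul_eq_mul] at h1
    rcases mul_eq_zero.mp h1 with h3 | h3
    · exact absurd h3 hm0
    · exact h3
  have h2 := hk'.map_pow_of_left_zero hφγ m
  rw [hγm, hk'.map_one] at h2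
  rcases mul_eq_zero.mp h2.symm with h3 | h3
  · exact absurd h3 hm0
  · exact h3

section Lift

variable [Fintype (SL(2, ℤ) ⧸ Γ)]

/-- If `homOf u` is parabolic then `u` has a potential along `T` (any commutative ring). -/
theorem exists_pot_of_par {A : Type*} [CommRing A] (hΓ : (-1 : SL(2, ℤ)) ∈ Γ)
    (u : (SL(2, ℤ) ⧸ Γ) → A) (hu : ∀ x, u (S • x) = -u x)
    (hpar : IsParabolicHom Γ (Wreath.homOf hΓ u hu)) :
    ∃ P : (SL(2, ℤ) ⧸ Γ) → A, IsPot (MulAction.toPerm T) P u := by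
  have hc := Wreath.isCoc_modCoc hΓ u hu
  have h0 : ∀ (y : SL(2, ℤ) ⧸ Γ) (m : ℤ), T ^ m • y = y →
      Wreath.modCoc hΓ u hu (T ^ m) y = 0 := by
    intro y m hy
    rw [← Wreath.isCoc_conj_out hc hy]
    have hcoe : ((delta Γ (T ^ m) y : Γ) : SL(2, ℤ)) = y.out⁻¹ * T ^ m * y.out :=
      coe_delta_of_fixed hy
    rw [← hcoe]
    refine hpar (delta Γ (T ^ m) y) ?_
    rw [hcoe, trace_conj, ModularGroup.coe_T_zpow, Matrix.trace_fin_two_of]
    norm_num
  obtain ⟨P0, hP0⟩ := exists_pot_of_fixed hc T h0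
  refine ⟨-P0, fun z => ?_⟩
  have h := hP0 (T⁻¹ • z)
  rw [smul_inv_smul, Wreath.modCoc_T, smul_inv_smul] at h
  show (-P0) z - (-P0) ((MulAction.toPerm T).symm z) = u z
  rw [MulAction.toPerm_symm_apply]
  simp only [Pi.neg_apply]
  linear_combination h

/-- **Parabolic lift.**  A homomorphism `c : Γ → ℤ/n` (`n ≠ 0`) that kills `±1`, the parabolic
and the elliptic elements (`tr² ≤ 4`) is the reduction modulo `n` of a parabolic homomorphism
`Γ → ℤ`. -/
theorem exists_parabolic_lift (hΓ : (-1 : SL(2, ℤ)) ∈ Γ) {n : ℕ} [NeZero n]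
    (c : Additive Γ →+ ZMod n)
    (hc : ∀ γ : Γ, ((γ : SL(2, ℤ)) : Matrix (Fin 2) (Fin 2) ℤ).trace ^ 2 ≤ 4 →
      c (Additive.ofMul γ) = 0) :
    ∃ φ : Additive Γ →+ ℤ, IsParabolicHom Γ φ ∧
      ∀ γ : Γ, ((φ (Additive.ofMul γ) : ℤ) : ZMod n) = c (Additive.ofMul γ) := by
  have htors : ∀ γ : Γ, IsSpecial (γ : SL(2, ℤ)) → c (Additive.ofMul γ) = 0 := by
    intro γ hγ
    refine hc γ ?_
    rcases hγ with h | h | h
    · rw [h]
    · rw [h]; norm_num
    · rw [h]; norm_num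
  -- an integral (not yet parabolic) lift, in model form
  obtain ⟨c1, hc1, -, -, h1⟩ := exists_coc_lift c hΓ htors
  obtain ⟨u1, hu1, hφ1⟩ := exists_homOf_eq hΓ (homOfCoc c1 hc1)
  obtain ⟨ub, hubdef⟩ : ∃ ub : (SL(2, ℤ) ⧸ Γ) → ZMod n,
      ub = fun y => Int.castRingHom (ZMod n) (u1 y) := ⟨_, rfl⟩
  have hub : ∀ x, ub (S • x) = -ub x := by
    intro x
    rw [hubdef]
    show Int.castRingHom (ZMod n) (u1 (S • x)) = -Int.castRingHom (ZMod n) (u1 x)
    rw [hu1 x, map_neg]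
  have hcb : ∀ γ : Γ, Wreath.homOf hΓ ub hub (Additive.ofMul γ) = c (Additive.ofMul γ) := by
    intro γ
    subst hubdef
    have h := Wreath.homOf_map hΓ u1 hu1 (Int.castRingHom (ZMod n)) hub γ
    rw [hφ1, homOfCoc_apply] at h
    have h2 : ((c1 (γ : SL(2, ℤ)) (x0 Γ) : ℤ) : ZMod n) = c (Additive.ofMul γ) :=
      (h1 _ _).trans (shap_x0_of_mem c γ)
    exact h.trans h2
  -- the reduction has a potential along `T`
  have hparb : IsParabolicHom Γ (Wreath.homOf hΓ ub hub) := by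
    intro γ htr
    rw [hcb]
    exact hc γ (le_of_eq htr)
  obtain ⟨Pb, hPb⟩ := exists_pot_of_par hΓ ub hub hparb
  -- and vanishes at the fixed points of `S`
  have hfix : ∀ x : SL(2, ℤ) ⧸ Γ, (MulAction.toPerm S) x = x → ub x = 0 := by
    intro x hx
    have hx' : S • x = x := hx
    have e1 := Wreath.isCoc_conj_out (Wreath.isCoc_modCoc hΓ ub hub) hx'
    rw [Wreath.modCoc_S] at e1
    rw [← e1]
    have hcoe : ((delta Γ S x : Γ) : SL(2, ℤ)) = x.out⁻¹ * S * x.out := coe_delta_of_fixed hx'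
    rw [← hcoe, ← Wreath.homOf_apply, hcb]
    refine hc _ ?_
    rw [hcoe, trace_conj, coe_S]
    decide
  have : Fintype (Quotient (orbitRel (Subgroup.zpowers T) (SL(2, ℤ) ⧸ Γ))) :=
    Fintype.ofFinite _
  have hσ : ∀ x : SL(2, ℤ) ⧸ Γ, (MulAction.toPerm S) ((MulAction.toPerm S) x) = x :=
    fun x => S_smul_S_smul hΓ x
  obtain ⟨u, P, hu, hP, huu, -⟩ := ModelLift.exists_lift_pot hσ
    exists_mem_closure_apply_eq ub Pb hub hfix hPb
  have hu' : ∀ x, u (S • x) = - u x := hu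
  refine ⟨Wreath.homOf hΓ u hu', isParabolicHom_of_pot hΓ u hu' P hP, fun γ => ?_⟩
  have hfu : ∀ x, (fun y => Int.castRingHom (ZMod n) (u y)) (S • x)
      = -(fun y => Int.castRingHom (ZMod n) (u y)) x := by
    intro x
    show Int.castRingHom (ZMod n) (u (S • x)) = -Int.castRingHom (ZMod n) (u x)
    rw [hu' x, map_neg]
  have h := Wreath.homOf_map hΓ u hu' (Int.castRingHom (ZMod n)) hfu γ
  have hfun : (fun y => Int.castRingHom (ZMod n) (u y)) = ub := funext fun y => huu y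
  have h3 := DFunLike.congr_fun (homOf_congr hΓ hfun hfu hub) (Additive.ofMul γ)
  exact h.symm.trans (h3.trans (hcb γ))

end Lift

section Mixed

variable [Fintype (SL(2, ℤ) ⧸ Γ)]
  [Fintype (Quotient (orbitRel (Subgroup.zpowers T) (SL(2, ℤ) ⧸ Γ)))]

/-- **Mixed nondegeneracy, integral form.**  Let `p` be a prime and `c : Γ → ℤ/p` a nonzero
homomorphism killing `±1`, the parabolic and the elliptic elements.  Then there are parabolic
homomorphisms `φ ψ : Γ → ℤ` with `φ ≡ c` modulo `p` such that NO kappa of `(φ, ψ)` has its sum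
over the cusp family divisible by `p`. -/
theorem mixed_nondeg_int (hΓ : (-1 : SL(2, ℤ)) ∈ Γ) {p : ℕ} [Fact p.Prime]
    (c : Additive Γ →+ ZMod p)
    (hc : ∀ γ : Γ, ((γ : SL(2, ℤ)) : Matrix (Fin 2) (Fin 2) ℤ).trace ^ 2 ≤ 4 →
      c (Additive.ofMul γ) = 0)
    (hc0 : c ≠ 0) :
    ∃ φ ψ : Additive Γ →+ ℤ, IsParabolicHom Γ φ ∧ IsParabolicHom Γ ψ ∧
      (∀ γ : Γ, ((φ (Additive.ofMul γ) : ℤ) : ZMod p) = c (Additive.ofMul γ)) ∧
      ∀ k : Γ → ℤ, Periph.IsKappaRel φ ψ k → ¬ (p : ℤ) ∣ ∑ q, k (cuspFam Γ q) := by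
  have hp : p.Prime := Fact.out
  have : NeZero p := ⟨hp.ne_zero⟩
  obtain ⟨φ, hφ, hφc⟩ := exists_parabolic_lift hΓ c hc
  by_contra hcon
  have H : ∀ ψ : Additive Γ →+ ℤ, IsParabolicHom Γ ψ →
      ∃ k : Γ → ℤ, Periph.IsKappaRel φ ψ k ∧ (p : ℤ) ∣ ∑ q, k (cuspFam Γ q) := by
    intro ψ hψ
    by_contra hno
    exact hcon ⟨φ, ψ, hφ, hψ, hφc, fun k hk hd => hno ⟨k, hk, hd⟩⟩
  have hz : ∀ γ : Γ, (p : ℤ) ∣ φ (Additive.ofMul γ) := by
    rcases eq_or_ne p 2 with hp2 | hp2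
    · obtain ⟨φ₁, -, hφ₁⟩ := NondegTwo.nondeg_two hΓ φ hφ (fun ψ hψ => by
        obtain ⟨k, hk, hd⟩ := H ψ hψ
        refine ⟨k, hk, ?_⟩
        rw [hp2] at hd
        exact_mod_cast hd)
      intro γ
      refine ⟨φ₁ (Additive.ofMul γ), ?_⟩
      rw [hφ₁, hp2]
      simp
    · obtain ⟨φ₁, -, hφ₁⟩ := nondeg hΓ hp2 φ hφ H
      intro γ
      refine ⟨φ₁ (Additive.ofMul γ), ?_⟩
      rw [hφ₁]
      simp
  apply hc0
  refine AddMonoidHom.ext fun γ => ?_
  have h := hφc (Additive.toMul γ)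
  have h0 := (ZMod.intCast_zmod_eq_zero_iff_dvd _ p).mpr (hz (Additive.toMul γ))
  rw [h] at h0
  exact h0

/-- **Mixed nondegeneracy modulo a prime** (`N1`).  Let `p` be a prime and `c : Γ → ℤ/p` a nonzero
homomorphism killing `±1`, the parabolic and the elliptic elements.  Then there are a parabolic
homomorphism `ψ : Γ → ℤ` and a `ℤ/p`-valued kappa `k` of the pair `(c, ψ mod p)`, vanishing on
the torsion elements of `Γ`, whose sum over the cusp family is nonzero. -/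
theorem mixed_nondeg (hΓ : (-1 : SL(2, ℤ)) ∈ Γ) {p : ℕ} [Fact p.Prime]
    (c : Additive Γ →+ ZMod p)
    (hc : ∀ γ : Γ, ((γ : SL(2, ℤ)) : Matrix (Fin 2) (Fin 2) ℤ).trace ^ 2 ≤ 4 →
      c (Additive.ofMul γ) = 0)
    (hc0 : c ≠ 0) :
    ∃ ψ : Additive Γ →+ ℤ, IsParabolicHom Γ ψ ∧ ∃ k : Γ → ZMod p,
      Periph.IsKappaRel c ((Int.castAddHom (ZMod p)).comp ψ) k ∧
      (∀ γ : Γ, IsOfFinOrder γ → k γ = 0) ∧
      ∑ q, k (cuspFam Γ q) ≠ 0 := by
  have hp : p.Prime := Fact.out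
  have : NeZero p := ⟨hp.ne_zero⟩
  obtain ⟨φ, ψ, -, hψ, hφc, hnd⟩ := mixed_nondeg_int hΓ c hc hc0
  obtain ⟨k, hk⟩ := exists_kappa_int hΓ φ ψ
  refine ⟨ψ, hψ, fun γ => ((k γ : ℤ) : ZMod p), ?_, ?_, ?_⟩
  · intro g h
    show ((k (g * h) : ℤ) : ZMod p) = ((k g : ℤ) : ZMod p) + ((k h : ℤ) : ZMod p)
      + c (Additive.ofMul g) * ((Int.castAddHom (ZMod p)).comp ψ) (Additive.ofMul h)
    rw [hk g h, ← hφc g]
    simp only [Int.cast_add, Int.cast_mul, AddMonoidHom.coe_comp, Function.comp_apply,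
      Int.coe_castAddHom]
  · intro γ hγ
    show ((k γ : ℤ) : ZMod p) = 0
    rw [kappa_eq_zero_of_isOfFinOrder hk hγ, Int.cast_zero]
  · intro hsum
    apply hnd k hk
    rw [← ZMod.intCast_zmod_eq_zero_iff_dvd, Int.cast_sum]
    exact hsum

end Mixed

end Fermat.Agent.S41.Pairing.MixedNondeg
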